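/-
Programme TW (S56), brick B5 (FLAT local bound at `p`).  INTERFACE of the sub-programme (helper47).

Plan: report id 325 (stmt S56, kind masterplan).  This file fixes the LOCAL MODEL and the statement
shapes exchanged between the bricks

  (H)  convolution lifting lemma  ⇒  Fontaine's property `(P_m)`            -> `FontainePm`
  (R)  `(P_m)` for all `m > p/(p-1)`  ⇒  bound on the breaks                (abstract DVR model, own files)
  (K)  Kummer levels over `F' = K₀(ϖ)`                                      -> `KummerLevel`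
  (CE) three point-level facts on `Red⁰`                                    -> `StatementF1/F2/RL`
  (BR) bridge global ↔ local                                                -> `Bridge`
  (CT) the count                                                            -> `LocalFlatInertialLine`

and the final output `FlatInertialLine` consumed by pillar (S).

Local model: `K̄ = PadicAlgCl p` with its norm (`‖p‖ = p⁻¹`), `G_p = Gal(K̄/ℚ_p)`,
fields = `IntermediateField ℚ_[p] K̄`, base ring of the Hopf algebras = `ℤ_(p) = GaloisRep.ratLocalizedAt p`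
(as in the frozen `IsFlatAt`; it maps to `K̄` through `ℚ`), so that no base change of Hopf algebras is needed.
Everything here is definitions and statements (`Prop`s); no proofs are required from this file.
-/
import Mathlib
import Fermat.Prelude.Def_GaloisRep_Flat
import Fermat.Prelude.Def_GaloisRep_CompletionBridge
import Fermat.Agent.TW.Interface

set_option autoImplicit false

open Polynomial IsLocalRing

namespace Fermat.Agent.TW.B5.Iface

open Fermat.Agent.TW.Interface

variable (p : ℕ) [Fact p.Prime]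

/-- `K̄`, the fixed algebraic closure of `ℚ_p`, a normed field. -/
abbrev Kbar : Type := PadicAlgCl p

/-- `G_p = Gal(K̄/ℚ_p)`. -/
abbrev Gp : Type := PadicAlgCl p ≃ₐ[ℚ_[p]] PadicAlgCl p

/-- `ℤ_(p)`, the base ring of the Hopf algebras (as in the frozen definition of flatness). -/
abbrev Zloc : Type := ↥(GaloisRep.ratLocalizedAt p)

/-- The inertia condition on `τ ∈ G_p`: trivial action on the residue field of `K̄`. -/
def IsInertial (τ : Gp p) : Prop := ∀ x : Kbar p, ‖x‖ ≤ 1 → ‖τ x - x‖ < 1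

/-- `τ` acts on `μ_p` through the exponent `a` (the mod-`p` cyclotomic character of `τ` is `a`). -/
def ActsOnMuP (τ : Gp p) (a : ℕ) : Prop := ∀ ζ : Kbar p, ζ ^ p = 1 → τ ζ = ζ ^ a

/-! ### Fields, rings of integers, unramified fields, property `(P_m)` -/

/-- The ring of integers of an intermediate field, as a subring of `K̄`. -/
def intSubring (E : IntermediateField ℚ_[p] (Kbar p)) : Subring (Kbar p) where
  carrier := {x | x ∈ E ∧ ‖x‖ ≤ 1}
  mul_mem' := fun {a b} ha hb => ⟨E.mul_mem ha.1 hb.1, by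
    rw [norm_mul]; exact mul_le_one₀ ha.2 (norm_nonneg _) hb.2⟩
  one_mem' := ⟨E.one_mem, by simp⟩
  add_mem' := fun {a b} ha hb => ⟨E.add_mem ha.1 hb.1,
    (PadicAlgCl.isNonarchimedean p a b).trans (max_le ha.2 hb.2)⟩
  zero_mem' := ⟨E.zero_mem, by simp⟩
  neg_mem' := fun {a} ha => ⟨E.neg_mem ha.1, by rw [norm_neg]; exact ha.2⟩

/-- `E/ℚ_p` is unramified: the value group of `E` is that of `ℚ_p`. -/
def IsUnramifiedField (E : IntermediateField ℚ_[p] (Kbar p)) : Prop :=
  ∀ x ∈ E, x ≠ 0 → ∃ n : ℤ, ‖x‖ = (p : ℝ) ^ n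

/-- `L` is stable under the automorphisms of `K̄` fixing `K₀` (i.e. `L/K₀` is normal). -/
def IsNormalOver (K₀ L : IntermediateField ℚ_[p] (Kbar p)) : Prop :=
  ∀ τ : Gp p, (∀ x ∈ K₀, τ x = x) → ∀ y ∈ L, τ y ∈ L

/-- **Fontaine's property `(P_m)` for all `m > p/(p-1)`**, for `K₀ ⊆ L` with `K₀/ℚ_p` unramified
(so that `p` is a uniformiser of `𝒪_{K₀}` and `e(C/𝒪_{K₀}) = v_C(p) = e`).
Test rings: every discrete valuation ring `C`, finite and torsion-free over `𝒪_{K₀}`.
A ring map `𝒪_L → C/𝔪_C^N` over `𝒪_{K₀}` with `N > p e/(p-1)` forces a ring map `𝒪_L → C` over `𝒪_{K₀}`. -/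
def FontainePm (K₀ L : IntermediateField ℚ_[p] (Kbar p)) : Prop :=
  ∀ (C : Type) [CommRing C] [IsDomain C] [IsDiscreteValuationRing C]
    [Algebra (intSubring p K₀) C] [Module.Finite (intSubring p K₀) C]
    [NoZeroSMulDivisors (intSubring p K₀) C] (N e : ℕ),
    Ideal.span {(p : C)} = maximalIdeal C ^ e → p * e < (p - 1) * N →
    ∀ η : intSubring p L →+* C ⧸ maximalIdeal C ^ N,
      (∀ (a : intSubring p K₀) (ha : (a : Kbar p) ∈ intSubring p L),
        η ⟨a, ha⟩ = Ideal.Quotient.mk _ (algebraMap (intSubring p K₀) C a)) →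
      ∃ ι : intSubring p L →+* C,
        ∀ (a : intSubring p K₀) (ha : (a : Kbar p) ∈ intSubring p L),
          ι ⟨a, ha⟩ = algebraMap (intSubring p K₀) C a

/-! ### Flat local modules and `Red⁰` -/

/-- A finite `G_p`-module (additive group with an action by functions) is *flat*: it is, equivariantly,
the group of `K̄`-points of a finite flat cocommutative Hopf algebra over `ℤ_(p)`. -/
def IsFlatLocalModule (X : Type) [AddCommGroup X] (act : Gp p → X → X) : Prop :=
  ∃ (H : Type) (_ : CommRing H) (_ : HopfAlgebra (Zloc p) H),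
    Module.Finite (Zloc p) H ∧ Module.Flat (Zloc p) H ∧ Coalgebra.IsCocomm (Zloc p) H ∧
    ∃ e : WithConv (H →ₐ[Zloc p] Kbar p) ≃ X,
      (∀ f g : WithConv (H →ₐ[Zloc p] Kbar p), e (f * g) = e f + e g) ∧
      ∀ (τ : Gp p) (f g : WithConv (H →ₐ[Zloc p] Kbar p)),
        (∀ h : H, g h = τ (f h)) → e g = act τ (e f)

section Points

variable {p} (H : Type) [CommRing H] [HopfAlgebra (Zloc p) H]

/-- The points of `H` in `K̄`, a group under convolution. -/
abbrev Pts : Type := WithConv (H →ₐ[Zloc p] Kbar p)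

/-- `g = τ ∘ f`: the Galois action on points, as a relation. -/
def IsGalConj (τ : Gp p) (f g : Pts (p := p) H) : Prop := ∀ h : H, g h = τ (f h)

/-- `Red⁰`: the points reducing to the identity (the counit) modulo the maximal ideal of `𝒪_{K̄}`. -/
def red0 : Set (Pts (p := p) H) :=
  {f | ∀ h : H, ‖f h - algebraMap (Zloc p) (Kbar p) (Coalgebra.counit h)‖ < 1}

end Points

/-- **(CE) F1.**  An inertia-invariant point of `Red⁰` is trivial (`p` odd, `V` killed by `p`). -/
def StatementF1 : Prop :=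
  p ≠ 2 → ∀ (H : Type) [CommRing H] [HopfAlgebra (Zloc p) H] [Module.Finite (Zloc p) H]
    [Module.Flat (Zloc p) H] [Coalgebra.IsCocomm (Zloc p) H],
    (∀ f : Pts (p := p) H, f ^ p = 1) →
    ∀ f ∈ red0 (p := p) H, (∀ τ : Gp p, IsInertial p τ → IsGalConj H τ f f) → f = 1

/-- **(CE) F2.**  `N ⊆ M` inertia-stable subgroups of the points with trivial inertia action on `M/N`:
then `Red⁰ ∩ M ⊆ N`. -/
def StatementF2 : Prop :=
  p ≠ 2 → ∀ (H : Type) [CommRing H] [HopfAlgebra (Zloc p) H] [Module.Finite (Zloc p) H]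
    [Module.Flat (Zloc p) H] [Coalgebra.IsCocomm (Zloc p) H],
    (∀ f : Pts (p := p) H, f ^ p = 1) →
    ∀ M N : Set (Pts (p := p) H),
      (1 ∈ N) → (∀ f ∈ N, ∀ g ∈ N, f * g ∈ N) → (1 ∈ M) → (∀ f ∈ M, ∀ g ∈ M, f * g ∈ M) → N ⊆ M →
      (∀ τ : Gp p, IsInertial p τ → ∀ f ∈ N, ∀ g, IsGalConj H τ f g → g ∈ N) →
      (∀ τ : Gp p, IsInertial p τ → ∀ f ∈ M, ∀ g, IsGalConj H τ f g → ∃ n ∈ N, g = f * n) →
      ∀ f ∈ M, f ∈ red0 (p := p) H → f ∈ N

/-- **(CE) RL (Raynaud-lite).**  A non-trivial point of `Red⁰` which is an eigenvector of inertia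
(`τ f = f ^ a τ`) has eigencharacter the mod-`p` cyclotomic character. -/
def StatementRL : Prop :=
  p ≠ 2 → ∀ (H : Type) [CommRing H] [HopfAlgebra (Zloc p) H] [Module.Finite (Zloc p) H]
    [Module.Flat (Zloc p) H] [Coalgebra.IsCocomm (Zloc p) H],
    (∀ f : Pts (p := p) H, f ^ p = 1) →
    ∀ f ∈ red0 (p := p) H, f ≠ 1 → ∀ a : Gp p → ℕ,
      (∀ τ : Gp p, IsInertial p τ → IsGalConj H τ f (f ^ a τ)) →
      ∀ τ : Gp p, IsInertial p τ → ActsOnMuP p τ (a τ)

/-- **(H) output.**  The field generated over `K₀` (unramified) by the coordinates of all points of a finite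
flat `p`-torsion Hopf algebra has `(P_m)` for all `m > p/(p-1)`. -/
def StatementPm : Prop :=
  p ≠ 2 → ∀ (H : Type) [CommRing H] [HopfAlgebra (Zloc p) H] [Module.Finite (Zloc p) H]
    [Module.Flat (Zloc p) H] [Coalgebra.IsCocomm (Zloc p) H],
    (∀ f : Pts (p := p) H, f ^ p = 1) →
    ∀ K₀ L : IntermediateField ℚ_[p] (Kbar p), FiniteDimensional ℚ_[p] K₀ → IsUnramifiedField p K₀ →
      L = K₀ ⊔ IntermediateField.adjoin ℚ_[p] {y | ∃ (f : Pts (p := p) H) (h : H), y = f h} →
      FontainePm p K₀ L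

/-- `(P_m)` is stable under adjoining a tame radical `ϖ`, `ϖ ^ e = -p`, `p ∤ e`. -/
def StatementPmTame : Prop :=
  ∀ (K₀ L : IntermediateField ℚ_[p] (Kbar p)) (e : ℕ) (ϖ : Kbar p), ¬ p ∣ e → ϖ ^ e = -(p : Kbar p) →
    FiniteDimensional ℚ_[p] K₀ → IsUnramifiedField p K₀ → K₀ ≤ L → IsNormalOver p K₀ L →
    FontainePm p K₀ L → FontainePm p K₀ (L ⊔ IntermediateField.adjoin ℚ_[p] {ϖ})

/-- **(K)+(R) output: the Kummer level bound.**  `K₀` finite unramified, `F' = K₀(ϖ)`, `ϖ ^ e = -p`,
`(p-1) ∣ e`, `p ∤ e` (so `ζ_p ∈ F'`), `L ⊇ F'` finite, normal over `K₀`, with `(P_m)`.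
If `a ∈ F'ˣ` has a `p`-th root in `L`, then `a ∈ (1 + p 𝒪_{F'}) · F'ˣᵖ`. -/
def KummerLevel : Prop :=
  p ≠ 2 → ∀ (K₀ F' L : IntermediateField ℚ_[p] (Kbar p)) (e : ℕ) (ϖ : Kbar p),
    FiniteDimensional ℚ_[p] K₀ → IsUnramifiedField p K₀ →
    (p - 1) ∣ e → ¬ p ∣ e → ϖ ^ e = -(p : Kbar p) →
    F' = K₀ ⊔ IntermediateField.adjoin ℚ_[p] {ϖ} → F' ≤ L → FiniteDimensional ℚ_[p] L →
    IsNormalOver p K₀ L → FontainePm p K₀ L →
    ∀ a ∈ F', a ≠ 0 → (∃ α ∈ L, α ^ p = a) →
      ∃ b ∈ F', b ≠ 0 ∧ ‖a * b ^ p - 1‖ ≤ ‖(p : Kbar p)‖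

/-! ### Local cocycles and the local target -/

section LocalCocycles

variable {p} {k : Type} [Field k] {V : Type} [AddCommGroup V] [Module k V]
  (r : Gp p →* Module.End k V)

/-- Conjugation action of `G_p` on `End_k(V)`. -/
noncomputable def lconj (τ : Gp p) (X : Module.End k V) : Module.End k V := r τ * X * r τ⁻¹

/-- Continuous trace-zero 1-cocycle of `G_p` in `ad r`, as a plain function. -/
structure IsLocCocycle (c : Gp p → Module.End k V) : Prop where
  map_mul : ∀ σ τ : Gp p, c (σ * τ) = c σ + lconj r σ (c τ)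
  trace_eq_zero : ∀ σ : Gp p, LinearMap.trace k V (c σ) = 0
  level : ∃ F : IntermediateField ℚ_[p] (Kbar p), FiniteDimensional ℚ_[p] F ∧
    ∀ σ τ : Gp p, (∀ x ∈ F, τ x = x) → c (σ * τ) = c σ

/-- The action of `G_p` on `V[ε] = V × V` attached to a cocycle. -/
noncomputable def lliftAct (c : Gp p → Module.End k V) (τ : Gp p) : V × V → V × V :=
  fun x => (r τ x.1, r τ x.2 + c τ (r τ x.1))

end LocalCocycles

/-- **(CT) output, local form of the flat inertial line** (two-cocycle form: any flat class whose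
restriction to inertia is non-trivial spans the inertial image of all flat classes). -/
def LocalFlatInertialLine : Prop :=
  p ≠ 2 → ∀ (k : Type) [Field k] [Finite k] [CharP k p] (V : Type) [AddCommGroup V] [Module k V]
    [Module.Finite k V], Module.finrank k V = 2 → ∀ r : Gp p →* Module.End k V,
    (∃ F : IntermediateField ℚ_[p] (Kbar p), FiniteDimensional ℚ_[p] F ∧
      ∀ τ : Gp p, (∀ x ∈ F, τ x = x) → r τ = 1) →
    (∀ (τ : Gp p) (a : ℕ), ActsOnMuP p τ a → LinearMap.det (r τ) = (a : k)) →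
    (∀ τ : Gp p, ∃ α β : k, LinearMap.charpoly (r τ) = (X - C α) * (X - C β)) →
    ∀ c₀ c : Gp p → Module.End k V, IsLocCocycle r c₀ → IsLocCocycle r c →
    IsFlatLocalModule p (V × V) (lliftAct r c₀) → IsFlatLocalModule p (V × V) (lliftAct r c) →
    (¬ ∃ X : Module.End k V, ∀ τ : Gp p, IsInertial p τ → c₀ τ = lconj r τ X - X) →
    ∃ (lam : k) (X : Module.End k V), ∀ τ : Gp p, IsInertial p τ →
      c τ = lam • c₀ τ + (lconj r τ X - X)

/-! ### The global output -/

/-- **B5 output (global, two-cocycle form).**  For a place `P | p`: if `c₀`, `c` are def-cocycles whose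
lifts are flat at `p` and `c₀` is not a coboundary on the inertia group of `P`, then on that inertia group
`c` is cohomologous to a `k`-multiple of `c₀`. -/
def FlatInertialLine : Prop :=
  p ≠ 2 → ∀ (k : Type) [Field k] [Finite k] [CharP k p] (ρbar : ResidualGaloisRep k),
    (∀ (σ : GalQ) (a : ℕ), (∀ μ : AlgebraicClosure ℚ, μ ^ p = 1 → σ μ = μ ^ a) →
      LinearMap.det (ρbar.ρ σ) = (a : k)) →
    (∀ σ : GalQ, ∃ α β : k, LinearMap.charpoly (ρbar.ρ σ) = (X - C α) * (X - C β)) →
    ∀ P : ValuationSubring (AlgebraicClosure ℚ), P.LiesOverPrime p →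
    ∀ c₀ c : GalQ → Module.End k ρbar.V, IsDefCocycle ρbar c₀ → IsDefCocycle ρbar c →
    FLLocal ρbar p c₀ → FLLocal ρbar p c →
    (¬ ∃ X : Module.End k ρbar.V, ∀ σ ∈ P.inertiaSubgroupIn ℚ, c₀ σ = conj ρbar σ X - X) →
    ∃ (lam : k) (X : Module.End k ρbar.V), ∀ σ ∈ P.inertiaSubgroupIn ℚ,
      c σ = lam • c₀ σ + (conj ρbar σ X - X)

/-- **(BR)** the bridge: the local statement implies the global one. -/
def Bridge : Prop := LocalFlatInertialLine p → FlatInertialLine p

/-- **(CT)** the count: the local statement from the outputs of (H), (K)+(R), (CE). -/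
def Count : Prop :=
  StatementF1 p → StatementF2 p → StatementRL p → StatementPm p → StatementPmTame p →
    KummerLevel p → LocalFlatInertialLine p

/-- Assembly of B5. -/
theorem flatInertialLine_of_bricks (hF1 : StatementF1 p) (hF2 : StatementF2 p) (hRL : StatementRL p)
    (hPm : StatementPm p) (hPmT : StatementPmTame p) (hK : KummerLevel p) (hCT : Count p)
    (hBR : Bridge p) : FlatInertialLine p :=
  hBR (hCT hF1 hF2 hRL hPm hPmT hK)

end Fermat.Agent.TW.B5.Iface
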