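/-
Programme TW (S56), brick B5 (FLAT local bound).  INTERFACE, part 2 (helper47):
the LOCAL GALOIS TOOLKIT (LG) for `K̄ = PadicAlgCl p`, `G_p = Gal(K̄/ℚ_p)`:
inertia, wild inertia, Frobenius lifts, the unramified closure, tame symbols.

These are the field-theoretic facts used by (CE) [F1: an inertia-fixed element is unramified-rational],
by (CT) [tame structure of `ρbar|I`, choice of `K₀`], and by the adapter to `SIface72.LocFL`
[`H¹_ur` is controlled by one Frobenius lift].  Statement shapes only (`Prop`s); the proofs are brick (LG).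
-/
import Fermat.Agent.TW.B5.Iface

set_option autoImplicit false

namespace Fermat.Agent.TW.B5.IfaceLG

open Fermat.Agent.TW.B5.Iface

variable (p : ℕ) [Fact p.Prime]

/-- Wild inertia: `τ x / x ≡ 1` modulo the maximal ideal, for all `x ≠ 0`. -/
def IsWild (τ : Gp p) : Prop := ∀ x : Kbar p, x ≠ 0 → ‖τ x - x‖ < ‖x‖

/-- `φ` induces `x ↦ x ^ p` on the residue field of `E`. -/
def IsFrobLiftOn (E : IntermediateField ℚ_[p] (Kbar p)) (φ : Gp p) : Prop :=
  ∀ x ∈ E, ‖x‖ ≤ 1 → ‖φ x - x ^ p‖ < 1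

/-- `E` is stable under `G_p` (i.e. normal over `ℚ_p`). -/
def IsNormalField (E : IntermediateField ℚ_[p] (Kbar p)) : Prop :=
  ∀ (τ : Gp p), ∀ x ∈ E, τ x ∈ E

/-- **(LG-U1)** An element fixed by all of inertia lies in a finite unramified extension of `ℚ_p`. -/
def InertiaFixedUnram : Prop :=
  ∀ x : Kbar p, (∀ τ : Gp p, IsInertial p τ → τ x = x) →
    ∃ K₁ : IntermediateField ℚ_[p] (Kbar p), FiniteDimensional ℚ_[p] K₁ ∧ IsUnramifiedField p K₁ ∧
      x ∈ K₁

/-- **(LG-U2)** Inertia fixes every finite unramified extension pointwise. -/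
def UnramFixedByInertia : Prop :=
  ∀ K₁ : IntermediateField ℚ_[p] (Kbar p), FiniteDimensional ℚ_[p] K₁ → IsUnramifiedField p K₁ →
    ∀ τ : Gp p, IsInertial p τ → ∀ x ∈ K₁, τ x = x

/-- **(LG-U3)** Frobenius lifts exist at every finite level. -/
def ExistsFrobLift : Prop :=
  ∀ E : IntermediateField ℚ_[p] (Kbar p), FiniteDimensional ℚ_[p] E → ∃ φ : Gp p, IsFrobLiftOn p E φ

/-- **(LG-U4)** At every finite normal level, `G_p` is generated by inertia and one Frobenius lift. -/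
def GeneratedByFrob : Prop :=
  ∀ E : IntermediateField ℚ_[p] (Kbar p), FiniteDimensional ℚ_[p] E → IsNormalField p E →
    ∀ φ : Gp p, IsFrobLiftOn p E φ → ∀ g : Gp p,
      ∃ (n : ℕ) (τ : Gp p), IsInertial p τ ∧ ∀ x ∈ E, g x = (φ ^ n) (τ x)

/-- **(LG-U5)** Inertia surjects onto the inertia groups of the finite levels. -/
def InertiaSurjective : Prop :=
  ∀ E : IntermediateField ℚ_[p] (Kbar p), FiniteDimensional ℚ_[p] E → IsNormalField p E →
    ∀ g : Gp p, (∀ x ∈ E, ‖x‖ ≤ 1 → ‖g x - x‖ < 1) →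
      ∃ τ : Gp p, IsInertial p τ ∧ ∀ x ∈ E, τ x = g x

/-- **(LG-T1)** Frobenius conjugation is the `p`-th power on tame inertia. -/
def FrobConjWild : Prop :=
  ∀ (E : IntermediateField ℚ_[p] (Kbar p)) (φ τ : Gp p), IsNormalField p E → IsFrobLiftOn p E φ →
    IsInertial p τ → ∀ x ∈ E, x ≠ 0 → ‖(φ * τ * φ⁻¹) x - (τ ^ p) x‖ < ‖x‖

/-- **(LG-T2)** Wild elements have `p`-power order at every finite level. -/
def WildPPower : Prop :=
  ∀ E : IntermediateField ℚ_[p] (Kbar p), FiniteDimensional ℚ_[p] E → IsNormalField p E →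
    ∀ τ : Gp p, IsWild p τ → ∃ n : ℕ, ∀ x ∈ E, (τ ^ p ^ n) x = x

/-- **(LG-T3)** Tame inertia is abelian: commutators of inertial elements are wild. -/
def CommutatorWild : Prop :=
  ∀ σ τ : Gp p, IsInertial p σ → IsInertial p τ → IsWild p (σ * τ * σ⁻¹ * τ⁻¹)

/-- **(LG-T4)** The tame symbol depends only on the norm: for inertial `τ` and `‖x‖ = ‖y‖ ≠ 0`,
`τ x / x ≡ τ y / y`. -/
def TameSymbolNorm : Prop :=
  ∀ (τ : Gp p), IsInertial p τ → ∀ x y : Kbar p, x ≠ 0 → ‖x‖ = ‖y‖ →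
    ‖τ x / x - τ y / y‖ < 1

/-- **(LG-T5)** The mod-`p` cyclotomic character is the tame symbol of `ζ - 1`: if `τ ζ = ζ ^ a` for a
primitive `p`-th root of unity `ζ`, then `τ (ζ - 1) / (ζ - 1) ≡ a`. -/
def CycloTameSymbol : Prop :=
  ∀ (τ : Gp p) (ζ : Kbar p) (a : ℕ), ζ ^ p = 1 → ζ ≠ 1 → τ ζ = ζ ^ a →
    ‖τ (ζ - 1) / (ζ - 1) - (a : Kbar p)‖ < 1

/-- The whole toolkit. -/
structure Toolkit : Prop where
  inertiaFixedUnram : InertiaFixedUnram p
  unramFixedByInertia : UnramFixedByInertia p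
  existsFrobLift : ExistsFrobLift p
  generatedByFrob : GeneratedByFrob p
  inertiaSurjective : InertiaSurjective p
  frobConjWild : FrobConjWild p
  wildPPower : WildPPower p
  commutatorWild : CommutatorWild p
  tameSymbolNorm : TameSymbolNorm p
  cycloTameSymbol : CycloTameSymbol p

end Fermat.Agent.TW.B5.IfaceLG
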