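/-
Programme TW (S56), brick B5-LG (local Galois toolkit), part B (helper83): the BRIDGE between
the concrete model `K̄ = PadicAlgCl p` of `Iface`/`IfaceLG` and the abstract model of `q`-adic fields
of PT/LOC (`Interface12`, `Structure14`, `Unram11`, ...), and first consequences.

* `snorm_eq_norm` : for `L : IntermediateField ℚ_[p] K̄`, the spectral norm of `x : L` is `‖(x : K̄)‖`;
* `mem_intRing_iff_norm` : `x ∈ intRing p L ↔ ‖(x : K̄)‖ ≤ 1`;
* `resCard_padic` : `resCard p ℚ_[p] = p`;
* `nc p E` : the normal closure of `E` inside `K̄` (finite, normal, Galois), `restrict`, `coe_restrict`;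
* `normal_of_isNormalField`, `isNormalField_of_normal`;
* `eq_of_norm_sub_lt_one` : roots of unity of order prime to `p` congruent mod `𝔪` are equal;
* `exists_teichmuller` : Teichmüller representatives at a finite level;
* `inertial_fixes_root`, `isInertial_of_fixes_roots` : `τ` is inertial iff it fixes the roots of unity
  of order prime to `p`;
* **`existsFrobLift : IfaceLG.ExistsFrobLift p`** (field U3 of `IfaceLG.Toolkit`).
-/
import Mathlib
import Fermat.Agent.TW.B5.IfaceLG
import Fermat.Agent.PT.LOC.Interface12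
import Fermat.Agent.PT.LOC.Structure14
import Fermat.Agent.PT.LOC.StructureNorm14
import Fermat.Agent.PT.LOC.StructureTower27
import Fermat.Agent.PT.LOC.RootsUnity14
import Fermat.Agent.PT.LOC.Unram11
import Fermat.Agent.PT.LOC.Teichmuller14

set_option autoImplicit false
set_option linter.style.haveILetI false

open scoped Fermat.Agent.PT.LOC.Interface12
open Fermat.Agent.PT.LOC.Interface12 Fermat.Agent.PT.LOC.Structure14
  Fermat.Agent.PT.LOC.StructureNorm14 Fermat.Agent.TW.B5.Iface Fermat.Agent.TW.B5.IfaceLG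

namespace Fermat.Agent.TW.B5.LG83B

noncomputable section

variable (p : ℕ) [Fact p.Prime]

/-! ### The norm -/

/-- Elements of `G_p` are isometries. -/
theorem norm_gal (τ : Gp p) (x : Kbar p) : ‖τ x‖ = ‖x‖ :=
  congrArg NNReal.toReal (nnnorm_padicAlgCl_algEquiv p τ x)

/-- (B0) The spectral norm on a subfield of `K̄` is the restriction of the norm of `K̄`. -/
theorem snorm_eq_norm (L : IntermediateField ℚ_[p] (Kbar p)) (x : L) :
    snorm p L x = ‖(x : Kbar p)‖ :=
  (spectralNorm.eq_of_tower (K := ℚ_[p]) (L := PadicAlgCl p) x).trans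
    (PadicAlgCl.spectralNorm_eq p _)

theorem mem_intRing_iff_norm (L : IntermediateField ℚ_[p] (Kbar p)) [FiniteDimensional ℚ_[p] L]
    (x : L) : x ∈ intRing p L ↔ ‖(x : Kbar p)‖ ≤ 1 := by
  rw [mem_intRing_iff, ← snorm_eq_norm]

theorem finiteDimensional_adjoin_singleton (x : Kbar p) :
    FiniteDimensional ℚ_[p] (IntermediateField.adjoin ℚ_[p] {x}) :=
  IntermediateField.adjoin.finiteDimensional (Algebra.IsIntegral.isIntegral (R := ℚ_[p]) x)

/-! ### The residue field of `ℚ_p` -/

/-- `ℤ_p` is the ring of integers of `ℚ_p`. -/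
def padicIntEquiv : ℤ_[p] ≃+* intRing p ℚ_[p] :=
  RingEquiv.ofBijective (algebraMap ℤ_[p] (intRing p ℚ_[p])) (by
    constructor
    · intro x y h
      have h1 : ((algebraMap ℤ_[p] (intRing p ℚ_[p]) x : intRing p ℚ_[p]) : ℚ_[p]) =
          ((algebraMap ℤ_[p] (intRing p ℚ_[p]) y : intRing p ℚ_[p]) : ℚ_[p]) := by rw [h]
      exact Subtype.ext h1
    · intro y
      have h1 : ‖(y : ℚ_[p])‖ ≤ 1 := by
        have := (mem_intRing_iff p ℚ_[p] (y : ℚ_[p])).1 y.2
        have h2 := snorm_algebraMap p ℚ_[p] (y : ℚ_[p])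
        simp only [Algebra.algebraMap_self, RingHom.id_apply] at h2
        rw [← h2]; exact this
      exact ⟨⟨(y : ℚ_[p]), h1⟩, Subtype.ext rfl⟩)

/-- (B2) The residue field of `ℚ_p` has `p` elements. -/
theorem resCard_padic : resCard p ℚ_[p] = p := by
  rw [← Fermat.Agent.PT.LOC.Teichmuller14.card_resField]
  have e1 := IsLocalRing.ResidueField.mapEquiv (padicIntEquiv p)
  have e2 := (PadicInt.residueField (p := p))
  rw [← Nat.card_congr e1.toEquiv, Nat.card_congr e2.toEquiv, Nat.card_zmod]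

/-! ### Normal closures, restriction -/

/-- The normal closure of `E` inside `K̄`. -/
abbrev nc (E : IntermediateField ℚ_[p] (Kbar p)) : IntermediateField ℚ_[p] (Kbar p) :=
  IntermediateField.normalClosure ℚ_[p] E (Kbar p)

theorem le_nc (E : IntermediateField ℚ_[p] (Kbar p)) : E ≤ nc p E :=
  IntermediateField.le_normalClosure E

instance finiteDimensional_nc (E : IntermediateField ℚ_[p] (Kbar p)) [FiniteDimensional ℚ_[p] E] :
    FiniteDimensional ℚ_[p] (nc p E) :=
  normalClosure.is_finiteDimensional ℚ_[p] E (Kbar p)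

instance normal_nc (E : IntermediateField ℚ_[p] (Kbar p)) : Normal ℚ_[p] (nc p E) :=
  normalClosure.normal ℚ_[p] E (Kbar p)

instance isGalois_of_normal (N : IntermediateField ℚ_[p] (Kbar p)) [Normal ℚ_[p] N] :
    IsGalois ℚ_[p] N := ⟨⟩

/-- `IsNormalField` is normality. -/
theorem normal_of_isNormalField {E : IntermediateField ℚ_[p] (Kbar p)} (h : IsNormalField p E) :
    Normal ℚ_[p] E := by
  rw [IntermediateField.normal_iff_forall_map_le']
  rintro σ _ ⟨x, hx, rfl⟩
  exact h σ x hx

theorem isNormalField_of_normal (E : IntermediateField ℚ_[p] (Kbar p)) [Normal ℚ_[p] E] :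
    IsNormalField p E := by
  intro σ x hx
  have := (IntermediateField.normal_iff_forall_map_le' (K := E)).1 inferInstance σ
  exact this ⟨x, hx, rfl⟩

theorem isNormalField_nc (E : IntermediateField ℚ_[p] (Kbar p)) : IsNormalField p (nc p E) :=
  isNormalField_of_normal p (nc p E)

/-- Restriction of `G_p` to a normal subfield. -/
def restrict (N : IntermediateField ℚ_[p] (Kbar p)) [Normal ℚ_[p] N] :
    Gp p →* (N ≃ₐ[ℚ_[p]] N) :=
  AlgEquiv.restrictNormalHom N

theorem coe_restrict (N : IntermediateField ℚ_[p] (Kbar p)) [Normal ℚ_[p] N] (g : Gp p) (x : N) :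
    ((restrict p N g x : N) : Kbar p) = g x :=
  AlgEquiv.restrictNormal_commutes g N x

theorem restrict_surjective (N : IntermediateField ℚ_[p] (Kbar p)) [Normal ℚ_[p] N] :
    Function.Surjective (restrict p N) :=
  AlgEquiv.restrictNormalHom_surjective (Kbar p)

/-! ### Roots of unity of order prime to `p` and Teichmüller representatives -/

/-- (R1) In `K̄`, roots of unity of order prime to `p` which are congruent modulo the maximal ideal
are equal. -/
theorem eq_of_norm_sub_lt_one {m : ℕ} (hm : ¬ p ∣ m) {ζ ζ' : Kbar p} (hζ : ζ ^ m = 1)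
    (hζ' : ζ' ^ m = 1) (h : ‖ζ - ζ'‖ < 1) : ζ = ζ' := by
  let L : IntermediateField ℚ_[p] (Kbar p) := IntermediateField.adjoin ℚ_[p] {ζ, ζ'}
  haveI : FiniteDimensional ℚ_[p] L := by
    apply IntermediateField.finiteDimensional_adjoin
    intro x _
    exact (Algebra.IsIntegral.isIntegral (R := ℚ_[p]) x)
  have hζL : ζ ∈ L := IntermediateField.subset_adjoin ℚ_[p] _ (by simp)
  have hζL' : ζ' ∈ L := IntermediateField.subset_adjoin ℚ_[p] _ (by simp)
  have key := Fermat.Agent.PT.LOC.RootsUnity14.eq_of_snorm_sub_lt_one p L hm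
    (ζ := ⟨ζ, hζL⟩) (ζ' := ⟨ζ', hζL'⟩) (Subtype.ext (by simpa using hζ))
    (Subtype.ext (by simpa using hζ')) (by rw [snorm_eq_norm]; simpa using h)
  exact congrArg Subtype.val key

/-- **Teichmüller representatives** at a finite level `L ⊆ K̄`: there is `m` prime to `p` such that
every integral element of `L` is congruent modulo the maximal ideal to `0` or to an `m`-th root of
unity of `L`. -/
theorem exists_teichmuller (L : IntermediateField ℚ_[p] (Kbar p)) [FiniteDimensional ℚ_[p] L] :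
    ∃ m : ℕ, ¬ p ∣ m ∧ ∀ x ∈ L, ‖x‖ ≤ 1 → ∃ c ∈ L, (c = 0 ∨ c ^ m = 1) ∧ ‖x - c‖ < 1 := by
  obtain ⟨ζ, hζ, hζres⟩ := Fermat.Agent.PT.LOC.Teichmuller14.exists_isPrimitiveRoot_and_residue p L
  have hQ : 1 < resCard p L := Fermat.Agent.PT.LOC.StructureTower27.one_lt_resCard p L
  refine ⟨resCard p L - 1, ?_, ?_⟩
  · have := Fermat.Agent.PT.LOC.Unram11.not_dvd_resCard_pow_sub_one p L 1 one_pos
    simpa using this
  intro x hx hx1
  set x' : intRing p L := ⟨⟨x, hx⟩, (mem_intRing_iff_norm p L _).2 hx1⟩ with hx'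
  by_cases h0 : IsLocalRing.residue (intRing p L) x' = 0
  · refine ⟨0, L.zero_mem, Or.inl rfl, ?_⟩
    rw [IsLocalRing.residue_eq_zero_iff, mem_maximalIdeal_iff_snorm, snorm_eq_norm] at h0
    simpa using h0
  · haveI : Fintype (Fermat.Agent.PT.LOC.Teichmuller14.resField p L) := Fintype.ofFinite _
    have hcard : Fintype.card (Fermat.Agent.PT.LOC.Teichmuller14.resField p L) = resCard p L := by
      rw [Fintype.card_eq_nat_card, Fermat.Agent.PT.LOC.Teichmuller14.card_resField]
    have h1 : (IsLocalRing.residue (intRing p L) x') ^ (resCard p L - 1) = 1 := by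
      have := FiniteField.pow_card_sub_one_eq_one (IsLocalRing.residue (intRing p L) x') h0
      rwa [hcard] at this
    haveI : NeZero (resCard p L - 1) := ⟨by omega⟩
    obtain ⟨i, -, hi⟩ := hζres.eq_pow_of_pow_eq_one h1
    refine ⟨((ζ ^ i : intRing p L) : L), (ζ ^ i : intRing p L).1.2, Or.inr ?_, ?_⟩
    · have : (ζ ^ i) ^ (resCard p L - 1) = 1 := by
        rw [← pow_mul, mul_comm, pow_mul, hζ.pow_eq_one, one_pow]
      have h2 := congrArg (fun z : intRing p L => ((z : L) : Kbar p)) this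
      simpa using h2
    · have h3 : IsLocalRing.residue (intRing p L) (x' - ζ ^ i) = 0 := by
        rw [map_sub, map_pow, hi, sub_self]
      rw [IsLocalRing.residue_eq_zero_iff, mem_maximalIdeal_iff_snorm, snorm_eq_norm] at h3
      simpa using h3

/-- (A⇒) Inertial elements fix the roots of unity of order prime to `p`. -/
theorem inertial_fixes_root {τ : Gp p} (hτ : IsInertial p τ) {m : ℕ} (hm : ¬ p ∣ m) {ζ : Kbar p}
    (hζ : ζ ^ m = 1) : τ ζ = ζ := by
  have hm0 : m ≠ 0 := fun h => hm (h ▸ dvd_zero p)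
  have h1 : ‖ζ‖ = 1 := by
    have h2 : ‖ζ‖ ^ m = 1 := by rw [← norm_pow, hζ, norm_one]
    exact (pow_eq_one_iff_of_nonneg (norm_nonneg _) hm0).1 h2
  refine eq_of_norm_sub_lt_one p hm ?_ hζ (hτ ζ h1.le)
  rw [← map_pow, hζ, map_one]

/-- (A⇐) An element of `G_p` fixing all roots of unity of order prime to `p` is inertial. -/
theorem isInertial_of_fixes_roots {τ : Gp p}
    (h : ∀ (m : ℕ) (ζ : Kbar p), ¬ p ∣ m → ζ ^ m = 1 → τ ζ = ζ) : IsInertial p τ := by
  intro x hx
  have hfd := finiteDimensional_adjoin_singleton p x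
  obtain ⟨m, hm, hT⟩ := exists_teichmuller p (IntermediateField.adjoin ℚ_[p] {x})
  obtain ⟨c, -, hc, hxc⟩ := hT x (IntermediateField.mem_adjoin_simple_self ℚ_[p] x) hx
  have hτc : τ c = c := by
    rcases hc with rfl | hc
    · exact map_zero τ
    · exact h m c hm hc
  have h1 : τ x - x = τ (x - c) + (-(x - c)) := by rw [map_sub, hτc]; abel
  rw [h1]
  have h2 : ‖τ (x - c)‖ < 1 := by
    rw [norm_gal]
    exact hxc
  have h3 : ‖-(x - c)‖ < 1 := by rw [norm_neg]; exact hxc
  exact lt_of_le_of_lt (PadicAlgCl.isNonarchimedean p _ _) (max_lt h2 h3)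

/-! ### (U3) Frobenius lifts -/

/-- **(LG-U3)** Frobenius lifts exist at every finite level. -/
theorem existsFrobLift : ExistsFrobLift p := by
  intro E hE
  haveI := hE
  obtain ⟨φ, hφ⟩ := Fermat.Agent.PT.LOC.Unram11.exists_isFrob p ℚ_[p] (nc p E)
  rw [Fermat.Agent.PT.LOC.RootsUnity14.isFrob_iff] at hφ
  refine ⟨φ.liftNormal (Kbar p), ?_⟩
  intro x hx hx1
  have hxN : x ∈ nc p E := le_nc p E hx
  have h1 := hφ ⟨x, hxN⟩ ((mem_intRing_iff_norm p (nc p E) _).2 hx1)
  rw [snorm_eq_norm, resCard_padic] at h1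
  have h2 : (φ.liftNormal (Kbar p)) x = ((φ ⟨x, hxN⟩ : nc p E) : Kbar p) :=
    AlgEquiv.liftNormal_commutes φ (Kbar p) ⟨x, hxN⟩
  rw [h2]
  simpa using h1

end

end Fermat.Agent.TW.B5.LG83B
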