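/-
Programme TW (S56), brick B5-LG (local Galois toolkit), part W (helper83): the unramified
cyclotomic fields `ℚ_p(μ_m) ⊆ K̄`, `p ∤ m`.

* `muField p m := adjoin ℚ_[p] {ζ | ζ ^ m = 1}`; it is finite (`m ≠ 0`) and normal;
* `isUnramified_muField (hm : ¬ p ∣ m) : IsUnramified p ℚ_[p] (muField p m)` (PT/LOC sense);
* `isUnramifiedField_of_isUnramified` : PT/LOC-unramified over `ℚ_p` ⇒ value group `p^ℤ`
  (`Iface.IsUnramifiedField`);
* **`isUnramifiedField_muField (hm : ¬ p ∣ m) : IsUnramifiedField p (muField p m)`**.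
-/
import Mathlib
import Fermat.Agent.TW.B5.IfaceLG
import Fermat.Agent.TW.B5.LG83B

set_option autoImplicit false
set_option linter.style.haveILetI false
set_option linter.unusedSectionVars false

open scoped Fermat.Agent.PT.LOC.Interface12
open Fermat.Agent.PT.LOC.Interface12 Fermat.Agent.PT.LOC.Structure14
  Fermat.Agent.PT.LOC.StructureNorm14 Fermat.Agent.PT.LOC.Unram11
  Fermat.Agent.TW.B5.Iface Fermat.Agent.TW.B5.IfaceLG Fermat.Agent.TW.B5.LG83B

namespace Fermat.Agent.TW.B5.LG83W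

noncomputable section

variable (p : ℕ) [Fact p.Prime]

/-- The field generated over `ℚ_p` by the `m`-th roots of unity of `K̄`. -/
def muField (m : ℕ) : IntermediateField ℚ_[p] (Kbar p) :=
  IntermediateField.adjoin ℚ_[p] {ζ : Kbar p | ζ ^ m = 1}

theorem ne_zero_of_not_dvd {m : ℕ} (hm : ¬ p ∣ m) : m ≠ 0 := by
  rintro rfl
  exact hm (dvd_zero p)

theorem mem_muField {m : ℕ} {ζ : Kbar p} (hζ : ζ ^ m = 1) : ζ ∈ muField p m :=
  IntermediateField.subset_adjoin ℚ_[p] _ hζ

theorem finite_roots {m : ℕ} (hm : m ≠ 0) : Set.Finite {ζ : Kbar p | ζ ^ m = 1} := by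
  have h : {ζ : Kbar p | ζ ^ m = 1} ⊆ {ζ : Kbar p | ζ ∈ Polynomial.nthRoots m (1 : Kbar p)} := by
    intro ζ hζ
    exact (Polynomial.mem_nthRoots (Nat.pos_of_ne_zero hm)).2 hζ
  exact (Multiset.finite_toSet _).subset h

theorem finiteDimensional_muField {m : ℕ} (hm : m ≠ 0) :
    FiniteDimensional ℚ_[p] (muField p m) := by
  haveI : Finite {ζ : Kbar p | ζ ^ m = 1} := (finite_roots p hm).to_subtype
  exact IntermediateField.finiteDimensional_adjoin
    (fun x _ => Algebra.IsIntegral.isIntegral (R := ℚ_[p]) x)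

theorem isNormalField_muField (m : ℕ) : IsNormalField p (muField p m) := by
  intro σ x hx
  have h1 : σ x ∈ (muField p m).map (σ : Kbar p →ₐ[ℚ_[p]] Kbar p) := ⟨x, hx, rfl⟩
  rw [muField, IntermediateField.adjoin_map] at h1
  refine IntermediateField.adjoin.mono ℚ_[p] _ _ ?_ h1
  rintro _ ⟨ζ, hζ, rfl⟩
  show (σ ζ) ^ m = 1
  have hζ' : ζ ^ m = 1 := hζ
  rw [← map_pow, hζ', map_one]

theorem normal_muField (m : ℕ) : Normal ℚ_[p] (muField p m) :=
  normal_of_isNormalField p (isNormalField_muField p m)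

/-- `ℚ_p(μ_m)` is generated by its `m`-th roots of unity. -/
theorem adjoin_roots_muField (m : ℕ) :
    Algebra.adjoin ℚ_[p] {ζ : muField p m | ζ ^ m = 1} = ⊤ := by
  rw [← IntermediateField.adjoin_eq_top_iff_of_isAlgebraic
    (fun x _ => Algebra.IsAlgebraic.isAlgebraic x)]
  apply IntermediateField.lift_injective (muField p m)
  rw [IntermediateField.lift_adjoin, IntermediateField.lift_top]
  have : (Subtype.val '' {ζ : muField p m | ζ ^ m = 1} : Set (Kbar p)) = {ζ : Kbar p | ζ ^ m = 1} := by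
    ext ζ
    constructor
    · rintro ⟨z, hz, rfl⟩
      have hz' : z ^ m = 1 := hz
      show ((z : Kbar p)) ^ m = 1
      exact_mod_cast congrArg Subtype.val hz'
    · intro hζ
      refine ⟨⟨ζ, mem_muField p hζ⟩, ?_, rfl⟩
      show (⟨ζ, mem_muField p hζ⟩ : muField p m) ^ m = 1
      apply Subtype.ext
      have hζ' : ζ ^ m = 1 := hζ
      simpa using hζ'
  rw [this]
  rfl

/-- `ℚ_p(μ_m)/ℚ_p` is unramified for `p ∤ m` (in the sense of PT/LOC). -/
theorem isUnramified_muField {m : ℕ} (hm : ¬ p ∣ m) :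
    haveI := finiteDimensional_muField p (ne_zero_of_not_dvd p hm)
    IsUnramified p ℚ_[p] (muField p m) := by
  haveI := finiteDimensional_muField p (ne_zero_of_not_dvd p hm)
  haveI := normal_muField p m
  exact isUnramified_of_redHom_injective p ℚ_[p] (muField p m)
    (redHom_injective_of_adjoin p ℚ_[p] (muField p m) hm _ (fun ζ hζ => hζ)
      (adjoin_roots_muField p m))

/-- An extension of `ℚ_p` unramified in the sense of PT/LOC has value group `p^ℤ`. -/
theorem isUnramifiedField_of_isUnramified (L : IntermediateField ℚ_[p] (Kbar p))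
    [FiniteDimensional ℚ_[p] L] (h : IsUnramified p ℚ_[p] L) : IsUnramifiedField p L := by
  intro x hx hx0
  obtain ⟨π, hπ⟩ := exists_isUniformizer p ℚ_[p]
  have hπL := h π hπ
  have hx0' : (⟨x, hx⟩ : L) ≠ 0 := fun h0 => hx0 (congrArg Subtype.val h0)
  have h1 := snorm_eq_zpow p L (Units.map (algebraMap ℚ_[p] L : ℚ_[p] →* L) π) hπL
    (Units.mk0 ⟨x, hx⟩ hx0')
  rw [Units.val_mk0, snorm_eq_norm, Units.coe_map, MonoidHom.coe_coe, snorm_algebraMap] at h1
  rw [Padic.norm_eq_zpow_neg_valuation π.ne_zero, ← zpow_mul] at h1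
  exact ⟨_, h1⟩

/-- **`ℚ_p(μ_m)` has value group `p^ℤ`** for `p ∤ m`. -/
theorem isUnramifiedField_muField {m : ℕ} (hm : ¬ p ∣ m) : IsUnramifiedField p (muField p m) := by
  haveI := finiteDimensional_muField p (ne_zero_of_not_dvd p hm)
  exact isUnramifiedField_of_isUnramified p (muField p m) (isUnramified_muField p hm)

end

end Fermat.Agent.TW.B5.LG83W
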