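/-
Programme TW (S56), brick B5-LG (helper83): the LOCAL GALOIS TOOLKIT, part T (elementary norm
computations in `K̄ = PadicAlgCl p`): tame symbols, wild elements, Frobenius conjugation.

Proves the fields `frobConjWild`, `wildPPower`, `commutatorWild`, `tameSymbolNorm`,
`cycloTameSymbol` of `IfaceLG.Toolkit p`.
-/
import Fermat.Agent.TW.B5.IfaceLG

set_option autoImplicit false

namespace Fermat.Agent.TW.B5.LG83T

open Fermat.Agent.TW.B5.Iface Fermat.Agent.TW.B5.IfaceLG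

variable (p : ℕ) [hp : Fact p.Prime]

/-! ### Basic norm facts -/

theorem norm_map (τ : Gp p) (x : Kbar p) : ‖τ x‖ = ‖x‖ := by
  have := nnnorm_padicAlgCl_algEquiv p τ x
  exact congrArg NNReal.toReal this

theorem norm_add_le_max' (x y : Kbar p) : ‖x + y‖ ≤ max ‖x‖ ‖y‖ :=
  PadicAlgCl.isNonarchimedean p x y

theorem norm_sub_le_max' (x y : Kbar p) : ‖x - y‖ ≤ max ‖x‖ ‖y‖ := by
  have := norm_add_le_max' p x (-y)
  rwa [norm_neg, ← sub_eq_add_neg] at this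

theorem norm_add_lt {x y : Kbar p} {C : ℝ} (hx : ‖x‖ < C) (hy : ‖y‖ < C) : ‖x + y‖ < C :=
  lt_of_le_of_lt (norm_add_le_max' p x y) (max_lt hx hy)

theorem norm_sub_lt {x y : Kbar p} {C : ℝ} (hx : ‖x‖ < C) (hy : ‖y‖ < C) : ‖x - y‖ < C :=
  lt_of_le_of_lt (norm_sub_le_max' p x y) (max_lt hx hy)

theorem norm_sum_lt {ι : Type*} (s : Finset ι) (f : ι → Kbar p) {C : ℝ} (hC : 0 < C)
    (h : ∀ i ∈ s, ‖f i‖ < C) : ‖∑ i ∈ s, f i‖ < C := by
  classical
  induction s using Finset.induction_on with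
  | empty => simpa using hC
  | insert a s ha ih =>
    rw [Finset.sum_insert ha]
    exact norm_add_lt p (h a (Finset.mem_insert_self a s))
      (ih fun i hi => h i (Finset.mem_insert_of_mem hi))

theorem norm_sum_le {ι : Type*} (s : Finset ι) (f : ι → Kbar p) {C : ℝ} (hC : 0 ≤ C)
    (h : ∀ i ∈ s, ‖f i‖ ≤ C) : ‖∑ i ∈ s, f i‖ ≤ C := by
  classical
  induction s using Finset.induction_on with
  | empty => simpa using hC
  | insert a s ha ih =>
    rw [Finset.sum_insert ha]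
    exact (norm_add_le_max' p _ _).trans (max_le (h a (Finset.mem_insert_self a s))
      (ih fun i hi => h i (Finset.mem_insert_of_mem hi)))

/-- if `‖y‖ < ‖x‖` then `‖x + y‖ = ‖x‖`. -/
theorem norm_add_eq_left {x y : Kbar p} (h : ‖y‖ < ‖x‖) : ‖x + y‖ = ‖x‖ := by
  apply le_antisymm
  · exact (norm_add_le_max' p x y).trans (max_le le_rfl h.le)
  · by_contra hlt
    rw [not_le] at hlt
    have h1 : ‖x‖ ≤ max ‖x + y‖ ‖y‖ := by
      have := norm_sub_le_max' p (x + y) y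
      rwa [add_sub_cancel_right] at this
    exact absurd h1 (not_le.mpr (max_lt hlt h))

theorem norm_natCast_le_one (n : ℕ) : ‖(n : Kbar p)‖ ≤ 1 := by
  have : ((n : ℚ_[p]) : Kbar p) = (n : Kbar p) := map_natCast (algebraMap ℚ_[p] (Kbar p)) n
  rw [← this, PadicAlgCl.norm_extends]
  have := Padic.norm_int_le_one (p := p) (n : ℤ)
  simpa using this

theorem norm_natCast_eq_one {n : ℕ} (hn : ¬ p ∣ n) : ‖(n : Kbar p)‖ = 1 := by
  have : ((n : ℚ_[p]) : Kbar p) = (n : Kbar p) := map_natCast (algebraMap ℚ_[p] (Kbar p)) n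
  rw [← this, PadicAlgCl.norm_extends, Padic.norm_natCast_eq_one_iff]
  exact (Nat.Prime.coprime_iff_not_dvd hp.out).mpr hn

theorem norm_p_lt_one : ‖(p : Kbar p)‖ < 1 := by
  have : ((p : ℚ_[p]) : Kbar p) = (p : Kbar p) := map_natCast (algebraMap ℚ_[p] (Kbar p)) p
  rw [← this, PadicAlgCl.norm_extends]
  exact Padic.norm_p_lt_one

/-! ### Inertial and wild elements form subgroups -/

theorem isInertial_one : IsInertial p (1 : Gp p) := by
  intro x _
  simp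

theorem isInertial_mul {σ τ : Gp p} (hσ : IsInertial p σ) (hτ : IsInertial p τ) :
    IsInertial p (σ * τ) := by
  intro x hx
  have h1 : (σ * τ) x - x = (σ (τ x) - τ x) + (τ x - x) := by
    rw [AlgEquiv.mul_apply]; ring
  rw [h1]
  exact norm_add_lt p (hσ (τ x) (by rw [norm_map]; exact hx)) (hτ x hx)

theorem isInertial_inv {τ : Gp p} (hτ : IsInertial p τ) : IsInertial p τ⁻¹ := by
  intro x hx
  have h1 : ‖τ (τ⁻¹ x) - τ⁻¹ x‖ < 1 := hτ (τ⁻¹ x) (by rw [norm_map]; exact hx)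
  have h2 : τ (τ⁻¹ x) = x := by
    rw [← AlgEquiv.mul_apply, mul_inv_cancel, AlgEquiv.one_apply]
  rw [h2] at h1
  rwa [norm_sub_rev]

theorem isInertial_pow {τ : Gp p} (hτ : IsInertial p τ) (n : ℕ) : IsInertial p (τ ^ n) := by
  induction n with
  | zero => rw [pow_zero]; exact isInertial_one p
  | succ n ih => rw [pow_succ]; exact isInertial_mul p ih hτ

theorem isWild_one : IsWild p (1 : Gp p) := by
  intro x hx
  simpa using hx

theorem isWild_mul {σ τ : Gp p} (hσ : IsWild p σ) (hτ : IsWild p τ) : IsWild p (σ * τ) := by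
  intro x hx
  have h1 : (σ * τ) x - x = (σ (τ x) - τ x) + (τ x - x) := by
    rw [AlgEquiv.mul_apply]; ring
  rw [h1]
  have hτx : τ x ≠ 0 := by
    rw [Ne, EmbeddingLike.map_eq_zero_iff]; exact hx
  have := hσ (τ x) hτx
  rw [norm_map] at this
  exact norm_add_lt p this (hτ x hx)

theorem isWild_pow {τ : Gp p} (hτ : IsWild p τ) (n : ℕ) : IsWild p (τ ^ n) := by
  induction n with
  | zero => rw [pow_zero]; exact isWild_one p
  | succ n ih => rw [pow_succ]; exact isWild_mul p ih hτ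

/-! ### (LG-T4) the tame symbol depends only on the norm -/

theorem tameSymbolNorm : TameSymbolNorm p := by
  intro τ hτ x y hx hxy
  have hxn : ‖x‖ ≠ 0 := norm_ne_zero_iff.mpr hx
  have hy : y ≠ 0 := by
    rintro rfl
    rw [norm_zero] at hxy
    exact hxn hxy
  set u := y / x with hu
  have hun : ‖u‖ = 1 := by rw [hu, norm_div, ← hxy, div_self hxn]
  have hu0 : u ≠ 0 := by
    intro h; rw [h, norm_zero] at hun; exact zero_ne_one hun
  have hyu : y = x * u := by rw [hu]; field_simp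
  have hτx : τ x ≠ 0 := by rw [Ne, EmbeddingLike.map_eq_zero_iff]; exact hx
  have h1 : τ x / x - τ y / y = (τ x / x) * ((u - τ u) / u) := by
    rw [hyu, map_mul]
    field_simp
  have h2 : ‖(u - τ u) / u‖ < 1 := by
    rw [norm_div, hun, div_one, norm_sub_rev]
    exact hτ u hun.le
  have h3 : ‖τ x / x‖ = 1 := by rw [norm_div, norm_map, div_self hxn]
  rw [h1, norm_mul, h3, one_mul]
  exact h2

/-- the tame symbol `τ x / x` has norm one. -/
theorem norm_symbol (τ : Gp p) {x : Kbar p} (hx : x ≠ 0) : ‖τ x / x‖ = 1 := by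
  rw [norm_div, norm_map, div_self (norm_ne_zero_iff.mpr hx)]

theorem symbol_mul (τ : Gp p) {x : Kbar p} (hx : x ≠ 0) : τ x = (τ x / x) * x := by
  field_simp

/-! ### (LG-T3) commutators of inertial elements are wild -/

theorem commutatorWild : CommutatorWild p := by
  intro σ τ hσ hτ x hx
  set z := σ⁻¹ (τ⁻¹ x) with hz
  have hzn : ‖z‖ = ‖x‖ := by rw [hz, norm_map, norm_map]
  have hz0 : z ≠ 0 := by
    intro h; rw [h, norm_zero] at hzn; exact (norm_ne_zero_iff.mpr hx) hzn.symm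
  have hxz : x = τ (σ z) := by
    rw [hz, ← AlgEquiv.mul_apply σ, mul_inv_cancel, AlgEquiv.one_apply, ← AlgEquiv.mul_apply τ,
      mul_inv_cancel, AlgEquiv.one_apply]
  have hcx : (σ * τ * σ⁻¹ * τ⁻¹) x = σ (τ z) := by
    simp only [AlgEquiv.mul_apply, hz]
  have hτz : τ z ≠ 0 := by rw [Ne, EmbeddingLike.map_eq_zero_iff]; exact hz0
  have hσz : σ z ≠ 0 := by rw [Ne, EmbeddingLike.map_eq_zero_iff]; exact hz0
  -- the four symbols
  set A := σ (τ z) / τ z with hA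
  set A' := σ z / z with hA'
  set B := τ z / z with hB
  set B' := τ (σ z) / σ z with hB'
  have hAA' : ‖A - A'‖ < 1 := tameSymbolNorm p σ hσ (τ z) z hτz (norm_map p τ z)
  have hBB' : ‖B - B'‖ < 1 := by
    have := tameSymbolNorm p τ hτ (σ z) z hσz (norm_map p σ z)
    rwa [norm_sub_rev] at this
  have e1 : σ (τ z) = A * B * z := by
    rw [hA, hB]; field_simp
  have e2 : τ (σ z) = B' * A' * z := by
    rw [hA', hB']; field_simp
  have e3 : (σ * τ * σ⁻¹ * τ⁻¹) x - x = ((A - A') * B + A' * (B - B')) * z := by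
    rw [hcx, hxz, e1, e2]; ring
  rw [e3, norm_mul, hzn]
  have h4 : ‖(A - A') * B + A' * (B - B')‖ < 1 := by
    refine norm_add_lt p ?_ ?_
    · rw [norm_mul, hB, norm_symbol p τ hz0, mul_one]; exact hAA'
    · rw [norm_mul, hA', norm_symbol p σ hz0, one_mul]; exact hBB'
  calc ‖(A - A') * B + A' * (B - B')‖ * ‖x‖ < 1 * ‖x‖ :=
        mul_lt_mul_of_pos_right h4 (norm_pos_iff.mpr hx)
    _ = ‖x‖ := one_mul _

/-! ### (LG-T1) Frobenius conjugation is the `p`-th power on tame symbols -/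

/-- `τ ^ n x = w * x` with `w ≡ u ^ n`, where `u` is the tame symbol of `τ` at norm `‖x‖`. -/
theorem exists_pow_symbol {τ : Gp p} (hτ : IsInertial p τ) {x y : Kbar p} (hx : x ≠ 0)
    (hxy : ‖x‖ = ‖y‖) (n : ℕ) :
    ∃ w : Kbar p, (τ ^ n) x = w * x ∧ ‖w - (τ y / y) ^ n‖ < 1 ∧ ‖w‖ = 1 := by
  have hy : y ≠ 0 := by
    rintro rfl
    rw [norm_zero] at hxy
    exact (norm_ne_zero_iff.mpr hx) hxy
  induction n with
  | zero =>
    refine ⟨1, by simp, by simp, by simp⟩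
  | succ n ih =>
    obtain ⟨w, hw1, hw2, hw3⟩ := ih
    have hτn : (τ ^ n) x ≠ 0 := by rw [Ne, EmbeddingLike.map_eq_zero_iff]; exact hx
    set s := τ ((τ ^ n) x) / (τ ^ n) x with hs
    have hs1 : ‖s - τ y / y‖ < 1 :=
      tameSymbolNorm p τ hτ ((τ ^ n) x) y hτn (by rw [norm_map]; exact hxy)
    have hs2 : ‖s‖ = 1 := norm_symbol p τ hτn
    refine ⟨s * w, ?_, ?_, by rw [norm_mul, hs2, hw3, one_mul]⟩
    · rw [pow_succ', AlgEquiv.mul_apply, symbol_mul p τ hτn, ← hs, hw1, mul_assoc]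
    · have e : s * w - (τ y / y) ^ (n + 1) =
          (s - τ y / y) * w + (τ y / y) * (w - (τ y / y) ^ n) := by ring
      rw [e]
      refine norm_add_lt p ?_ ?_
      · rw [norm_mul, hw3, mul_one]; exact hs1
      · rw [norm_mul, norm_symbol p τ hy, one_mul]; exact hw2

theorem frobConjWild : FrobConjWild p := by
  intro E φ τ hE hφ hτ x hxE hx
  set y := φ⁻¹ x with hy
  have hyE : y ∈ E := hE φ⁻¹ x hxE
  have hyn : ‖y‖ = ‖x‖ := norm_map p φ⁻¹ x
  have hy0 : y ≠ 0 := by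
    intro h; rw [h, norm_zero] at hyn; exact (norm_ne_zero_iff.mpr hx) hyn.symm
  have hφy : φ y = x := by
    rw [hy, ← AlgEquiv.mul_apply, mul_inv_cancel, AlgEquiv.one_apply]
  set u := τ y / y with hu
  have huE : u ∈ E := E.div_mem (hE τ y hyE) hyE
  have hun : ‖u‖ = 1 := norm_symbol p τ hy0
  have h1 : (φ * τ * φ⁻¹) x = φ u * x := by
    rw [AlgEquiv.mul_apply, AlgEquiv.mul_apply, ← hy, symbol_mul p τ hy0, ← hu, map_mul, hφy]
  have h2 : ‖φ u - u ^ p‖ < 1 := hφ u huE hun.le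
  obtain ⟨w, hw1, hw2, -⟩ := exists_pow_symbol p hτ hx hyn.symm p
  rw [← hu] at hw2
  rw [h1, hw1, ← sub_mul, norm_mul]
  have h3 : ‖φ u - w‖ < 1 := by
    have e : φ u - w = (φ u - u ^ p) - (w - u ^ p) := by ring
    rw [e]
    exact norm_sub_lt p h2 hw2
  calc ‖φ u - w‖ * ‖x‖ < 1 * ‖x‖ := mul_lt_mul_of_pos_right h3 (norm_pos_iff.mpr hx)
    _ = ‖x‖ := one_mul _

/-! ### (LG-T5) the cyclotomic character is the tame symbol of `ζ - 1` -/

/-- a non-trivial `p`-th root of unity is congruent to `1`. -/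
theorem norm_root_sub_one_lt {ζ : Kbar p} (hζ : ζ ^ p = 1) : ‖ζ - 1‖ < 1 := by
  have hζn : ‖ζ‖ = 1 := by
    have h1 : ‖ζ‖ ^ p = 1 := by rw [← norm_pow, hζ, norm_one]
    exact (pow_eq_one_iff_of_nonneg (norm_nonneg _) hp.out.ne_zero).mp h1
  set w := ζ - 1 with hw
  have hw1 : ‖w‖ ≤ 1 := by
    have := norm_sub_le_max' p ζ 1
    rwa [hζn, norm_one, max_self] at this
  by_contra hlt
  have hw1' : ‖w‖ = 1 := le_antisymm hw1 (not_lt.mp hlt)
  obtain ⟨r, hr⟩ := exists_add_pow_prime_eq hp.out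
    (⟨w, ⟨IntermediateField.mem_top, hw1⟩⟩ : intSubring p ⊤)
    (⟨1, ⟨IntermediateField.mem_top, by simp⟩⟩ : intSubring p ⊤)
  have hr' := congrArg (Subtype.val : intSubring p ⊤ → Kbar p) hr
  simp only [Subring.coe_add, Subring.coe_pow, Subring.coe_mul, Subring.coe_natCast] at hr'
  have hrn : ‖(r : Kbar p)‖ ≤ 1 := r.2.2
  have hw2 : w + 1 = ζ := by rw [hw]; ring
  rw [hw2, hζ, one_pow, mul_one] at hr'
  have h3 : w ^ p = -((p : Kbar p) * w * (r : Kbar p)) := by linear_combination -hr'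
  have h4 : ‖w ^ p‖ = ‖(p : Kbar p)‖ * ‖w‖ * ‖(r : Kbar p)‖ := by
    rw [h3, norm_neg, norm_mul, norm_mul]
  rw [norm_pow, hw1', one_pow, mul_one] at h4
  have h5 : ‖(p : Kbar p)‖ * ‖(r : Kbar p)‖ < 1 := by
    calc ‖(p : Kbar p)‖ * ‖(r : Kbar p)‖ ≤ ‖(p : Kbar p)‖ * 1 :=
          mul_le_mul_of_nonneg_left hrn (norm_nonneg _)
      _ < 1 := by rw [mul_one]; exact norm_p_lt_one p
  rw [← h4] at h5
  exact lt_irrefl _ h5

theorem norm_pow_sub_one_le {ζ : Kbar p} (hζ : ‖ζ‖ = 1) (i : ℕ) : ‖ζ ^ i - 1‖ ≤ ‖ζ - 1‖ := by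
  have h1 : ζ ^ i - 1 = (∑ j ∈ Finset.range i, ζ ^ j) * (ζ - 1) := (geom_sum_mul ζ i).symm
  rw [h1, norm_mul]
  have h2 : ‖∑ j ∈ Finset.range i, ζ ^ j‖ ≤ 1 :=
    norm_sum_le p _ _ zero_le_one fun j _ => by rw [norm_pow, hζ, one_pow]
  calc ‖∑ j ∈ Finset.range i, ζ ^ j‖ * ‖ζ - 1‖ ≤ 1 * ‖ζ - 1‖ :=
        mul_le_mul_of_nonneg_right h2 (norm_nonneg _)
    _ = ‖ζ - 1‖ := one_mul _

theorem cycloTameSymbol : CycloTameSymbol p := by
  intro τ ζ a hζ hζ1 hτ
  have hζn : ‖ζ‖ = 1 := by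
    have h1 : ‖ζ‖ ^ p = 1 := by rw [← norm_pow, hζ, norm_one]
    exact (pow_eq_one_iff_of_nonneg (norm_nonneg _) hp.out.ne_zero).mp h1
  have hw : ζ - 1 ≠ 0 := sub_ne_zero.mpr hζ1
  have h1 : τ (ζ - 1) / (ζ - 1) = ∑ j ∈ Finset.range a, ζ ^ j := by
    rw [map_sub, map_one, hτ, ← geom_sum_mul ζ a, mul_div_assoc, div_self hw, mul_one]
  have h2 : (∑ j ∈ Finset.range a, ζ ^ j) - (a : Kbar p) = ∑ j ∈ Finset.range a, (ζ ^ j - 1) := by
    rw [Finset.sum_sub_distrib, Finset.sum_const, Finset.card_range, nsmul_eq_mul, mul_one]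
  rw [h1, h2]
  refine norm_sum_lt p _ _ zero_lt_one fun j _ => ?_
  exact lt_of_le_of_lt (norm_pow_sub_one_le p hζn j) (norm_root_sub_one_lt p hζ)

/-! ### (LG-T2) wild elements have `p`-power order at finite levels -/

/-- some positive power of `τ` fixes a finite level pointwise. -/
theorem exists_pow_fixes (E : IntermediateField ℚ_[p] (Kbar p)) [FiniteDimensional ℚ_[p] E]
    (τ : Gp p) : ∃ m : ℕ, 0 < m ∧ ∀ x ∈ E, (τ ^ m) x = x := by
  have hfin : Finite (E →ₐ[ℚ_[p]] Kbar p) := inferInstance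
  let f : ℕ → (E →ₐ[ℚ_[p]] Kbar p) := fun i => ((τ ^ i : Gp p) : Kbar p →ₐ[ℚ_[p]] Kbar p).comp E.val
  obtain ⟨i, j, hij, hf⟩ := Finite.exists_ne_map_eq_of_infinite f
  wlog hlt : i < j generalizing i j
  · exact this j i hij.symm hf.symm (lt_of_le_of_ne (not_lt.mp hlt) hij.symm)
  refine ⟨j - i, Nat.sub_pos_of_lt hlt, fun x hx => ?_⟩
  have h1 : (τ ^ i) x = (τ ^ j) x := by
    have := DFunLike.congr_fun hf ⟨x, hx⟩
    exact this
  have h2 : τ ^ j = τ ^ i * τ ^ (j - i) := by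
    rw [← pow_add, Nat.add_sub_cancel' hlt.le]
  rw [h2, AlgEquiv.mul_apply] at h1
  exact ((τ ^ i).injective h1).symm

/-- a wild element of finite order prime to `p` on `x` fixes `x`. -/
theorem eq_of_isWild_of_pow_eq {σ : Gp p} (hσ : IsWild p σ) {m : ℕ} (hm : ¬ p ∣ m) {x : Kbar p}
    (hx : (σ ^ m) x = x) : σ x = x := by
  by_contra hne
  set y := σ x - x with hy
  have hy0 : y ≠ 0 := sub_ne_zero.mpr hne
  -- telescoping: `∑_{j<m} σ^j y = σ^m x - x = 0`
  have h1 : ∑ j ∈ Finset.range m, (σ ^ j) y = 0 := by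
    have : ∀ j, (σ ^ j) y = (σ ^ (j + 1)) x - (σ ^ j) x := by
      intro j
      rw [hy, map_sub, pow_succ, AlgEquiv.mul_apply]
    simp only [this]
    rw [Finset.sum_range_sub (fun j => (σ ^ j) x), hx, pow_zero, AlgEquiv.one_apply, sub_self]
  have h2 : ∑ j ∈ Finset.range m, (σ ^ j) y =
      (m : Kbar p) * y + ∑ j ∈ Finset.range m, ((σ ^ j) y - y) := by
    rw [Finset.sum_sub_distrib, Finset.sum_const, Finset.card_range, nsmul_eq_mul]
    ring
  have h3 : ‖∑ j ∈ Finset.range m, ((σ ^ j) y - y)‖ < ‖y‖ :=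
    norm_sum_lt p _ _ (norm_pos_iff.mpr hy0) fun j _ => isWild_pow p hσ j y hy0
  have h4 : ‖(m : Kbar p) * y‖ = ‖y‖ := by rw [norm_mul, norm_natCast_eq_one p hm, one_mul]
  have h5 : ‖(m : Kbar p) * y + ∑ j ∈ Finset.range m, ((σ ^ j) y - y)‖ = ‖(m : Kbar p) * y‖ :=
    norm_add_eq_left p (by rw [h4]; exact h3)
  rw [← h2, h1, norm_zero, h4] at h5
  exact hy0 (norm_eq_zero.mp h5.symm)

theorem wildPPower : WildPPower p := by
  intro E hE _ τ hτ
  obtain ⟨m, hm0, hm⟩ := exists_pow_fixes p E τ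
  obtain ⟨n, m', hm', rfl⟩ := Nat.exists_eq_pow_mul_and_not_dvd hm0.ne' p hp.out.ne_one
  refine ⟨n, fun x hx => ?_⟩
  refine eq_of_isWild_of_pow_eq p (isWild_pow p hτ (p ^ n)) hm' ?_
  rw [← pow_mul]
  exact hm x hx

end Fermat.Agent.TW.B5.LG83T
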