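/-
Programme TW (S56), brick B5-LG (local Galois toolkit), part U2 (helper83):
**`unramFixedByInertia : IfaceLG.UnramFixedByInertia p`** — inertia fixes every finite unramified
extension of `ℚ_p` inside `K̄ = PadicAlgCl p` pointwise.

Proof: `p` is a uniformizer of `K₁`, so every integral `x ∈ K₁` has a `p`-adic expansion
`x = c₀ + c₁ p + ⋯ + c_{n-1} p^{n-1} + p^n x_n` with Teichmüller digits `c_i` (zero or roots of unity
of order prime to `p`, `LG83B.exists_teichmuller`); inertial `τ` fixes the digits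
(`LG83B.inertial_fixes_root`), so `‖τ x - x‖ ≤ p^{-n}` for all `n`.
-/
import Mathlib
import Fermat.Agent.TW.B5.IfaceLG
import Fermat.Agent.TW.B5.LG83B

set_option autoImplicit false
set_option linter.style.haveILetI false

open Fermat.Agent.TW.B5.Iface Fermat.Agent.TW.B5.IfaceLG Fermat.Agent.TW.B5.LG83B

namespace Fermat.Agent.TW.B5.LG83U

variable (p : ℕ) [Fact p.Prime]

theorem norm_p : ‖(p : Kbar p)‖ = (p : ℝ)⁻¹ := by
  have h1 : ((p : ℚ_[p]) : Kbar p) = (p : Kbar p) := map_natCast (algebraMap ℚ_[p] (Kbar p)) p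
  rw [← h1, PadicAlgCl.norm_extends, Padic.norm_p]

theorem p_ne_zero : (p : Kbar p) ≠ 0 := by
  intro h
  have := norm_p p
  rw [h, norm_zero] at this
  have hp : (0 : ℝ) < (p : ℝ)⁻¹ := inv_pos.2 (by exact_mod_cast (Fact.out : p.Prime).pos)
  linarith

/-- In an unramified field, elements of norm `< 1` are divisible by `p`. -/
theorem norm_div_p_le_one {K₁ : IntermediateField ℚ_[p] (Kbar p)} (hur : IsUnramifiedField p K₁)
    {z : Kbar p} (hz : z ∈ K₁) (hz1 : ‖z‖ < 1) : ‖z / (p : Kbar p)‖ ≤ 1 := by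
  by_cases h0 : z = 0
  · rw [h0, zero_div, norm_zero]; exact zero_le_one
  obtain ⟨k, hk⟩ := hur z hz h0
  have hp1 : (1 : ℝ) < p := by exact_mod_cast (Fact.out : p.Prime).one_lt
  have hp0 : (0 : ℝ) < p := by linarith
  have hk1 : k < 0 := by
    by_contra hk0
    have : (1 : ℝ) ≤ (p : ℝ) ^ k := one_le_zpow₀ hp1.le (not_lt.1 hk0)
    rw [← hk] at this
    linarith
  have hk2 : (p : ℝ) ^ k ≤ (p : ℝ) ^ (-1 : ℤ) := zpow_le_zpow_right₀ hp1.le (by omega)
  rw [norm_div, norm_p, hk, div_le_one (inv_pos.2 hp0)]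
  simpa using hk2

/-- **(LG-U2)** Inertia fixes every finite unramified extension pointwise. -/
theorem unramFixedByInertia : UnramFixedByInertia p := by
  intro K₁ hfd hur τ hτ
  haveI := hfd
  obtain ⟨m, hm, hT⟩ := exists_teichmuller p K₁
  have hp1 : (1 : ℝ) < p := by exact_mod_cast (Fact.out : p.Prime).one_lt
  have hp0 : (0 : ℝ) < p := by linarith
  have key : ∀ n : ℕ, ∀ x ∈ K₁, ‖x‖ ≤ 1 → ‖τ x - x‖ ≤ ((p : ℝ)⁻¹) ^ n := by
    intro n
    induction n with
    | zero =>
      intro x hx hx1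
      rw [pow_zero]
      exact (hτ x hx1).le
    | succ n ih =>
      intro x hx hx1
      obtain ⟨c, hcK, hc, hxc⟩ := hT x hx hx1
      have hτc : τ c = c := by
        rcases hc with rfl | hc
        · exact map_zero τ
        · exact inertial_fixes_root p hτ hm hc
      have hy := norm_div_p_le_one p hur (K₁.sub_mem hx hcK) hxc
      have hyK : (x - c) / (p : Kbar p) ∈ K₁ := K₁.div_mem (K₁.sub_mem hx hcK) (natCast_mem K₁ p)
      have h1 := ih _ hyK hy
      have h2 : τ x - x = (p : Kbar p) * (τ ((x - c) / (p : Kbar p)) - (x - c) / (p : Kbar p)) := by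
        rw [map_div₀, map_sub, hτc, map_natCast]
        field_simp [p_ne_zero p]
        ring
      rw [h2, norm_mul, norm_p, pow_succ, mul_comm]
      exact mul_le_mul_of_nonneg_right h1 (inv_nonneg.2 hp0.le)
  have hint : ∀ x ∈ K₁, ‖x‖ ≤ 1 → τ x = x := by
    intro x hx hx1
    by_contra hne
    have hpos : 0 < ‖τ x - x‖ := norm_pos_iff.2 (sub_ne_zero.2 hne)
    obtain ⟨n, hn⟩ := exists_pow_lt_of_lt_one hpos (inv_lt_one_of_one_lt₀ hp1)
    exact absurd (key n x hx hx1) (not_le.2 hn)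
  intro x hx
  by_cases hx1 : ‖x‖ ≤ 1
  · exact hint x hx hx1
  · have hx1 := not_le.1 hx1
    have h1 : ‖x⁻¹‖ ≤ 1 := by
      rw [norm_inv]
      exact inv_le_one_of_one_le₀ hx1.le
    have h2 := hint x⁻¹ (K₁.inv_mem hx) h1
    rw [map_inv₀] at h2
    exact inv_injective h2

end Fermat.Agent.TW.B5.LG83U
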