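/-
Programme TW (S56), brick B5-LG (local Galois toolkit), part V (helper83): the two facts which follow
from (U5) `InertiaSurjective`:

* `isFrob_res_iff` : `IsFrob p ℚ_[p] E (res p E φ) ↔ IsFrobLiftOn p E φ` for `E` finite normal;
* **`generatedByFrob_of (h5 : InertiaSurjective p) : GeneratedByFrob p`** (U4);
* **`inertiaFixedUnram_of (h5 : InertiaSurjective p) : InertiaFixedUnram p`** (U1).
-/
import Mathlib
import Fermat.Agent.TW.B5.IfaceLG
import Fermat.Agent.TW.B5.LG83B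
import Fermat.Agent.TW.B5.LG1.Bridge
import Fermat.Agent.TW.B5.LG83W

set_option autoImplicit false
set_option linter.style.haveILetI false
set_option linter.unusedSectionVars false

open scoped Fermat.Agent.PT.LOC.Interface12
open Fermat.Agent.PT.LOC.Interface12 Fermat.Agent.PT.LOC.Structure14
  Fermat.Agent.PT.LOC.StructureNorm14 Fermat.Agent.PT.LOC.Unram11
  Fermat.Agent.TW.B5.Iface Fermat.Agent.TW.B5.IfaceLG

namespace Fermat.Agent.TW.B5.LG83V

open Fermat.Agent.TW.B5.LG1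

noncomputable section

variable (p : ℕ) [Fact p.Prime]

section Frob

variable (E : IntermediateField ℚ_[p] (Kbar p)) [FiniteDimensional ℚ_[p] E] [IsGalois ℚ_[p] E]

/-- Frobenius elements of `Gal(E/ℚ_p)` are the restrictions of the Frobenius lifts on `E`. -/
theorem isFrob_res_iff (φ : Gp p) :
    IsFrob p ℚ_[p] E (Bridge.res p E φ) ↔ IsFrobLiftOn p E φ := by
  rw [Fermat.Agent.PT.LOC.RootsUnity14.isFrob_iff]
  constructor
  · intro h x hx hx1
    have h1 := h ⟨x, hx⟩ ((Bridge.mem_intRing_iff_norm p E _).2 hx1)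
    rw [Bridge.snorm_eq_norm, Bridge.resCard_Qp] at h1
    have h2 : (((Bridge.res p E φ) ⟨x, hx⟩ - (⟨x, hx⟩ : E) ^ p : E) : Kbar p) = φ x - x ^ p := by
      push_cast
      rw [Bridge.res_apply]
    rw [h2] at h1
    exact h1
  · intro h x hx
    rw [Bridge.snorm_eq_norm, Bridge.resCard_Qp]
    have h2 : (((Bridge.res p E φ) x - x ^ p : E) : Kbar p) = φ (x : Kbar p) - (x : Kbar p) ^ p := by
      push_cast
      rw [Bridge.res_apply]
    rw [h2]
    exact h x x.2 ((Bridge.mem_intRing_iff_norm p E x).1 hx)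

end Frob

/-- **(LG-U4)**, from (U5): at every finite normal level, `G_p` is generated by inertia and one
Frobenius lift. -/
theorem generatedByFrob_of (h5 : InertiaSurjective p) : GeneratedByFrob p := by
  intro E hfd hN φ hφ g
  haveI := hfd
  haveI : IsGalois ℚ_[p] E := Bridge.isGalois_of_isNormalField p hN
  have hφ' : IsFrob p ℚ_[p] E (Bridge.res p E φ) := (isFrob_res_iff p E φ).2 hφ
  have h1 : redHom p ℚ_[p] E (Bridge.res p E φ) = resFrob p ℚ_[p] E :=
    (redHom_eq_resFrob_iff_isFrob p ℚ_[p] E _).2 hφ'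
  obtain ⟨j, hj⟩ := (FiniteField.bijective_frobeniusAlgEquivOfAlgebraic_pow (resF p ℚ_[p])
    (resF p E)).2 (redHom p ℚ_[p] E (Bridge.res p E g))
  have hj' : resFrob p ℚ_[p] E ^ j.1 = redHom p ℚ_[p] E (Bridge.res p E g) := hj
  have h2 : redHom p ℚ_[p] E (Bridge.res p E ((φ ^ j.1)⁻¹ * g)) = 1 := by
    rw [map_mul, map_inv, map_pow, map_mul, map_inv, map_pow, h1, ← hj', inv_mul_cancel]
  have h3 := (Bridge.redHom_res_eq_one_iff p E _).1 h2
  obtain ⟨τ, hτ, hτE⟩ := h5 E hfd hN ((φ ^ j.1)⁻¹ * g) h3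
  refine ⟨j.1, τ, hτ, fun x hx => ?_⟩
  rw [hτE x hx, AlgEquiv.mul_apply]
  exact ((φ ^ j.1).apply_symm_apply (g x)).symm

/-- If `σ` fixes `c` and `y ≡ c`, then `σ y ≡ y`. -/
theorem norm_apply_sub_lt_of_fixes {σ : Gp p} {y c : Kbar p} (hσc : σ c = c)
    (hyc : ‖y - c‖ < 1) : ‖σ y - y‖ < 1 := by
  have h1 : σ y - y = σ (y - c) + (-(y - c)) := by rw [map_sub, hσc]; abel
  rw [h1]
  have h2 : ‖σ (y - c)‖ < 1 := by
    rw [LG83B.norm_gal]
    exact hyc
  have h3 : ‖-(y - c)‖ < 1 := by rw [norm_neg]; exact hyc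
  exact lt_of_le_of_lt (PadicAlgCl.isNonarchimedean p _ _) (max_lt h2 h3)

/-- **(LG-U1)**, from (U5): an element fixed by all of inertia lies in a finite unramified extension
of `ℚ_p`, namely in some `ℚ_p(μ_m)`, `p ∤ m`. -/
theorem inertiaFixedUnram_of (h5 : InertiaSurjective p) : InertiaFixedUnram p := by
  intro x hx
  haveI hfd0 := LG83B.finiteDimensional_adjoin_singleton p x
  have hxL : x ∈ LG83B.nc p (IntermediateField.adjoin ℚ_[p] {x}) :=
    LG83B.le_nc p _ (IntermediateField.mem_adjoin_simple_self ℚ_[p] x)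
  obtain ⟨m, hm, hT⟩ := LG83B.exists_teichmuller p (LG83B.nc p (IntermediateField.adjoin ℚ_[p] {x}))
  refine ⟨LG83W.muField p m, LG83W.finiteDimensional_muField p (LG83W.ne_zero_of_not_dvd p hm),
    LG83W.isUnramifiedField_muField p hm, ?_⟩
  rw [← InfiniteGalois.fixedField_fixingSubgroup (LG83W.muField p m),
    IntermediateField.mem_fixedField_iff]
  intro σ hσ
  have hσ' : ∀ ζ : Kbar p, ζ ^ m = 1 → σ ζ = ζ := fun ζ hζ =>
    (IntermediateField.mem_fixingSubgroup_iff _ σ).1 hσ ζ (LG83W.mem_muField p hζ)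
  have hin : ∀ y ∈ LG83B.nc p (IntermediateField.adjoin ℚ_[p] {x}), ‖y‖ ≤ 1 → ‖σ y - y‖ < 1 := by
    intro y hy hy1
    obtain ⟨c, -, hc, hyc⟩ := hT y hy hy1
    have hσc : σ c = c := by
      rcases hc with rfl | hc
      · exact map_zero σ
      · exact hσ' c hc
    exact norm_apply_sub_lt_of_fixes p hσc hyc
  obtain ⟨τ, hτ, hτL⟩ := h5 (LG83B.nc p (IntermediateField.adjoin ℚ_[p] {x})) inferInstance
    (LG83B.isNormalField_nc p _) σ hin
  rw [← hτL x hxL]
  exact hx τ hτ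

end

end Fermat.Agent.TW.B5.LG83V
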