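/-
Programme TW (S56), brick B5-LG (local Galois toolkit), part X (helper83):
**`inertiaSurjective : IfaceLG.InertiaSurjective p`** (U5) and the assembled
**`toolkit : IfaceLG.Toolkit p`**.

Proof of (U5).  Let `K_ur = ⨆_{p ∤ m} ℚ_p(μ_m) ⊆ K̄` and `H = Gal(K̄/K_ur)`.
* every `σ ∈ H` is inertial (`LG83B.isInertial_of_fixes_roots`);
* if `g` acts trivially on the residue field of the finite normal `E`, then `g` fixes
  `E ⊓ ℚ_p(μ_m)` pointwise (`p`-adic expansions with Teichmüller digits, as for (U2));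
* hence `g|_E` fixes the fixed field `E ⊓ K_ur` of the image `H_E` of `H` in `Gal(E/ℚ_p)`, so
  `g|_E ∈ H_E` by the (finite) Galois correspondence.
-/
import Mathlib
import Fermat.Agent.TW.B5.IfaceLG
import Fermat.Agent.TW.B5.LG83B
import Fermat.Agent.TW.B5.LG83T
import Fermat.Agent.TW.B5.LG83U
import Fermat.Agent.TW.B5.LG83V
import Fermat.Agent.TW.B5.LG83W

set_option autoImplicit false
set_option linter.style.haveILetI false
set_option linter.unusedSectionVars false

open Fermat.Agent.TW.B5.Iface Fermat.Agent.TW.B5.IfaceLG Fermat.Agent.TW.B5.LG83B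
  Fermat.Agent.TW.B5.LG83W

namespace Fermat.Agent.TW.B5.LG83X

noncomputable section

variable (p : ℕ) [Fact p.Prime]

/-- (U2), finite-level form: an element of `G_p` acting trivially on the residue field of a finite
unramified `K₁` fixes `K₁` pointwise. -/
theorem fixes_of_inertialOn (K₁ : IntermediateField ℚ_[p] (Kbar p)) [FiniteDimensional ℚ_[p] K₁]
    (hur : IsUnramifiedField p K₁) (τ : Gp p)
    (hτ : ∀ x ∈ K₁, ‖x‖ ≤ 1 → ‖τ x - x‖ < 1) : ∀ x ∈ K₁, τ x = x := by
  obtain ⟨m, hm, hT⟩ := exists_teichmuller p K₁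
  have hm0 : m ≠ 0 := LG83W.ne_zero_of_not_dvd p hm
  have hp1 : (1 : ℝ) < p := by exact_mod_cast (Fact.out : p.Prime).one_lt
  have hp0 : (0 : ℝ) < p := by linarith
  have key : ∀ n : ℕ, ∀ x ∈ K₁, ‖x‖ ≤ 1 → ‖τ x - x‖ ≤ ((p : ℝ)⁻¹) ^ n := by
    intro n
    induction n with
    | zero =>
      intro x hx hx1
      rw [pow_zero]
      exact (hτ x hx hx1).le
    | succ n ih =>
      intro x hx hx1
      obtain ⟨c, hcK, hc, hxc⟩ := hT x hx hx1
      have hτc : τ c = c := by
        rcases hc with rfl | hc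
        · exact map_zero τ
        · have h1 : ‖c‖ = 1 := by
            have h2 : ‖c‖ ^ m = 1 := by rw [← norm_pow, hc, norm_one]
            exact (pow_eq_one_iff_of_nonneg (norm_nonneg _) hm0).1 h2
          refine eq_of_norm_sub_lt_one p hm ?_ hc (hτ c hcK h1.le)
          rw [← map_pow, hc, map_one]
      have hy := LG83U.norm_div_p_le_one p hur (K₁.sub_mem hx hcK) hxc
      have hyK : (x - c) / (p : Kbar p) ∈ K₁ := K₁.div_mem (K₁.sub_mem hx hcK) (natCast_mem K₁ p)
      have h1 := ih _ hyK hy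
      have h2 : τ x - x = (p : Kbar p) * (τ ((x - c) / (p : Kbar p)) - (x - c) / (p : Kbar p)) := by
        rw [map_div₀, map_sub, hτc, map_natCast]
        field_simp [LG83U.p_ne_zero p]
        ring
      rw [h2, norm_mul, LG83U.norm_p, pow_succ, mul_comm]
      exact mul_le_mul_of_nonneg_right h1 (inv_nonneg.2 hp0.le)
  have hint : ∀ x ∈ K₁, ‖x‖ ≤ 1 → τ x = x := by
    intro x hx hx1
    by_contra hne
    have hpos : 0 < ‖τ x - x‖ := norm_pos_iff.2 (sub_ne_zero.2 hne)
    obtain ⟨n, hn⟩ := exists_pow_lt_of_lt_one hpos (inv_lt_one_of_one_lt₀ hp1)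
    exact absurd (key n x hx hx1) (not_le.2 hn)
  intro x hx
  by_cases hx1 : ‖x‖ ≤ 1
  · exact hint x hx hx1
  · have hx1 := not_le.1 hx1
    have h1 : ‖x⁻¹‖ ≤ 1 := by
      rw [norm_inv]
      exact inv_le_one_of_one_le₀ hx1.le
    have h2 := hint x⁻¹ (K₁.inv_mem hx) h1
    rw [map_inv₀] at h2
    exact inv_injective h2

/-- Rigidity: `g` acting trivially on the residue field of the finite `E` fixes
`E ⊓ ℚ_p(μ_m)` pointwise, `p ∤ m`. -/
theorem fixes_inf_muField (E : IntermediateField ℚ_[p] (Kbar p)) [FiniteDimensional ℚ_[p] E]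
    (g : Gp p) (hg : ∀ x ∈ E, ‖x‖ ≤ 1 → ‖g x - x‖ < 1) {m : ℕ} (hm : ¬ p ∣ m) {y : Kbar p}
    (hyE : y ∈ E) (hyU : y ∈ muField p m) : g y = y := by
  have hur : IsUnramifiedField p (E ⊓ muField p m) := fun x hx hx0 =>
    isUnramifiedField_muField p hm x hx.2 hx0
  exact fixes_of_inertialOn p (E ⊓ muField p m) hur g (fun x hx hx1 => hg x hx.1 hx1) y
    ⟨hyE, hyU⟩

/-! ### The maximal unramified extension -/

/-- `K_ur`, the field generated by all roots of unity of order prime to `p`. -/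
def Kur : IntermediateField ℚ_[p] (Kbar p) :=
  ⨆ m : {m : ℕ // ¬ p ∣ m}, muField p m.1

theorem muField_le_of_dvd {a b : ℕ} (h : a ∣ b) : muField p a ≤ muField p b := by
  apply IntermediateField.adjoin.mono
  intro ζ hζ
  obtain ⟨c, rfl⟩ := h
  show ζ ^ (a * c) = 1
  have hζ' : ζ ^ a = 1 := hζ
  rw [pow_mul, hζ', one_pow]

theorem directed_muField :
    Directed (· ≤ ·) (fun m : {m : ℕ // ¬ p ∣ m} => muField p m.1) := by
  intro a b
  refine ⟨⟨a.1 * b.1, ?_⟩, muField_le_of_dvd p (dvd_mul_right _ _),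
    muField_le_of_dvd p (dvd_mul_left _ _)⟩
  intro h
  rcases (Nat.Prime.dvd_mul (Fact.out : p.Prime)).1 h with h | h
  · exact a.2 h
  · exact b.2 h

theorem mem_Kur_iff (y : Kbar p) : y ∈ Kur p ↔ ∃ m : ℕ, ¬ p ∣ m ∧ y ∈ muField p m := by
  haveI : Nonempty {m : ℕ // ¬ p ∣ m} := ⟨⟨1, (Fact.out : p.Prime).one_lt.ne' ∘ Nat.dvd_one.1⟩⟩
  rw [Kur, ← SetLike.mem_coe, IntermediateField.coe_iSup_of_directed (directed_muField p),
    Set.mem_iUnion]
  constructor
  · rintro ⟨m, hm⟩
    exact ⟨m.1, m.2, hm⟩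
  · rintro ⟨m, hm, hy⟩
    exact ⟨⟨m, hm⟩, hy⟩

/-- Elements of `Gal(K̄/K_ur)` are inertial. -/
theorem isInertial_of_mem_fixingSubgroup {σ : Gp p} (hσ : σ ∈ (Kur p).fixingSubgroup) :
    IsInertial p σ := by
  apply isInertial_of_fixes_roots
  intro m ζ hm hζ
  exact (IntermediateField.mem_fixingSubgroup_iff _ σ).1 hσ ζ
    ((mem_Kur_iff p ζ).2 ⟨m, hm, mem_muField p hζ⟩)

/-- **(LG-U5)** Inertia surjects onto the inertia groups of the finite levels. -/
theorem inertiaSurjective : InertiaSurjective p := by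
  intro E hfd hN g hg
  haveI := hfd
  haveI : Normal ℚ_[p] E := normal_of_isNormalField p hN
  -- the image of `H = Gal(K̄/K_ur)` in `Gal(E/ℚ_p)`
  set HE : Subgroup (E ≃ₐ[ℚ_[p]] E) :=
    Subgroup.map (AlgEquiv.restrictNormalHom E) (Kur p).fixingSubgroup with hHE
  have hmem : AlgEquiv.restrictNormalHom E g ∈ HE := by
    rw [← IntermediateField.fixingSubgroup_fixedField HE, IntermediateField.mem_fixingSubgroup_iff]
    intro y hy
    have h1 : (y : Kbar p) ∈ IntermediateField.fixedField (Kur p).fixingSubgroup ⊓ E := by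
      rw [InfiniteGalois.restrict_fixedField]
      exact (IntermediateField.mem_lift y).2 hy
    rw [InfiniteGalois.fixedField_fixingSubgroup] at h1
    obtain ⟨m, hm, hyU⟩ := (mem_Kur_iff p _).1 h1.1
    apply Subtype.ext
    rw [AlgEquiv.restrictNormalHom_apply]
    exact fixes_inf_muField p E g hg hm y.2 hyU
  obtain ⟨σ, hσ, hσg⟩ := hmem
  refine ⟨σ, isInertial_of_mem_fixingSubgroup p hσ, fun x hx => ?_⟩
  have h2 := DFunLike.congr_fun hσg ⟨x, hx⟩
  have h3 := congrArg Subtype.val h2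
  rw [AlgEquiv.restrictNormalHom_apply, AlgEquiv.restrictNormalHom_apply] at h3
  exact h3

/-- **The local Galois toolkit.** -/
theorem toolkit : Toolkit p where
  inertiaFixedUnram := LG83V.inertiaFixedUnram_of p (inertiaSurjective p)
  unramFixedByInertia := LG83U.unramFixedByInertia p
  existsFrobLift := LG83B.existsFrobLift p
  generatedByFrob := LG83V.generatedByFrob_of p (inertiaSurjective p)
  inertiaSurjective := inertiaSurjective p
  frobConjWild := LG83T.frobConjWild p
  wildPPower := LG83T.wildPPower p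
  commutatorWild := LG83T.commutatorWild p
  tameSymbolNorm := LG83T.tameSymbolNorm p
  cycloTameSymbol := LG83T.cycloTameSymbol p

end

end Fermat.Agent.TW.B5.LG83X
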