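/-
Programme TW (S56), brick B5-CT (the count), leaf CT-2a (helper47): KUMMER BASICS in the local model
`K̄ = PadicAlgCl p`, `G_p = Gal(K̄/ℚ_p)`.

For an intermediate field `F ∋ ζ` (`ζ` a primitive `p`-th root of unity) and `h : G_p → ZMod p`,
`IsKummer F ζ h a` says that `h` restricted to `G_F = Gal(K̄/F)` is the Kummer character of `a`:
`τ α = ζ ^ h τ · α` for every `p`-th root `α` of `a`.

* `exists_isKummer`  : every finite-level function `h`, additive on `G_F`, is a Kummer character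
                       (Hilbert 90, `PT/BR/InfGalois13.hilbert90_level`);
* `isKummer_unique`  : `a` is unique up to `p`-th powers of `Fˣ`;
* `IsKummer.mul/pow_mul/conj` : products, `p`-th powers, Galois transport.
-/
import Mathlib
import Fermat.Agent.PT.BR.InfGalois13
import Fermat.Agent.TW.B5.IfaceLG

set_option autoImplicit false
set_option linter.unusedSectionVars false
set_option linter.style.haveILetI false

namespace Fermat.Agent.TW.B5.Kummer47

open Fermat.Agent.TW.B5.Iface Fermat.Agent.TW.B5.IfaceLG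

variable {p : ℕ} [hp : Fact p.Prime]

/-- `ζ` is a primitive `p`-th root of unity (elementary form). -/
def IsPrimRoot (ζ : Kbar p) : Prop := ζ ^ p = 1 ∧ ζ ≠ 1

theorem IsPrimRoot.isPrimitiveRoot {ζ : Kbar p} (h : IsPrimRoot ζ) : IsPrimitiveRoot ζ p :=
  IsPrimitiveRoot.iff_orderOf.2 (orderOf_eq_prime h.1 h.2)

theorem IsPrimRoot.ne_zero {ζ : Kbar p} (h : IsPrimRoot ζ) : ζ ≠ 0 := by
  intro h0
  have := h.1
  rw [h0, zero_pow hp.out.ne_zero] at this
  exact zero_ne_one this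

/-- `ζ ^ n` only depends on `n` modulo `p`. -/
theorem pow_eq_of_modEq {ζ : Kbar p} (h : IsPrimRoot ζ) {m n : ℕ} (hmn : m ≡ n [MOD p]) :
    ζ ^ m = ζ ^ n :=
  pow_eq_pow_of_modEq hmn h.1

theorem pow_val_add {ζ : Kbar p} (h : IsPrimRoot ζ) (a b : ZMod p) :
    ζ ^ (a + b).val = ζ ^ a.val * ζ ^ b.val := by
  rw [← pow_add]
  apply pow_eq_of_modEq h
  rw [ZMod.val_add]
  exact Nat.mod_modEq _ _

theorem pow_val_mul {ζ : Kbar p} (h : IsPrimRoot ζ) (a b : ZMod p) :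
    ζ ^ (a * b).val = (ζ ^ a.val) ^ b.val := by
  rw [← pow_mul]
  apply pow_eq_of_modEq h
  rw [ZMod.val_mul]
  exact Nat.mod_modEq _ _

theorem pow_val_natCast {ζ : Kbar p} (h : IsPrimRoot ζ) (n : ℕ) :
    ζ ^ ((n : ZMod p)).val = ζ ^ n := by
  apply pow_eq_of_modEq h
  rw [ZMod.val_natCast]
  exact Nat.mod_modEq _ _

theorem pow_val_injective {ζ : Kbar p} (h : IsPrimRoot ζ) {a b : ZMod p}
    (hab : ζ ^ a.val = ζ ^ b.val) : a = b := by
  have h1 := h.isPrimitiveRoot.pow_inj (ZMod.val_lt a) (ZMod.val_lt b) hab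
  exact ZMod.val_injective p h1

/-- Every `p`-th root of unity is a power of `ζ`. -/
theorem exists_pow_eq {ζ μ : Kbar p} (h : IsPrimRoot ζ) (hμ : μ ^ p = 1) : ∃ i : ℕ, ζ ^ i = μ := by
  haveI : NeZero p := ⟨hp.out.ne_zero⟩
  obtain ⟨i, -, hi⟩ := h.isPrimitiveRoot.eq_pow_of_pow_eq_one hμ
  exact ⟨i, hi⟩

/-- `h` restricted to `G_F` is the Kummer character of `a` with respect to `ζ`. -/
def IsKummer (F : IntermediateField ℚ_[p] (Kbar p)) (ζ : Kbar p) (h : Gp p → ZMod p)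
    (a : Kbar p) : Prop :=
  ∀ α : Kbar p, α ^ p = a → ∀ τ ∈ F.fixingSubgroup, τ α = ζ ^ (h τ).val * α

section Basic

variable {F : IntermediateField ℚ_[p] (Kbar p)} {ζ : Kbar p}

theorem mem_of_fixed (x : Kbar p) (hx : ∀ τ ∈ F.fixingSubgroup, τ x = x) : x ∈ F := by
  have h := InfiniteGalois.fixedField_fixingSubgroup (k := ℚ_[p]) (K := Kbar p) F
  rw [← h]
  intro τ
  exact hx τ.1 τ.2

theorem fixes_of_mem {x : Kbar p} (hx : x ∈ F) {τ : Gp p} (hτ : τ ∈ F.fixingSubgroup) : τ x = x :=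
  (IntermediateField.mem_fixingSubgroup_iff F τ).1 hτ x hx

/-- One `p`-th root suffices to check the Kummer relation. -/
theorem isKummer_of_root (hζ : IsPrimRoot ζ) (hζF : ζ ∈ F) {h : Gp p → ZMod p} {a β : Kbar p}
    (hβ : β ^ p = a) (ha : a ≠ 0)
    (hrel : ∀ τ ∈ F.fixingSubgroup, τ β = ζ ^ (h τ).val * β) : IsKummer F ζ h a := by
  intro α hα τ hτ
  have hβ0 : β ≠ 0 := by
    intro h0
    rw [h0, zero_pow hp.out.ne_zero] at hβ
    exact ha hβ.symm
  have hμ : (α / β) ^ p = 1 := by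
    rw [div_pow, hα, hβ, div_self ha]
  obtain ⟨i, hi⟩ := exists_pow_eq hζ hμ
  have hαβ : α = ζ ^ i * β := by
    rw [hi, div_mul_cancel₀ _ hβ0]
  have hτζ : τ ζ = ζ := fixes_of_mem hζF hτ
  rw [hαβ, map_mul, map_pow, hτζ, hrel τ hτ]
  ring

theorem IsKummer.mul (hζ : IsPrimRoot ζ) (hζF : ζ ∈ F) {h h' : Gp p → ZMod p} {a a' : Kbar p}
    (ha : a ≠ 0) (ha' : a' ≠ 0) (hk : IsKummer F ζ h a) (hk' : IsKummer F ζ h' a') :
    IsKummer F ζ (fun τ => h τ + h' τ) (a * a') := by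
  obtain ⟨α, hα⟩ := IsAlgClosed.exists_pow_nat_eq a hp.out.pos
  obtain ⟨α', hα'⟩ := IsAlgClosed.exists_pow_nat_eq a' hp.out.pos
  refine isKummer_of_root hζ hζF (β := α * α') (by rw [mul_pow, hα, hα']) (mul_ne_zero ha ha') ?_
  intro τ hτ
  rw [map_mul, hk α hα τ hτ, hk' α' hα' τ hτ, pow_val_add hζ]
  ring

theorem IsKummer.pow_mul (hζ : IsPrimRoot ζ) (hζF : ζ ∈ F) {h : Gp p → ZMod p} {a b : Kbar p}
    (ha : a ≠ 0) (hb : b ≠ 0) (hbF : b ∈ F) (hk : IsKummer F ζ h a) :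
    IsKummer F ζ h (a * b ^ p) := by
  obtain ⟨α, hα⟩ := IsAlgClosed.exists_pow_nat_eq a hp.out.pos
  refine isKummer_of_root hζ hζF (β := α * b) (by rw [mul_pow, hα])
    (mul_ne_zero ha (pow_ne_zero _ hb)) ?_
  intro τ hτ
  rw [map_mul, hk α hα τ hτ, fixes_of_mem hbF hτ]
  ring

theorem isKummer_zero_pow (hζ : IsPrimRoot ζ) (hζF : ζ ∈ F) {b : Kbar p} (hb : b ≠ 0)
    (hbF : b ∈ F) : IsKummer F ζ (fun _ => 0) (b ^ p) := by
  refine isKummer_of_root hζ hζF (β := b) rfl (pow_ne_zero _ hb) ?_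
  intro τ hτ
  rw [fixes_of_mem hbF hτ]
  simp

/-- Uniqueness of the Kummer generator up to `p`-th powers. -/
theorem isKummer_unique (hζ : IsPrimRoot ζ) {h : Gp p → ZMod p} {a a' : Kbar p}
    (ha : a ≠ 0) (ha' : a' ≠ 0) (hk : IsKummer F ζ h a) (hk' : IsKummer F ζ h a') :
    ∃ b ∈ F, b ≠ 0 ∧ a = a' * b ^ p := by
  obtain ⟨α, hα⟩ := IsAlgClosed.exists_pow_nat_eq a hp.out.pos
  obtain ⟨α', hα'⟩ := IsAlgClosed.exists_pow_nat_eq a' hp.out.pos
  have hα0 : α ≠ 0 := by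
    intro h0
    rw [h0, zero_pow hp.out.ne_zero] at hα
    exact ha hα.symm
  have hα'0 : α' ≠ 0 := by
    intro h0
    rw [h0, zero_pow hp.out.ne_zero] at hα'
    exact ha' hα'.symm
  refine ⟨α / α', mem_of_fixed _ ?_, div_ne_zero hα0 hα'0, ?_⟩
  · intro τ hτ
    rw [map_div₀, hk α hα τ hτ, hk' α' hα' τ hτ]
    have hz : ζ ^ (h τ).val ≠ 0 := pow_ne_zero _ hζ.ne_zero
    field_simp
  · rw [div_pow, hα, hα']
    field_simp

/-- Two functions with the same Kummer generator agree on `G_F`. -/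
theorem isKummer_eq_on (hζ : IsPrimRoot ζ) {h h' : Gp p → ZMod p} {a : Kbar p} (ha : a ≠ 0)
    (hk : IsKummer F ζ h a) (hk' : IsKummer F ζ h' a) : ∀ τ ∈ F.fixingSubgroup, h τ = h' τ := by
  intro τ hτ
  obtain ⟨α, hα⟩ := IsAlgClosed.exists_pow_nat_eq a hp.out.pos
  have hα0 : α ≠ 0 := by
    intro h0
    rw [h0, zero_pow hp.out.ne_zero] at hα
    exact ha hα.symm
  have h1 := hk α hα τ hτ
  rw [hk' α hα τ hτ] at h1
  exact (pow_val_injective hζ (mul_right_cancel₀ hα0 h1)).symm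

/-- Galois transport of Kummer characters: if `g ζ = ζ ^ w` and `g` normalises `G_F`, then
`τ ↦ w * h (g⁻¹ τ g)` is the Kummer character of `g a`. -/
theorem IsKummer.conj (hζ : IsPrimRoot ζ) (hζF : ζ ∈ F) {h : Gp p → ZMod p} {a : Kbar p}
    (ha : a ≠ 0) (hk : IsKummer F ζ h a) (g : Gp p) (w : ℕ) (hw : g ζ = ζ ^ w)
    (hnorm : ∀ τ ∈ F.fixingSubgroup, g⁻¹ * τ * g ∈ F.fixingSubgroup) :
    IsKummer F ζ (fun τ => (w : ZMod p) * h (g⁻¹ * τ * g)) (g a) := by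
  obtain ⟨α, hα⟩ := IsAlgClosed.exists_pow_nat_eq a hp.out.pos
  refine isKummer_of_root hζ hζF (β := g α) (by rw [← map_pow, hα])
    (by simpa using ha) ?_
  intro τ hτ
  have h1 := hk α hα _ (hnorm τ hτ)
  have h2 : τ (g α) = g ((g⁻¹ * τ * g) α) := by
    simp [AlgEquiv.mul_apply]
  have h3 : ζ ^ ((w : ZMod p) * h (g⁻¹ * τ * g)).val = (ζ ^ w) ^ (h (g⁻¹ * τ * g)).val := by
    rw [← _root_.pow_mul]
    apply pow_eq_of_modEq hζ
    rw [ZMod.val_mul, ZMod.val_natCast]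
    exact (Nat.mod_modEq _ _).trans (Nat.ModEq.mul_right _ (Nat.mod_modEq _ _))
  rw [h2, h1, map_mul, map_pow, hw, h3]

end Basic

section Existence

variable {F : IntermediateField ℚ_[p] (Kbar p)} {ζ : Kbar p}

/-- **Kummer theory (existence).**  A finite-level function `h : G_p → ZMod p` which is additive on
`G_F` is the Kummer character of some `a ∈ Fˣ`. -/
theorem exists_isKummer (hζ : IsPrimRoot ζ) (hζF : ζ ∈ F) [FiniteDimensional ℚ_[p] F]
    (h : Gp p → ZMod p)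
    (hadd : ∀ σ ∈ F.fixingSubgroup, ∀ τ ∈ F.fixingSubgroup, h (σ * τ) = h σ + h τ)
    (hlev : ∃ E : IntermediateField ℚ_[p] (Kbar p), FiniteDimensional ℚ_[p] E ∧
      ∀ σ τ : Gp p, (∀ x ∈ E, τ x = x) → h (σ * τ) = h σ) :
    ∃ a ∈ F, a ≠ 0 ∧ IsKummer F ζ h a := by
  obtain ⟨E, hE, hlevE⟩ := hlev
  haveI := hE
  let E' : IntermediateField ℚ_[p] (Kbar p) := E ⊔ F
  haveI : FiniteDimensional ℚ_[p] E' := IntermediateField.finiteDimensional_sup E F
  have hζu : IsUnit ζ := isUnit_iff_ne_zero.2 hζ.ne_zero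
  let c : Gp p → (Kbar p)ˣ := fun τ => (hζu.unit) ^ (h τ).val
  have hc : ∀ τ, ((c τ : (Kbar p)ˣ) : Kbar p) = ζ ^ (h τ).val := by
    intro τ
    simp [c]
  obtain ⟨β, hβ⟩ := Fermat.Agent.PT.BR.InfGalois13.hilbert90_level (K := ℚ_[p]) (Ω := Kbar p)
    F.fixingSubgroup E' c
    (fun g s hs => by
      have hs' : ∀ x ∈ E, s x = x := fun x hx =>
        (IntermediateField.mem_fixingSubgroup_iff E' s).1 hs x
          ((le_sup_left : E ≤ E') hx)
      simp only [c]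
      rw [hlevE g s hs'])
    (fun g => by
      rw [hc]
      exact pow_mem ((le_sup_right : F ≤ E') hζF) (h g).val)
    (fun n hn n' hn' => by
      apply Units.ext
      rw [Units.val_mul, hc, hc]
      have : ((n • c n' : (Kbar p)ˣ) : Kbar p) = n (c n' : Kbar p) := rfl
      rw [this, hc, map_pow, fixes_of_mem hζF hn, hadd n hn n' hn', pow_val_add hζ, mul_comm])
  have hrel : ∀ τ ∈ F.fixingSubgroup, τ (β : Kbar p) = ζ ^ (h τ).val * β := by
    intro τ hτ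
    have h1 := congrArg (fun u : (Kbar p)ˣ => (u : Kbar p)) (hβ τ hτ)
    simp only [hc, Units.val_div_eq_div_val] at h1
    have h2 : ((τ • β : (Kbar p)ˣ) : Kbar p) = τ (β : Kbar p) := rfl
    rw [h2] at h1
    rw [h1, div_mul_cancel₀ _ β.ne_zero]
  refine ⟨(β : Kbar p) ^ p, mem_of_fixed _ ?_, pow_ne_zero _ β.ne_zero,
    isKummer_of_root hζ hζF rfl (pow_ne_zero _ β.ne_zero) hrel⟩
  intro τ hτ
  have h1 : (ζ ^ (h τ).val) ^ p = 1 := by rw [← pow_mul, mul_comm, pow_mul, hζ.1, one_pow]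
  rw [map_pow, hrel τ hτ, mul_pow, h1, one_mul]

end Existence

end Fermat.Agent.TW.B5.Kummer47
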