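/-
Programme TW (S56), brick B5-CT (the count), leaf (FF) (helper47): FIXED FIELDS OF OPEN NORMAL SUBGROUPS
of `G_p = Gal(K̄/ℚ_p)`.

* `fixedF N`                     : the fixed field of a subgroup `N ≤ G_p`;
* `fixedF_le`, `finiteDimensional_fixedF` : `fixedF N ≤ E` and finiteness when `G_E ≤ N`, `E` finite;
* `isNormalField_fixedF`         : `fixedF N` is `G_p`-stable for normal `N`;
* `fixingSubgroup_fixedF`        : `G_{fixedF N} = N` when `N` contains some `G_E`, `E` finite;
* `exists_normal_finite_ge`      : every finite `E` is contained in a finite normal `E'`.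
-/
import Mathlib
import Fermat.Agent.TW.B5.Kummer47

set_option autoImplicit false
set_option linter.unusedSectionVars false
set_option linter.style.haveILetI false

namespace Fermat.Agent.TW.B5.FixedField47

open Fermat.Agent.TW.B5.Iface Fermat.Agent.TW.B5.IfaceLG Fermat.Agent.TW.B5.Kummer47

variable {p : ℕ} [hp : Fact p.Prime]

/-- The fixed field of a subgroup of `G_p`. -/
noncomputable def fixedF (N : Subgroup (Gp p)) : IntermediateField ℚ_[p] (Kbar p) :=
  IntermediateField.fixedField N

theorem mem_fixedF {N : Subgroup (Gp p)} {x : Kbar p} : x ∈ fixedF N ↔ ∀ τ ∈ N, τ x = x := by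
  constructor
  · intro h τ hτ
    exact h ⟨τ, hτ⟩
  · intro h τ
    exact h τ.1 τ.2

theorem fixedF_le (N : Subgroup (Gp p)) (E : IntermediateField ℚ_[p] (Kbar p))
    (hE : E.fixingSubgroup ≤ N) : fixedF N ≤ E := by
  intro x hx
  exact mem_of_fixed x fun τ hτ => mem_fixedF.1 hx τ (hE hτ)

theorem finiteDimensional_fixedF (N : Subgroup (Gp p)) (E : IntermediateField ℚ_[p] (Kbar p))
    [FiniteDimensional ℚ_[p] E] (hE : E.fixingSubgroup ≤ N) :
    FiniteDimensional ℚ_[p] (fixedF N) := by
  have hle := fixedF_le N E hE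
  exact FiniteDimensional.of_injective (IntermediateField.inclusion hle).toLinearMap
    (IntermediateField.inclusion hle).injective

theorem isNormalField_fixedF (N : Subgroup (Gp p)) [hN : N.Normal] : IsNormalField p (fixedF N) := by
  intro τ x hx
  rw [mem_fixedF] at hx ⊢
  intro n hn
  have h1 : τ⁻¹ * n * τ ∈ N := by
    have := hN.conj_mem n hn τ⁻¹
    simpa using this
  have h2 := hx _ h1
  simp only [AlgEquiv.mul_apply] at h2
  have h3 : τ (τ⁻¹ (n (τ x))) = τ x := congrArg τ h2
  rwa [show τ (τ⁻¹ (n (τ x))) = n (τ x) from τ.apply_symm_apply _] at h3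

theorem le_fixingSubgroup_fixedF (N : Subgroup (Gp p)) : N ≤ (fixedF N).fixingSubgroup := by
  intro τ hτ
  rw [IntermediateField.mem_fixingSubgroup_iff]
  intro x hx
  exact mem_fixedF.1 hx τ hτ

theorem fixingSubgroup_fixedF (N : Subgroup (Gp p)) (E : IntermediateField ℚ_[p] (Kbar p))
    [FiniteDimensional ℚ_[p] E] (hE : E.fixingSubgroup ≤ N) : (fixedF N).fixingSubgroup = N := by
  have hopen : IsOpen (N : Set (Gp p)) :=
    Subgroup.isOpen_mono hE (IntermediateField.fixingSubgroup_isOpen E)
  have hclosed : IsClosed (N : Set (Gp p)) := Subgroup.isClosed_of_isOpen N hopen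
  exact InfiniteGalois.fixingSubgroup_fixedField (k := ℚ_[p]) (K := Kbar p) ⟨N, hclosed⟩

theorem mem_iff_of_fixedF (N : Subgroup (Gp p)) (E : IntermediateField ℚ_[p] (Kbar p))
    [FiniteDimensional ℚ_[p] E] (hE : E.fixingSubgroup ≤ N) (τ : Gp p) :
    τ ∈ N ↔ ∀ x ∈ fixedF N, τ x = x := by
  rw [← fixingSubgroup_fixedF N E hE, IntermediateField.mem_fixingSubgroup_iff]
  rw [fixingSubgroup_fixedF N E hE]

/-- Every finite `E` lies in a finite normal field. -/
theorem exists_normal_finite_ge (E : IntermediateField ℚ_[p] (Kbar p))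
    [FiniteDimensional ℚ_[p] E] : ∃ E' : IntermediateField ℚ_[p] (Kbar p), E ≤ E' ∧
      FiniteDimensional ℚ_[p] E' ∧ IsNormalField p E' := by
  refine ⟨IntermediateField.normalClosure ℚ_[p] E (Kbar p), E.le_normalClosure, inferInstance, ?_⟩
  intro τ x hx
  have hnorm : Normal ℚ_[p] (IntermediateField.normalClosure ℚ_[p] E (Kbar p)) := inferInstance
  have h := (IntermediateField.normal_iff_forall_map_le'
    (K := IntermediateField.normalClosure ℚ_[p] E (Kbar p))).1 hnorm τ
  exact h ⟨x, hx, rfl⟩

end Fermat.Agent.TW.B5.FixedField47
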