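/-
Programme TW (S56), brick B5 (flat local bound), piece CT-3 (helper37): the ORDINARY SHAPE of flat lifts,
abstract algebra core.

Setting: a group `G` with a conjugation-stable "inertia" predicate `IsI`, a two-dimensional representation
`r : G →* End_k V` with a `G`-stable line, a cocycle `c : G → End_k V`, the lift `V[ε] = V × V` with the action
`act r c τ (v, w) = (r τ v, r τ w + c τ (r τ v))`, and a subset `Red0 ⊆ V × V` ("points reducing to the
identity") satisfying the axioms `Red0Axioms` (these come from the Hopf algebra of a flat lift and the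
statements F1, F2, RL of `B5/Iface`).  Conclusion: `L = (I - 1) V` is a line, `G`-stable, inertia acts on it
through the cyclotomic character and trivially on `V / L`; and after subtracting a coboundary the cocycle
preserves `L`, and on inertia has values in `Hom (V / L, L)`.
-/
import Mathlib

set_option autoImplicit false

namespace Fermat.Agent.TW.B5.CT3Core37

section Basics

variable {G : Type*} [Group G] {k V : Type} [Field k] [AddCommGroup V] [Module k V]

/-- The action of `τ` on `V[ε] = V × V` attached to a cocycle, as a `k`-linear map. -/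
def actL (r : G →* Module.End k V) (c : G → Module.End k V) (τ : G) : (V × V) →ₗ[k] (V × V) :=
  LinearMap.prod ((r τ).comp (LinearMap.fst k V V))
    ((r τ).comp (LinearMap.snd k V V) + ((c τ).comp (r τ)).comp (LinearMap.fst k V V))

theorem actL_apply (r : G →* Module.End k V) (c : G → Module.End k V) (τ : G) (x : V × V) :
    actL r c τ x = (r τ x.1, r τ x.2 + c τ (r τ x.1)) := rfl

theorem r_inv_apply (r : G →* Module.End k V) (τ : G) (v : V) : r τ⁻¹ (r τ v) = v := by
  rw [← Module.End.mul_apply, ← map_mul, inv_mul_cancel, map_one, Module.End.one_apply]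

theorem r_apply_inv (r : G →* Module.End k V) (τ : G) (v : V) : r τ (r τ⁻¹ v) = v := by
  rw [← Module.End.mul_apply, ← map_mul, mul_inv_cancel, map_one, Module.End.one_apply]

theorem actL_mul (r : G →* Module.End k V) (c : G → Module.End k V)
    (hcoc : ∀ σ τ : G, c (σ * τ) = c σ + r σ * c τ * r σ⁻¹) (σ τ : G) (x : V × V) :
    actL r c (σ * τ) x = actL r c σ (actL r c τ x) := by
  rw [actL_apply, actL_apply, actL_apply, hcoc, map_mul]
  simp only [Module.End.mul_apply, LinearMap.add_apply, map_add, r_inv_apply]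
  rw [add_assoc, add_comm (c σ _)]

/-- Determinant of an upper triangular endomorphism of a free module of rank two. -/
theorem det_eq_mul_of_tri {A M : Type} [CommRing A] [AddCommGroup M] [Module A M]
    (b : Module.Basis (Fin 2) A M) (f : Module.End A M) (x y z : A)
    (h0 : f (b 0) = x • b 0) (h1 : f (b 1) = z • b 1 + y • b 0) : LinearMap.det f = x * z := by
  rw [← LinearMap.det_toMatrix b, Matrix.det_fin_two]
  simp [LinearMap.toMatrix_apply, h0, h1]

/-- Trace of an upper triangular endomorphism of a free module of rank two. -/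
theorem trace_eq_add_of_tri {A M : Type} [CommRing A] [AddCommGroup M] [Module A M]
    (b : Module.Basis (Fin 2) A M) (f : Module.End A M) (x y z : A)
    (h0 : f (b 0) = x • b 0) (h1 : f (b 1) = z • b 1 + y • b 0) :
    LinearMap.trace A M f = x + z := by
  rw [LinearMap.trace_eq_matrix_trace A b, Matrix.trace_fin_two]
  simp [LinearMap.toMatrix_apply, h0, h1]

/-- In a plane, a non-zero vector and a vector outside its span form a basis. -/
theorem exists_basis_pair (hV : Module.finrank k V = 2) (u w : V)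
    (hw : w ∉ Submodule.span k {u}) (hu : u ≠ 0) :
    ∃ b : Module.Basis (Fin 2) k V, b 0 = u ∧ b 1 = w := by
  have hli : LinearIndependent k ![u, w] := by
    rw [LinearIndependent.pair_iff]
    intro s t hst
    have ht : t = 0 := by
      by_contra ht
      apply hw
      rw [Submodule.mem_span_singleton]
      refine ⟨-(t⁻¹ * s), ?_⟩
      have h1 : t • w = -(s • u) := eq_neg_of_add_eq_zero_right hst
      have h2 : w = t⁻¹ • (t • w) := by rw [smul_smul, inv_mul_cancel₀ ht, one_smul]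
      rw [h2, h1, smul_neg, smul_smul, neg_smul]
    refine ⟨?_, ht⟩
    rw [ht, zero_smul, add_zero] at hst
    exact (smul_eq_zero.mp hst).resolve_right hu
  have hcard : Fintype.card (Fin 2) = Module.finrank k V := by rw [Fintype.card_fin, hV]
  refine ⟨basisOfLinearIndependentOfCardEqFinrank hli hcard, ?_, ?_⟩
  · rw [coe_basisOfLinearIndependentOfCardEqFinrank]; rfl
  · rw [coe_basisOfLinearIndependentOfCardEqFinrank]; rfl

/-- In a plane, every non-zero vector is the first vector of a basis. -/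
theorem exists_basis_fst (hV : Module.finrank k V = 2) (u : V) (hu : u ≠ 0) :
    ∃ b : Module.Basis (Fin 2) k V, b 0 = u := by
  have hne : Submodule.span k {u} ≠ ⊤ := by
    intro h
    have h1 : Module.finrank k (Submodule.span k {u}) = 1 := finrank_span_singleton hu
    rw [h, finrank_top, hV] at h1
    omega
  obtain ⟨w, -, hw⟩ := SetLike.exists_of_lt (lt_top_iff_ne_top.mpr hne)
  obtain ⟨b, hb, -⟩ := exists_basis_pair hV u w hw hu
  exact ⟨b, hb⟩

end Basics

section Core

variable {G : Type*} [Group G] {k V : Type} [Field k] [AddCommGroup V] [Module k V]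

/-- The axioms on the set `Red0 ⊆ V × V` of points reducing to the identity. -/
structure Red0Axioms (IsI : G → Prop) (Cyc : G → ℕ → Prop) (r : G →* Module.End k V)
    (c : G → Module.End k V) (Red0 : Set (V × V)) : Prop where
  zero_mem : (0 : V × V) ∈ Red0
  add_mem : ∀ x y : V × V, x ∈ Red0 → y ∈ Red0 → x + y ∈ Red0
  sub_mem : ∀ τ : G, IsI τ → ∀ y : V × V, actL r c τ y - y ∈ Red0
  f1 : ∀ y ∈ Red0, (∀ τ : G, IsI τ → actL r c τ y = y) → y = 0
  f2 : ∀ M N : Set (V × V), (0 : V × V) ∈ N → (∀ x ∈ N, ∀ y ∈ N, x + y ∈ N) →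
    (0 : V × V) ∈ M → (∀ x ∈ M, ∀ y ∈ M, x + y ∈ M) → N ⊆ M →
    (∀ τ : G, IsI τ → ∀ y ∈ N, actL r c τ y ∈ N) →
    (∀ τ : G, IsI τ → ∀ y ∈ M, actL r c τ y - y ∈ N) → ∀ y ∈ M, y ∈ Red0 → y ∈ N
  rl : ∀ y ∈ Red0, y ≠ 0 → ∀ a : G → ℕ, (∀ τ : G, IsI τ → actL r c τ y = a τ • y) →
    ∀ τ : G, IsI τ → Cyc τ (a τ)

/-- `L = (I - 1) V`. -/
def lineL (IsI : G → Prop) (r : G →* Module.End k V) : Submodule k V :=
  Submodule.span k {w | ∃ (τ : G) (v : V), IsI τ ∧ w = r τ v - v}

/-- `N_ε = (I - 1) V[ε]`. -/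
def subN (IsI : G → Prop) (r : G →* Module.End k V) (c : G → Module.End k V) :
    Submodule k (V × V) :=
  Submodule.span k {x | ∃ (τ : G) (y : V × V), IsI τ ∧ x = actL r c τ y - y}

variable {IsI : G → Prop} {Cyc : G → ℕ → Prop} {r : G →* Module.End k V}
  {c : G → Module.End k V} {Red0 : Set (V × V)}

theorem sub_mem_lineL {τ : G} (hτ : IsI τ) (v : V) : r τ v - v ∈ lineL IsI r :=
  Submodule.subset_span ⟨τ, v, hτ, rfl⟩

theorem inertia_mem_lineL {τ : G} (hτ : IsI τ) {l : V} (hl : l ∈ lineL IsI r) :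
    r τ l ∈ lineL IsI r := by
  have h : r τ l = l + (r τ l - l) := by abel
  rw [h]
  exact Submodule.add_mem _ hl (sub_mem_lineL hτ l)

/-- `ε L ⊆ Red0`. -/
theorem snd_lineL_mem_red0 (hR : Red0Axioms IsI Cyc r c Red0) {l : V} (hl : l ∈ lineL IsI r) :
    ((0 : V), l) ∈ Red0 := by
  have key : ∀ a : k, ((0 : V), a • l) ∈ Red0 := by
    refine Submodule.span_induction (p := fun l _ => ∀ a : k, ((0 : V), a • l) ∈ Red0)
      ?_ ?_ ?_ ?_ hl
    · rintro w ⟨τ, v, hτ, rfl⟩ a
      have h := hR.sub_mem τ hτ ((0 : V), a • v)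
      rw [actL_apply] at h
      simp only [map_zero, add_zero, Prod.mk_sub_mk, sub_self] at h
      rw [smul_sub, ← map_smul]
      exact h
    · intro a
      rw [smul_zero]
      exact hR.zero_mem
    · intro x y _ _ hx hy a
      have h := hR.add_mem _ _ (hx a) (hy a)
      rw [Prod.mk_add_mk, add_zero, ← smul_add] at h
      exact h
    · intro b x _ hx a
      rw [smul_smul]
      exact hx (a * b)
  have := key 1
  rwa [one_smul] at this

/-- `N_ε ⊆ Red0`. -/
theorem subN_le_red0 (hR : Red0Axioms IsI Cyc r c Red0) {x : V × V} (hx : x ∈ subN IsI r c) :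
    x ∈ Red0 := by
  have key : ∀ a : k, a • x ∈ Red0 := by
    refine Submodule.span_induction (p := fun x _ => ∀ a : k, a • x ∈ Red0) ?_ ?_ ?_ ?_ hx
    · rintro w ⟨τ, y, hτ, rfl⟩ a
      have h := hR.sub_mem τ hτ (a • y)
      rw [map_smul, ← smul_sub] at h
      exact h
    · intro a
      rw [smul_zero]
      exact hR.zero_mem
    · intro x y _ _ hx hy a
      rw [smul_add]
      exact hR.add_mem _ _ (hx a) (hy a)
    · intro b x _ hx a
      rw [smul_smul]
      exact hx (a * b)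
  have := key 1
  rwa [one_smul] at this

/-- The first component of an element of `N_ε` lies in `L`. -/
theorem fst_mem_lineL {x : V × V} (hx : x ∈ subN IsI r c) : x.1 ∈ lineL IsI r := by
  refine Submodule.span_induction (p := fun x _ => x.1 ∈ lineL IsI r) ?_ ?_ ?_ ?_ hx
  · rintro w ⟨τ, y, hτ, rfl⟩
    rw [actL_apply]
    exact sub_mem_lineL hτ y.1
  · exact Submodule.zero_mem _
  · intro x y _ _ hx hy
    exact Submodule.add_mem _ hx hy
  · intro a x _ hx
    exact Submodule.smul_mem _ a hx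

/-- `ε L ⊆ N_ε`. -/
theorem snd_lineL_mem_subN {l : V} (hl : l ∈ lineL IsI r) : ((0 : V), l) ∈ subN IsI r c := by
  refine Submodule.span_induction (p := fun l _ => ((0 : V), l) ∈ subN IsI r c) ?_ ?_ ?_ ?_ hl
  · rintro w ⟨τ, v, hτ, rfl⟩
    refine Submodule.subset_span ⟨τ, ((0 : V), v), hτ, ?_⟩
    rw [actL_apply]
    simp only [map_zero, add_zero, Prod.mk_sub_mk, sub_self]
  · exact Submodule.zero_mem _
  · intro x y _ _ hx hy
    have := Submodule.add_mem _ hx hy
    rwa [Prod.mk_add_mk, add_zero] at this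
  · intro a x _ hx
    have := Submodule.smul_mem _ a hx
    rwa [Prod.smul_mk, smul_zero] at this

/-- `N_ε` maps onto `L`. -/
theorem exists_mem_subN {l : V} (hl : l ∈ lineL IsI r) : ∃ m : V, (l, m) ∈ subN IsI r c := by
  refine Submodule.span_induction (p := fun l _ => ∃ m : V, (l, m) ∈ subN IsI r c) ?_ ?_ ?_ ?_ hl
  · rintro w ⟨τ, v, hτ, rfl⟩
    refine ⟨c τ (r τ v), Submodule.subset_span ⟨τ, (v, (0 : V)), hτ, ?_⟩⟩
    rw [actL_apply]
    simp only [map_zero, zero_add, Prod.mk_sub_mk, sub_zero]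
  · exact ⟨0, Submodule.zero_mem _⟩
  · rintro x y _ _ ⟨m, hm⟩ ⟨m', hm'⟩
    exact ⟨m + m', by simpa using Submodule.add_mem _ hm hm'⟩
  · rintro a x _ ⟨m, hm⟩
    exact ⟨a • m, by simpa using Submodule.smul_mem _ a hm⟩

/-- `N_ε ∩ ε V[ε] ⊆ ε L` (from F2). -/
theorem snd_mem_lineL_of_fst_eq_zero (hR : Red0Axioms IsI Cyc r c Red0) {x : V × V}
    (hx : x ∈ subN IsI r c) (h0 : x.1 = 0) : x.2 ∈ lineL IsI r := by
  have h := hR.f2 {y | y.1 = 0} {y | y.1 = 0 ∧ y.2 ∈ lineL IsI r}
    ⟨rfl, Submodule.zero_mem _⟩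
    (fun x hx y hy => ⟨by rw [Prod.fst_add, hx.1, hy.1, add_zero],
      by rw [Prod.snd_add]; exact Submodule.add_mem _ hx.2 hy.2⟩)
    rfl
    (fun x hx y hy => by
      show (x + y).1 = 0
      rw [Prod.fst_add, show x.1 = 0 from hx, show y.1 = 0 from hy, add_zero])
    (fun y hy => hy.1)
    (fun τ hτ y hy => by
      refine ⟨?_, ?_⟩
      · rw [actL_apply, hy.1, map_zero]
      · rw [actL_apply, hy.1, map_zero, map_zero, add_zero]
        exact inertia_mem_lineL hτ hy.2)
    (fun τ hτ y hy => by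
      have hy0 : y.1 = 0 := hy
      refine ⟨?_, ?_⟩
      · rw [Prod.fst_sub, actL_apply, hy0, map_zero, sub_zero]
      · rw [Prod.snd_sub, actL_apply, hy0, map_zero, map_zero, add_zero]
        exact sub_mem_lineL hτ y.2)
    x h0 (subN_le_red0 hR hx)
  exact h.2

/-- `N_ε` is stable under the whole group. -/
theorem actL_mem_subN (hcoc : ∀ σ τ : G, c (σ * τ) = c σ + r σ * c τ * r σ⁻¹)
    (hIconj : ∀ σ τ : G, IsI τ → IsI (σ * τ * σ⁻¹)) (σ : G) {x : V × V}
    (hx : x ∈ subN IsI r c) : actL r c σ x ∈ subN IsI r c := by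
  refine Submodule.span_induction (p := fun x _ => actL r c σ x ∈ subN IsI r c) ?_ ?_ ?_ ?_ hx
  · rintro w ⟨τ, y, hτ, rfl⟩
    refine Submodule.subset_span ⟨σ * τ * σ⁻¹, actL r c σ y, hIconj σ τ hτ, ?_⟩
    rw [map_sub, ← actL_mul r c hcoc, ← actL_mul r c hcoc, inv_mul_cancel_right]
  · rw [map_zero]; exact Submodule.zero_mem _
  · intro x y _ _ hx hy
    rw [map_add]; exact Submodule.add_mem _ hx hy
  · intro a x _ hx
    rw [map_smul]; exact Submodule.smul_mem _ a hx

/-- `L` is stable under the whole group. -/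
theorem r_mem_lineL (hIconj : ∀ σ τ : G, IsI τ → IsI (σ * τ * σ⁻¹)) (σ : G) {l : V}
    (hl : l ∈ lineL IsI r) : r σ l ∈ lineL IsI r := by
  refine Submodule.span_induction (p := fun l _ => r σ l ∈ lineL IsI r) ?_ ?_ ?_ ?_ hl
  · rintro w ⟨τ, v, hτ, rfl⟩
    have h : r σ (r τ v - v) = r (σ * τ * σ⁻¹) (r σ v) - r σ v := by
      rw [map_sub, map_mul, map_mul, Module.End.mul_apply, Module.End.mul_apply, r_inv_apply]
    rw [h]
    exact sub_mem_lineL (hIconj σ τ hτ) _
  · rw [map_zero]; exact Submodule.zero_mem _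
  · intro x y _ _ hx hy
    rw [map_add]; exact Submodule.add_mem _ hx hy
  · intro a x _ hx
    rw [map_smul]; exact Submodule.smul_mem _ a hx

end Core

section Shape

variable {G : Type*} [Group G] {k V : Type} [Field k] [AddCommGroup V] [Module k V]
  {IsI : G → Prop} {Cyc : G → ℕ → Prop} {r : G →* Module.End k V}
  {c : G → Module.End k V} {Red0 : Set (V × V)}

theorem trace_conj_eq (r : G →* Module.End k V) (σ : G) (X : Module.End k V) :
    LinearMap.trace k V (r σ * X * r σ⁻¹) = LinearMap.trace k V X := by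
  rw [LinearMap.trace_mul_comm, ← mul_assoc, ← map_mul, inv_mul_cancel, map_one, one_mul]

/-- Given that `L = (I - 1) V` is a line: the cocycle, corrected by a coboundary, preserves `L`, and on
inertia it maps `V` into `L` and kills `L`. -/
theorem exists_coboundary_of_line (hV : Module.finrank k V = 2)
    (hcoc : ∀ σ τ : G, c (σ * τ) = c σ + r σ * c τ * r σ⁻¹)
    (htr : ∀ σ : G, LinearMap.trace k V (c σ) = 0)
    (hIconj : ∀ σ τ : G, IsI τ → IsI (σ * τ * σ⁻¹))
    (hR : Red0Axioms IsI Cyc r c Red0) (l0 : V) (hl0 : l0 ≠ 0)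
    (hL : lineL IsI r = Submodule.span k {l0}) :
    ∃ X : Module.End k V,
      (∀ τ : G, ∀ v ∈ lineL IsI r, (c τ - (r τ * X * r τ⁻¹ - X)) v ∈ lineL IsI r) ∧
      ∀ τ : G, IsI τ → (∀ v : V, (c τ - (r τ * X * r τ⁻¹ - X)) v ∈ lineL IsI r) ∧
        ∀ v ∈ lineL IsI r, (c τ - (r τ * X * r τ⁻¹ - X)) v = 0 := by
  have hl0L : l0 ∈ lineL IsI r := by rw [hL]; exact Submodule.mem_span_singleton_self _
  have hmemL : ∀ t : k, t • l0 ∈ lineL IsI r := fun t => Submodule.smul_mem _ t hl0L
  obtain ⟨m0, hn⟩ := exists_mem_subN (c := c) hl0L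
  -- every element of `N_ε` is `(a + b ε) • (l0, m0)`
  have hdec : ∀ x ∈ subN IsI r c, ∃ a b : k, x = (a • l0, a • m0 + b • l0) := by
    intro x hx
    have h1 := fst_mem_lineL hx
    rw [hL, Submodule.mem_span_singleton] at h1
    obtain ⟨a, ha⟩ := h1
    have h2 : x - a • (l0, m0) ∈ subN IsI r c :=
      Submodule.sub_mem _ hx (Submodule.smul_mem _ a hn)
    have h3 := snd_mem_lineL_of_fst_eq_zero hR h2 (by
      rw [Prod.fst_sub, Prod.smul_fst, ha, sub_self])
    rw [hL, Submodule.mem_span_singleton, Prod.snd_sub, Prod.smul_snd] at h3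
    obtain ⟨b, hb⟩ := h3
    refine ⟨a, b, Prod.ext ha.symm ?_⟩
    show x.2 = a • m0 + b • l0
    rw [hb]; abel
  -- the endomorphism `Y` with `Y l0 = - m0`
  obtain ⟨g, hg⟩ := LinearMap.exists_leftInverse_of_injective
    (LinearMap.toSpanSingleton k V l0) (LinearMap.ker_toSpanSingleton k hl0)
  have hgl0 : g l0 = 1 := by
    have h1 := LinearMap.congr_fun hg 1
    rwa [LinearMap.comp_apply, LinearMap.toSpanSingleton_apply, one_smul, LinearMap.id_apply] at h1
  obtain ⟨Y, hYdef⟩ : ∃ Y : Module.End k V, Y = -(g.smulRight m0) := ⟨_, rfl⟩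
  have hY : Y l0 = -m0 := by
    rw [hYdef, LinearMap.neg_apply, LinearMap.smulRight_apply, hgl0, one_smul]
  have hkey : ∀ (σ : G) (w : V), (c σ - (r σ * Y * r σ⁻¹ - Y)) (r σ w) =
      c σ (r σ w) - r σ (Y w) + Y (r σ w) := by
    intro σ w
    rw [LinearMap.sub_apply, LinearMap.sub_apply, Module.End.mul_apply, Module.End.mul_apply,
      r_inv_apply]
    abel
  -- (d1) the corrected cocycle preserves the line
  have hd1 : ∀ σ : G, ∃ ξ : k, (c σ - (r σ * Y * r σ⁻¹ - Y)) l0 = ξ • l0 := by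
    intro σ
    obtain ⟨a, b, hab⟩ := hdec _ (actL_mem_subN hcoc hIconj σ hn)
    rw [actL_apply, Prod.ext_iff] at hab
    have hab1 : r σ l0 = a • l0 := hab.1
    have hab2 : r σ m0 + c σ (r σ l0) = a • m0 + b • l0 := hab.2
    have ha : a ≠ 0 := by
      intro h
      apply hl0
      rw [← r_inv_apply r σ l0, hab1, h, zero_smul, map_zero]
    have h5 : (c σ - (r σ * Y * r σ⁻¹ - Y)) (r σ l0) = b • l0 := by
      have e1 : r σ (Y l0) = - r σ m0 := by rw [hY, map_neg]
      have e2 : Y (r σ l0) = -(a • m0) := by rw [hab1, map_smul, hY, smul_neg]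
      have e3 : c σ (r σ l0) = a • m0 + b • l0 - r σ m0 := by
        rw [eq_sub_iff_add_eq, add_comm, hab2]
      rw [hkey, e1, e2, e3]
      abel
    refine ⟨a⁻¹ * b, ?_⟩
    rw [hab1, map_smul] at h5
    have h6 : (c σ - (r σ * Y * r σ⁻¹ - Y)) l0 =
        a⁻¹ • (a • (c σ - (r σ * Y * r σ⁻¹ - Y)) l0) := by
      rw [smul_smul, inv_mul_cancel₀ ha, one_smul]
    rw [h6, h5, smul_smul]
  refine ⟨Y, ?_, ?_⟩
  · intro σ v hv
    rw [hL, Submodule.mem_span_singleton] at hv
    obtain ⟨t, rfl⟩ := hv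
    obtain ⟨ξ, hξ⟩ := hd1 σ
    rw [map_smul, hξ, smul_smul]
    exact hmemL _
  · intro τ hτ
    have hd2 : ∀ v : V, ∃ η : k, (c τ - (r τ * Y * r τ⁻¹ - Y)) v = η • l0 := by
      intro v
      obtain ⟨w, hw⟩ : ∃ w : V, v = r τ w := ⟨r τ⁻¹ v, (r_apply_inv r τ v).symm⟩
      obtain ⟨α, β, hαβ⟩ := hdec _ (Submodule.subset_span ⟨τ, (w, (0 : V)), hτ, rfl⟩)
      rw [actL_apply, Prod.ext_iff] at hαβ
      have e1 : r τ w = w + α • l0 := by
        have h1 : r τ w - w = α • l0 := hαβ.1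
        rw [← h1]; abel
      have e2 : c τ (r τ w) = α • m0 + β • l0 := by
        have h1 : r τ 0 + c τ (r τ w) - 0 = α • m0 + β • l0 := hαβ.2
        rwa [map_zero, zero_add, sub_zero] at h1
      have h3 := sub_mem_lineL (r := r) hτ (Y w)
      rw [hL, Submodule.mem_span_singleton] at h3
      obtain ⟨γ, hγ⟩ := h3
      have e3 : r τ (Y w) = Y w + γ • l0 := by rw [hγ]; abel
      have e4 : Y (r τ w) = Y w - α • m0 := by
        rw [e1, map_add, map_smul, hY, smul_neg, sub_eq_add_neg]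
      refine ⟨β - γ, ?_⟩
      rw [hw, hkey, e2, e3, e4, sub_smul]
      abel
    refine ⟨fun v => ?_, ?_⟩
    · obtain ⟨η, hη⟩ := hd2 v
      rw [hη]
      exact hmemL _
    · obtain ⟨ξ, hξ⟩ := hd1 τ
      obtain ⟨b, hb⟩ := exists_basis_fst hV l0 hl0
      obtain ⟨η, hη⟩ := hd2 (b 1)
      have htrace := trace_eq_add_of_tri b (c τ - (r τ * Y * r τ⁻¹ - Y)) ξ η 0
        (by rw [hb, hξ]) (by rw [hb, zero_smul, zero_add, hη])
      have htr0 : LinearMap.trace k V (c τ - (r τ * Y * r τ⁻¹ - Y)) = 0 := by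
        rw [map_sub, map_sub, htr, trace_conj_eq, sub_self, sub_zero]
      rw [htr0, add_zero] at htrace
      intro v hv
      rw [hL, Submodule.mem_span_singleton] at hv
      obtain ⟨t, rfl⟩ := hv
      rw [map_smul, hξ, ← htrace, zero_smul, smul_zero]

end Shape

section Line

variable {G : Type*} [Group G] {k V : Type} [Field k] [AddCommGroup V] [Module k V]
  {IsI : G → Prop} {Cyc : G → ℕ → Prop} {r : G →* Module.End k V}
  {c : G → Module.End k V} {Red0 : Set (V × V)}

/-- An element `x` of a field of characteristic `p` with `x ^ (p - 1) = 1` is a natural number. -/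
theorem exists_natCast_of_pow_eq_one (p : ℕ) [Fact p.Prime] [CharP k p] (x : k)
    (hx : x ^ (p - 1) = 1) : ∃ a : ℕ, x = (a : k) := by
  have hp : 0 < p := (Fact.out : p.Prime).pos
  have h2 : x ^ p = x := by
    calc x ^ p = x ^ (p - 1 + 1) := by rw [Nat.sub_add_cancel hp]
      _ = x ^ (p - 1) * x := pow_succ _ _
      _ = x := by rw [hx, one_mul]
  have h3 : x ∈ (⊥ : Subfield k) := (Subfield.mem_bot_iff_pow_eq_self k p).mpr h2
  rw [← ZMod.fieldRange_castHom_eq_bot p] at h3
  obtain ⟨z, rfl⟩ := h3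
  refine ⟨z.val, ?_⟩
  conv_lhs => rw [← ZMod.natCast_zmod_val z, map_natCast]

/-- `L = (I - 1) V` is a line on which inertia acts through the cyclotomic character. -/
theorem exists_generator (p : ℕ) [Fact p.Prime] [CharP k p] (hV : Module.finrank k V = 2)
    (hdet : ∀ (τ : G) (a : ℕ), Cyc τ a → LinearMap.det (r τ) = (a : k))
    (hnontriv : ∃ (τ : G) (a : ℕ), IsI τ ∧ Cyc τ a ∧ (a : k) ≠ 1)
    (hred : ∃ L1 : Submodule k V, Module.finrank k L1 = 1 ∧ ∀ τ : G, ∀ v ∈ L1, r τ v ∈ L1)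
    (htame : ∀ u : V, u ≠ 0 → (∀ τ : G, ∃ x : k, r τ u = x • u) →
      ∀ τ : G, IsI τ → ∀ x : k, r τ u = x • u → x ^ (p - 1) = 1)
    (hR : Red0Axioms IsI Cyc r c Red0) :
    ∃ l0 : V, l0 ≠ 0 ∧ lineL IsI r = Submodule.span k {l0} ∧
      ∀ (τ : G) (a : ℕ), IsI τ → Cyc τ a → r τ l0 = (a : k) • l0 := by
  obtain ⟨L1, hL1, hL1stab⟩ := hred
  obtain ⟨⟨u1, hu1⟩, hu1ne', hu1gen⟩ := finrank_eq_one_iff'.mp hL1
  have hu1ne : u1 ≠ 0 := fun h => hu1ne' (Subtype.ext h)
  have heig : ∀ τ : G, ∃ x : k, r τ u1 = x • u1 := by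
    intro τ
    obtain ⟨x, hx⟩ := hu1gen ⟨r τ u1, hL1stab τ u1 hu1⟩
    exact ⟨x, (congrArg Subtype.val hx).symm⟩
  by_cases hcase : ∃ τ0 : G, IsI τ0 ∧ r τ0 u1 ≠ u1
  · -- inertia acts non-trivially on the stable line: `L = L1`
    obtain ⟨τ0, hτ0, hne⟩ := hcase
    obtain ⟨x0, hx0⟩ := heig τ0
    have hx01 : x0 ≠ 1 := by
      rintro rfl
      rw [one_smul] at hx0
      exact hne hx0
    have hu1L : u1 ∈ lineL IsI r := by
      have h1 : r τ0 u1 - u1 = (x0 - 1) • u1 := by rw [hx0, sub_smul, one_smul]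
      have h2 := sub_mem_lineL (r := r) hτ0 u1
      rw [h1] at h2
      have h3 := Submodule.smul_mem _ (x0 - 1)⁻¹ h2
      rwa [smul_smul, inv_mul_cancel₀ (sub_ne_zero.mpr hx01), one_smul] at h3
    have hFp : ∀ τ : G, IsI τ → ∃ a : ℕ, r τ u1 = (a : k) • u1 := by
      intro τ hτ
      obtain ⟨x, hx⟩ := heig τ
      obtain ⟨a, ha⟩ := exists_natCast_of_pow_eq_one p x (htame u1 hu1ne heig τ hτ x hx)
      exact ⟨a, by rw [hx, ha]⟩
    choose! a ha using hFp
    have hy : ((0 : V), u1) ∈ Red0 := snd_lineL_mem_red0 hR hu1L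
    have hyne : ((0 : V), u1) ≠ 0 := fun h => hu1ne (congrArg Prod.snd h)
    have hcyc := hR.rl _ hy hyne a (by
      intro τ hτ
      rw [actL_apply]
      simp only [map_zero, add_zero, Prod.smul_mk, smul_zero]
      rw [ha τ hτ, Nat.cast_smul_eq_nsmul])
    have hdetI : ∀ τ : G, IsI τ → LinearMap.det (r τ) = (a τ : k) :=
      fun τ hτ => hdet τ (a τ) (hcyc τ hτ)
    obtain ⟨b, hb⟩ := exists_basis_fst hV u1 hu1ne
    have hLle : lineL IsI r ≤ Submodule.span k {u1} := by
      rw [lineL, Submodule.span_le]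
      rintro w ⟨τ, v, hτ, rfl⟩
      obtain ⟨γ, β, h1⟩ : ∃ γ β : k, r τ (b 1) = β • b 1 + γ • b 0 := by
        have hrep := b.sum_repr (r τ (b 1))
        rw [Fin.sum_univ_two] at hrep
        exact ⟨b.repr (r τ (b 1)) 0, b.repr (r τ (b 1)) 1, by rw [add_comm]; exact hrep.symm⟩
      have hd := det_eq_mul_of_tri b (r τ) (a τ : k) γ β (by rw [hb]; exact ha τ hτ) h1
      rw [hdetI τ hτ] at hd
      have hane : (a τ : k) ≠ 0 := by
        intro h0
        apply hu1ne
        rw [← r_inv_apply r τ u1, ha τ hτ, h0, zero_smul, map_zero]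
      have hβ : β = 1 := by
        have h2 : (a τ : k) * β = (a τ : k) * 1 := by rw [mul_one]; exact hd.symm
        exact mul_left_cancel₀ hane h2
      rw [hβ, one_smul, hb] at h1
      obtain ⟨s, t, hv⟩ : ∃ s t : k, v = s • u1 + t • b 1 := by
        have hv := b.sum_repr v
        rw [Fin.sum_univ_two, hb] at hv
        exact ⟨_, _, hv.symm⟩
      have h3 : r τ v - v = (s * ((a τ : k) - 1) + t * γ) • u1 := by
        rw [hv, map_add, map_smul, map_smul, ha τ hτ, h1]
        simp only [smul_add, smul_smul, add_smul, mul_sub, sub_smul, mul_one]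
        abel
      show r τ v - v ∈ Submodule.span k {u1}
      rw [h3]
      exact Submodule.smul_mem _ _ (Submodule.mem_span_singleton_self _)
    have hLeq : lineL IsI r = Submodule.span k {u1} :=
      le_antisymm hLle (Submodule.span_le.mpr (Set.singleton_subset_iff.mpr hu1L))
    refine ⟨u1, hu1ne, hLeq, ?_⟩
    intro τ a' hτ hcyc'
    rw [ha τ hτ, ← hdetI τ hτ, hdet τ a' hcyc']
  · -- inertia acts trivially on the stable line: `V = L1 ⊕ L`
    push Not at hcase
    have hint : ∀ s : k, s • u1 ∈ lineL IsI r → s • u1 = 0 := by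
      intro s hs
      have h1 := snd_lineL_mem_red0 hR hs
      have h2 := hR.f1 _ h1 (fun τ hτ => by
        rw [actL_apply]
        simp only [map_zero, add_zero, map_smul, hcase τ hτ])
      exact congrArg Prod.snd h2
    obtain ⟨τ0, a0, hτ0, hc0, ha0⟩ := hnontriv
    have hdet0 : LinearMap.det (r τ0) ≠ 1 := by rw [hdet τ0 a0 hc0]; exact ha0
    have hex : ∃ v : V, r τ0 v ≠ v := by
      by_contra h
      push Not at h
      apply hdet0
      have h1 : r τ0 = 1 := LinearMap.ext h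
      rw [h1, map_one]
    obtain ⟨v0, hv0⟩ := hex
    obtain ⟨l0, hl0def⟩ : ∃ l0 : V, l0 = r τ0 v0 - v0 := ⟨_, rfl⟩
    have hl0 : l0 ≠ 0 := by rw [hl0def]; exact sub_ne_zero.mpr hv0
    have hl0L : l0 ∈ lineL IsI r := by rw [hl0def]; exact sub_mem_lineL hτ0 v0
    have hl0span : l0 ∉ Submodule.span k {u1} := by
      intro h
      obtain ⟨s, hs⟩ := Submodule.mem_span_singleton.mp h
      have h1 := hint s (by rw [hs]; exact hl0L)
      rw [hs] at h1
      exact hl0 h1
    obtain ⟨b, hb0, hb1⟩ := exists_basis_pair hV u1 l0 hl0span hu1ne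
    have hLeq : lineL IsI r = Submodule.span k {l0} := by
      refine le_antisymm (fun l hl => ?_)
        (Submodule.span_le.mpr (Set.singleton_subset_iff.mpr hl0L))
      obtain ⟨s, t, hrep⟩ : ∃ s t : k, s • u1 + t • l0 = l := by
        have hrep := b.sum_repr l
        rw [Fin.sum_univ_two, hb0, hb1] at hrep
        exact ⟨_, _, hrep⟩
      have hs : s • u1 ∈ lineL IsI r := by
        have h1 : s • u1 = l - t • l0 := by
          rw [← hrep]
          abel
        rw [h1]
        exact Submodule.sub_mem _ hl (Submodule.smul_mem _ _ hl0L)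
      rw [hint _ hs, zero_add] at hrep
      rw [← hrep]
      exact Submodule.smul_mem _ _ (Submodule.mem_span_singleton_self _)
    refine ⟨l0, hl0, hLeq, ?_⟩
    intro τ a hτ hcyc
    have h1 : r τ l0 ∈ Submodule.span k {l0} := hLeq ▸ inertia_mem_lineL hτ hl0L
    obtain ⟨χ, hχ⟩ := Submodule.mem_span_singleton.mp h1
    have hd := det_eq_mul_of_tri b (r τ) 1 0 χ (by rw [hb0, one_smul]; exact hcase τ hτ)
      (by rw [hb1, zero_smul, add_zero]; exact hχ.symm)
    rw [hdet τ a hcyc, one_mul] at hd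
    rw [← hχ, hd]

/-- **CT-3, abstract form.** -/
theorem ordinaryShape_core (p : ℕ) [Fact p.Prime] [CharP k p] (hV : Module.finrank k V = 2)
    (hIconj : ∀ σ τ : G, IsI τ → IsI (σ * τ * σ⁻¹))
    (hcoc : ∀ σ τ : G, c (σ * τ) = c σ + r σ * c τ * r σ⁻¹)
    (htr : ∀ σ : G, LinearMap.trace k V (c σ) = 0)
    (hdet : ∀ (τ : G) (a : ℕ), Cyc τ a → LinearMap.det (r τ) = (a : k))
    (hnontriv : ∃ (τ : G) (a : ℕ), IsI τ ∧ Cyc τ a ∧ (a : k) ≠ 1)
    (hred : ∃ L1 : Submodule k V, Module.finrank k L1 = 1 ∧ ∀ τ : G, ∀ v ∈ L1, r τ v ∈ L1)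
    (htame : ∀ u : V, u ≠ 0 → (∀ τ : G, ∃ x : k, r τ u = x • u) →
      ∀ τ : G, IsI τ → ∀ x : k, r τ u = x • u → x ^ (p - 1) = 1)
    (hR : Red0Axioms IsI Cyc r c Red0) :
    Module.finrank k (lineL IsI r) = 1 ∧
    (∀ τ : G, ∀ v ∈ lineL IsI r, r τ v ∈ lineL IsI r) ∧
    (∀ (τ : G) (a : ℕ), IsI τ → Cyc τ a → ∀ v ∈ lineL IsI r, r τ v = (a : k) • v) ∧
    ∃ X : Module.End k V,
      (∀ τ : G, ∀ v ∈ lineL IsI r, (c τ - (r τ * X * r τ⁻¹ - X)) v ∈ lineL IsI r) ∧
      ∀ τ : G, IsI τ → (∀ v : V, (c τ - (r τ * X * r τ⁻¹ - X)) v ∈ lineL IsI r) ∧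
        ∀ v ∈ lineL IsI r, (c τ - (r τ * X * r τ⁻¹ - X)) v = 0 := by
  obtain ⟨l0, hl0, hL, hcyc⟩ := exists_generator p hV hdet hnontriv hred htame hR
  refine ⟨?_, fun τ v hv => r_mem_lineL hIconj τ hv, ?_,
    exists_coboundary_of_line hV hcoc htr hIconj hR l0 hl0 hL⟩
  · rw [hL]; exact finrank_span_singleton hl0
  · intro τ a hτ ha v hv
    rw [hL, Submodule.mem_span_singleton] at hv
    obtain ⟨t, rfl⟩ := hv
    rw [map_smul, hcyc τ a hτ ha, smul_comm]

end Line

end Fermat.Agent.TW.B5.CT3Core37
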