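/-
Programme TW (S56), brick B5 (flat local bound), piece CT-3 (helper37): the ORDINARY SHAPE of flat lifts.

`ordinaryShape`: for a reducible two-dimensional `r : G_p →* End_k V` with cyclotomic determinant and a
cocycle `c` whose lift `V[ε] = V × V` is a flat local module, `L = (I_p - 1) V` is a `G_p`-stable line on which
inertia acts through the mod `p` cyclotomic character (and trivially on `V / L`), and after subtracting a
coboundary `c` preserves `L` and on inertia takes values in `Hom (V / L, L)`.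

This file is the adapter from the Hopf algebra language of `B5/Iface` (statements F1, F2, RL, the local Galois
toolkit) to the abstract algebra core `B5/CT3Core37.ordinaryShape_core`.
-/
import Mathlib
import Fermat.Agent.TW.B5.IfaceLG
import Fermat.Agent.TW.B5.LG83T
import Fermat.Agent.TW.B5.CT3Core37

set_option autoImplicit false

open Polynomial

namespace Fermat.Agent.TW.B5.CT3Ord37

open Fermat.Agent.TW.B5.Iface Fermat.Agent.TW.B5.IfaceLG Fermat.Agent.TW.B5.CT3Core37
open Coalgebra WithConv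

variable (p : ℕ) [hp : Fact p.Prime]

/-! ### Integrality of the values of points -/

theorem norm_algebraMap_Zloc_le_one (a : Zloc p) : ‖algebraMap (Zloc p) (Kbar p) a‖ ≤ 1 := by
  have h1 : algebraMap (Zloc p) (Kbar p) a = algebraMap ℚ_[p] (Kbar p) ((a : ℚ) : ℚ_[p]) := by
    show algebraMap ℚ (Kbar p) (a : ℚ) = _
    rw [eq_ratCast, map_ratCast]
  rw [h1]
  have h2 := PadicAlgCl.norm_extends p (((a : ℚ) : ℚ_[p]))
  have h3 : ‖algebraMap ℚ_[p] (Kbar p) ((a : ℚ) : ℚ_[p])‖ = ‖((a : ℚ) : ℚ_[p])‖ := h2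
  rw [h3]
  apply Padic.norm_rat_le_one
  have ha : (a : ℚ).den.Coprime p := a.2
  intro hdvd
  have := Nat.Coprime.eq_one_of_dvd ha.symm hdvd
  exact hp.out.ne_one this

theorem norm_le_one_of_isIntegral {x : Kbar p} (hx : IsIntegral (Zloc p) x) : ‖x‖ ≤ 1 := by
  obtain ⟨P, hmonic, heval⟩ := hx
  by_contra hlt
  push Not at hlt
  have hsum := hmonic.as_sum
  rw [hsum, eval₂_add, eval₂_pow, eval₂_X, eval₂_finsetSum] at heval
  have h1 : x ^ P.natDegree = - ∑ i ∈ Finset.range P.natDegree,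
      eval₂ (algebraMap (Zloc p) (Kbar p)) x (C (P.coeff i) * X ^ i) :=
    eq_neg_of_add_eq_zero_left heval
  have hxpos : 0 < ‖x‖ := lt_trans zero_lt_one hlt
  have h2 : ‖∑ i ∈ Finset.range P.natDegree,
      eval₂ (algebraMap (Zloc p) (Kbar p)) x (C (P.coeff i) * X ^ i)‖ < ‖x‖ ^ P.natDegree := by
    refine LG83T.norm_sum_lt p _ _ (pow_pos hxpos _) fun i hi => ?_
    rw [eval₂_mul, eval₂_C, eval₂_pow, eval₂_X, norm_mul, norm_pow]
    have hi' : i < P.natDegree := Finset.mem_range.mp hi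
    calc ‖algebraMap (Zloc p) (Kbar p) (P.coeff i)‖ * ‖x‖ ^ i ≤ 1 * ‖x‖ ^ i :=
          mul_le_mul_of_nonneg_right (norm_algebraMap_Zloc_le_one p _) (pow_nonneg hxpos.le _)
      _ = ‖x‖ ^ i := one_mul _
      _ < ‖x‖ ^ P.natDegree := pow_lt_pow_right₀ hlt hi'
  have h3 : ‖x ^ P.natDegree‖ = ‖x‖ ^ P.natDegree := norm_pow _ _
  rw [h1, norm_neg] at h3
  rw [h3] at h2
  exact lt_irrefl _ h2

/-! ### Points of a finite Hopf algebra -/

section Points

variable {p}
variable (H : Type) [CommRing H] [HopfAlgebra (Zloc p) H]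

/-- The values of a point are integral. -/
theorem norm_point_le_one [Module.Finite (Zloc p) H] (f : Pts (p := p) H) (h : H) : ‖f h‖ ≤ 1 :=
  norm_le_one_of_isIntegral p ((IsIntegral.of_finite (Zloc p) h).map f.ofConv)

/-- Sweedler formula for the product of two points. -/
theorem mul_apply_repr (f g : Pts (p := p) H) (h : H) {ι : Type*}
    (𝓡 : Coalgebra.Repr (Zloc p) h ι) :
    (f * g) h = ∑ i ∈ 𝓡.index, f (𝓡.left i) * g (𝓡.right i) := by
  have h1 := AlgHom.toLinearMap_convMul f g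
  have h2 := 𝓡.convMul_apply (toConv f.ofConv.toLinearMap) (toConv g.ofConv.toLinearMap)
  rw [← h1] at h2
  exact h2

/-- Congruence modulo the maximal ideal is compatible with the product of points. -/
theorem mul_congr [Module.Finite (Zloc p) H] (f f' g g' : Pts (p := p) H)
    (hf : ∀ h : H, ‖f h - f' h‖ < 1) (hg : ∀ h : H, ‖g h - g' h‖ < 1) (h : H) :
    ‖(f * g) h - (f' * g') h‖ < 1 := by
  rw [mul_apply_repr H f g h (ℛ (Zloc p) h), mul_apply_repr H f' g' h (ℛ (Zloc p) h),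
    ← Finset.sum_sub_distrib]
  refine LG83T.norm_sum_lt p _ _ zero_lt_one fun i _ => ?_
  have e1 : f ((ℛ (Zloc p) h).left i) * g ((ℛ (Zloc p) h).right i) -
      f' ((ℛ (Zloc p) h).left i) * g' ((ℛ (Zloc p) h).right i) =
      (f ((ℛ (Zloc p) h).left i) - f' ((ℛ (Zloc p) h).left i)) * g ((ℛ (Zloc p) h).right i) +
      f' ((ℛ (Zloc p) h).left i) * (g ((ℛ (Zloc p) h).right i) - g' ((ℛ (Zloc p) h).right i)) := by
    ring
  rw [e1]
  refine LG83T.norm_add_lt p ?_ ?_
  · rw [norm_mul]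
    calc ‖f ((ℛ (Zloc p) h).left i) - f' ((ℛ (Zloc p) h).left i)‖ * ‖g ((ℛ (Zloc p) h).right i)‖
        ≤ ‖f ((ℛ (Zloc p) h).left i) - f' ((ℛ (Zloc p) h).left i)‖ * 1 :=
          mul_le_mul_of_nonneg_left (norm_point_le_one H g _) (norm_nonneg _)
      _ < 1 := by rw [mul_one]; exact hf _
  · rw [norm_mul]
    calc ‖f' ((ℛ (Zloc p) h).left i)‖ * ‖g ((ℛ (Zloc p) h).right i) - g' ((ℛ (Zloc p) h).right i)‖
        ≤ 1 * ‖g ((ℛ (Zloc p) h).right i) - g' ((ℛ (Zloc p) h).right i)‖ :=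
          mul_le_mul_of_nonneg_right (norm_point_le_one H f' _) (norm_nonneg _)
      _ < 1 := by rw [one_mul]; exact hg _

/-- `τ` fixes the image of `ℤ_(p)`. -/
theorem map_algebraMap_Zloc (τ : Gp p) (a : Zloc p) :
    τ (algebraMap (Zloc p) (Kbar p) a) = algebraMap (Zloc p) (Kbar p) a := by
  show τ (algebraMap ℚ (Kbar p) (a : ℚ)) = algebraMap ℚ (Kbar p) (a : ℚ)
  rw [eq_ratCast, map_ratCast]

/-- `τ` as a `ℤ_(p)`-algebra endomorphism of `K̄`. -/
noncomputable def galZ (τ : Gp p) : Kbar p →ₐ[Zloc p] Kbar p :=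
  { (τ : Kbar p →+* Kbar p) with commutes' := map_algebraMap_Zloc τ }

/-- The Galois conjugate `τ ∘ f` of a point. -/
noncomputable def galPt (τ : Gp p) (f : Pts (p := p) H) : Pts (p := p) H :=
  toConv ((galZ τ).comp f.ofConv)

theorem galPt_apply (τ : Gp p) (f : Pts (p := p) H) (h : H) : galPt H τ f h = τ (f h) := rfl

theorem isGalConj_galPt (τ : Gp p) (f : Pts (p := p) H) : IsGalConj H τ f (galPt H τ f) :=
  fun _ => rfl

theorem eq_galPt_of_isGalConj {τ : Gp p} {f g : Pts (p := p) H} (h : IsGalConj H τ f g) :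
    g = galPt H τ f := by
  apply WithConv.ofConv_injective
  apply AlgHom.ext
  intro x
  exact h x

theorem mem_red0_iff (f : Pts (p := p) H) :
    f ∈ red0 (p := p) H ↔ ∀ h : H, ‖f h - (1 : Pts (p := p) H) h‖ < 1 := Iff.rfl

theorem one_mem_red0 : (1 : Pts (p := p) H) ∈ red0 (p := p) H := by
  intro h
  rw [AlgHom.convOne_apply, sub_self, norm_zero]
  exact zero_lt_one

theorem mul_mem_red0 [Module.Finite (Zloc p) H] {f g : Pts (p := p) H}
    (hf : f ∈ red0 (p := p) H) (hg : g ∈ red0 (p := p) H) : f * g ∈ red0 (p := p) H := by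
  rw [mem_red0_iff] at hf hg ⊢
  intro h
  have := mul_congr H f 1 g 1 hf hg h
  rwa [one_mul] at this

/-- For inertial `τ`, the conjugate `τ ∘ f` is congruent to `f`. -/
theorem galPt_congr [Module.Finite (Zloc p) H] {τ : Gp p} (hτ : IsInertial p τ)
    (f : Pts (p := p) H) (h : H) : ‖galPt H τ f h - f h‖ < 1 :=
  hτ (f h) (norm_point_le_one H f h)

end Points

/-! ### From the Hopf algebra of a flat lift to the axioms on `Red0` -/

section Transfer

variable {p}
variable {k V : Type} [Field k] [AddCommGroup V] [Module k V]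

theorem exists_red0Axioms (hp2 : p ≠ 2) (hF1 : StatementF1 p) (hF2 : StatementF2 p)
    (hRL : StatementRL p) [CharP k p] (r : Gp p →* Module.End k V) (c : Gp p → Module.End k V)
    (hfl : IsFlatLocalModule p (V × V) (lliftAct r c)) :
    ∃ Red0 : Set (V × V), Red0Axioms (IsInertial p) (ActsOnMuP p) r c Red0 := by
  obtain ⟨H, _, _, hfin, hflat, hcocomm, e, he_mul, he_act⟩ := hfl
  have he_one : e 1 = 0 := by
    have h1 := he_mul 1 1
    rw [one_mul] at h1
    exact left_eq_add.mp h1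
  have he_symm_add : ∀ x y : V × V, e.symm (x + y) = e.symm x * e.symm y := by
    intro x y
    apply e.injective
    rw [he_mul, Equiv.apply_symm_apply, Equiv.apply_symm_apply, Equiv.apply_symm_apply]
  have he_symm_zero : e.symm 0 = 1 := by
    rw [← he_one, Equiv.symm_apply_apply]
  have he_gal : ∀ (τ : Gp p) (f : Pts (p := p) H), e (galPt H τ f) = actL r c τ (e f) :=
    fun τ f => he_act τ f _ (isGalConj_galPt H τ f)
  have he_pow : ∀ (f : Pts (p := p) H) (n : ℕ), e (f ^ n) = n • e f := by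
    intro f n
    induction n with
    | zero => rw [pow_zero, he_one, zero_smul]
    | succ n ih => rw [pow_succ, he_mul, ih, succ_nsmul]
  have hpow_p : ∀ f : Pts (p := p) H, f ^ p = 1 := by
    intro f
    apply e.injective
    rw [he_pow, he_one, ← Nat.cast_smul_eq_nsmul k p (e f), CharP.cast_eq_zero k p, zero_smul]
  refine ⟨{y | e.symm y ∈ red0 (p := p) H}, ?_, ?_, ?_, ?_, ?_, ?_⟩
  · show e.symm 0 ∈ red0 (p := p) H
    rw [he_symm_zero]
    exact one_mem_red0 H
  · intro x y hx hy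
    show e.symm (x + y) ∈ red0 (p := p) H
    rw [he_symm_add]
    exact mul_mem_red0 H hx hy
  · intro τ hτ y
    have h1 : e.symm (-y) * e.symm y = 1 := by
      apply e.injective
      rw [he_mul, he_one, Equiv.apply_symm_apply, Equiv.apply_symm_apply, neg_add_cancel]
    have h2 : e.symm y * e.symm (actL r c τ y - y) = galPt H τ (e.symm y) := by
      apply e.injective
      rw [he_mul, he_gal, Equiv.apply_symm_apply, Equiv.apply_symm_apply, add_sub_cancel]
    have h3 : e.symm (actL r c τ y - y) = e.symm (-y) * galPt H τ (e.symm y) := by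
      rw [← h2, ← mul_assoc, h1, one_mul]
    show e.symm (actL r c τ y - y) ∈ red0 (p := p) H
    rw [mem_red0_iff, h3]
    intro h
    have h4 := mul_congr H (e.symm (-y)) (e.symm (-y)) (galPt H τ (e.symm y)) (e.symm y)
      (fun h => by rw [sub_self, norm_zero]; exact zero_lt_one) (galPt_congr H hτ (e.symm y)) h
    rwa [h1] at h4
  · intro y hy hfix
    have hf : ∀ τ : Gp p, IsInertial p τ → IsGalConj H τ (e.symm y) (e.symm y) := by
      intro τ hτ
      have h1 : galPt H τ (e.symm y) = e.symm y := by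
        apply e.injective
        rw [he_gal, Equiv.apply_symm_apply, hfix τ hτ]
      intro h
      have h2 := galPt_apply H τ (e.symm y) h
      rwa [h1] at h2
    have h3 := hF1 hp2 H hpow_p (e.symm y) hy hf
    rw [← e.apply_symm_apply y, h3, he_one]
  · intro M N h0N hNadd h0M hMadd hNM hNstab hMN y hyM hyR
    have h1 := hF2 hp2 H hpow_p {f | e f ∈ M} {f | e f ∈ N}
      (by show e 1 ∈ N; rw [he_one]; exact h0N)
      (fun f hf g hg => by show e (f * g) ∈ N; rw [he_mul]; exact hNadd _ hf _ hg)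
      (by show e 1 ∈ M; rw [he_one]; exact h0M)
      (fun f hf g hg => by show e (f * g) ∈ M; rw [he_mul]; exact hMadd _ hf _ hg)
      (fun f hf => hNM hf)
      (fun τ hτ f hf g hg => by
        rw [eq_galPt_of_isGalConj H hg]
        show e (galPt H τ f) ∈ N
        rw [he_gal]
        exact hNstab τ hτ _ hf)
      (fun τ hτ f hf g hg => by
        refine ⟨e.symm (actL r c τ (e f) - e f), ?_, ?_⟩
        · show e (e.symm (actL r c τ (e f) - e f)) ∈ N
          rw [Equiv.apply_symm_apply]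
          exact hMN τ hτ _ hf
        · rw [eq_galPt_of_isGalConj H hg]
          apply e.injective
          rw [he_mul, he_gal, Equiv.apply_symm_apply, add_sub_cancel])
      (e.symm y) (by show e (e.symm y) ∈ M; rw [Equiv.apply_symm_apply]; exact hyM) hyR
    have h2 : e (e.symm y) ∈ N := h1
    rwa [Equiv.apply_symm_apply] at h2
  · intro y hy hyne a ha
    have hf1 : e.symm y ≠ 1 := by
      intro h
      apply hyne
      rw [← e.apply_symm_apply y, h, he_one]
    refine hRL hp2 H hpow_p (e.symm y) hy hf1 a ?_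
    intro τ hτ
    have h1 : galPt H τ (e.symm y) = (e.symm y) ^ a τ := by
      apply e.injective
      rw [he_gal, he_pow, Equiv.apply_symm_apply, ha τ hτ]
    intro h
    rw [← h1]
    rfl

end Transfer

/-! ### Local Galois facts: conjugation-stability of inertia, wild elements at finite level -/

section Galois

theorem inv_apply_apply (σ : Gp p) (x : Kbar p) : σ⁻¹ (σ x) = x := by
  have h : (σ⁻¹ * σ) x = x := by rw [inv_mul_cancel]; rfl
  exact h

theorem apply_inv_apply (σ : Gp p) (x : Kbar p) : σ (σ⁻¹ x) = x := by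
  have h : (σ * σ⁻¹) x = x := by rw [mul_inv_cancel]; rfl
  exact h

theorem isInertial_conj (σ τ : Gp p) (hτ : IsInertial p τ) : IsInertial p (σ * τ * σ⁻¹) := by
  intro x hx
  have h1 : (σ * τ * σ⁻¹) x - x = σ (τ (σ⁻¹ x) - σ⁻¹ x) := by
    rw [map_sub, apply_inv_apply]
    rfl
  rw [h1, LG83T.norm_map]
  exact hτ _ (by rw [LG83T.norm_map]; exact hx)

/-- `τ` is wild on the finite level `E`. -/
def IsWildOn (E : IntermediateField ℚ_[p] (Kbar p)) (τ : Gp p) : Prop :=
  ∀ x ∈ E, x ≠ 0 → ‖τ x - x‖ < ‖x‖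

variable {p}

theorem pow_mem_of_normal {E : IntermediateField ℚ_[p] (Kbar p)} (hE : IsNormalField p E)
    (τ : Gp p) (n : ℕ) {x : Kbar p} (hx : x ∈ E) : (τ ^ n) x ∈ E := by
  induction n with
  | zero => rw [pow_zero]; exact hx
  | succ n ih =>
    rw [pow_succ']
    exact hE τ _ ih

theorem isWildOn_pow {E : IntermediateField ℚ_[p] (Kbar p)} (hE : IsNormalField p E) {τ : Gp p}
    (hτ : IsWildOn p E τ) (n : ℕ) : IsWildOn p E (τ ^ n) := by
  induction n with
  | zero =>
    intro x _ hx0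
    rw [pow_zero]
    show ‖x - x‖ < ‖x‖
    rw [sub_self, norm_zero]
    exact norm_pos_iff.mpr hx0
  | succ n ih =>
    intro x hx hx0
    have h1 : (τ ^ (n + 1)) x - x = (τ ((τ ^ n) x) - (τ ^ n) x) + ((τ ^ n) x - x) := by
      rw [pow_succ']
      show τ ((τ ^ n) x) - x = _
      abel
    rw [h1]
    have hy : (τ ^ n) x ∈ E := pow_mem_of_normal hE τ n hx
    have hy0 : (τ ^ n) x ≠ 0 := by
      intro h
      apply hx0
      have := LG83T.norm_map p (τ ^ n) x
      rw [h, norm_zero] at this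
      exact norm_eq_zero.mp this.symm
    refine LG83T.norm_add_lt p ?_ (ih x hx hx0)
    have := hτ _ hy hy0
    rwa [LG83T.norm_map] at this

/-- A wild element (on `E`) of order prime to `p` at `x ∈ E` fixes `x`. -/
theorem eq_of_isWildOn_of_pow_eq {E : IntermediateField ℚ_[p] (Kbar p)} (hE : IsNormalField p E)
    {σ : Gp p} (hσ : IsWildOn p E σ) {m : ℕ} (hm : ¬ p ∣ m) {x : Kbar p} (hxE : x ∈ E)
    (hx : (σ ^ m) x = x) : σ x = x := by
  by_contra hne
  obtain ⟨y, hy⟩ : ∃ y : Kbar p, y = σ x - x := ⟨_, rfl⟩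
  have hyE : y ∈ E := by rw [hy]; exact E.sub_mem (hE σ x hxE) hxE
  have hy0 : y ≠ 0 := by rw [hy]; exact sub_ne_zero.mpr hne
  have h1 : ∑ j ∈ Finset.range m, (σ ^ j) y = 0 := by
    have : ∀ j, (σ ^ j) y = (σ ^ (j + 1)) x - (σ ^ j) x := by
      intro j
      rw [hy, map_sub, pow_succ, AlgEquiv.mul_apply]
    simp only [this]
    rw [Finset.sum_range_sub (fun j => (σ ^ j) x), hx, pow_zero, AlgEquiv.one_apply, sub_self]
  have h2 : ∑ j ∈ Finset.range m, (σ ^ j) y =
      (m : Kbar p) * y + ∑ j ∈ Finset.range m, ((σ ^ j) y - y) := by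
    rw [Finset.sum_sub_distrib, Finset.sum_const, Finset.card_range, nsmul_eq_mul]
    ring
  have h3 : ‖∑ j ∈ Finset.range m, ((σ ^ j) y - y)‖ < ‖y‖ :=
    LG83T.norm_sum_lt p _ _ (norm_pos_iff.mpr hy0) fun j _ => isWildOn_pow hE hσ j y hyE hy0
  have h4 : ‖(m : Kbar p) * y‖ = ‖y‖ := by rw [norm_mul, LG83T.norm_natCast_eq_one p hm, one_mul]
  have h5 : ‖(m : Kbar p) * y + ∑ j ∈ Finset.range m, ((σ ^ j) y - y)‖ = ‖(m : Kbar p) * y‖ :=
    LG83T.norm_add_eq_left p (by rw [h4]; exact h3)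
  rw [← h2, h1, norm_zero, h4] at h5
  exact hy0 (norm_eq_zero.mp h5.symm)

/-- Elements wild on a finite normal level have `p`-power order there. -/
theorem wildPPowerOn (E : IntermediateField ℚ_[p] (Kbar p)) [FiniteDimensional ℚ_[p] E]
    (hE : IsNormalField p E) {τ : Gp p} (hτ : IsWildOn p E τ) :
    ∃ n : ℕ, ∀ x ∈ E, (τ ^ p ^ n) x = x := by
  obtain ⟨m, hm0, hm⟩ := LG83T.exists_pow_fixes p E τ
  obtain ⟨n, m', hm', rfl⟩ := Nat.exists_eq_pow_mul_and_not_dvd hm0.ne' p hp.out.ne_one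
  refine ⟨n, fun x hx => ?_⟩
  refine eq_of_isWildOn_of_pow_eq hE (isWildOn_pow hE hτ (p ^ n)) hm' hx ?_
  rw [← pow_mul]
  exact hm x hx

end Galois

/-! ### Characters of `G_p` are `𝔽_p`-valued on inertia -/

section Tame

variable {p}
variable {k V : Type} [Field k] [AddCommGroup V] [Module k V]

theorem eig_mul {r : Gp p →* Module.End k V} {u : V} {g h : Gp p} {a b : k}
    (hg : r g u = a • u) (hh : r h u = b • u) : r (g * h) u = (a * b) • u := by
  rw [map_mul, Module.End.mul_apply, hh, map_smul, hg, smul_smul, mul_comm]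

theorem eig_pow {r : Gp p →* Module.End k V} {u : V} {g : Gp p} {a : k}
    (hg : r g u = a • u) (n : ℕ) : r (g ^ n) u = a ^ n • u := by
  induction n with
  | zero => rw [pow_zero, map_one, Module.End.one_apply, pow_zero, one_smul]
  | succ n ih => rw [pow_succ, pow_succ]; exact eig_mul ih hg

theorem eig_ne_zero {r : Gp p →* Module.End k V} {u : V} (hu : u ≠ 0) {g : Gp p} {a : k}
    (hg : r g u = a • u) : a ≠ 0 := by
  intro h
  rw [h, zero_smul] at hg
  apply hu
  rw [← r_inv_apply r g u, hg, map_zero]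

theorem eig_inv {r : Gp p →* Module.End k V} {u : V} (hu : u ≠ 0) {g : Gp p} {a : k}
    (hg : r g u = a • u) : r g⁻¹ u = a⁻¹ • u := by
  have ha : a ≠ 0 := eig_ne_zero hu hg
  have h1 : u = a • r g⁻¹ u := by
    conv_lhs => rw [← r_inv_apply r g u, hg, map_smul]
  conv_rhs => rw [h1, smul_smul, inv_mul_cancel₀ ha, one_smul]

/-- The eigenvalue of an inertial element on a common eigenvector of `G_p` lies in `𝔽_p^×`. -/
theorem tame_eigenvalue [CharP k p] (hExFrob : ExistsFrobLift p) (hFCW : FrobConjWild p)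
    (r : Gp p →* Module.End k V)
    (hlev : ∃ F : IntermediateField ℚ_[p] (Kbar p), FiniteDimensional ℚ_[p] F ∧
      ∀ τ : Gp p, (∀ x ∈ F, τ x = x) → r τ = 1)
    (u : V) (hu : u ≠ 0) (heig : ∀ τ : Gp p, ∃ x : k, r τ u = x • u)
    (τ : Gp p) (hτ : IsInertial p τ) (x : k) (hx : r τ u = x • u) : x ^ (p - 1) = 1 := by
  obtain ⟨F, hF, hFr⟩ := hlev
  obtain ⟨E, hEdef⟩ : ∃ E : IntermediateField ℚ_[p] (Kbar p),
      E = IntermediateField.normalClosure ℚ_[p] F (Kbar p) := ⟨_, rfl⟩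
  have hFE : F ≤ E := by rw [hEdef]; exact IntermediateField.le_normalClosure F
  have hEfin : FiniteDimensional ℚ_[p] E := by
    rw [hEdef]; exact normalClosure.is_finiteDimensional ℚ_[p] F (Kbar p)
  have hEn : IsNormalField p E := by
    have hN : Normal ℚ_[p] E := by
      rw [hEdef]; exact normalClosure.normal ℚ_[p] F (Kbar p)
    intro σ z hz
    exact (IntermediateField.normal_iff_forall_map_le'.mp hN) σ ⟨z, hz, rfl⟩
  obtain ⟨φ, hφ⟩ := hExFrob E hEfin
  obtain ⟨y, hy⟩ := heig φ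
  obtain ⟨w, hwdef⟩ : ∃ w : Gp p, w = (τ ^ p)⁻¹ * (φ * τ * φ⁻¹) := ⟨_, rfl⟩
  have hw : IsWildOn p E w := by
    intro z hz hz0
    have h1 := hFCW E φ τ hEn hφ hτ z hz hz0
    have h2 : w z - z = (τ ^ p)⁻¹ ((φ * τ * φ⁻¹) z - (τ ^ p) z) := by
      rw [map_sub, inv_apply_apply, hwdef]
      rfl
    rw [h2, LG83T.norm_map]
    exact h1
  obtain ⟨n, hn⟩ := wildPPowerOn E hEn hw
  have hrw : r (w ^ p ^ n) = 1 := hFr _ (fun z hz => hn z (hFE hz))
  have hx0 : x ≠ 0 := eig_ne_zero hu hx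
  have hy0 : y ≠ 0 := eig_ne_zero hu hy
  have hweig : r w u = ((x ^ p)⁻¹ * (y * x * y⁻¹)) • u := by
    rw [hwdef]
    exact eig_mul (eig_inv hu (eig_pow hx p)) (eig_mul (eig_mul hy hx) (eig_inv hu hy))
  have hwpow := eig_pow hweig (p ^ n)
  rw [hrw, Module.End.one_apply] at hwpow
  have hz1 : ((x ^ p)⁻¹ * (y * x * y⁻¹)) ^ p ^ n = 1 := by
    have h3 : ((1 : k) - ((x ^ p)⁻¹ * (y * x * y⁻¹)) ^ p ^ n) • u = 0 := by
      rw [sub_smul, one_smul, ← hwpow, sub_self]
    rcases smul_eq_zero.mp h3 with h4 | h4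
    · exact (sub_eq_zero.mp h4).symm
    · exact absurd h4 hu
  have hz : (x ^ p)⁻¹ * (y * x * y⁻¹) = 1 := by
    have h3 : ((x ^ p)⁻¹ * (y * x * y⁻¹) - 1) ^ p ^ n = 0 := by
      rw [sub_pow_char_pow, hz1, one_pow, sub_self]
    exact sub_eq_zero.mp ((pow_eq_zero_iff (pow_ne_zero n hp.out.ne_zero)).mp h3)
  have h5 : x ^ p = x := by
    have h6 : y * x * y⁻¹ = x := by rw [mul_comm y x, mul_assoc, mul_inv_cancel₀ hy0, mul_one]
    rw [h6] at hz
    have h7 : x ^ p * ((x ^ p)⁻¹ * x) = x ^ p * 1 := by rw [hz]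
    rw [← mul_assoc, mul_inv_cancel₀ (pow_ne_zero p hx0), one_mul, mul_one] at h7
    exact h7.symm
  have h8 : x * x ^ (p - 1) = x * 1 := by
    rw [mul_one, ← pow_succ', Nat.sub_add_cancel hp.out.pos, h5]
  exact mul_left_cancel₀ hx0 h8

end Tame

/-! ### The main theorem -/

section Main

/-- The mod-`p` cyclotomic character is non-trivial on inertia. -/
def CycloNontrivial : Prop :=
  ∃ (τ : Gp p) (a : ℕ), IsInertial p τ ∧ ActsOnMuP p τ a ∧ ¬ a ≡ 1 [MOD p]

variable {p}

/-- **CT-3: the ordinary shape of flat lifts** (case B of the count). -/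
theorem ordinaryShape (hp2 : p ≠ 2) (hF1 : StatementF1 p) (hF2 : StatementF2 p)
    (hRL : StatementRL p) (hExFrob : ExistsFrobLift p) (hFCW : FrobConjWild p)
    (hCN : CycloNontrivial p)
    {k : Type} [Field k] [CharP k p] {V : Type} [AddCommGroup V] [Module k V]
    (hV : Module.finrank k V = 2) (r : Gp p →* Module.End k V)
    (hlev : ∃ F : IntermediateField ℚ_[p] (Kbar p), FiniteDimensional ℚ_[p] F ∧
      ∀ τ : Gp p, (∀ x ∈ F, τ x = x) → r τ = 1)
    (hdet : ∀ (τ : Gp p) (a : ℕ), ActsOnMuP p τ a → LinearMap.det (r τ) = (a : k))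
    (hred : ∃ L1 : Submodule k V, Module.finrank k L1 = 1 ∧ ∀ τ : Gp p, ∀ v ∈ L1, r τ v ∈ L1)
    (c : Gp p → Module.End k V) (hc : IsLocCocycle r c)
    (hfl : IsFlatLocalModule p (V × V) (lliftAct r c)) :
    Module.finrank k (Submodule.span k {w | ∃ (τ : Gp p) (v : V), IsInertial p τ ∧ w = r τ v - v}) = 1 ∧
    (∀ τ : Gp p, ∀ v ∈ Submodule.span k {w | ∃ (τ : Gp p) (v : V), IsInertial p τ ∧ w = r τ v - v},
      r τ v ∈ Submodule.span k {w | ∃ (τ : Gp p) (v : V), IsInertial p τ ∧ w = r τ v - v}) ∧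
    (∀ (τ : Gp p) (a : ℕ), IsInertial p τ → ActsOnMuP p τ a →
      ∀ v ∈ Submodule.span k {w | ∃ (τ : Gp p) (v : V), IsInertial p τ ∧ w = r τ v - v},
        r τ v = (a : k) • v) ∧
    ∃ X : Module.End k V,
      (∀ τ : Gp p, ∀ v ∈ Submodule.span k {w | ∃ (τ : Gp p) (v : V), IsInertial p τ ∧ w = r τ v - v},
        (c τ - (lconj r τ X - X)) v ∈
          Submodule.span k {w | ∃ (τ : Gp p) (v : V), IsInertial p τ ∧ w = r τ v - v}) ∧
      ∀ τ : Gp p, IsInertial p τ →
        (∀ v : V, (c τ - (lconj r τ X - X)) v ∈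
          Submodule.span k {w | ∃ (τ : Gp p) (v : V), IsInertial p τ ∧ w = r τ v - v}) ∧
        ∀ v ∈ Submodule.span k {w | ∃ (τ : Gp p) (v : V), IsInertial p τ ∧ w = r τ v - v},
          (c τ - (lconj r τ X - X)) v = 0 := by
  obtain ⟨Red0, hR⟩ := exists_red0Axioms hp2 hF1 hF2 hRL r c hfl
  have hnontriv : ∃ (τ : Gp p) (a : ℕ), IsInertial p τ ∧ ActsOnMuP p τ a ∧ (a : k) ≠ 1 := by
    obtain ⟨τ, a, hτ, ha, hne⟩ := hCN
    refine ⟨τ, a, hτ, ha, fun h => hne ?_⟩
    have h1 : (a : k) = ((1 : ℕ) : k) := by rw [h, Nat.cast_one]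
    exact (CharP.natCast_eq_natCast k p).mp h1
  exact ordinaryShape_core p hV (isInertial_conj p) hc.map_mul hc.trace_eq_zero hdet hnontriv hred
    (tame_eigenvalue hExFrob hFCW r hlev) hR

end Main

end Fermat.Agent.TW.B5.CT3Ord37
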