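/-
Programme TW (S56), brick B5-CT (the count), leaf CT-2b (helper47): LEVELS AND SYMBOLS.

`LevelData F` : a uniformiser `π` of `F`, `‖p‖ = ‖π‖ ^ e`, `T (p-1) = p e`, and a residue field model
`res : 𝒪_F → κ`.  `U D i = {a ∈ F | ‖a - 1‖ ≤ ‖π‖ ^ i}`, `lev D i a = res ((a - 1) / π ^ i)`.

* `lev_mul`, `lev_eq_zero_iff`, `lev_conj_inertial`, `lev_conj_frob` : elementary properties;
* `KFacts D` : the three facts delivered by brick (K) about `p`-th powers and the top level;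
* `LevAll`, `sym` : for `β : G_p → M` all of whose Kummer generators have level `≥ i`, the symbol map
  `sym : (M →+ ZMod p) → κ`; additivity, vanishing criterion, Galois equivariance.
-/
import Mathlib
import Fermat.Agent.TW.B5.Kummer47

set_option autoImplicit false
set_option linter.unusedSectionVars false
set_option linter.style.haveILetI false

namespace Fermat.Agent.TW.B5.Levels47

open Fermat.Agent.TW.B5.Iface Fermat.Agent.TW.B5.IfaceLG Fermat.Agent.TW.B5.Kummer47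

variable {p : ℕ} [hp : Fact p.Prime]

/-- Uniformiser, ramification index and residue field model of `F`. -/
structure LevelData (F : IntermediateField ℚ_[p] (Kbar p)) where
  π : Kbar p
  hπF : π ∈ F
  hπpos : 0 < ‖π‖
  hπlt : ‖π‖ < 1
  e : ℕ
  he : ‖(p : Kbar p)‖ = ‖π‖ ^ e
  T : ℕ
  hT : T * (p - 1) = p * e
  val : ∀ x ∈ F, x ≠ 0 → ∃ n : ℤ, ‖x‖ = ‖π‖ ^ n
  κ : Type
  [instField : Field κ]
  res : intSubring p F →+* κ
  res_surj : Function.Surjective res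
  res_eq_zero : ∀ x : intSubring p F, res x = 0 ↔ ‖(x : Kbar p)‖ < 1

attribute [instance] LevelData.instField

variable {F : IntermediateField ℚ_[p] (Kbar p)} (D : LevelData F)

namespace LevelData

theorem π_ne_zero : D.π ≠ 0 := norm_pos_iff.1 D.hπpos

/-- The residue map extended by zero to all of `K̄`. -/
noncomputable def resFun (x : Kbar p) : D.κ := by
  classical
  exact if h : x ∈ intSubring p F then D.res ⟨x, h⟩ else 0

theorem resFun_of_mem {x : Kbar p} (h : x ∈ intSubring p F) : D.resFun x = D.res ⟨x, h⟩ := by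
  simp [resFun, h]

theorem mem_int {x : Kbar p} (hx : x ∈ F) (h1 : ‖x‖ ≤ 1) : x ∈ intSubring p F := ⟨hx, h1⟩

theorem resFun_add {x y : Kbar p} (hx : x ∈ intSubring p F) (hy : y ∈ intSubring p F) :
    D.resFun (x + y) = D.resFun x + D.resFun y := by
  rw [D.resFun_of_mem hx, D.resFun_of_mem hy, D.resFun_of_mem (add_mem hx hy), ← map_add]
  rfl

theorem resFun_mul {x y : Kbar p} (hx : x ∈ intSubring p F) (hy : y ∈ intSubring p F) :
    D.resFun (x * y) = D.resFun x * D.resFun y := by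
  rw [D.resFun_of_mem hx, D.resFun_of_mem hy, D.resFun_of_mem (mul_mem hx hy), ← map_mul]
  rfl

theorem resFun_pow {x : Kbar p} (hx : x ∈ intSubring p F) (n : ℕ) :
    D.resFun (x ^ n) = D.resFun x ^ n := by
  rw [D.resFun_of_mem hx, D.resFun_of_mem (pow_mem hx n), ← map_pow]
  rfl

theorem resFun_one : D.resFun 1 = 1 := by
  rw [D.resFun_of_mem (one_mem _)]
  exact map_one D.res

theorem resFun_eq_zero_iff {x : Kbar p} (hx : x ∈ intSubring p F) : D.resFun x = 0 ↔ ‖x‖ < 1 := by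
  rw [D.resFun_of_mem hx, D.res_eq_zero]

/-- Discreteness: an element of `F` of norm `< 1` has norm `≤ ‖π‖`. -/
theorem norm_le_of_lt_one {x : Kbar p} (hx : x ∈ F) (h : ‖x‖ < 1) : ‖x‖ ≤ ‖D.π‖ := by
  by_cases h0 : x = 0
  · rw [h0, norm_zero]; exact D.hπpos.le
  obtain ⟨n, hn⟩ := D.val x hx h0
  rw [hn] at h ⊢
  have hn1 : 1 ≤ n := by
    by_contra hcon
    push Not at hcon
    have hn0 : n ≤ 0 := by omega
    have : (1 : ℝ) ≤ ‖D.π‖ ^ n := by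
      obtain ⟨m, rfl⟩ : ∃ m : ℕ, n = -(m : ℤ) := ⟨(-n).toNat, by omega⟩
      rw [zpow_neg, zpow_natCast]
      exact (one_le_inv₀ (pow_pos D.hπpos m)).2 (pow_le_one₀ D.hπpos.le D.hπlt.le)
    exact absurd h (not_lt.2 this)
  calc ‖D.π‖ ^ n ≤ ‖D.π‖ ^ (1 : ℤ) :=
        zpow_le_zpow_right_of_le_one₀ D.hπpos D.hπlt.le hn1
    _ = ‖D.π‖ := zpow_one _

/-- The unit filtration. -/
def U (i : ℕ) : Set (Kbar p) := {a | a ∈ F ∧ ‖a - 1‖ ≤ ‖D.π‖ ^ i}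

/-- The level-`i` symbol of a principal unit. -/
noncomputable def lev (i : ℕ) (a : Kbar p) : D.κ := D.resFun ((a - 1) / D.π ^ i)

theorem div_mem_int {a : Kbar p} {i : ℕ} (ha : a ∈ D.U i) : (a - 1) / D.π ^ i ∈ intSubring p F := by
  refine ⟨div_mem (sub_mem ha.1 (one_mem _)) (pow_mem D.hπF i), ?_⟩
  rw [norm_div, norm_pow]
  exact div_le_one_of_le₀ ha.2 (pow_nonneg D.hπpos.le i)

theorem U_anti {i j : ℕ} (hij : i ≤ j) : D.U j ⊆ D.U i := fun _ ha =>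
  ⟨ha.1, ha.2.trans (pow_le_pow_of_le_one D.hπpos.le D.hπlt.le hij)⟩

theorem norm_eq_one_of_mem_U {a : Kbar p} {i : ℕ} (hi : 1 ≤ i) (ha : a ∈ D.U i) : ‖a‖ = 1 := by
  have h1 : ‖a - 1‖ < 1 :=
    lt_of_le_of_lt ha.2 (pow_lt_one₀ D.hπpos.le D.hπlt (by omega))
  have h2 : ‖a - 1‖ ≠ ‖(1 : Kbar p)‖ := by
    rw [norm_one]; exact h1.ne
  have h3 := IsUltrametricDist.norm_add_eq_max_of_norm_ne_norm h2
  rw [sub_add_cancel, norm_one, max_eq_right h1.le] at h3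
  exact h3

theorem ne_zero_of_mem_U {a : Kbar p} {i : ℕ} (hi : 1 ≤ i) (ha : a ∈ D.U i) : a ≠ 0 := by
  intro h0
  have := D.norm_eq_one_of_mem_U hi ha
  rw [h0, norm_zero] at this
  exact zero_ne_one this

theorem one_mem_U (i : ℕ) : (1 : Kbar p) ∈ D.U i :=
  ⟨one_mem _, by simp [pow_nonneg D.hπpos.le]⟩

theorem mul_mem_U {a b : Kbar p} {i : ℕ} (hi : 1 ≤ i) (ha : a ∈ D.U i) (hb : b ∈ D.U i) :
    a * b ∈ D.U i := by
  refine ⟨mul_mem ha.1 hb.1, ?_⟩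
  have h : a * b - 1 = (a - 1) * b + (b - 1) := by ring
  rw [h]
  refine (PadicAlgCl.isNonarchimedean p _ _).trans (max_le ?_ hb.2)
  rw [norm_mul, D.norm_eq_one_of_mem_U hi hb, mul_one]
  exact ha.2

theorem inv_mem_U {a : Kbar p} {i : ℕ} (hi : 1 ≤ i) (ha : a ∈ D.U i) : a⁻¹ ∈ D.U i := by
  refine ⟨inv_mem ha.1, ?_⟩
  have h0 := D.ne_zero_of_mem_U hi ha
  have h : a⁻¹ - 1 = -(a - 1) * a⁻¹ := by field_simp; ring
  rw [h, norm_mul, norm_neg, norm_inv, D.norm_eq_one_of_mem_U hi ha, inv_one, mul_one]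
  exact ha.2

/-- The symbol is additive on `U i`. -/
theorem lev_mul {a b : Kbar p} {i : ℕ} (hi : 1 ≤ i) (ha : a ∈ D.U i) (hb : b ∈ D.U i) :
    D.lev i (a * b) = D.lev i a + D.lev i b := by
  have hx := D.div_mem_int ha
  have hy := D.div_mem_int hb
  have hπi : D.π ^ i ≠ 0 := pow_ne_zero _ D.π_ne_zero
  have hz : (a - 1) / D.π ^ i * (b - 1) ∈ intSubring p F :=
    mul_mem hx ⟨sub_mem hb.1 (one_mem _), hb.2.trans (pow_le_one₀ D.hπpos.le D.hπlt.le)⟩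
  have h : (a * b - 1) / D.π ^ i =
      ((a - 1) / D.π ^ i + (b - 1) / D.π ^ i) + (a - 1) / D.π ^ i * (b - 1) := by
    field_simp; ring
  unfold lev
  rw [h, D.resFun_add (add_mem hx hy) hz, D.resFun_add hx hy]
  have : D.resFun ((a - 1) / D.π ^ i * (b - 1)) = 0 := by
    rw [D.resFun_eq_zero_iff hz, norm_mul]
    have h1 : ‖(a - 1) / D.π ^ i‖ ≤ 1 := hx.2
    have h2 : ‖b - 1‖ < 1 := lt_of_le_of_lt hb.2 (pow_lt_one₀ D.hπpos.le D.hπlt (by omega))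
    calc ‖(a - 1) / D.π ^ i‖ * ‖b - 1‖ ≤ 1 * ‖b - 1‖ :=
          mul_le_mul_of_nonneg_right h1 (norm_nonneg _)
      _ < 1 := by rwa [one_mul]
  rw [this, add_zero]

theorem lev_eq_zero_iff {a : Kbar p} {i : ℕ} (ha : a ∈ D.U i) :
    D.lev i a = 0 ↔ a ∈ D.U (i + 1) := by
  have hx := D.div_mem_int ha
  have hπi : 0 < ‖D.π‖ ^ i := pow_pos D.hπpos i
  unfold lev
  rw [D.resFun_eq_zero_iff hx]
  constructor
  · intro h
    refine ⟨ha.1, ?_⟩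
    have h1 := D.norm_le_of_lt_one hx.1 h
    rw [norm_div, norm_pow, div_le_iff₀ hπi] at h1
    rw [pow_succ, mul_comm]
    exact h1
  · intro h
    rw [norm_div, norm_pow, div_lt_one hπi]
    refine lt_of_le_of_lt h.2 ?_
    rw [pow_succ]
    calc ‖D.π‖ ^ i * ‖D.π‖ < ‖D.π‖ ^ i * 1 := mul_lt_mul_of_pos_left D.hπlt hπi
      _ = ‖D.π‖ ^ i := mul_one _

theorem lev_one (i : ℕ) : D.lev i 1 = 0 := by
  unfold lev
  rw [sub_self, zero_div, D.resFun_of_mem (zero_mem _)]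
  exact map_zero D.res


/-! ### Galois action on symbols -/

theorem norm_galois (g : Gp p) (x : Kbar p) : ‖g x‖ = ‖x‖ := by
  have := nnnorm_padicAlgCl_algEquiv p g x
  exact congrArg NNReal.toReal this

/-- The tame symbol of `g` at `π`. -/
noncomputable def theta (g : Gp p) : D.κ := D.resFun (g D.π / D.π)

theorem galois_mem_U {g : Gp p} (hg : ∀ x ∈ F, g x ∈ F) {a : Kbar p} {i : ℕ} (ha : a ∈ D.U i) :
    g a ∈ D.U i := by
  refine ⟨hg a ha.1, ?_⟩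
  have : g a - 1 = g (a - 1) := by simp
  rw [this, norm_galois]
  exact ha.2

theorem theta_arg_mem {g : Gp p} (hg : ∀ x ∈ F, g x ∈ F) : g D.π / D.π ∈ intSubring p F := by
  refine ⟨div_mem (hg _ D.hπF) D.hπF, ?_⟩
  rw [norm_div, norm_galois, div_self D.hπpos.ne']

theorem lev_galois_aux {g : Gp p} (hg : ∀ x ∈ F, g x ∈ F) {a : Kbar p} {i : ℕ} (ha : a ∈ D.U i) :
    D.lev i (g a) = D.theta g ^ i * D.resFun (g ((a - 1) / D.π ^ i)) := by
  have hx := D.div_mem_int ha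
  have hgx : g ((a - 1) / D.π ^ i) ∈ intSubring p F :=
    ⟨hg _ hx.1, by rw [norm_galois]; exact hx.2⟩
  have hu := D.theta_arg_mem hg
  have hπ0 := D.π_ne_zero
  have hgπ0 : g D.π ≠ 0 := by simpa using hπ0
  have h : (g a - 1) / D.π ^ i = (g D.π / D.π) ^ i * g ((a - 1) / D.π ^ i) := by
    rw [map_div₀, map_pow, map_sub, map_one, div_pow]
    field_simp
  unfold lev theta
  rw [h, D.resFun_mul (pow_mem hu i) hgx, D.resFun_pow hu]

theorem lev_conj_inertial {g : Gp p} (hg : ∀ x ∈ F, g x ∈ F) (hin : IsInertial p g) {a : Kbar p}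
    {i : ℕ} (ha : a ∈ D.U i) : D.lev i (g a) = D.theta g ^ i * D.lev i a := by
  rw [D.lev_galois_aux hg ha]
  congr 1
  have hx := D.div_mem_int ha
  have hgx : g ((a - 1) / D.π ^ i) ∈ intSubring p F :=
    ⟨hg _ hx.1, by rw [norm_galois]; exact hx.2⟩
  have hsub : g ((a - 1) / D.π ^ i) - (a - 1) / D.π ^ i ∈ intSubring p F := sub_mem hgx hx
  have h0 : D.resFun (g ((a - 1) / D.π ^ i) - (a - 1) / D.π ^ i) = 0 :=
    (D.resFun_eq_zero_iff hsub).2 (hin _ hx.2)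
  have h1 : g ((a - 1) / D.π ^ i) =
      (g ((a - 1) / D.π ^ i) - (a - 1) / D.π ^ i) + (a - 1) / D.π ^ i := by ring
  unfold lev
  rw [h1, D.resFun_add hsub hx, h0, zero_add]

theorem lev_conj_frob {g : Gp p} (hg : ∀ x ∈ F, g x ∈ F) (hfr : IsFrobLiftOn p F g) {a : Kbar p}
    {i : ℕ} (ha : a ∈ D.U i) : D.lev i (g a) = D.theta g ^ i * D.lev i a ^ p := by
  rw [D.lev_galois_aux hg ha]
  congr 1
  have hx := D.div_mem_int ha
  have hgx : g ((a - 1) / D.π ^ i) ∈ intSubring p F :=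
    ⟨hg _ hx.1, by rw [norm_galois]; exact hx.2⟩
  have hxp : ((a - 1) / D.π ^ i) ^ p ∈ intSubring p F := pow_mem hx p
  have hsub : g ((a - 1) / D.π ^ i) - ((a - 1) / D.π ^ i) ^ p ∈ intSubring p F := sub_mem hgx hxp
  have h0 : D.resFun (g ((a - 1) / D.π ^ i) - ((a - 1) / D.π ^ i) ^ p) = 0 :=
    (D.resFun_eq_zero_iff hsub).2 (hfr _ hx.1 hx.2)
  have h1 : g ((a - 1) / D.π ^ i) =
      (g ((a - 1) / D.π ^ i) - ((a - 1) / D.π ^ i) ^ p) + ((a - 1) / D.π ^ i) ^ p := by ring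
  unfold lev
  rw [h1, D.resFun_add hsub hxp, h0, zero_add, D.resFun_pow hx]

/-! ### The facts delivered by brick (K) -/

/-- The three facts on `p`-th powers and on the top level `T` (brick (K)). -/
structure KFacts : Prop where
  pow_level : ∀ i, D.e ≤ i → i < D.T → p ∣ i → ∀ a ∈ D.U i,
    ∃ b ∈ F, b ≠ 0 ∧ a * b ^ p ∈ D.U (i + 1)
  pow_mem : ∀ i, D.e ≤ i → i < D.T → ¬ p ∣ i → ∀ b ∈ F, b ≠ 0 → b ^ p ∈ D.U i →
    b ^ p ∈ D.U (i + 1)
  top_unram : ∀ a ∈ D.U D.T, ∀ α : Kbar p, α ^ p = a → ∀ τ : Gp p, IsInertial p τ →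
    τ ∈ F.fixingSubgroup → τ α = α

/-! ### Level predicates and the symbol map -/

section Sym

variable {M : Type*} [AddCommGroup M] (ζ : Kbar p)

/-- All Kummer generators of `β` have level at least `i`. -/
def LevAll (β : Gp p → M) (i : ℕ) : Prop :=
  ∀ ℓ : M →+ ZMod p, ∃ a ∈ D.U i, IsKummer F ζ (fun τ => ℓ (β τ)) a

/-- The level-`i` symbol map of `β`. -/
noncomputable def sym (β : Gp p → M) (i : ℕ) (h : D.LevAll ζ β i) (ℓ : M →+ ZMod p) : D.κ :=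
  D.lev i (Classical.choose (h ℓ))

variable {ζ}

theorem sym_spec (hζ : IsPrimRoot ζ) (hK : D.KFacts) {β : Gp p → M} {i : ℕ} (h : D.LevAll ζ β i)
    (hi1 : 1 ≤ i) (hie : D.e ≤ i) (hiT : i < D.T) (hip : ¬ p ∣ i) (ℓ : M →+ ZMod p)
    {a : Kbar p} (ha : a ∈ D.U i) (hk : IsKummer F ζ (fun τ => ℓ (β τ)) a) :
    D.sym ζ β i h ℓ = D.lev i a := by
  obtain ⟨ha₀, hk₀⟩ := Classical.choose_spec (h ℓ)
  set a₀ := Classical.choose (h ℓ) with ha₀def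
  have hne := D.ne_zero_of_mem_U hi1 ha
  have hne₀ := D.ne_zero_of_mem_U hi1 ha₀
  obtain ⟨b, hbF, hb0, hab⟩ := isKummer_unique hζ hne hne₀ hk hk₀
  have hbp : b ^ p ∈ D.U i := by
    have : b ^ p = a * a₀⁻¹ := by rw [hab]; field_simp
    rw [this]
    exact D.mul_mem_U hi1 ha (D.inv_mem_U hi1 ha₀)
  have hbp' := hK.pow_mem i hie hiT hip b hbF hb0 hbp
  have h0 : D.lev i (b ^ p) = 0 := (D.lev_eq_zero_iff hbp).2 hbp'
  unfold sym
  rw [← ha₀def, hab, D.lev_mul hi1 ha₀ hbp, h0, add_zero]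

theorem LevAll.mono {β : Gp p → M} {i j : ℕ} (hij : i ≤ j) (h : D.LevAll ζ β j) :
    D.LevAll ζ β i := fun ℓ => by
  obtain ⟨a, ha, hk⟩ := h ℓ
  exact ⟨a, D.U_anti hij ha, hk⟩

theorem sym_add (hζ : IsPrimRoot ζ) (hζF : ζ ∈ F) (hK : D.KFacts) {β : Gp p → M} {i : ℕ}
    (h : D.LevAll ζ β i) (hi1 : 1 ≤ i) (hie : D.e ≤ i) (hiT : i < D.T) (hip : ¬ p ∣ i)
    (ℓ ℓ' : M →+ ZMod p) :
    D.sym ζ β i h (ℓ + ℓ') = D.sym ζ β i h ℓ + D.sym ζ β i h ℓ' := by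
  obtain ⟨a, ha, hk⟩ := h ℓ
  obtain ⟨a', ha', hk'⟩ := h ℓ'
  have hmul := IsKummer.mul hζ hζF (D.ne_zero_of_mem_U hi1 ha) (D.ne_zero_of_mem_U hi1 ha') hk hk'
  rw [D.sym_spec hζ hK h hi1 hie hiT hip ℓ ha hk, D.sym_spec hζ hK h hi1 hie hiT hip ℓ' ha' hk',
    D.sym_spec hζ hK h hi1 hie hiT hip (ℓ + ℓ') (D.mul_mem_U hi1 ha ha') hmul,
    D.lev_mul hi1 ha ha']

theorem LevAll.add (hζ : IsPrimRoot ζ) (hζF : ζ ∈ F) {β β' : Gp p → M} {i : ℕ} (hi1 : 1 ≤ i)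
    (h : D.LevAll ζ β i) (h' : D.LevAll ζ β' i) : D.LevAll ζ (fun τ => β τ + β' τ) i := fun ℓ => by
  obtain ⟨a, ha, hk⟩ := h ℓ
  obtain ⟨a', ha', hk'⟩ := h' ℓ
  refine ⟨a * a', D.mul_mem_U hi1 ha ha', ?_⟩
  have := IsKummer.mul hζ hζF (D.ne_zero_of_mem_U hi1 ha) (D.ne_zero_of_mem_U hi1 ha') hk hk'
  simpa [map_add] using this

theorem sym_add_fun (hζ : IsPrimRoot ζ) (hζF : ζ ∈ F) (hK : D.KFacts) {β β' : Gp p → M} {i : ℕ}
    (h : D.LevAll ζ β i) (h' : D.LevAll ζ β' i) (hsum : D.LevAll ζ (fun τ => β τ + β' τ) i)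
    (hi1 : 1 ≤ i) (hie : D.e ≤ i) (hiT : i < D.T) (hip : ¬ p ∣ i) (ℓ : M →+ ZMod p) :
    D.sym ζ (fun τ => β τ + β' τ) i hsum ℓ = D.sym ζ β i h ℓ + D.sym ζ β' i h' ℓ := by
  obtain ⟨a, ha, hk⟩ := h ℓ
  obtain ⟨a', ha', hk'⟩ := h' ℓ
  have hmul := IsKummer.mul hζ hζF (D.ne_zero_of_mem_U hi1 ha) (D.ne_zero_of_mem_U hi1 ha') hk hk'
  have hmul' : IsKummer F ζ (fun τ => ℓ (β τ + β' τ)) (a * a') := by simpa [map_add] using hmul
  rw [D.sym_spec hζ hK h hi1 hie hiT hip ℓ ha hk, D.sym_spec hζ hK h' hi1 hie hiT hip ℓ ha' hk',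
    D.sym_spec hζ hK hsum hi1 hie hiT hip ℓ (D.mul_mem_U hi1 ha ha') hmul', D.lev_mul hi1 ha ha']

/-- Naturality in the coefficient group. -/
theorem LevAll.comp {M' : Type*} [AddCommGroup M'] {β : Gp p → M} {i : ℕ} (h : D.LevAll ζ β i)
    (u : M →+ M') : D.LevAll ζ (fun τ => u (β τ)) i := fun ℓ => h (ℓ.comp u)

theorem sym_comp (hζ : IsPrimRoot ζ) (hK : D.KFacts) {M' : Type*} [AddCommGroup M']
    {β : Gp p → M} {i : ℕ} (h : D.LevAll ζ β i) (u : M →+ M')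
    (hu : D.LevAll ζ (fun τ => u (β τ)) i)
    (hi1 : 1 ≤ i) (hie : D.e ≤ i) (hiT : i < D.T) (hip : ¬ p ∣ i) (ℓ : M' →+ ZMod p) :
    D.sym ζ (fun τ => u (β τ)) i hu ℓ = D.sym ζ β i h (ℓ.comp u) := by
  obtain ⟨a, ha, hk⟩ := h (ℓ.comp u)
  rw [D.sym_spec hζ hK h hi1 hie hiT hip (ℓ.comp u) ha hk,
    D.sym_spec hζ hK hu hi1 hie hiT hip ℓ ha hk]

/-- If the symbol map vanishes, all generators have level `≥ i + 1`. -/
theorem LevAll.succ_of_sym_eq_zero {β : Gp p → M} {i : ℕ} (h : D.LevAll ζ β i)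
    (h0 : ∀ ℓ, D.sym ζ β i h ℓ = 0) : D.LevAll ζ β (i + 1) := fun ℓ => by
  obtain ⟨ha₀, hk₀⟩ := Classical.choose_spec (h ℓ)
  exact ⟨_, (D.lev_eq_zero_iff ha₀).1 (h0 ℓ), hk₀⟩

/-- Levels divisible by `p` are skipped. -/
theorem LevAll.succ_of_dvd (hζ : IsPrimRoot ζ) (hζF : ζ ∈ F) (hK : D.KFacts) {β : Gp p → M}
    {i : ℕ} (h : D.LevAll ζ β i) (hi1 : 1 ≤ i) (hie : D.e ≤ i) (hiT : i < D.T) (hip : p ∣ i) :
    D.LevAll ζ β (i + 1) := fun ℓ => by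
  obtain ⟨a, ha, hk⟩ := h ℓ
  obtain ⟨b, hbF, hb0, hab⟩ := hK.pow_level i hie hiT hip a ha
  exact ⟨a * b ^ p, hab, IsKummer.pow_mul hζ hζF (D.ne_zero_of_mem_U hi1 ha) hb0 hbF hk⟩

/-- At the top level the class is unramified. -/
theorem LevAll.eq_zero_of_top (hζ : IsPrimRoot ζ) (hK : D.KFacts) {β : Gp p → M}
    (hT1 : 1 ≤ D.T) (h : D.LevAll ζ β D.T)
    (hsep : ∀ m : M, (∀ ℓ : M →+ ZMod p, ℓ m = 0) → m = 0)
    (τ : Gp p) (hτ : IsInertial p τ) (hτF : τ ∈ F.fixingSubgroup) : β τ = 0 := by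
  apply hsep
  intro ℓ
  obtain ⟨a, ha, hk⟩ := h ℓ
  obtain ⟨α, hα⟩ := IsAlgClosed.exists_pow_nat_eq a hp.out.pos
  have hα0 : α ≠ 0 := by
    intro h0
    rw [h0, zero_pow hp.out.ne_zero] at hα
    exact D.ne_zero_of_mem_U hT1 ha hα.symm
  have h1 := hk α hα τ hτF
  rw [hK.top_unram a ha α hα τ hτ hτF] at h1
  have h2 : ζ ^ (ℓ (β τ)).val = ζ ^ (0 : ZMod p).val := by
    rw [ZMod.val_zero, pow_zero]
    have : ζ ^ (ℓ (β τ)).val * α = 1 * α := by rw [one_mul]; exact h1.symm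
    exact mul_right_cancel₀ hα0 this
  exact pow_val_injective hζ h2

/-- Galois transport of generators: the basic relation behind the equivariance of `sym`. -/
theorem sym_galois (hζ : IsPrimRoot ζ) (hζF : ζ ∈ F) (hK : D.KFacts) {β : Gp p → M} {i : ℕ}
    (h : D.LevAll ζ β i) (hi1 : 1 ≤ i) (hie : D.e ≤ i) (hiT : i < D.T) (hip : ¬ p ∣ i)
    (g : Gp p) (w : ℕ) (hw : g ζ = ζ ^ w) (hg : ∀ x ∈ F, g x ∈ F)
    (ℓ ℓ' : M →+ ZMod p)
    (hrel : ∀ τ ∈ F.fixingSubgroup, ℓ' (β τ) = (w : ZMod p) * ℓ (β (g⁻¹ * τ * g)))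
    {a : Kbar p} (ha : a ∈ D.U i) (hk : IsKummer F ζ (fun τ => ℓ (β τ)) a) :
    D.sym ζ β i h ℓ' = D.lev i (g a) := by
  have hnorm : ∀ τ ∈ F.fixingSubgroup, g⁻¹ * τ * g ∈ F.fixingSubgroup := by
    intro τ hτ
    rw [IntermediateField.mem_fixingSubgroup_iff] at hτ ⊢
    intro x hx
    have h1 := hτ (g x) (hg x hx)
    simp only [AlgEquiv.mul_apply, h1]
    exact g.symm_apply_apply x
  have hk' := IsKummer.conj hζ hζF (D.ne_zero_of_mem_U hi1 ha) hk g w hw hnorm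
  have hk'' : IsKummer F ζ (fun τ => ℓ' (β τ)) (g a) := by
    intro α hα τ hτ
    rw [hk' α hα τ hτ]
    simp only [hrel τ hτ]
  exact D.sym_spec hζ hK h hi1 hie hiT hip ℓ' (D.galois_mem_U hg ha) hk''

end Sym

end LevelData

end Fermat.Agent.TW.B5.Levels47
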