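/-
Programme TW (S56), brick B5 (FLAT local bound).  INTERFACE, part 3 (helper47): statement shapes consumed by
the count (CT), in the vocabulary of `Levels47` (`LevelData`, `U`, `lev`, `theta`, `KFacts`).

* `WildPPowerOn`, `CycloNontrivial`   : two more toolkit facts (requested by helper37);
* `HasLevelData`                      : every finite `F ∋ ζ_p` has a `LevelData` with finite residue field;
* `RamIdxEqCard`                      : `e(F/ℚ_p)` is the number of restrictions to `F` of inertial elements;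
* `TameGenerator`                     : for tame normal `F`, inertia acts on `F` through one generator `g₀`
                                        whose tame symbol `θ(g₀)` has exact order `e`;
* `CycloTheta`                        : the cyclotomic character is `θ ^ (e/(p-1))` on inertia;
* `KummerLevelGen`                    : the Kummer level bound for a general tame `F` (replaces
                                        `Iface.KummerLevel`, which is the special case `F = K₀((-p)^(1/e))`);
* `KFactsAll`                         : `KFacts D` for every `LevelData` on a field containing `ζ_p`.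
-/
import Fermat.Agent.TW.B5.Levels47

set_option autoImplicit false

namespace Fermat.Agent.TW.B5.IfaceCT

open Fermat.Agent.TW.B5.Iface Fermat.Agent.TW.B5.IfaceLG Fermat.Agent.TW.B5.Kummer47
  Fermat.Agent.TW.B5.Levels47

variable (p : ℕ) [Fact p.Prime]

/-- **(LG-T2')** Finite-level form of `WildPPower`: an element acting wildly on a finite normal `E` has
`p`-power order on `E`. -/
def WildPPowerOn : Prop :=
  ∀ E : IntermediateField ℚ_[p] (Kbar p), FiniteDimensional ℚ_[p] E → IsNormalField p E →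
    ∀ τ : Gp p, (∀ x ∈ E, x ≠ 0 → ‖τ x - x‖ < ‖x‖) → ∃ n : ℕ, ∀ x ∈ E, (τ ^ p ^ n) x = x

/-- **(LG-T6)** The mod-`p` cyclotomic character is non-trivial on inertia (`p` odd). -/
def CycloNontrivial : Prop :=
  p ≠ 2 → ∃ (τ : Gp p) (a : ℕ), IsInertial p τ ∧ ActsOnMuP p τ a ∧ ¬ (a ≡ 1 [MOD p])

/-- **(LD1)** Existence of level data with finite residue field. -/
def HasLevelData : Prop :=
  ∀ (F : IntermediateField ℚ_[p] (Kbar p)) (ζ : Kbar p), FiniteDimensional ℚ_[p] F →
    IsPrimRoot ζ → ζ ∈ F → ∃ D : LevelData F, Finite D.κ ∧ CharP D.κ p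

/-- **(LD5)** The absolute ramification index is the order of the finite-level inertia group: there are
exactly `e` restrictions to `F` of inertial elements. -/
def RamIdxEqCard : Prop :=
  ∀ (F : IntermediateField ℚ_[p] (Kbar p)) (D : LevelData F), FiniteDimensional ℚ_[p] F →
    IsNormalField p F →
    ∃ s : Finset (Gp p), s.card = D.e ∧ (∀ τ ∈ s, IsInertial p τ) ∧
      (∀ τ : Gp p, IsInertial p τ → ∃ σ ∈ s, ∀ x ∈ F, τ x = σ x) ∧
      ∀ σ ∈ s, ∀ σ' ∈ s, (∀ x ∈ F, σ x = σ' x) → σ = σ'

/-- **(LD2)** Tame generator: if `p ∤ e`, inertia acts on `F` through the powers of one element `g₀`,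
and `θ(g₀)` has exact order `e`. -/
def TameGenerator : Prop :=
  ∀ (F : IntermediateField ℚ_[p] (Kbar p)) (D : LevelData F), FiniteDimensional ℚ_[p] F →
    IsNormalField p F → ¬ p ∣ D.e →
    ∃ g₀ : Gp p, IsInertial p g₀ ∧ (∀ n : ℕ, D.theta g₀ ^ n = 1 ↔ D.e ∣ n) ∧
      ∀ τ : Gp p, IsInertial p τ → ∃ n : ℕ, ∀ x ∈ F, τ x = (g₀ ^ n) x

/-- **(LD3)** On inertia the cyclotomic character is `θ ^ (e/(p-1))`: if `g ζ = ζ ^ a` then
`(a : κ) = θ(g) ^ m` where `e = m (p-1)`. -/
def CycloTheta : Prop :=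
  ∀ (F : IntermediateField ℚ_[p] (Kbar p)) (D : LevelData F) (ζ : Kbar p), IsNormalField p F →
    IsPrimRoot ζ → ζ ∈ F → ∀ (g : Gp p) (a m : ℕ), IsInertial p g → g ζ = ζ ^ a →
      D.e = m * (p - 1) → (a : D.κ) = D.theta g ^ m

/-- **(K)+(R) output, general tame form.**  `K₀ ≤ F ≤ L`, `K₀` finite unramified, `F/K₀` totally ramified
(same residue field) and tame (`p ∤ e`), `ζ_p ∈ F`, `L` finite, normal over `K₀`, with `(P_m)`:
every `a ∈ Fˣ` having a `p`-th root in `L` lies in `U^{(e)} · Fˣᵖ`. -/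
def KummerLevelGen : Prop :=
  p ≠ 2 → ∀ (K₀ F L : IntermediateField ℚ_[p] (Kbar p)) (D : LevelData F) (ζ : Kbar p),
    FiniteDimensional ℚ_[p] K₀ → IsUnramifiedField p K₀ → K₀ ≤ F → F ≤ L →
    FiniteDimensional ℚ_[p] L → IsNormalOver p K₀ L → IsNormalOver p K₀ F →
    (∀ x ∈ F, ‖x‖ ≤ 1 → ∃ y ∈ K₀, ‖x - y‖ < 1) → ¬ p ∣ D.e → IsPrimRoot ζ → ζ ∈ F →
    FontainePm p K₀ L →
    ∀ a ∈ F, a ≠ 0 → (∃ α ∈ L, α ^ p = a) → ∃ b ∈ F, b ≠ 0 ∧ a * b ^ p ∈ D.U D.e

/-- **(K) facts on `p`-th powers and the top level**, for every level datum on a field containing `ζ_p`. -/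
def KFactsAll : Prop :=
  p ≠ 2 → ∀ (F : IntermediateField ℚ_[p] (Kbar p)) (D : LevelData F) (ζ : Kbar p),
    FiniteDimensional ℚ_[p] F → IsPrimRoot ζ → ζ ∈ F → D.KFacts

end Fermat.Agent.TW.B5.IfaceCT
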