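/-
Programme TW (S56), brick B5 (FLAT local bound).  INTERFACE, part 4 (helper47): one more field-theoretic
input of the count (CT).

* `ExistsUnramSub` : every finite `F/ℚ_p` contains a finite unramified `K₀` with the same residue field
  (the maximal unramified subextension; only existence and the two properties are used).
-/
import Fermat.Agent.TW.B5.IfaceCT

set_option autoImplicit false

namespace Fermat.Agent.TW.B5.IfaceCT

open Fermat.Agent.TW.B5.Iface Fermat.Agent.TW.B5.IfaceLG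

variable (p : ℕ) [Fact p.Prime]

/-- **(LD6)** Maximal unramified subextension: `K₀ ≤ F`, `K₀/ℚ_p` finite unramified, and every integer of
`F` is congruent to an element of `K₀` modulo the maximal ideal. -/
def ExistsUnramSub : Prop :=
  ∀ F : IntermediateField ℚ_[p] (Kbar p), FiniteDimensional ℚ_[p] F →
    ∃ K₀ : IntermediateField ℚ_[p] (Kbar p), K₀ ≤ F ∧ FiniteDimensional ℚ_[p] K₀ ∧
      IsUnramifiedField p K₀ ∧ ∀ x ∈ F, ‖x‖ ≤ 1 → ∃ y ∈ K₀, ‖x - y‖ < 1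

/-- **(K)+(R) output, final form** (requested by helper8): as `KummerLevelGen`, but `(P_m)` is assumed for
`K₁ ⊆ L` for every finite unramified `K₁` between `K₀` and `L` (the count gets all of them from
`StatementPm`, because `L = K₀ ⊔ ℚ_p(values) = K₁ ⊔ ℚ_p(values)`). -/
def KummerLevelGen' : Prop :=
  p ≠ 2 → ∀ (K₀ F L : IntermediateField ℚ_[p] (Kbar p)) (D : Levels47.LevelData F) (ζ : Kbar p),
    FiniteDimensional ℚ_[p] K₀ → IsUnramifiedField p K₀ → K₀ ≤ F → F ≤ L →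
    FiniteDimensional ℚ_[p] L → IsNormalOver p K₀ L → IsNormalOver p K₀ F →
    (∀ x ∈ F, ‖x‖ ≤ 1 → ∃ y ∈ K₀, ‖x - y‖ < 1) → ¬ p ∣ D.e → Kummer47.IsPrimRoot ζ → ζ ∈ F →
    (∀ K₁ : IntermediateField ℚ_[p] (Kbar p), K₀ ≤ K₁ → K₁ ≤ L → FiniteDimensional ℚ_[p] K₁ →
      IsUnramifiedField p K₁ → FontainePm p K₁ L) →
    ∀ a ∈ F, a ≠ 0 → (∃ α ∈ L, α ^ p = a) → ∃ b ∈ F, b ≠ 0 ∧ a * b ^ p ∈ D.U D.e

theorem kummerLevelGen'_of (h : KummerLevelGen p) : KummerLevelGen' p :=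
  fun hp2 K₀ F L D ζ h1 h2 h3 h4 h5 h6 h7 h8 h9 h10 h11 hPm =>
    h hp2 K₀ F L D ζ h1 h2 h3 h4 h5 h6 h7 h8 h9 h10 h11 (hPm K₀ le_rfl (h3.trans h4) h1 h2)

end Fermat.Agent.TW.B5.IfaceCT
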