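/-
Programme TW (S56), brick B5-CT (the count), leaf (L1) (helper47): FLATNESS GIVES LEVEL `≥ e`.

`levAll_of_flat` : let `F` be finite, normal and tame over `ℚ_p` with `ζ_p ∈ F`, `K₀ ≤ F` unramified with the
same residue field.  Let `X` be a flat local module killed by `p` and `β : G_p → M` a function which is
additive on `G_F` and factors through the action on `X` (over `K₀`).  Then all Kummer generators of `β` over
`F` can be chosen in `U^{(e)}`: `D.LevAll ζ β D.e`.

Inputs: `StatementPm` (brick (H)) and `KummerLevelGen` (bricks (K)+(R)).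
-/
import Mathlib
import Fermat.Agent.TW.B5.IfaceCT2
import Fermat.Agent.TW.B5.CT3Ord37

set_option autoImplicit false
set_option linter.unusedSectionVars false
set_option linter.style.haveILetI false

namespace Fermat.Agent.TW.B5.FlatLev47

open Fermat.Agent.TW.B5.Iface Fermat.Agent.TW.B5.IfaceLG Fermat.Agent.TW.B5.IfaceCT
  Fermat.Agent.TW.B5.Kummer47 Fermat.Agent.TW.B5.Levels47 Fermat.Agent.TW.B5.CT3Ord37

variable {p : ℕ} [hp : Fact p.Prime]

section PointField

variable (H : Type) [CommRing H] [HopfAlgebra (Zloc p) H]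

/-- The set of coordinates of all points of `H`. -/
def ptSet : Set (Kbar p) := {y | ∃ (f : Pts (p := p) H) (h : H), y = f h}

theorem galois_mem_ptSet (τ : Gp p) {y : Kbar p} (hy : y ∈ ptSet (p := p) H) :
    τ y ∈ ptSet (p := p) H := by
  obtain ⟨f, h, rfl⟩ := hy
  exact ⟨galPt H τ f, h, rfl⟩

theorem algebraMap_Zloc_mem (E : IntermediateField ℚ_[p] (Kbar p)) (a : Zloc p) :
    algebraMap (Zloc p) (Kbar p) a ∈ E := by
  have h : algebraMap (Zloc p) (Kbar p) a = ((a : ℚ) : Kbar p) := by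
    show algebraMap ℚ (Kbar p) (a : ℚ) = _
    rw [eq_ratCast]
  rw [h]
  exact SubfieldClass.ratCast_mem E _

theorem finiteDimensional_adjoin_ptSet [Module.Finite (Zloc p) H] [Finite (Pts (p := p) H)] :
    FiniteDimensional ℚ_[p] (IntermediateField.adjoin ℚ_[p] (ptSet (p := p) H)) := by
  classical
  obtain ⟨n, g, hg⟩ := Module.Finite.exists_fin (R := Zloc p) (M := H)
  let S₀ : Set (Kbar p) := Set.range fun x : Pts (p := p) H × Fin n => x.1 (g x.2)
  haveI : Finite S₀ := Set.finite_range _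
  haveI hfin : FiniteDimensional ℚ_[p] (IntermediateField.adjoin ℚ_[p] S₀) :=
    IntermediateField.finiteDimensional_adjoin fun x _ => Algebra.IsIntegral.isIntegral x
  have hsub : ptSet (p := p) H ⊆ IntermediateField.adjoin ℚ_[p] S₀ := by
    rintro y ⟨f, h, rfl⟩
    have hh : h ∈ Submodule.span (Zloc p) (Set.range g) := by rw [hg]; trivial
    induction hh using Submodule.span_induction with
    | mem x hx =>
      obtain ⟨i, rfl⟩ := hx
      exact IntermediateField.subset_adjoin _ _ ⟨(f, i), rfl⟩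
    | zero =>
      have : f (0 : H) = 0 := map_zero f.ofConv
      rw [this]; exact zero_mem _
    | add x y _ _ hx hy =>
      have : f (x + y) = f x + f y := map_add f.ofConv x y
      rw [this]; exact add_mem hx hy
    | smul a x _ hx =>
      have : f (a • x) = algebraMap (Zloc p) (Kbar p) a * f x := by
        have h1 : f.ofConv (a • x) = a • f.ofConv x := map_smul f.ofConv a x
        rw [h1, Algebra.smul_def]
      rw [this]
      exact mul_mem (algebraMap_Zloc_mem _ a) hx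
  have hle : IntermediateField.adjoin ℚ_[p] (ptSet (p := p) H) ≤
      IntermediateField.adjoin ℚ_[p] S₀ := IntermediateField.adjoin_le_iff.2 hsub
  exact FiniteDimensional.of_injective (IntermediateField.inclusion hle).toLinearMap
    (IntermediateField.inclusion hle).injective

theorem isNormalOver_sup_adjoin_ptSet (K₀ : IntermediateField ℚ_[p] (Kbar p)) :
    IsNormalOver p K₀ (K₀ ⊔ IntermediateField.adjoin ℚ_[p] (ptSet (p := p) H)) := by
  intro τ hτ
  set L := K₀ ⊔ IntermediateField.adjoin ℚ_[p] (ptSet (p := p) H) with hL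
  have h1 : L ≤ L.comap (τ : Kbar p →ₐ[ℚ_[p]] Kbar p) := by
    rw [hL]
    refine sup_le ?_ (IntermediateField.adjoin_le_iff.2 ?_)
    · intro y hy
      show τ y ∈ K₀ ⊔ IntermediateField.adjoin ℚ_[p] (ptSet (p := p) H)
      rw [hτ y hy]
      exact (le_sup_left : K₀ ≤ _) hy
    · intro y hy
      show τ y ∈ K₀ ⊔ IntermediateField.adjoin ℚ_[p] (ptSet (p := p) H)
      exact (le_sup_right : IntermediateField.adjoin ℚ_[p] (ptSet (p := p) H) ≤ _)
        (IntermediateField.subset_adjoin _ _ (galois_mem_ptSet H τ hy))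
  intro y hy
  exact h1 hy

end PointField

/-- **(L1)** Flatness gives level `≥ e` (final form, consuming `KummerLevelGen'`). -/
theorem levAll_of_flat' (hp2 : p ≠ 2) (hPm : StatementPm p) (hKL : KummerLevelGen' p)
    {F K₀ : IntermediateField ℚ_[p] (Kbar p)} [FiniteDimensional ℚ_[p] F]
    (D : LevelData F) (hFn : IsNormalField p F)
    (hK₀F : K₀ ≤ F) (hK₀fin : FiniteDimensional ℚ_[p] K₀) (hK₀ur : IsUnramifiedField p K₀)
    (hres : ∀ x ∈ F, ‖x‖ ≤ 1 → ∃ y ∈ K₀, ‖x - y‖ < 1)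
    (hpe : ¬ p ∣ D.e) {ζ : Kbar p} (hζ : IsPrimRoot ζ) (hζF : ζ ∈ F)
    {X : Type} [AddCommGroup X] [Finite X] (act : Gp p → X → X)
    (hflat : IsFlatLocalModule p X act) (hpX : ∀ x : X, p • x = 0)
    {M : Type*} [AddCommGroup M] (β : Gp p → M)
    (hadd : ∀ σ ∈ F.fixingSubgroup, ∀ τ ∈ F.fixingSubgroup, β (σ * τ) = β σ + β τ)
    (hcut : ∀ τ : Gp p, (∀ y ∈ K₀, τ y = y) → (∀ x : X, act τ x = x) →
      τ ∈ F.fixingSubgroup ∧ ∀ σ : Gp p, β (σ * τ) = β σ) :
    D.LevAll ζ β D.e := by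
  obtain ⟨H, _, _, hfin, hflatH, hcocomm, e, he_mul, he_act⟩ := hflat
  haveI := hfin
  haveI := hflatH
  haveI := hcocomm
  have he_one : e 1 = 0 := by
    have h1 := he_mul 1 1
    rw [one_mul] at h1
    exact left_eq_add.mp h1
  have he_pow : ∀ (f : Pts (p := p) H) (n : ℕ), e (f ^ n) = n • e f := by
    intro f n
    induction n with
    | zero => rw [pow_zero, he_one, zero_smul]
    | succ n ih => rw [pow_succ, he_mul, ih, succ_nsmul]
  have hpow_p : ∀ f : Pts (p := p) H, f ^ p = 1 := by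
    intro f
    apply e.injective
    rw [he_pow, he_one, hpX]
  haveI : Finite (Pts (p := p) H) := Finite.of_equiv X e.symm
  set L : IntermediateField ℚ_[p] (Kbar p) :=
    K₀ ⊔ IntermediateField.adjoin ℚ_[p] (ptSet (p := p) H) with hL
  have hPmL : ∀ K₁ : IntermediateField ℚ_[p] (Kbar p), K₀ ≤ K₁ → K₁ ≤ L →
      FiniteDimensional ℚ_[p] K₁ → IsUnramifiedField p K₁ → FontainePm p K₁ L := by
    intro K₁ h01 h1L h1fin h1ur
    refine hPm hp2 H hpow_p K₁ L h1fin h1ur ?_
    refine le_antisymm ?_ (sup_le h1L le_sup_right)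
    rw [hL]
    exact sup_le_sup_right h01 _
  haveI := hK₀fin
  haveI := finiteDimensional_adjoin_ptSet (p := p) H
  have hLfin : FiniteDimensional ℚ_[p] L := IntermediateField.finiteDimensional_sup _ _
  have hLnorm : IsNormalOver p K₀ L := isNormalOver_sup_adjoin_ptSet H K₀
  -- elements of `G_L` act trivially
  have hGL : ∀ τ : Gp p, τ ∈ L.fixingSubgroup →
      τ ∈ F.fixingSubgroup ∧ ∀ σ : Gp p, β (σ * τ) = β σ := by
    intro τ hτ
    have hτL : ∀ y ∈ L, τ y = y := (IntermediateField.mem_fixingSubgroup_iff L τ).1 hτ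
    refine hcut τ (fun y hy => hτL y ((le_sup_left : K₀ ≤ L) hy)) ?_
    intro x
    obtain ⟨f, rfl⟩ := e.surjective x
    have h1 : galPt H τ f = f := by
      apply WithConv.ofConv_injective
      apply AlgHom.ext
      intro h
      show τ (f h) = f h
      exact hτL _ ((le_sup_right : IntermediateField.adjoin ℚ_[p] (ptSet (p := p) H) ≤ L)
        (IntermediateField.subset_adjoin _ _ ⟨f, h, rfl⟩))
    have h2 := he_act τ f (galPt H τ f) (isGalConj_galPt H τ f)
    rw [h1] at h2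
    exact h2.symm
  have hFL : F ≤ L := by
    intro x hx
    exact mem_of_fixed x fun τ hτ => fixes_of_mem hx (hGL τ hτ).1
  have hβ1 : β 1 = 0 := by
    have := hadd 1 (one_mem _) 1 (one_mem _)
    rw [one_mul] at this
    exact left_eq_add.mp this
  intro ℓ
  obtain ⟨a, haF, ha0, hk⟩ := exists_isKummer hζ hζF (fun τ => ℓ (β τ))
    (fun σ hσ τ hτ => by simp only [hadd σ hσ τ hτ, map_add])
    ⟨L, hLfin, fun σ τ hτ => by
      have hτ' : τ ∈ L.fixingSubgroup := (IntermediateField.mem_fixingSubgroup_iff L τ).2 hτ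
      simp only [(hGL τ hτ').2 σ]⟩
  obtain ⟨α, hα⟩ := IsAlgClosed.exists_pow_nat_eq a hp.out.pos
  have hαL : α ∈ L := by
    refine mem_of_fixed α fun τ hτ => ?_
    obtain ⟨hτF, hτβ⟩ := hGL τ hτ
    have h1 := hk α hα τ hτF
    have h2 : β τ = 0 := by
      have := hτβ 1
      rwa [one_mul, hβ1] at this
    simp only [h2, map_zero, ZMod.val_zero, pow_zero, one_mul] at h1
    exact h1
  obtain ⟨b, hbF, hb0, hab⟩ := hKL hp2 K₀ F L D ζ hK₀fin hK₀ur hK₀F hFL hLfin hLnorm
    (fun τ _ y hy => hFn τ y hy) hres hpe hζ hζF hPmL a haF ha0 ⟨α, hαL, hα⟩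
  exact ⟨a * b ^ p, hab, IsKummer.pow_mul hζ hζF ha0 hb0 hbF hk⟩

/-- **(L1)**, form consuming the original `KummerLevelGen`. -/
theorem levAll_of_flat (hp2 : p ≠ 2) (hPm : StatementPm p) (hKL : KummerLevelGen p)
    {F K₀ : IntermediateField ℚ_[p] (Kbar p)} [FiniteDimensional ℚ_[p] F]
    (D : LevelData F) (hFn : IsNormalField p F)
    (hK₀F : K₀ ≤ F) (hK₀fin : FiniteDimensional ℚ_[p] K₀) (hK₀ur : IsUnramifiedField p K₀)
    (hres : ∀ x ∈ F, ‖x‖ ≤ 1 → ∃ y ∈ K₀, ‖x - y‖ < 1)
    (hpe : ¬ p ∣ D.e) {ζ : Kbar p} (hζ : IsPrimRoot ζ) (hζF : ζ ∈ F)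
    {X : Type} [AddCommGroup X] [Finite X] (act : Gp p → X → X)
    (hflat : IsFlatLocalModule p X act) (hpX : ∀ x : X, p • x = 0)
    {M : Type*} [AddCommGroup M] (β : Gp p → M)
    (hadd : ∀ σ ∈ F.fixingSubgroup, ∀ τ ∈ F.fixingSubgroup, β (σ * τ) = β σ + β τ)
    (hcut : ∀ τ : Gp p, (∀ y ∈ K₀, τ y = y) → (∀ x : X, act τ x = x) →
      τ ∈ F.fixingSubgroup ∧ ∀ σ : Gp p, β (σ * τ) = β σ) :
    D.LevAll ζ β D.e :=
  levAll_of_flat' hp2 hPm (kummerLevelGen'_of p hKL) D hFn hK₀F hK₀fin hK₀ur hres hpe hζ hζF act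
    hflat hpX β hadd hcut

end Fermat.Agent.TW.B5.FlatLev47
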