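/-
Programme TW (S56), brick B5-LG (local Galois toolkit), TAME half (helper65):
the five facts T1–T5 of `IfaceLG.Toolkit p`, pure norm computations in `K̄ = PadicAlgCl p`.

* `tameSymbolNorm`  (T4): for inertial `τ` the tame symbol `τ x / x` mod `𝔪` depends only on `‖x‖`;
* `commutatorWild`  (T3): the tame symbol is multiplicative in `τ`, so commutators are wild;
* `cycloTameSymbol` (T5): `τ (ζ - 1) / (ζ - 1) ≡ a` if `τ ζ = ζ ^ a`;
* `frobConjWild`    (T1): `φ τ φ⁻¹ ≡ τ ^ p` on tame symbols;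
* `wildPPower`      (T2): a wild element has `p`-power order on every finite normal level
  (averaging projector argument, no ramification groups).
-/
import Fermat.Agent.TW.B5.IfaceLG

set_option autoImplicit false

namespace Fermat.Agent.TW.B5.LGTame65

open Fermat.Agent.TW.B5.Iface Fermat.Agent.TW.B5.IfaceLG

variable (p : ℕ) [Fact p.Prime]

/-! ### Basic norm facts -/

theorem norm_map (τ : Gp p) (x : Kbar p) : ‖τ x‖ = ‖x‖ :=
  congrArg NNReal.toReal (nnnorm_padicAlgCl_algEquiv p τ x)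

theorem norm_add_le (a b : Kbar p) : ‖a + b‖ ≤ max ‖a‖ ‖b‖ := PadicAlgCl.isNonarchimedean p a b

theorem norm_sub_le' (a b : Kbar p) : ‖a - b‖ ≤ max ‖a‖ ‖b‖ := by
  rw [sub_eq_add_neg]
  have := norm_add_le p a (-b)
  rwa [norm_neg] at this

theorem norm_add_lt {a b : Kbar p} {r : ℝ} (ha : ‖a‖ < r) (hb : ‖b‖ < r) : ‖a + b‖ < r :=
  (norm_add_le p a b).trans_lt (max_lt ha hb)

theorem norm_sub_lt {a b : Kbar p} {r : ℝ} (ha : ‖a‖ < r) (hb : ‖b‖ < r) : ‖a - b‖ < r :=
  (norm_sub_le' p a b).trans_lt (max_lt ha hb)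

theorem norm_natCast_le_one (n : ℕ) : ‖(n : Kbar p)‖ ≤ 1 := by
  rw [← map_natCast (algebraMap ℚ_[p] (Kbar p)) n]
  change ‖((n : ℚ_[p]) : PadicAlgCl p)‖ ≤ 1
  rw [PadicAlgCl.norm_extends]
  have := Padic.norm_int_le_one (p := p) (n : ℤ)
  simpa using this

theorem norm_p : ‖(p : Kbar p)‖ = (p : ℝ)⁻¹ := by
  rw [← map_natCast (algebraMap ℚ_[p] (Kbar p)) p]
  change ‖((p : ℚ_[p]) : PadicAlgCl p)‖ = _
  rw [PadicAlgCl.norm_extends]
  exact Padic.norm_p

theorem norm_p_lt_one : ‖(p : Kbar p)‖ < 1 := by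
  rw [norm_p]
  have : (1 : ℝ) < p := by exact_mod_cast (Fact.out : p.Prime).one_lt
  exact inv_lt_one_of_one_lt₀ this

/-- a natural number prime to `p` has norm one. -/
theorem norm_natCast_eq_one {l : ℕ} (hl : ¬ p ∣ l) : ‖(l : Kbar p)‖ = 1 := by
  rw [← map_natCast (algebraMap ℚ_[p] (Kbar p)) l]
  change ‖((l : ℚ_[p]) : PadicAlgCl p)‖ = 1
  rw [PadicAlgCl.norm_extends]
  rw [Padic.norm_natCast_eq_one_iff]
  exact ((Nat.Prime.coprime_iff_not_dvd (Fact.out : p.Prime)).mpr hl)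


/-! ### Congruences modulo the maximal ideal of `𝒪_{K̄}` -/

/-- `a ≡ b` modulo the maximal ideal. -/
def Cg (a b : Kbar p) : Prop := ‖a - b‖ < 1

variable {p}

theorem Cg.refl (a : Kbar p) : Cg p a a := by
  unfold Cg
  rw [sub_self, norm_zero]
  exact one_pos

theorem Cg.symm {a b : Kbar p} (h : Cg p a b) : Cg p b a := by
  unfold Cg at *
  rwa [norm_sub_rev]

theorem Cg.trans {a b c : Kbar p} (h₁ : Cg p a b) (h₂ : Cg p b c) : Cg p a c := by
  unfold Cg at *
  have : a - c = (a - b) + (b - c) := by ring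
  rw [this]
  exact norm_add_lt p h₁ h₂

theorem Cg.mul {a b c d : Kbar p} (h₁ : Cg p a b) (h₂ : Cg p c d) (ha : ‖a‖ ≤ 1) (hd : ‖d‖ ≤ 1) :
    Cg p (a * c) (b * d) := by
  unfold Cg at *
  have : a * c - b * d = a * (c - d) + (a - b) * d := by ring
  rw [this]
  apply norm_add_lt p
  · rw [norm_mul]
    calc ‖a‖ * ‖c - d‖ ≤ 1 * ‖c - d‖ := mul_le_mul_of_nonneg_right ha (norm_nonneg _)
      _ < 1 := by rwa [one_mul]
  · rw [norm_mul]
    calc ‖a - b‖ * ‖d‖ ≤ ‖a - b‖ * 1 := mul_le_mul_of_nonneg_left hd (norm_nonneg _)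
      _ < 1 := by rwa [mul_one]

/-- congruent elements: if one is integral so is the other. -/
theorem Cg.norm_le_one {a b : Kbar p} (h : Cg p a b) (ha : ‖a‖ ≤ 1) : ‖b‖ ≤ 1 := by
  have : b = a - (a - b) := by ring
  rw [this]
  exact (norm_sub_le' p _ _).trans (max_le ha h.le)

theorem Cg.pow {a b : Kbar p} (h : Cg p a b) (ha : ‖a‖ ≤ 1) (n : ℕ) : Cg p (a ^ n) (b ^ n) := by
  have hb : ‖b‖ ≤ 1 := h.norm_le_one ha
  induction n with
  | zero => simp only [pow_zero]; exact Cg.refl 1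
  | succ n ih =>
    rw [pow_succ, pow_succ]
    refine Cg.mul ih h ?_ hb
    rw [norm_pow]
    exact pow_le_one₀ (norm_nonneg _) ha

/-! ### Inertial elements form a group -/

theorem isInertial_one : IsInertial p (1 : Gp p) := by
  intro x _
  simp

theorem inertial_mul {σ τ : Gp p} (hσ : IsInertial p σ) (hτ : IsInertial p τ) :
    IsInertial p (σ * τ) := by
  intro x hx
  have h1 : (σ * τ) x - x = σ (τ x - x) + (σ x - x) := by
    rw [AlgEquiv.mul_apply, map_sub]
    ring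
  rw [h1]
  apply norm_add_lt p
  · rw [norm_map]
    exact hτ x hx
  · exact hσ x hx

theorem inertial_inv {τ : Gp p} (hτ : IsInertial p τ) : IsInertial p τ⁻¹ := by
  intro x hx
  have h1 : ‖τ⁻¹ x - x‖ = ‖τ (τ⁻¹ x - x)‖ := (norm_map p τ _).symm
  rw [h1, map_sub]
  have h2 : τ (τ⁻¹ x) = x := by
    change τ (τ.symm x) = x
    exact τ.apply_symm_apply x
  rw [h2, norm_sub_rev]
  exact hτ x hx

theorem inertial_pow {τ : Gp p} (hτ : IsInertial p τ) (n : ℕ) : IsInertial p (τ ^ n) := by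
  induction n with
  | zero => rw [pow_zero]; exact isInertial_one
  | succ n ih => rw [pow_succ]; exact inertial_mul ih hτ

/-! ### The tame symbol -/

theorem norm_symbol (τ : Gp p) {x : Kbar p} (hx : x ≠ 0) : ‖τ x / x‖ = 1 := by
  rw [norm_div, norm_map]
  exact div_self (norm_ne_zero_iff.mpr hx)

/-- **(T4)** the tame symbol depends only on the norm. -/
theorem symbol_congr {τ : Gp p} (hτ : IsInertial p τ) {x y : Kbar p} (hx : x ≠ 0)
    (hxy : ‖x‖ = ‖y‖) : Cg p (τ x / x) (τ y / y) := by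
  have hy : y ≠ 0 := by
    rw [← norm_ne_zero_iff, ← hxy]
    exact norm_ne_zero_iff.mpr hx
  set u := x / y with hu
  have hu1 : ‖u‖ = 1 := by
    rw [hu, norm_div, hxy]
    exact div_self (norm_ne_zero_iff.mpr hy)
  have hu0 : u ≠ 0 := by
    rw [← norm_ne_zero_iff, hu1]
    exact one_ne_zero
  have hxu : x = u * y := by
    rw [hu]
    field_simp
  have h1 : τ x / x = (τ u / u) * (τ y / y) := by
    rw [hxu, map_mul]
    field_simp
  have h2 : Cg p (τ u / u) 1 := by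
    unfold Cg
    have : τ u / u - 1 = (τ u - u) / u := by field_simp
    rw [this, norm_div, hu1, div_one]
    exact hτ u hu1.le
  rw [h1]
  have := Cg.mul h2 (Cg.refl (p := p) (τ y / y)) (norm_symbol τ hu0).le (norm_symbol τ hy).le
  rwa [one_mul] at this

/-- the tame symbol is multiplicative in `τ` on inertia. -/
theorem symbol_mul {σ τ : Gp p} (hσ : IsInertial p σ) {x : Kbar p} (hx : x ≠ 0) :
    Cg p ((σ * τ) x / x) ((σ x / x) * (τ x / x)) := by
  have hτx : τ x ≠ 0 := by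
    rw [← norm_ne_zero_iff, norm_map]
    exact norm_ne_zero_iff.mpr hx
  have h1 : (σ * τ) x / x = (σ (τ x) / τ x) * (τ x / x) := by
    rw [AlgEquiv.mul_apply]
    field_simp
  rw [h1]
  exact Cg.mul (symbol_congr hσ hτx (norm_map p τ x)) (Cg.refl _) (norm_symbol σ hτx).le
    (norm_symbol τ hx).le

/-- the tame symbol of `τ ^ n` is the `n`-th power of the tame symbol of `τ`. -/
theorem symbol_pow {τ : Gp p} (hτ : IsInertial p τ) {x : Kbar p} (hx : x ≠ 0) (n : ℕ) :
    Cg p ((τ ^ n) x / x) ((τ x / x) ^ n) := by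
  induction n with
  | zero =>
    simp only [pow_zero, AlgEquiv.one_apply]
    rw [div_self hx]
    exact Cg.refl 1
  | succ n ih =>
    rw [pow_succ, pow_succ]
    refine (symbol_mul (inertial_pow hτ n) hx).trans ?_
    refine Cg.mul ih (Cg.refl _) (norm_symbol _ hx).le (norm_symbol _ hx).le

variable (p)

/-- **(LG-T4)** -/
theorem tameSymbolNorm : TameSymbolNorm p := by
  intro τ hτ x y hx hxy
  exact symbol_congr hτ hx hxy

/-- **(LG-T3)** commutators of inertial elements are wild. -/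
theorem commutatorWild : CommutatorWild p := by
  intro σ τ hσ hτ x hx
  have hσi := inertial_inv hσ
  have hτi := inertial_inv hτ
  -- symbols
  have n1 : ‖σ x / x‖ ≤ 1 := (norm_symbol σ hx).le
  have n2 : ‖τ x / x‖ ≤ 1 := (norm_symbol τ hx).le
  have n3 : ‖σ⁻¹ x / x‖ ≤ 1 := (norm_symbol σ⁻¹ hx).le
  have n4 : ‖τ⁻¹ x / x‖ ≤ 1 := (norm_symbol τ⁻¹ hx).le
  -- `s(σ) s(σ⁻¹) ≡ 1`
  have e1 : Cg p ((σ x / x) * (σ⁻¹ x / x)) 1 := by
    have := symbol_mul (τ := σ⁻¹) hσ hx
    rw [mul_inv_cancel, AlgEquiv.one_apply, div_self hx] at this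
    exact this.symm
  have e2 : Cg p ((τ x / x) * (τ⁻¹ x / x)) 1 := by
    have := symbol_mul (τ := τ⁻¹) hτ hx
    rw [mul_inv_cancel, AlgEquiv.one_apply, div_self hx] at this
    exact this.symm
  -- the symbol of the commutator
  have c1 : Cg p ((σ * τ * σ⁻¹ * τ⁻¹) x / x) (((σ * τ * σ⁻¹) x / x) * (τ⁻¹ x / x)) :=
    symbol_mul (inertial_mul (inertial_mul hσ hτ) hσi) hx
  have c2 : Cg p ((σ * τ * σ⁻¹) x / x) (((σ * τ) x / x) * (σ⁻¹ x / x)) :=
    symbol_mul (inertial_mul hσ hτ) hx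
  have c3 : Cg p ((σ * τ) x / x) ((σ x / x) * (τ x / x)) := symbol_mul hσ hx
  have c4 : Cg p (((σ * τ) x / x) * (σ⁻¹ x / x)) ((σ x / x) * (τ x / x) * (σ⁻¹ x / x)) :=
    Cg.mul c3 (Cg.refl _) (norm_symbol _ hx).le n3
  have c5 : Cg p ((σ * τ * σ⁻¹) x / x) ((σ x / x) * (τ x / x) * (σ⁻¹ x / x)) := c2.trans c4
  have c6 : Cg p (((σ * τ * σ⁻¹) x / x) * (τ⁻¹ x / x))
      ((σ x / x) * (τ x / x) * (σ⁻¹ x / x) * (τ⁻¹ x / x)) :=
    Cg.mul c5 (Cg.refl _) (norm_symbol _ hx).le n4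
  have c7 : (σ x / x) * (τ x / x) * (σ⁻¹ x / x) * (τ⁻¹ x / x) =
      ((σ x / x) * (σ⁻¹ x / x)) * ((τ x / x) * (τ⁻¹ x / x)) := by ring
  have c8 : Cg p (((σ x / x) * (σ⁻¹ x / x)) * ((τ x / x) * (τ⁻¹ x / x))) (1 * 1) :=
    Cg.mul e1 e2 (by rw [norm_mul]; exact mul_le_one₀ n1 (norm_nonneg _) n3) (by simp)
  have c9 : Cg p ((σ * τ * σ⁻¹ * τ⁻¹) x / x) 1 := by
    have := (c1.trans c6)
    rw [c7] at this
    have h := this.trans c8
    rwa [one_mul] at h
  -- conclude
  unfold Cg at c9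
  have : (σ * τ * σ⁻¹ * τ⁻¹) x / x - 1 = ((σ * τ * σ⁻¹ * τ⁻¹) x - x) / x := by field_simp
  rw [this, norm_div, div_lt_one (norm_pos_iff.mpr hx)] at c9
  exact c9


/-- **(LG-T1)** Frobenius conjugation is the `p`-th power on tame symbols. -/
theorem frobConjWild : FrobConjWild p := by
  intro E φ τ hE hφ hτ x hxE hx
  set y := φ⁻¹ x with hy
  have hyE : y ∈ E := hE φ⁻¹ x hxE
  have hφy : φ y = x := by
    rw [hy]
    change φ (φ.symm x) = x
    exact φ.apply_symm_apply x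
  have hnorm : ‖y‖ = ‖x‖ := norm_map p φ⁻¹ x
  have hy0 : y ≠ 0 := by
    rw [← norm_ne_zero_iff, hnorm]
    exact norm_ne_zero_iff.mpr hx
  set u := τ y / y with hu
  have huE : u ∈ E := E.div_mem (hE τ y hyE) hyE
  have hu1 : ‖u‖ = 1 := norm_symbol τ hy0
  have h1 : (φ * τ * φ⁻¹) x = φ u * x := by
    rw [AlgEquiv.mul_apply, AlgEquiv.mul_apply]
    change φ (τ y) = _
    have : τ y = u * y := by
      rw [hu]
      field_simp
    rw [this, map_mul, hφy]
  have key : Cg p (φ u) ((τ ^ p) x / x) := by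
    have a1 : Cg p (φ u) (u ^ p) := hφ u huE hu1.le
    have a2 : Cg p u (τ x / x) := symbol_congr hτ hy0 hnorm
    have a3 : Cg p (u ^ p) ((τ x / x) ^ p) := a2.pow hu1.le p
    have a4 := (symbol_pow hτ hx p).symm
    exact a1.trans (a3.trans a4)
  unfold Cg at key
  have h2 : φ u - (τ ^ p) x / x = (φ u * x - (τ ^ p) x) / x := by field_simp
  rw [h2, norm_div, div_lt_one (norm_pos_iff.mpr hx)] at key
  rw [h1]
  exact key

/-! ### Wild elements -/

variable {p}

theorem wild_pow_apply {τ : Gp p} (hτ : IsWild p τ) (n : ℕ) {x : Kbar p} (hx : x ≠ 0) :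
    ‖(τ ^ n) x - x‖ < ‖x‖ := by
  induction n with
  | zero => simpa using hx
  | succ n ih =>
    have : (τ ^ (n + 1)) x - x = τ ((τ ^ n) x - x) + (τ x - x) := by
      rw [pow_succ', AlgEquiv.mul_apply, map_sub]
      ring
    rw [this]
    exact norm_add_lt p (by rw [norm_map]; exact ih) (hτ x hx)

theorem isWild_pow {τ : Gp p} (hτ : IsWild p τ) (n : ℕ) : IsWild p (τ ^ n) :=
  fun _ hx => wild_pow_apply hτ n hx

/-- ultrametric bound for finite sums. -/
theorem norm_sum_lt {ι : Type*} (s : Finset ι) (f : ι → Kbar p) {r : ℝ} (hr : 0 < r)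
    (h : ∀ i ∈ s, ‖f i‖ < r) : ‖∑ i ∈ s, f i‖ < r := by
  classical
  induction s using Finset.induction_on with
  | empty => simpa using hr
  | insert a s ha ih =>
    rw [Finset.sum_insert ha]
    exact norm_add_lt p (h a (Finset.mem_insert_self a s))
      (ih fun i hi => h i (Finset.mem_insert_of_mem hi))

/-- **Averaging argument.**  A wild element whose `l`-th power fixes `x`, with `l` prime to `p`,
fixes `x`. -/
theorem fixed_of_wild_of_pow {σ : Gp p} (hσ : IsWild p σ) {l : ℕ} (hl : ¬ p ∣ l) {x : Kbar p}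
    (hx : (σ ^ l) x = x) : σ x = x := by
  have hl1 : ‖(l : Kbar p)‖ = 1 := norm_natCast_eq_one p hl
  have hl0 : (l : Kbar p) ≠ 0 := by
    rw [← norm_ne_zero_iff, hl1]
    exact one_ne_zero
  -- the averaging operator
  set P : Kbar p → Kbar p := fun z => (l : Kbar p)⁻¹ * ∑ i ∈ Finset.range l, (σ ^ i) z with hP
  have hPsub : ∀ a b : Kbar p, P (a - b) = P a - P b := by
    intro a b
    simp only [hP, map_sub, Finset.sum_sub_distrib, mul_sub]
  have hPfix : ∀ z : Kbar p, σ z = z → P z = z := by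
    intro z hz
    have hpow : ∀ i : ℕ, (σ ^ i) z = z := by
      intro i
      induction i with
      | zero => simp
      | succ i ih => rw [pow_succ, AlgEquiv.mul_apply, hz, ih]
    simp only [hP, hpow, Finset.sum_const, Finset.card_range, nsmul_eq_mul]
    field_simp
  have hD : ∀ z : Kbar p, z ≠ 0 → ‖z - P z‖ < ‖z‖ := by
    intro z hz
    have e : z - P z = -((l : Kbar p)⁻¹ * ∑ i ∈ Finset.range l, ((σ ^ i) z - z)) := by
      simp only [hP, Finset.sum_sub_distrib, Finset.sum_const, Finset.card_range, nsmul_eq_mul]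
      field_simp
      ring
    rw [e, norm_neg, norm_mul, norm_inv, hl1, inv_one, one_mul]
    exact norm_sum_lt _ _ (norm_pos_iff.mpr hz) fun i _ => wild_pow_apply hσ i hz
  -- `P x` is fixed by `σ`
  have hσP : σ (P x) = P x := by
    simp only [hP, map_mul, map_inv₀, map_natCast, map_sum]
    congr 1
    have h1 : ∀ i : ℕ, σ ((σ ^ i) x) = (σ ^ (i + 1)) x := by
      intro i
      rw [pow_succ', AlgEquiv.mul_apply]
    simp only [h1]
    have h2 := Finset.sum_range_succ' (fun i => (σ ^ i) x) l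
    have h3 := Finset.sum_range_succ (fun i => (σ ^ i) x) l
    simp only [pow_zero, AlgEquiv.one_apply] at h2
    rw [h3, hx] at h2
    exact add_right_cancel h2.symm
  -- `D = 1 - P` is idempotent on `x`
  have hPD : P (x - P x) = 0 := by
    rw [hPsub, hPfix (P x) hσP, sub_self]
  by_cases hDx : x - P x = 0
  · have : x = P x := sub_eq_zero.mp hDx
    rw [this]
    exact hσP
  · exfalso
    have := hD (x - P x) hDx
    rw [hPD, sub_zero] at this
    exact lt_irrefl _ this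

variable (p)

/-- **(LG-T2)** wild elements have `p`-power order at every finite level. -/
theorem wildPPower : WildPPower p := by
  intro E hfin _ τ hτ
  -- some positive power of `τ` is the identity on `E`
  have : FiniteDimensional ℚ_[p] (↥E) := hfin
  let f : ℕ → (↥E →ₐ[ℚ_[p]] Kbar p) := fun k => ((τ ^ k : Gp p) : Kbar p →ₐ[ℚ_[p]] Kbar p).comp E.val
  obtain ⟨a, b, hab, hf⟩ := Finite.exists_ne_map_eq_of_infinite f
  have key : ∀ a b : ℕ, a < b → f a = f b → ∃ m : ℕ, 0 < m ∧ ∀ x ∈ E, (τ ^ m) x = x := by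
    intro a b hlt hf
    refine ⟨b - a, Nat.sub_pos_of_lt hlt, fun x hx => ?_⟩
    have h1 : (τ ^ a) x = (τ ^ b) x := by
      have := congrArg (fun g => g ⟨x, hx⟩) hf
      simpa [f] using this
    have h2 : τ ^ b = τ ^ a * τ ^ (b - a) := by
      rw [← pow_add, Nat.add_sub_cancel' hlt.le]
    rw [h2, AlgEquiv.mul_apply] at h1
    exact ((τ ^ a).injective h1).symm
  obtain ⟨m, hm, hfix⟩ : ∃ m : ℕ, 0 < m ∧ ∀ x ∈ E, (τ ^ m) x = x := by
    rcases lt_or_gt_of_ne hab with h | h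
    · exact key a b h hf
    · exact key b a h hf.symm
  obtain ⟨n, l, hl, hml⟩ := Nat.exists_eq_pow_mul_and_not_dvd hm.ne' p (Fact.out : p.Prime).ne_one
  refine ⟨n, fun x hx => ?_⟩
  apply fixed_of_wild_of_pow (isWild_pow hτ (p ^ n)) hl
  rw [← pow_mul, ← hml]
  exact hfix x hx

end Fermat.Agent.TW.B5.LGTame65
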