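/-
Programme TW (S56), brick B5-LD (helper65), part a: toolkit facts in the vocabulary of `IfaceCT`.

* `wildPPowerOn : WildPPowerOn p`                                   (finite-level form of LG-T2);
* `norm_sub_one_pow : ‖ζ - 1‖ ^ (p - 1) = ‖p‖`                       for a primitive `p`-th root of unity;
* `cycloNontrivial (hU1 : InertiaFixedUnram p) : CycloNontrivial p`  (LG-T6);
* `cycloTheta : CycloTheta p`                                       (LD3, from LG-T4 and LG-T5).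
-/
import Fermat.Agent.TW.B5.IfaceCT
import Fermat.Agent.TW.B5.LGTame65
import Fermat.Agent.TW.B5.LG83T

set_option autoImplicit false

namespace Fermat.Agent.TW.B5.LD65a

open Fermat.Agent.TW.B5.Iface Fermat.Agent.TW.B5.IfaceLG Fermat.Agent.TW.B5.Kummer47
  Fermat.Agent.TW.B5.Levels47 Fermat.Agent.TW.B5.IfaceCT Fermat.Agent.TW.B5.LGTame65

variable {p : ℕ} [hp : Fact p.Prime]

/-! ### Wild on a finite level -/

/-- `σ` acts wildly on the set `E`. -/
def WildOn (E : IntermediateField ℚ_[p] (Kbar p)) (σ : Gp p) : Prop :=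
  ∀ x ∈ E, x ≠ 0 → ‖σ x - x‖ < ‖x‖

theorem pow_mem_of_stable {E : IntermediateField ℚ_[p] (Kbar p)} {σ : Gp p}
    (hE : ∀ x ∈ E, σ x ∈ E) (n : ℕ) {x : Kbar p} (hx : x ∈ E) : (σ ^ n) x ∈ E := by
  induction n with
  | zero => simpa using hx
  | succ n ih =>
    rw [pow_succ', AlgEquiv.mul_apply]
    exact hE _ ih

theorem wildOn_pow_apply {E : IntermediateField ℚ_[p] (Kbar p)} {σ : Gp p} (hσ : WildOn E σ)
    (n : ℕ) {x : Kbar p} (hxE : x ∈ E) (hx : x ≠ 0) : ‖(σ ^ n) x - x‖ < ‖x‖ := by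
  induction n with
  | zero => simpa using hx
  | succ n ih =>
    have : (σ ^ (n + 1)) x - x = σ ((σ ^ n) x - x) + (σ x - x) := by
      rw [pow_succ', AlgEquiv.mul_apply, map_sub]
      ring
    rw [this]
    exact norm_add_lt p (by rw [norm_map]; exact ih) (hσ x hxE hx)

theorem wildOn_pow {E : IntermediateField ℚ_[p] (Kbar p)} {σ : Gp p} (hσ : WildOn E σ) (n : ℕ) :
    WildOn E (σ ^ n) := fun _ hxE hx => wildOn_pow_apply hσ n hxE hx

/-- **Averaging argument, finite-level form.**  If `σ` stabilises `E`, acts wildly on `E`, and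
`σ ^ l` fixes `x ∈ E` with `l` prime to `p`, then `σ` fixes `x`. -/
theorem fixed_of_wildOn_of_pow {E : IntermediateField ℚ_[p] (Kbar p)} {σ : Gp p}
    (hE : ∀ x ∈ E, σ x ∈ E) (hσ : WildOn E σ) {l : ℕ} (hl : ¬ p ∣ l) {x : Kbar p} (hxE : x ∈ E)
    (hx : (σ ^ l) x = x) : σ x = x := by
  have hl1 : ‖(l : Kbar p)‖ = 1 := norm_natCast_eq_one p hl
  have hl0 : (l : Kbar p) ≠ 0 := by
    rw [← norm_ne_zero_iff, hl1]
    exact one_ne_zero
  -- the averaging operator
  set P : Kbar p → Kbar p := fun z => (l : Kbar p)⁻¹ * ∑ i ∈ Finset.range l, (σ ^ i) z with hP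
  have hPE : ∀ z ∈ E, P z ∈ E := by
    intro z hz
    refine E.mul_mem (E.inv_mem (natCast_mem E l)) (E.sum_mem fun i _ => pow_mem_of_stable hE i hz)
  have hPsub : ∀ a b : Kbar p, P (a - b) = P a - P b := by
    intro a b
    simp only [hP, map_sub, Finset.sum_sub_distrib, mul_sub]
  have hPfix : ∀ z : Kbar p, σ z = z → P z = z := by
    intro z hz
    have hpow : ∀ i : ℕ, (σ ^ i) z = z := by
      intro i
      induction i with
      | zero => simp
      | succ i ih => rw [pow_succ, AlgEquiv.mul_apply, hz, ih]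
    simp only [hP, hpow, Finset.sum_const, Finset.card_range, nsmul_eq_mul]
    field_simp
  have hD : ∀ z ∈ E, z ≠ 0 → ‖z - P z‖ < ‖z‖ := by
    intro z hzE hz
    have e : z - P z = -((l : Kbar p)⁻¹ * ∑ i ∈ Finset.range l, ((σ ^ i) z - z)) := by
      simp only [hP, Finset.sum_sub_distrib, Finset.sum_const, Finset.card_range, nsmul_eq_mul]
      field_simp
      ring
    rw [e, norm_neg, norm_mul, norm_inv, hl1, inv_one, one_mul]
    exact norm_sum_lt _ _ (norm_pos_iff.mpr hz) fun i _ => wildOn_pow_apply hσ i hzE hz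
  -- `P x` is fixed by `σ`
  have hσP : σ (P x) = P x := by
    simp only [hP, map_mul, map_inv₀, map_natCast, map_sum]
    congr 1
    have h1 : ∀ i : ℕ, σ ((σ ^ i) x) = (σ ^ (i + 1)) x := by
      intro i
      rw [pow_succ', AlgEquiv.mul_apply]
    simp only [h1]
    have h2 := Finset.sum_range_succ' (fun i => (σ ^ i) x) l
    have h3 := Finset.sum_range_succ (fun i => (σ ^ i) x) l
    simp only [pow_zero, AlgEquiv.one_apply] at h2
    rw [h3, hx] at h2
    exact add_right_cancel h2.symm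
  have hPD : P (x - P x) = 0 := by
    rw [hPsub, hPfix (P x) hσP, sub_self]
  by_cases hDx : x - P x = 0
  · have : x = P x := sub_eq_zero.mp hDx
    rw [this]
    exact hσP
  · exfalso
    have := hD (x - P x) (E.sub_mem hxE (hPE x hxE)) hDx
    rw [hPD, sub_zero] at this
    exact lt_irrefl _ this

variable (p)

/-- **(LG-T2')** an element acting wildly on a finite normal level has `p`-power order there. -/
theorem wildPPowerOn : WildPPowerOn p := by
  intro E hfin hnorm τ hτ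
  have : FiniteDimensional ℚ_[p] (↥E) := hfin
  let f : ℕ → (↥E →ₐ[ℚ_[p]] Kbar p) := fun k => ((τ ^ k : Gp p) : Kbar p →ₐ[ℚ_[p]] Kbar p).comp E.val
  obtain ⟨a, b, hab, hf⟩ := Finite.exists_ne_map_eq_of_infinite f
  have key : ∀ a b : ℕ, a < b → f a = f b → ∃ m : ℕ, 0 < m ∧ ∀ x ∈ E, (τ ^ m) x = x := by
    intro a b hlt hf
    refine ⟨b - a, Nat.sub_pos_of_lt hlt, fun x hx => ?_⟩
    have h1 : (τ ^ a) x = (τ ^ b) x := by
      have := congrArg (fun g => g ⟨x, hx⟩) hf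
      simpa [f] using this
    have h2 : τ ^ b = τ ^ a * τ ^ (b - a) := by
      rw [← pow_add, Nat.add_sub_cancel' hlt.le]
    rw [h2, AlgEquiv.mul_apply] at h1
    exact ((τ ^ a).injective h1).symm
  obtain ⟨m, hm, hfix⟩ : ∃ m : ℕ, 0 < m ∧ ∀ x ∈ E, (τ ^ m) x = x := by
    rcases lt_or_gt_of_ne hab with h | h
    · exact key a b h hf
    · exact key b a h hf.symm
  obtain ⟨n, l, hl, hml⟩ := Nat.exists_eq_pow_mul_and_not_dvd hm.ne' p (Fact.out : p.Prime).ne_one
  refine ⟨n, fun x hx => ?_⟩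
  have hτ' : WildOn E τ := hτ
  apply fixed_of_wildOn_of_pow (fun y hy => hnorm (τ ^ p ^ n) y hy) (wildOn_pow hτ' (p ^ n)) hl hx
  rw [← pow_mul, ← hml]
  exact hfix x hx

/-! ### The norm of `ζ - 1` -/

variable {p}

theorem norm_root_eq_one {ζ : Kbar p} (hζ : ζ ^ p = 1) : ‖ζ‖ = 1 := by
  have h : ‖ζ‖ ^ p = 1 := by rw [← norm_pow, hζ, norm_one]
  exact (pow_eq_one_iff_of_nonneg (norm_nonneg _) hp.out.ne_zero).1 h

theorem isPrimRoot_pow {ζ : Kbar p} (hζ : IsPrimRoot ζ) {i : ℕ} (hi : ζ ^ i ≠ 1) :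
    IsPrimRoot (ζ ^ i) := by
  refine ⟨?_, hi⟩
  rw [← pow_mul, mul_comm, pow_mul, hζ.1, one_pow]

/-- all primitive `p`-th roots of unity are at the same distance from `1`. -/
theorem norm_sub_one_eq {ζ μ : Kbar p} (hζ : IsPrimRoot ζ) (hμ : IsPrimRoot μ) :
    ‖μ - 1‖ = ‖ζ - 1‖ := by
  obtain ⟨i, hi⟩ := exists_pow_eq hζ hμ.1
  obtain ⟨j, hj⟩ := exists_pow_eq hμ hζ.1
  apply le_antisymm
  · rw [← hi]
    exact LG83T.norm_pow_sub_one_le p (norm_root_eq_one hζ.1) i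
  · rw [← hj]
    exact LG83T.norm_pow_sub_one_le p (norm_root_eq_one hμ.1) j

/-- `‖ζ - 1‖ ^ (p - 1) = ‖p‖` for a primitive `p`-th root of unity `ζ`. -/
theorem norm_sub_one_pow {ζ : Kbar p} (hζ : IsPrimRoot ζ) :
    ‖ζ - 1‖ ^ (p - 1) = ‖(p : Kbar p)‖ := by
  have hprim := hζ.isPrimitiveRoot
  have h1 : (Polynomial.cyclotomic p (Kbar p)).eval 1 = (p : Kbar p) :=
    Polynomial.eval_one_cyclotomic_prime
  rw [Polynomial.cyclotomic_eq_prod_X_sub_primitiveRoots hprim, Polynomial.eval_prod] at h1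
  simp only [Polynomial.eval_sub, Polynomial.eval_X, Polynomial.eval_C] at h1
  rw [← h1, norm_prod]
  have h2 : ∀ μ ∈ primitiveRoots p (Kbar p), ‖(1 : Kbar p) - μ‖ = ‖ζ - 1‖ := by
    intro μ hμ
    have hμ' : IsPrimitiveRoot μ p := (mem_primitiveRoots hp.out.pos).1 hμ
    have hμ1 : IsPrimRoot μ := ⟨hμ'.pow_eq_one, hμ'.ne_one hp.out.one_lt⟩
    rw [← norm_neg, neg_sub]
    exact norm_sub_one_eq hζ hμ1
  rw [Finset.prod_congr rfl h2, Finset.prod_const, hprim.card_primitiveRoots,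
    Nat.totient_prime hp.out]

theorem norm_sub_one_pos {ζ : Kbar p} (hζ : IsPrimRoot ζ) : 0 < ‖ζ - 1‖ :=
  norm_pos_iff.2 (sub_ne_zero.2 hζ.2)

/-! ### (LG-T6) the cyclotomic character is non-trivial on inertia -/

theorem exists_isPrimRoot : ∃ ζ : Kbar p, IsPrimRoot ζ := by
  have : NeZero ((p : ℕ) : Kbar p) := ⟨by
    have h := norm_p p
    intro h0
    rw [h0, norm_zero] at h
    have : (0 : ℝ) < (p : ℝ)⁻¹ := inv_pos.2 (Nat.cast_pos.2 hp.out.pos)
    exact this.ne h⟩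
  obtain ⟨ζ, hζ⟩ := HasEnoughRootsOfUnity.exists_primitiveRoot (Kbar p) p
  exact ⟨ζ, hζ.pow_eq_one, hζ.ne_one hp.out.one_lt⟩

variable (p)

/-- **(LG-T6)** from (LG-U1). -/
theorem cycloNontrivial (hU1 : InertiaFixedUnram p) : CycloNontrivial p := by
  intro hp2
  obtain ⟨ζ, hζ⟩ := exists_isPrimRoot (p := p)
  -- some inertial element moves `ζ`
  have hmove : ∃ τ : Gp p, IsInertial p τ ∧ τ ζ ≠ ζ := by
    by_contra hcon
    push Not at hcon
    obtain ⟨K₁, _, hunr, hζK⟩ := hU1 ζ hcon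
    obtain ⟨n, hn⟩ := hunr (ζ - 1) (K₁.sub_mem hζK K₁.one_mem) (sub_ne_zero.2 hζ.2)
    have h1 := norm_sub_one_pow hζ
    rw [hn, norm_p p, ← zpow_natCast, ← zpow_mul, ← zpow_neg_one] at h1
    have hp1 : (1 : ℝ) < (p : ℝ) := by exact_mod_cast hp.out.one_lt
    have h2 : n * ((p - 1 : ℕ) : ℤ) = -1 := zpow_right_injective₀ (by positivity) hp1.ne' h1
    have h3 : ((p - 1 : ℕ) : ℤ) ∣ 1 := ⟨-n, by rw [mul_neg, mul_comm, h2]; rfl⟩
    have h4 : (p - 1 : ℕ) = 1 := by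
      have := Int.eq_one_of_dvd_one (by positivity) h3
      exact_mod_cast this
    have := hp.out.two_le
    omega
  obtain ⟨τ, hτ, hτζ⟩ := hmove
  have hτp : (τ ζ) ^ p = 1 := by rw [← map_pow, hζ.1, map_one]
  obtain ⟨a, ha⟩ := exists_pow_eq hζ hτp
  refine ⟨τ, a, hτ, ?_, ?_⟩
  · intro μ hμ
    obtain ⟨i, hi⟩ := exists_pow_eq hζ hμ
    rw [← hi, map_pow, ← ha, ← pow_mul, ← pow_mul, mul_comm]
  · intro hcon
    apply hτζ
    rw [← ha, pow_eq_of_modEq hζ hcon, pow_one]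

/-! ### (LD3) the cyclotomic character is a power of `θ` -/

/-- **(LD3)** from (LG-T4) and (LG-T5). -/
theorem cycloTheta : CycloTheta p := by
  intro F D ζ hF hζ hζF g a m hg hga hem
  have hπ0 : D.π ≠ 0 := D.π_ne_zero
  have hζ1 : ζ - 1 ≠ 0 := sub_ne_zero.2 hζ.2
  -- `‖ζ - 1‖ = ‖π ^ m‖`
  have hnorm : ‖ζ - 1‖ = ‖D.π ^ m‖ := by
    have h1 := norm_sub_one_pow hζ
    rw [D.he, hem, pow_mul] at h1
    rw [norm_pow]
    have hp1 : p - 1 ≠ 0 := by have := hp.out.two_le; omega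
    exact (pow_left_inj₀ (norm_nonneg _) (pow_nonneg (norm_nonneg _) m) hp1).1 h1
  -- T5 and T4
  have h5 := LG83T.cycloTameSymbol p g ζ a hζ.1 hζ.2 hga
  have h4 := tameSymbolNorm p g hg (ζ - 1) (D.π ^ m) hζ1 hnorm
  have hpow : g (D.π ^ m) / D.π ^ m = (g D.π / D.π) ^ m := by
    rw [map_pow, div_pow]
  rw [hpow] at h4
  have hlt : ‖(g D.π / D.π) ^ m - (a : Kbar p)‖ < 1 := by
    have : (g D.π / D.π) ^ m - (a : Kbar p) =
        (g (ζ - 1) / (ζ - 1) - (a : Kbar p)) - (g (ζ - 1) / (ζ - 1) - (g D.π / D.π) ^ m) := by ring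
    rw [this]
    exact norm_sub_lt p h5 h4
  -- reduce
  have hu : g D.π / D.π ∈ intSubring p F := D.theta_arg_mem (hF g)
  have hum : (g D.π / D.π) ^ m ∈ intSubring p F := pow_mem hu m
  have haF : (a : Kbar p) ∈ intSubring p F := natCast_mem _ a
  have hsub : (g D.π / D.π) ^ m - (a : Kbar p) ∈ intSubring p F := sub_mem hum haF
  have h0 : D.resFun ((g D.π / D.π) ^ m - (a : Kbar p)) = 0 := (D.resFun_eq_zero_iff hsub).2 hlt
  have hadd : D.resFun ((g D.π / D.π) ^ m) =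
      D.resFun ((g D.π / D.π) ^ m - (a : Kbar p)) + D.resFun (a : Kbar p) := by
    rw [← D.resFun_add hsub haF, sub_add_cancel]
  have hcast : D.resFun (a : Kbar p) = (a : D.κ) := by
    rw [D.resFun_of_mem haF]
    have : (⟨(a : Kbar p), haF⟩ : intSubring p F) = ((a : ℕ) : intSubring p F) := by
      apply Subtype.ext
      simp
    rw [this, map_natCast]
  rw [h0, zero_add, D.resFun_pow hu, hcast] at hadd
  exact hadd.symm

end Fermat.Agent.TW.B5.LD65a
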