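/-
Programme TW (S56), brick B5-LD (helper65), part b: existence of level data.

* `norm_algHom`           : embeddings `F → K̄` preserve the norm;
* `exists_norm_pow_eq`    : `‖x‖ ^ m ∈ p ^ ℤ` for `x ∈ Fˣ` (`m` = number of embeddings);
* `exists_uniformizer`    : an element of `F` of maximal norm `< 1`;
* `exists_zpow_eq`        : the value group of `F` is generated by `‖π‖`;
* `maxIdeal`, `resField`  : the residue field of `F` as a quotient of `intSubring p F`, finite of char. `p`;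
* `hasLevelData : HasLevelData p`.
-/
import Fermat.Agent.TW.B5.LD65a

set_option autoImplicit false

namespace Fermat.Agent.TW.B5.LD65b

open Fermat.Agent.TW.B5.Iface Fermat.Agent.TW.B5.IfaceLG Fermat.Agent.TW.B5.Kummer47
  Fermat.Agent.TW.B5.Levels47 Fermat.Agent.TW.B5.IfaceCT Fermat.Agent.TW.B5.LGTame65
  Fermat.Agent.TW.B5.LD65a

variable {p : ℕ} [hp : Fact p.Prime]

/-! ### Norms of conjugates and discreteness -/

theorem norm_eq_spectralValue (y : Kbar p) : ‖y‖ = spectralValue (minpoly ℚ_[p] y) := rfl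

/-- embeddings of `F` into `K̄` preserve the norm. -/
theorem norm_algHom (F : IntermediateField ℚ_[p] (Kbar p)) (σ : F →ₐ[ℚ_[p]] Kbar p) (x : F) :
    ‖σ x‖ = ‖(x : Kbar p)‖ := by
  rw [norm_eq_spectralValue, norm_eq_spectralValue, minpoly.algHom_eq σ σ.toRingHom.injective,
    ← minpoly.algHom_eq F.val F.val.toRingHom.injective x]
  rfl

/-- the `m`-th power of the norm of `x ∈ Fˣ` lies in `p ^ ℤ`, `m` the number of embeddings. -/
theorem exists_norm_pow_eq (F : IntermediateField ℚ_[p] (Kbar p)) [FiniteDimensional ℚ_[p] F]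
    {x : Kbar p} (hxF : x ∈ F) (hx : x ≠ 0) :
    ∃ k : ℤ, ‖x‖ ^ (Fintype.card (F →ₐ[ℚ_[p]] Kbar p)) = (p : ℝ) ^ k := by
  have h1 := Algebra.norm_eq_prod_embeddings ℚ_[p] (Kbar p) (⟨x, hxF⟩ : F)
  have h2 := congrArg norm h1
  rw [PadicAlgCl.norm_extends, norm_prod] at h2
  have h3 : ∀ σ ∈ (Finset.univ : Finset (F →ₐ[ℚ_[p]] Kbar p)), ‖σ ⟨x, hxF⟩‖ = ‖x‖ := by
    intro σ _
    exact norm_algHom F σ ⟨x, hxF⟩
  rw [Finset.prod_congr rfl h3, Finset.prod_const, Finset.card_univ] at h2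
  have hN : Algebra.norm ℚ_[p] (⟨x, hxF⟩ : F) ≠ 0 := by
    rw [Algebra.norm_ne_zero_iff]
    intro h0
    exact hx (congrArg Subtype.val h0)
  refine ⟨-(Algebra.norm ℚ_[p] (⟨x, hxF⟩ : F)).valuation, ?_⟩
  rw [← h2, Padic.norm_eq_zpow_neg_valuation hN]

theorem card_embeddings_pos (F : IntermediateField ℚ_[p] (Kbar p)) [FiniteDimensional ℚ_[p] F] :
    0 < Fintype.card (F →ₐ[ℚ_[p]] Kbar p) :=
  Fintype.card_pos_iff.2 ⟨F.val⟩

theorem one_lt_p : (1 : ℝ) < (p : ℝ) := by exact_mod_cast hp.out.one_lt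

/-- **Uniformiser**: an element of `F` of maximal norm `< 1`. -/
theorem exists_uniformizer (F : IntermediateField ℚ_[p] (Kbar p)) [FiniteDimensional ℚ_[p] F] :
    ∃ π ∈ F, 0 < ‖π‖ ∧ ‖π‖ < 1 ∧ ∀ x ∈ F, ‖x‖ < 1 → ‖x‖ ≤ ‖π‖ := by
  classical
  set m := Fintype.card (F →ₐ[ℚ_[p]] Kbar p) with hm
  have hm0 : 0 < m := card_embeddings_pos F
  have hp1 := one_lt_p (p := p)
  have hp0 : (0 : ℝ) < (p : ℝ) := lt_trans zero_lt_one hp1
  let A : ℕ → Prop := fun k => ∃ x ∈ F, x ≠ 0 ∧ ‖x‖ < 1 ∧ ‖x‖ ^ m = (p : ℝ) ^ (-(k : ℤ))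
  have hA : ∃ k, A k := by
    refine ⟨m, (p : Kbar p), natCast_mem F p, ?_, norm_p_lt_one p, ?_⟩
    · rw [← norm_ne_zero_iff, norm_p p]
      exact (inv_pos.2 hp0).ne'
    · rw [norm_p p, zpow_neg, zpow_natCast, inv_pow]
  obtain ⟨π, hπF, hπ0, hπ1, hπm⟩ := Nat.find_spec hA
  refine ⟨π, hπF, norm_pos_iff.2 hπ0, hπ1, fun x hxF hx1 => ?_⟩
  by_cases hx0 : x = 0
  · rw [hx0, norm_zero]; exact norm_nonneg _
  obtain ⟨k, hk⟩ := exists_norm_pow_eq F hxF hx0
  have hlt : ‖x‖ ^ m < 1 := pow_lt_one₀ (norm_nonneg _) hx1 hm0.ne'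
  have hkneg : k < 0 := by
    by_contra hcon
    push Not at hcon
    have : (1 : ℝ) ≤ (p : ℝ) ^ k := one_le_zpow₀ hp1.le hcon
    rw [hk] at hlt
    exact absurd hlt (not_lt.2 this)
  obtain ⟨j, rfl⟩ : ∃ j : ℕ, k = -(j : ℤ) := ⟨(-k).toNat, by omega⟩
  have hAj : A j := ⟨x, hxF, hx0, hx1, hk⟩
  have hle : Nat.find hA ≤ j := Nat.find_min' hA hAj
  have hpow : ‖x‖ ^ m ≤ ‖π‖ ^ m := by
    rw [hk, hπm]
    apply zpow_le_zpow_right₀ hp1.le
    omega
  exact (pow_le_pow_iff_left₀ (norm_nonneg _) (norm_nonneg _) hm0.ne').1 hpow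

/-- the value group of `F` is generated by the norm of an element of maximal norm `< 1`. -/
theorem exists_zpow_eq (F : IntermediateField ℚ_[p] (Kbar p)) {π : Kbar p} (hπF : π ∈ F)
    (hπ0 : 0 < ‖π‖) (hπ1 : ‖π‖ < 1) (hmax : ∀ x ∈ F, ‖x‖ < 1 → ‖x‖ ≤ ‖π‖) {x : Kbar p}
    (hxF : x ∈ F) (hx : x ≠ 0) : ∃ n : ℤ, ‖x‖ = ‖π‖ ^ n := by
  have hy : 1 < ‖π‖⁻¹ := (one_lt_inv₀ hπ0).2 hπ1
  obtain ⟨n, hn1, hn2⟩ := exists_mem_Ioc_zpow (norm_pos_iff.2 hx) hy
  have hπne : π ≠ 0 := norm_pos_iff.1 hπ0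
  -- `z = x * π ^ (n + 1)` has norm in `(‖π‖, 1]`
  set z : Kbar p := x * π ^ (n + 1) with hz
  have hzF : z ∈ F := F.mul_mem hxF (zpow_mem hπF _)
  have hznorm : ‖z‖ = ‖x‖ * ‖π‖ ^ (n + 1) := by rw [hz, norm_mul, norm_zpow]
  have hpos : 0 < ‖π‖ ^ (n + 1) := zpow_pos hπ0 _
  have hz1 : ‖z‖ ≤ 1 := by
    rw [hznorm]
    rw [inv_zpow, ← zpow_neg] at hn2
    calc ‖x‖ * ‖π‖ ^ (n + 1) ≤ ‖π‖ ^ (-(n + 1)) * ‖π‖ ^ (n + 1) :=
          mul_le_mul_of_nonneg_right hn2 hpos.le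
      _ = 1 := by rw [← zpow_add₀ hπ0.ne']; simp
  have hz2 : ‖π‖ < ‖z‖ := by
    rw [hznorm]
    rw [inv_zpow, ← zpow_neg] at hn1
    calc ‖π‖ = ‖π‖ ^ (-n) * ‖π‖ ^ (n + 1) := by rw [← zpow_add₀ hπ0.ne']; simp
      _ < ‖x‖ * ‖π‖ ^ (n + 1) := mul_lt_mul_of_pos_right hn1 hpos
  have hz3 : ‖z‖ = 1 := by
    rcases lt_or_eq_of_le hz1 with h | h
    · exact absurd (hmax z hzF h) (not_le.2 hz2)
    · exact h
  refine ⟨-(n + 1), ?_⟩
  rw [hznorm] at hz3
  rw [zpow_neg]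
  exact eq_inv_of_mul_eq_one_left hz3

/-! ### The residue field -/

/-- the maximal ideal of the ring of integers of `F`. -/
def maxIdeal (F : IntermediateField ℚ_[p] (Kbar p)) : Ideal (intSubring p F) where
  carrier := {x | ‖(x : Kbar p)‖ < 1}
  add_mem' := fun {a b} ha hb => norm_add_lt p ha hb
  zero_mem' := by
    show ‖((0 : intSubring p F) : Kbar p)‖ < 1
    simp
  smul_mem' := fun c x hx => by
    show ‖((c * x : intSubring p F) : Kbar p)‖ < 1
    rw [Subring.coe_mul, norm_mul]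
    have hc : ‖(c : Kbar p)‖ ≤ 1 := c.2.2
    have hx' : ‖(x : Kbar p)‖ < 1 := hx
    calc ‖(c : Kbar p)‖ * ‖(x : Kbar p)‖ ≤ 1 * ‖(x : Kbar p)‖ :=
          mul_le_mul_of_nonneg_right hc (norm_nonneg _)
      _ < 1 := by rwa [one_mul]

theorem mem_maxIdeal {F : IntermediateField ℚ_[p] (Kbar p)} (x : intSubring p F) :
    x ∈ maxIdeal F ↔ ‖(x : Kbar p)‖ < 1 := Iff.rfl

instance maxIdeal_isMaximal (F : IntermediateField ℚ_[p] (Kbar p)) : (maxIdeal F).IsMaximal := by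
  rw [Ideal.isMaximal_iff]
  refine ⟨?_, fun J x _ hxI hxJ => ?_⟩
  · rw [mem_maxIdeal]
    simp
  · rw [mem_maxIdeal, not_lt] at hxI
    have hx1 : ‖(x : Kbar p)‖ = 1 := le_antisymm x.2.2 hxI
    have hx0 : (x : Kbar p) ≠ 0 := by
      rw [← norm_ne_zero_iff, hx1]
      exact one_ne_zero
    let y : intSubring p F := ⟨(x : Kbar p)⁻¹, F.inv_mem x.2.1, by rw [norm_inv, hx1, inv_one]⟩
    have : y * x = 1 := by
      apply Subtype.ext
      show (x : Kbar p)⁻¹ * (x : Kbar p) = 1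
      exact inv_mul_cancel₀ hx0
    rw [← this]
    exact J.mul_mem_left y hxJ

/-- the residue field of `F`. -/
abbrev resField (F : IntermediateField ℚ_[p] (Kbar p)) : Type := intSubring p F ⧸ maxIdeal F

noncomputable instance (F : IntermediateField ℚ_[p] (Kbar p)) : Field (resField F) :=
  Ideal.Quotient.field (maxIdeal F)

theorem resField_charP (F : IntermediateField ℚ_[p] (Kbar p)) : CharP (resField F) p := by
  apply ringChar.of_eq
  apply CharP.ringChar_of_prime_eq_zero hp.out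
  have : ((p : intSubring p F) : resField F) = 0 := by
    rw [Ideal.Quotient.eq_zero_iff_mem, mem_maxIdeal]
    have : (((p : ℕ) : intSubring p F) : Kbar p) = (p : Kbar p) := by simp
    rw [this]
    exact norm_p_lt_one p
  rw [← this, map_natCast]

/-- the unit ball of `F` is compact. -/
theorem isCompact_unitBall (F : IntermediateField ℚ_[p] (Kbar p)) [hF : FiniteDimensional ℚ_[p] F] :
    IsCompact {x : Kbar p | x ∈ F ∧ ‖x‖ ≤ 1} := by
  let W : Submodule ℚ_[p] (Kbar p) := F.toSubalgebra.toSubmodule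
  have hW : FiniteDimensional ℚ_[p] W := Subalgebra.finiteDimensional_toSubmodule.2 hF
  have hprop : ProperSpace W := FiniteDimensional.proper ℚ_[p] W
  have hc : IsCompact (Metric.closedBall (0 : W) 1) := isCompact_closedBall 0 1
  have himg := hc.image (continuous_subtype_val (p := fun x : Kbar p => x ∈ W))
  convert himg using 1
  ext x
  constructor
  · rintro ⟨hxF, hx1⟩
    refine ⟨⟨x, hxF⟩, ?_, rfl⟩
    rw [mem_closedBall_zero_iff]
    exact hx1
  · rintro ⟨y, hy, rfl⟩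
    rw [mem_closedBall_zero_iff] at hy
    exact ⟨y.2, hy⟩

theorem resField_finite (F : IntermediateField ℚ_[p] (Kbar p)) [FiniteDimensional ℚ_[p] F] :
    Finite (resField F) := by
  obtain ⟨t, htB, htfin, hcov⟩ := (isCompact_unitBall F).finite_cover_balls (e := 1) one_pos
  have : Finite t := htfin
  let f : t → resField F := fun x => Ideal.Quotient.mk (maxIdeal F) ⟨x.1, htB x.2⟩
  apply Finite.of_surjective f
  intro c
  obtain ⟨y, rfl⟩ := Ideal.Quotient.mk_surjective c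
  have hy : (y : Kbar p) ∈ {x : Kbar p | x ∈ F ∧ ‖x‖ ≤ 1} := y.2
  have := hcov hy
  simp only [Set.mem_iUnion, Metric.mem_ball, exists_prop] at this
  obtain ⟨x, hxt, hd⟩ := this
  refine ⟨⟨x, hxt⟩, ?_⟩
  show Ideal.Quotient.mk (maxIdeal F) ⟨x, htB hxt⟩ = Ideal.Quotient.mk (maxIdeal F) y
  rw [Ideal.Quotient.eq, mem_maxIdeal]
  show ‖x - (y : Kbar p)‖ < 1
  rw [← dist_eq_norm, dist_comm]
  exact hd

/-! ### Level data -/

variable (p)

/-- **(LD1)** existence of level data with finite residue field of characteristic `p`. -/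
theorem hasLevelData : HasLevelData p := by
  intro F ζ hfin hζ hζF
  have : FiniteDimensional ℚ_[p] F := hfin
  obtain ⟨π, hπF, hπ0, hπ1, hmax⟩ := exists_uniformizer F
  have hval : ∀ x ∈ F, x ≠ 0 → ∃ n : ℤ, ‖x‖ = ‖π‖ ^ n := fun x hxF hx =>
    exists_zpow_eq F hπF hπ0 hπ1 hmax hxF hx
  -- positivity of exponents of elements of norm `< 1`
  have hposexp : ∀ x ∈ F, x ≠ 0 → ‖x‖ < 1 → ∃ n : ℕ, 0 < n ∧ ‖x‖ = ‖π‖ ^ n := by
    intro x hxF hx hx1
    obtain ⟨n, hn⟩ := hval x hxF hx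
    have hn0 : 0 < n := by
      by_contra hcon
      push Not at hcon
      have : (1 : ℝ) ≤ ‖π‖ ^ n := by
        obtain ⟨j, rfl⟩ : ∃ j : ℕ, n = -(j : ℤ) := ⟨(-n).toNat, by omega⟩
        rw [zpow_neg, zpow_natCast]
        exact (one_le_inv₀ (pow_pos hπ0 j)).2 (pow_le_one₀ hπ0.le hπ1.le)
      rw [hn] at hx1
      exact absurd hx1 (not_lt.2 this)
    refine ⟨n.toNat, by omega, ?_⟩
    rw [hn, ← zpow_natCast]
    congr 1
    omega
  have hp0 : (p : Kbar p) ≠ 0 := by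
    rw [← norm_ne_zero_iff, norm_p p]
    exact (inv_pos.2 (lt_trans zero_lt_one one_lt_p)).ne'
  obtain ⟨e, he0, he⟩ := hposexp (p : Kbar p) (natCast_mem F p) hp0 (norm_p_lt_one p)
  have hζ1 : ‖ζ - 1‖ < 1 := LG83T.norm_root_sub_one_lt p hζ.1
  obtain ⟨j, hj0, hj⟩ := hposexp (ζ - 1) (F.sub_mem hζF F.one_mem) (sub_ne_zero.2 hζ.2) hζ1
  -- `e = j (p - 1)`
  have hej : e = j * (p - 1) := by
    have h1 := norm_sub_one_pow hζ
    rw [hj, he, ← pow_mul] at h1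
    exact (pow_right_injective₀ hπ0 hπ1.ne h1).symm
  have hp2 := hp.out.two_le
  refine ⟨{ π := π, hπF := hπF, hπpos := hπ0, hπlt := hπ1, e := e, he := he, T := p * j,
            hT := by rw [hej]; ring, val := hval, κ := resField F,
            res := Ideal.Quotient.mk (maxIdeal F), res_surj := Ideal.Quotient.mk_surjective,
            res_eq_zero := fun x => by rw [Ideal.Quotient.eq_zero_iff_mem, mem_maxIdeal] }, ?_, ?_⟩
  · exact resField_finite F
  · exact resField_charP F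

end Fermat.Agent.TW.B5.LD65b
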