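/-
Programme TW (S56), brick B5-LD (helper65), part d: the tame generator.

* `theta_mul`, `theta_one`, `theta_congr`  : the tame symbol `θ` is a character of inertia, depending only on `g|_F`;
* `wildOn_of_theta_eq_one`                 : the kernel of `θ` acts wildly on `F`;
* `tameGenerator (hE : RamIdxEqCard p) : TameGenerator p`  (LD2).
-/
import Fermat.Agent.TW.B5.LD65a
import Fermat.Agent.TW.B5.LG1.Bridge

set_option autoImplicit false
set_option linter.unusedSectionVars false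

namespace Fermat.Agent.TW.B5.LD65d

open Fermat.Agent.TW.B5.Iface Fermat.Agent.TW.B5.IfaceLG Fermat.Agent.TW.B5.Kummer47
  Fermat.Agent.TW.B5.Levels47 Fermat.Agent.TW.B5.IfaceCT Fermat.Agent.TW.B5.LGTame65
  Fermat.Agent.TW.B5.LD65a

variable {p : ℕ} [hp : Fact p.Prime]

/-- the inertia subgroup of `G_p`. -/
def inertia (p : ℕ) [Fact p.Prime] : Subgroup (Gp p) where
  carrier := {τ | IsInertial p τ}
  mul_mem' := fun ha hb => inertial_mul ha hb
  one_mem' := isInertial_one
  inv_mem' := fun ha => inertial_inv ha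

theorem mem_inertia {τ : Gp p} : τ ∈ inertia p ↔ IsInertial p τ := Iff.rfl

variable {F : IntermediateField ℚ_[p] (Kbar p)} (D : LevelData F)

theorem theta_one : D.theta (1 : Gp p) = 1 := by
  unfold LevelData.theta
  rw [AlgEquiv.one_apply, div_self D.π_ne_zero]
  exact D.resFun_one

theorem theta_congr {σ τ : Gp p} (h : ∀ x ∈ F, σ x = τ x) : D.theta σ = D.theta τ := by
  unfold LevelData.theta
  rw [h _ D.hπF]

/-- `θ` is multiplicative on inertia. -/
theorem theta_mul (hF : IsNormalField p F) {σ : Gp p} (hσ : IsInertial p σ) (τ : Gp p) :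
    D.theta (σ * τ) = D.theta σ * D.theta τ := by
  have hu := D.theta_arg_mem (hF τ)
  have hv := D.theta_arg_mem (hF σ)
  have hσu : σ (τ D.π / D.π) ∈ intSubring p F :=
    ⟨hF σ _ hu.1, by rw [norm_map]; exact hu.2⟩
  have hπ0 := D.π_ne_zero
  have hσπ0 : σ D.π ≠ 0 := by simpa using hπ0
  have h1 : (σ * τ) D.π / D.π = σ (τ D.π / D.π) * (σ D.π / D.π) := by
    rw [AlgEquiv.mul_apply, map_div₀]
    field_simp
  have hsub : σ (τ D.π / D.π) - τ D.π / D.π ∈ intSubring p F := sub_mem hσu hu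
  have h0 : D.resFun (σ (τ D.π / D.π) - τ D.π / D.π) = 0 :=
    (D.resFun_eq_zero_iff hsub).2 (hσ _ hu.2)
  have h2 : D.resFun (σ (τ D.π / D.π)) = D.resFun (τ D.π / D.π) := by
    have : σ (τ D.π / D.π) = (σ (τ D.π / D.π) - τ D.π / D.π) + τ D.π / D.π := by ring
    rw [this, D.resFun_add hsub hu, h0, zero_add]
  unfold LevelData.theta
  rw [h1, D.resFun_mul hσu hv, h2, mul_comm]

theorem norm_theta_arg (g : Gp p) : ‖g D.π / D.π‖ = 1 := by
  rw [norm_div, norm_map, div_self D.hπpos.ne']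

/-- if `θ(g) = 1` then `g π / π ≡ 1`. -/
theorem norm_theta_arg_sub_one (hF : IsNormalField p F) {g : Gp p} (h1 : D.theta g = 1) :
    ‖g D.π / D.π - 1‖ < 1 := by
  have hu := D.theta_arg_mem (hF g)
  have hone : (1 : Kbar p) ∈ intSubring p F := one_mem _
  have hsub : g D.π / D.π - 1 ∈ intSubring p F := sub_mem hu hone
  rw [← D.resFun_eq_zero_iff hsub]
  have : D.resFun (g D.π / D.π) = D.resFun (g D.π / D.π - 1) + D.resFun 1 := by
    rw [← D.resFun_add hsub hone, sub_add_cancel]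
  unfold LevelData.theta at h1
  rw [h1, D.resFun_one] at this
  exact (add_eq_right.1 this.symm)

/-- integer powers of a unit congruent to `1` are congruent to `1`. -/
theorem norm_zpow_sub_one_lt {u : Kbar p} (hu : ‖u‖ = 1) (h : ‖u - 1‖ < 1) (n : ℤ) :
    ‖u ^ n - 1‖ < 1 := by
  have hnat : ∀ m : ℕ, ‖u ^ m - 1‖ < 1 := by
    intro m
    have := Cg.pow (a := u) (b := 1) h hu.le m
    rwa [one_pow] at this
  have hu0 : u ≠ 0 := by
    rw [← norm_ne_zero_iff, hu]; exact one_ne_zero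
  rcases Int.eq_nat_or_neg n with ⟨m, rfl | rfl⟩
  · rw [zpow_natCast]; exact hnat m
  · rw [zpow_neg, zpow_natCast]
    have e : (u ^ m)⁻¹ - 1 = -((u ^ m)⁻¹ * (u ^ m - 1)) := by
      field_simp
      ring
    rw [e, norm_neg, norm_mul, norm_inv, norm_pow, hu, one_pow, inv_one, one_mul]
    exact hnat m

/-- the kernel of `θ` acts wildly on `F`. -/
theorem wildOn_of_theta_eq_one (hF : IsNormalField p F) {g : Gp p} (hg : IsInertial p g)
    (h1 : D.theta g = 1) : ∀ x ∈ F, x ≠ 0 → ‖g x - x‖ < ‖x‖ := by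
  intro x hxF hx
  obtain ⟨n, hn⟩ := D.val x hxF hx
  have hπ0 := D.π_ne_zero
  have hnorm : ‖x‖ = ‖D.π ^ n‖ := by rw [hn, norm_zpow]
  have h4 := tameSymbolNorm p g hg x (D.π ^ n) hx hnorm
  have hpow : g (D.π ^ n) / D.π ^ n = (g D.π / D.π) ^ n := by
    rw [map_zpow₀, div_zpow]
  rw [hpow] at h4
  have h5 := norm_zpow_sub_one_lt (norm_theta_arg D g) (norm_theta_arg_sub_one D hF h1) n
  have h6 : ‖g x / x - 1‖ < 1 := by
    have : g x / x - 1 = (g x / x - (g D.π / D.π) ^ n) + ((g D.π / D.π) ^ n - 1) := by ring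
    rw [this]
    exact norm_add_lt p h4 h5
  have hxpos : 0 < ‖x‖ := norm_pos_iff.2 hx
  have : g x - x = (g x / x - 1) * x := by field_simp
  rw [this, norm_mul]
  calc ‖g x / x - 1‖ * ‖x‖ < 1 * ‖x‖ := mul_lt_mul_of_pos_right h6 hxpos
    _ = ‖x‖ := one_mul _

/-! ### The tame generator -/

open Fermat.Agent.TW.B5.LG1.Bridge in
/-- **(LD2)** from (LD5) and (LG-T2'). -/
theorem tameGenerator (p : ℕ) [hp : Fact p.Prime] (hE : RamIdxEqCard p) : TameGenerator p := by
  intro F D hfin hF hpe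
  have : FiniteDimensional ℚ_[p] F := hfin
  have : Normal ℚ_[p] F := Fermat.Agent.TW.B5.LG1.Bridge.normal_of_isNormalField p hF
  obtain ⟨s, hscard, hsin, hscov, hsinj⟩ := hE F D hfin hF
  -- the finite-level inertia group
  let H : Subgroup (F ≃ₐ[ℚ_[p]] F) := (inertia p).map (res p F)
  have hresEq : ∀ σ τ : Gp p, res p F σ = res p F τ ↔ ∀ x ∈ F, σ x = τ x := by
    intro σ τ
    constructor
    · intro h x hx
      have := congrArg (fun g : F ≃ₐ[ℚ_[p]] F => ((g ⟨x, hx⟩ : F) : Kbar p)) h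
      simpa only [res_apply] using this
    · intro h
      ext x
      rw [res_apply, res_apply]
      exact h x x.2
  -- `card H = e`
  have hcard : Nat.card H = D.e := by
    let f : s → H := fun σ => ⟨res p F σ.1, ⟨σ.1, hsin σ.1 σ.2, rfl⟩⟩
    have hf : Function.Bijective f := by
      constructor
      · intro σ σ' h
        have h' : res p F σ.1 = res p F σ'.1 := congrArg Subtype.val h
        apply Subtype.ext
        exact hsinj σ.1 σ.2 σ'.1 σ'.2 ((hresEq _ _).1 h')
      · rintro ⟨h, τ, hτ, rfl⟩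
        obtain ⟨σ, hσs, hσ⟩ := hscov τ hτ
        refine ⟨⟨σ, hσs⟩, ?_⟩
        apply Subtype.ext
        show res p F σ = res p F τ
        exact (hresEq _ _).2 fun x hx => (hσ x hx).symm
    rw [← Nat.card_congr (Equiv.ofBijective f hf), Nat.card_eq_fintype_card, Fintype.card_coe, hscard]
  have : Finite H := Nat.finite_of_card_ne_zero (by
    rw [hcard]
    intro h0
    exact hpe (h0 ▸ dvd_zero p))
  -- the tame symbol on `H`
  let θF : (F ≃ₐ[ℚ_[p]] F) → D.κ := fun h => D.resFun (((h ⟨D.π, D.hπF⟩ : F) : Kbar p) / D.π)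
  have hθres : ∀ τ : Gp p, θF (res p F τ) = D.theta τ := by
    intro τ
    show D.resFun (((res p F τ ⟨D.π, D.hπF⟩ : F) : Kbar p) / D.π) = D.resFun (τ D.π / D.π)
    rw [res_apply]
  let θH : H →* D.κ :=
    { toFun := fun h => θF h.1
      map_one' := by
        show θF (1 : F ≃ₐ[ℚ_[p]] F) = 1
        rw [← map_one (res p F), hθres, theta_one]
      map_mul' := by
        rintro ⟨h₁, σ, hσ, rfl⟩ ⟨h₂, τ, hτ, rfl⟩
        show θF (res p F σ * res p F τ) = θF (res p F σ) * θF (res p F τ)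
        rw [← map_mul, hθres, hθres, hθres, theta_mul D hF hσ] }
  have hθH : ∀ (τ : Gp p) (hτ : IsInertial p τ), θH ⟨res p F τ, ⟨τ, hτ, rfl⟩⟩ = D.theta τ :=
    fun τ _ => hθres τ
  -- injectivity
  have hker : ∀ h : H, θH h = 1 → h = 1 := by
    rintro ⟨h, g, hg, rfl⟩ h1
    have h1' : D.theta g = 1 := by rw [← hθH g hg]; exact h1
    have hwild := wildOn_of_theta_eq_one D hF hg h1'
    obtain ⟨n, hn⟩ := wildPPowerOn p F hfin hF g hwild
    set h' : H := ⟨res p F g, ⟨g, hg, rfl⟩⟩ with hh'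
    have hpow : h' ^ (p ^ n) = 1 := by
      apply Subtype.ext
      show (res p F g) ^ (p ^ n) = 1
      rw [← map_pow, ← map_one (res p F)]
      exact (hresEq _ _).2 fun x hx => by rw [hn x hx, AlgEquiv.one_apply]
    have hd1 : orderOf h' ∣ p ^ n := orderOf_dvd_of_pow_eq_one hpow
    have hd2 : orderOf h' ∣ D.e := by rw [← hcard]; exact orderOf_dvd_natCard h'
    have hcop : Nat.Coprime (p ^ n) D.e :=
      Nat.Coprime.pow_left n ((Nat.Prime.coprime_iff_not_dvd hp.out).2 hpe)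
    have : orderOf h' = 1 := Nat.eq_one_of_dvd_coprimes hcop hd1 hd2
    exact orderOf_eq_one_iff.1 this
  have hinj : Function.Injective θH := (injective_iff_map_eq_one θH).2 hker
  have : IsCyclic H := isCyclic_of_injective_ringHom θH hinj
  obtain ⟨⟨g', g₀, hg₀, rfl⟩, hgen⟩ := IsCyclic.exists_generator (α := H)
  set γ : H := ⟨res p F g₀, ⟨g₀, hg₀, rfl⟩⟩ with hγ
  have hord : orderOf γ = D.e := by
    rw [← hcard]
    exact orderOf_eq_card_of_forall_mem_zpowers hgen
  refine ⟨g₀, hg₀, fun n => ?_, fun τ hτ => ?_⟩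
  · rw [← hord, orderOf_dvd_iff_pow_eq_one, ← hθH g₀ hg₀, ← map_pow]
    constructor
    · intro h
      exact hinj (by rw [h, map_one])
    · intro h
      rw [h, map_one]
  · have hmem : (⟨res p F τ, ⟨τ, hτ, rfl⟩⟩ : H) ∈ Subgroup.zpowers γ := hgen _
    rw [← mem_powers_iff_mem_zpowers] at hmem
    obtain ⟨n, hn⟩ := hmem
    refine ⟨n, ?_⟩
    have h1 : (res p F g₀) ^ n = res p F τ := congrArg Subtype.val hn
    rw [← map_pow] at h1
    exact fun x hx => ((hresEq _ _).1 h1 x hx).symm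

end Fermat.Agent.TW.B5.LD65d
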