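/-
Programme TW (S56), brick B5-LG (local Galois toolkit), field **T5** (helper69):
`cycloTameSymbol : IfaceLG.CycloTameSymbol p` — the mod-`p` cyclotomic character is the tame symbol
of `ζ - 1`: if `τ ζ = ζ ^ a` for a primitive `p`-th root of unity `ζ ∈ K̄ = PadicAlgCl p`, then
`τ (ζ - 1) / (ζ - 1) = ∑_{i<a} ζ^i ≡ a` modulo the maximal ideal, because `‖ζ - 1‖ < 1`.
-/
import Fermat.Agent.TW.B5.IfaceLG

set_option autoImplicit false

namespace Fermat.Agent.TW.B5.LGTame69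

open Fermat.Agent.TW.B5.Iface Fermat.Agent.TW.B5.IfaceLG

variable (p : ℕ) [Fact p.Prime]

/-- `‖p‖ < 1` in `K̄`. -/
theorem norm_p_lt_one : ‖(p : Kbar p)‖ < 1 := by
  have h : ((p : ℚ_[p]) : Kbar p) = (p : Kbar p) := map_natCast (algebraMap ℚ_[p] (Kbar p)) p
  rw [← h, PadicAlgCl.norm_extends]
  exact Padic.norm_p_lt_one

/-- A `p`-th root of unity has norm `1`. -/
theorem norm_root_eq_one {ζ : Kbar p} (h : ζ ^ p = 1) : ‖ζ‖ = 1 := by
  have hp0 : p ≠ 0 := (Fact.out : p.Prime).ne_zero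
  have h1 : ‖ζ‖ ^ p = 1 := by rw [← norm_pow, h, norm_one]
  exact (pow_eq_one_iff_of_nonneg (norm_nonneg _) hp0).mp h1

/-- Geometric sums of integral elements are integral. -/
theorem norm_geom_sum_le_one {ζ : Kbar p} (h : ‖ζ‖ ≤ 1) (n : ℕ) :
    ‖∑ i ∈ Finset.range n, ζ ^ i‖ ≤ 1 := by
  refine IsUltrametricDist.norm_sum_le_of_forall_le_of_nonneg zero_le_one (fun i _ => ?_)
  rw [norm_pow]
  exact pow_le_one₀ (norm_nonneg _) h

/-- `ζ ^ n - 1` is divisible by `ζ - 1`. -/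
theorem norm_pow_sub_one_le {ζ : Kbar p} (h : ‖ζ‖ ≤ 1) (n : ℕ) : ‖ζ ^ n - 1‖ ≤ ‖ζ - 1‖ := by
  rw [← geom_sum_mul, norm_mul]
  exact mul_le_of_le_one_left (norm_nonneg _) (norm_geom_sum_le_one p h n)

/-- A `p`-th root of unity is `≡ 1` modulo the maximal ideal. -/
theorem norm_root_sub_one_lt_one {ζ : Kbar p} (h : ζ ^ p = 1) : ‖ζ - 1‖ < 1 := by
  have hp : p.Prime := Fact.out
  have hζ : ‖ζ‖ = 1 := norm_root_eq_one p h
  have hx1 : ‖ζ - 1‖ ≤ 1 := by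
    calc ‖ζ - 1‖ = ‖ζ + -1‖ := by rw [sub_eq_add_neg]
      _ ≤ max ‖ζ‖ ‖(-1 : Kbar p)‖ := IsUltrametricDist.norm_add_le_max _ _
      _ = 1 := by rw [hζ, norm_neg, norm_one, max_self]
  by_contra hcon
  have hx : ‖ζ - 1‖ = 1 := le_antisymm hx1 (not_lt.mp hcon)
  have key := add_pow_prime_eq hp (ζ - 1) (1 : Kbar p)
  rw [sub_add_cancel, h] at key
  set r : Kbar p := ∑ k ∈ Finset.Ioo 0 p, (ζ - 1) ^ (k - 1) * 1 ^ (p - k - 1) * ↑(p.choose k / p)
    with hr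
  have hr1 : ‖r‖ ≤ 1 := by
    refine IsUltrametricDist.norm_sum_le_of_forall_le_of_nonneg zero_le_one (fun k _ => ?_)
    rw [norm_mul, norm_mul, norm_pow, norm_pow, norm_one, one_pow, mul_one, hx, one_pow, one_mul]
    exact IsUltrametricDist.norm_natCast_le_one _ _
  have h2 : (ζ - 1) ^ p = -((p : Kbar p) * (ζ - 1) * 1 * r) := by
    rw [one_pow] at key
    linear_combination -key
  have h3 : ‖(ζ - 1) ^ p‖ = 1 := by rw [norm_pow, hx, one_pow]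
  rw [h2, norm_neg, norm_mul, norm_mul, norm_mul, hx, norm_one, mul_one, mul_one] at h3
  have h4 : ‖(p : Kbar p)‖ * ‖r‖ < 1 := by
    calc ‖(p : Kbar p)‖ * ‖r‖ ≤ ‖(p : Kbar p)‖ * 1 :=
          mul_le_mul_of_nonneg_left hr1 (norm_nonneg _)
      _ < 1 := by rw [mul_one]; exact norm_p_lt_one p
  rw [h3] at h4
  exact lt_irrefl _ h4

/-- **(LG-T5)** -/
theorem cycloTameSymbol : CycloTameSymbol p := by
  intro τ ζ a hζp hζ1 hτ
  have hne : ζ - 1 ≠ 0 := sub_ne_zero.mpr hζ1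
  have h1 : τ (ζ - 1) = (∑ i ∈ Finset.range a, ζ ^ i) * (ζ - 1) := by
    rw [map_sub, map_one, hτ, geom_sum_mul]
  rw [h1, mul_div_assoc, div_self hne, mul_one]
  have h2 : (∑ i ∈ Finset.range a, ζ ^ i) - (a : Kbar p) = ∑ i ∈ Finset.range a, (ζ ^ i - 1) := by
    rw [Finset.sum_sub_distrib, Finset.sum_const, Finset.card_range, nsmul_eq_mul, mul_one]
  rw [h2]
  have hζn := norm_root_eq_one p hζp
  calc ‖∑ i ∈ Finset.range a, (ζ ^ i - 1)‖ ≤ ‖ζ - 1‖ :=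
        IsUltrametricDist.norm_sum_le_of_forall_le_of_nonneg (norm_nonneg _)
          (fun i _ => norm_pow_sub_one_le p hζn.le i)
    _ < 1 := norm_root_sub_one_lt_one p hζp

end Fermat.Agent.TW.B5.LGTame69
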