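/-
Programme TW (S56), brick B5-LD part (b) (helper69): `hasLevelData : IfaceCT.HasLevelData p`.

Every finite extension `F ⊆ K̄ = PadicAlgCl p` of `ℚ_p` containing a primitive `p`-th root of unity `ζ` has
a `Levels47.LevelData`: a uniformiser `π` (from `PT/LOC/Structure14`, applied to the abstract field `↥F`,
whose spectral norm is the restriction of the norm of `K̄`), `e` with `‖p‖ = ‖π‖ ^ e`, `T = p e/(p-1)`
(from `‖ζ - 1‖ ^ (p - 1) = ‖p‖`), and the residue field `κ = 𝒪_F ⧸ {‖x‖ < 1}`, which is finite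
(`PT/LOC/StructureTower27`) of characteristic `p`.
-/
import Fermat.Agent.TW.B5.LGTame69
import Fermat.Agent.TW.B5.IfaceCT
import Fermat.Agent.PT.LOC.StructureTower27

set_option autoImplicit false

namespace Fermat.Agent.TW.B5.LD69

open Fermat.Agent.TW.B5.Iface Fermat.Agent.TW.B5.IfaceLG Fermat.Agent.TW.B5.Kummer47
  Fermat.Agent.TW.B5.Levels47
open scoped Fermat.Agent.PT.LOC.Interface12
open Fermat.Agent.PT.LOC.Interface12 Fermat.Agent.PT.LOC.Structure14
  Fermat.Agent.PT.LOC.StructureTower27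

variable (p : ℕ) [Fact p.Prime]

/-- `‖ζ - 1‖ ^ (p - 1) = ‖p‖` for a primitive `p`-th root of unity. -/
theorem norm_root_sub_one_pow {ζ : Kbar p} (h : ζ ^ p = 1) (h1 : ζ ≠ 1) :
    ‖ζ - 1‖ ^ (p - 1) = ‖(p : Kbar p)‖ := by
  have hp : p.Prime := Fact.out
  have hx0 : ζ - 1 ≠ 0 := sub_ne_zero.mpr h1
  have hxlt : ‖ζ - 1‖ < 1 := LGTame69.norm_root_sub_one_lt_one p h
  have key := add_pow_prime_eq hp (ζ - 1) (1 : Kbar p)
  rw [sub_add_cancel, h, one_pow] at key
  set f : ℕ → Kbar p := fun k => (ζ - 1) ^ (k - 1) * 1 ^ (p - k - 1) * ↑(p.choose k / p) with hf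
  have hmem : 1 ∈ Finset.Ioo 0 p := Finset.mem_Ioo.mpr ⟨Nat.one_pos, hp.one_lt⟩
  have hsplit := Finset.add_sum_erase (Finset.Ioo 0 p) f hmem
  have hf1 : f 1 = 1 := by
    simp only [hf, Nat.sub_self, pow_zero, one_pow, mul_one, one_mul, Nat.choose_one_right]
    rw [Nat.div_self hp.pos, Nat.cast_one]
  set s : Kbar p := ∑ k ∈ (Finset.Ioo 0 p).erase 1, f k with hs
  have hsle : ‖s‖ ≤ ‖ζ - 1‖ := by
    refine IsUltrametricDist.norm_sum_le_of_forall_le_of_nonneg (norm_nonneg _) (fun k hk => ?_)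
    have hk1 : k ≠ 1 := (Finset.mem_erase.mp hk).1
    have hk0 : 0 < k := (Finset.mem_Ioo.mp (Finset.mem_erase.mp hk).2).1
    have hk2 : 1 ≤ k - 1 := by omega
    simp only [hf]
    rw [norm_mul, norm_mul, norm_pow, norm_pow, norm_one, one_pow, mul_one]
    calc ‖ζ - 1‖ ^ (k - 1) * ‖((p.choose k / p : ℕ) : Kbar p)‖ ≤ ‖ζ - 1‖ ^ (k - 1) * 1 :=
          mul_le_mul_of_nonneg_left (IsUltrametricDist.norm_natCast_le_one _ _)
            (pow_nonneg (norm_nonneg _) _)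
      _ = ‖ζ - 1‖ ^ (k - 1) := mul_one _
      _ ≤ ‖ζ - 1‖ ^ 1 := pow_le_pow_of_le_one (norm_nonneg _) hxlt.le hk2
      _ = ‖ζ - 1‖ := pow_one _
  have hr : ‖∑ k ∈ Finset.Ioo 0 p, f k‖ = 1 := by
    rw [← hsplit, hf1]
    have hslt : ‖s‖ < 1 := lt_of_le_of_lt hsle hxlt
    have hne : ‖(1 : Kbar p)‖ ≠ ‖s‖ := by rw [norm_one]; exact hslt.ne'
    rw [IsUltrametricDist.norm_add_eq_max_of_norm_ne_norm hne, norm_one, max_eq_left hslt.le]
  have h2 : (ζ - 1) * (ζ - 1) ^ (p - 1) = (ζ - 1) * (-((p : Kbar p) * ∑ k ∈ Finset.Ioo 0 p, f k)) := by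
    rw [← pow_succ', Nat.sub_add_cancel hp.one_le]
    linear_combination -key
  have h3 := mul_left_cancel₀ hx0 h2
  rw [← norm_pow, h3, norm_neg, norm_mul, hr, mul_one]

section bridge

variable (F : IntermediateField ℚ_[p] (Kbar p))

/-- The ideal of elements of norm `< 1` of `𝒪_F`. -/
def maxI : Ideal (intSubring p F) where
  carrier := {x | ‖(x : Kbar p)‖ < 1}
  add_mem' := fun {a b} ha hb =>
    lt_of_le_of_lt (PadicAlgCl.isNonarchimedean p (a : Kbar p) (b : Kbar p)) (max_lt ha hb)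
  zero_mem' := by
    show ‖((0 : intSubring p F) : Kbar p)‖ < 1
    rw [Subring.coe_zero, norm_zero]
    exact one_pos
  smul_mem' := fun c x hx => by
    show ‖((c • x : intSubring p F) : Kbar p)‖ < 1
    rw [smul_eq_mul, Subring.coe_mul, norm_mul]
    have hc : ‖(c : Kbar p)‖ ≤ 1 := c.2.2
    have hx' : ‖(x : Kbar p)‖ < 1 := hx
    calc ‖(c : Kbar p)‖ * ‖(x : Kbar p)‖ ≤ 1 * ‖(x : Kbar p)‖ :=
          mul_le_mul_of_nonneg_right hc (norm_nonneg _)
      _ < 1 := by rwa [one_mul]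

theorem mem_maxI (x : intSubring p F) : x ∈ maxI p F ↔ ‖(x : Kbar p)‖ < 1 := Iff.rfl

instance maxI_isMaximal : (maxI p F).IsMaximal := by
  rw [Ideal.isMaximal_iff]
  refine ⟨?_, fun J x _ hx hxJ => ?_⟩
  · rw [mem_maxI, Subring.coe_one, norm_one]
    exact lt_irrefl _
  · rw [mem_maxI, not_lt] at hx
    have hx1 : ‖(x : Kbar p)‖ = 1 := le_antisymm x.2.2 hx
    have hx0 : (x : Kbar p) ≠ 0 := by
      intro h
      rw [h, norm_zero] at hx1
      exact zero_ne_one hx1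
    have hinv : (x : Kbar p)⁻¹ ∈ intSubring p F :=
      ⟨F.inv_mem x.2.1, by rw [norm_inv, hx1, inv_one]⟩
    have h1 : (1 : intSubring p F) = ⟨(x : Kbar p)⁻¹, hinv⟩ * x :=
      Subtype.ext (by rw [Subring.coe_one, Subring.coe_mul]; exact (inv_mul_cancel₀ hx0).symm)
    rw [h1]
    exact J.mul_mem_left _ hxJ

/-- The residue field of `F`. -/
abbrev resField : Type := intSubring p F ⧸ maxI p F

noncomputable instance : Field (resField p F) := Ideal.Quotient.field (maxI p F)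

theorem charP_resField : CharP (resField p F) p := by
  have hp : p.Prime := Fact.out
  refine (CharP.charP_iff_prime_eq_zero hp).mpr ?_
  have h1 : ((p : intSubring p F) : resField p F) = (p : resField p F) :=
    map_natCast (Ideal.Quotient.mk (maxI p F)) p
  rw [← h1]
  refine Ideal.Quotient.eq_zero_iff_mem.mpr ?_
  rw [mem_maxI, Subring.coe_natCast]
  exact LGTame69.norm_p_lt_one p

/-- The spectral norm of the abstract field `↥F` is the restriction of the norm of `K̄`. -/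
theorem snorm_eq (x : F) : spectralNorm ℚ_[p] F x = ‖(x : Kbar p)‖ := by
  rw [spectralNorm.eq_of_tower (L := Kbar p) x]
  rfl

variable [FiniteDimensional ℚ_[p] F]

theorem mem_intRing_iff_norm (x : F) : x ∈ intRing p F ↔ ‖(x : Kbar p)‖ ≤ 1 := by
  rw [mem_intRing_iff, snorm_eq]

/-- Norm of a unit of `𝒪_F`. -/
theorem norm_eq_one_of_mem_unitGroup (u : (↥F)ˣ) (hu : u ∈ unitGroup p F) :
    ‖((u : F) : Kbar p)‖ = 1 := by
  have h1 : ‖((u : F) : Kbar p)‖ ≤ 1 := (mem_intRing_iff_norm p F _).mp hu.1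
  have h2 : ‖(((u⁻¹ : (↥F)ˣ) : F) : Kbar p)‖ ≤ 1 := (mem_intRing_iff_norm p F _).mp hu.2
  have h3 : ((u : F) : Kbar p) * (((u⁻¹ : (↥F)ˣ) : F) : Kbar p) = 1 := by
    rw [← IntermediateField.coe_mul, ← Units.val_mul, mul_inv_cancel, Units.val_one,
      IntermediateField.coe_one]
  have h4 : ‖((u : F) : Kbar p)‖ * ‖(((u⁻¹ : (↥F)ˣ) : F) : Kbar p)‖ = 1 := by
    rw [← norm_mul, h3, norm_one]
  nlinarith [norm_nonneg ((u : F) : Kbar p), norm_nonneg ((((u⁻¹ : (↥F)ˣ) : F)) : Kbar p)]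

/-- A uniformiser of `F` with the discreteness of the value group. -/
theorem exists_uniformiser : ∃ π : Kbar p, π ∈ F ∧ 0 < ‖π‖ ∧ ‖π‖ < 1 ∧
    ∀ x ∈ F, x ≠ 0 → ∃ n : ℤ, ‖x‖ = ‖π‖ ^ n := by
  obtain ⟨π, hπ⟩ := exists_isUniformizer p F
  have hπ0 : ((π : F) : Kbar p) ≠ 0 := by
    intro h
    exact π.ne_zero (by exact_mod_cast h)
  have hpos : 0 < ‖((π : F) : Kbar p)‖ := norm_pos_iff.mpr hπ0
  refine ⟨((π : F) : Kbar p), (π : F).2, hpos, ?_, ?_⟩
  · have h1 : ¬ ‖(((π : F)⁻¹ : F) : Kbar p)‖ ≤ 1 := fun h =>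
      hπ.2.2.1 ((mem_intRing_iff_norm p F _).mpr h)
    rw [IntermediateField.coe_inv, norm_inv, not_le] at h1
    by_contra hcon
    have := inv_le_one_of_one_le₀ (not_lt.mp hcon)
    exact absurd h1 (not_lt.mpr this)
  · intro x hx hx0
    have hx0' : (⟨x, hx⟩ : F) ≠ 0 := fun h => hx0 (congrArg Subtype.val h)
    set u : (↥F)ˣ := Units.mk0 ⟨x, hx⟩ hx0' with hu
    refine ⟨ord p F u, ?_⟩
    have h1 := norm_eq_one_of_mem_unitGroup p F _ (mul_zpow_neg_ord_mem_unitGroup p F π hπ u)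
    rw [Units.val_mul, Units.val_zpow_eq_zpow_val, IntermediateField.coe_mul] at h1
    have h2 : (((π : F) ^ (-(ord p F u)) : F) : Kbar p) = ((π : F) : Kbar p) ^ (-(ord p F u)) :=
      map_zpow₀ (algebraMap F (Kbar p)) _ _
    rw [h2, norm_mul, norm_zpow, zpow_neg] at h1
    have h3 : ‖((u : F) : Kbar p)‖ = ‖x‖ := rfl
    rw [h3] at h1
    have hne : ‖((π : F) : Kbar p)‖ ^ (ord p F u) ≠ 0 := zpow_ne_zero _ hpos.ne'
    field_simp at h1
    exact h1

/-- `𝒪_F` of `PT/LOC` (integral closure) to `𝒪_F` of `B5/Iface` (unit ball). -/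
def toIntSubring : intRing p F →+* intSubring p F where
  toFun x := ⟨((x : F) : Kbar p), ⟨(x : F).2, (mem_intRing_iff_norm p F _).mp x.2⟩⟩
  map_one' := rfl
  map_mul' _ _ := rfl
  map_zero' := rfl
  map_add' _ _ := rfl

theorem toIntSubring_surjective : Function.Surjective (toIntSubring p F) := by
  intro y
  exact ⟨⟨⟨(y : Kbar p), y.2.1⟩, (mem_intRing_iff_norm p F _).mpr y.2.2⟩, rfl⟩

theorem norm_lt_one_of_mem_maxId (x : intRing p F) (hx : x ∈ maxId p F) :
    ‖((x : F) : Kbar p)‖ < 1 := by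
  rw [maxId_eq_maximalIdeal, IsLocalRing.mem_maximalIdeal, mem_nonunits_iff] at hx
  by_contra hcon
  have hle : ‖((x : F) : Kbar p)‖ ≤ 1 := (mem_intRing_iff_norm p F _).mp x.2
  have hx1 : ‖((x : F) : Kbar p)‖ = 1 := le_antisymm hle (not_lt.mp hcon)
  have hx0 : (x : F) ≠ 0 := by
    intro h
    rw [h, IntermediateField.coe_zero, norm_zero] at hx1
    exact zero_ne_one hx1
  have hinv : (x : F)⁻¹ ∈ intRing p F := by
    rw [mem_intRing_iff_norm, IntermediateField.coe_inv, norm_inv, hx1, inv_one]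
  apply hx
  refine isUnit_iff_exists_inv.mpr ⟨⟨(x : F)⁻¹, hinv⟩, Subtype.ext ?_⟩
  show (x : F) * (x : F)⁻¹ = 1
  exact mul_inv_cancel₀ hx0

theorem finite_resField : Finite (resField p F) := by
  have h : ∀ a ∈ maxId p F, ((Ideal.Quotient.mk (maxI p F)).comp (toIntSubring p F)) a = 0 := by
    intro a ha
    rw [RingHom.comp_apply]
    exact Ideal.Quotient.eq_zero_iff_mem.mpr (norm_lt_one_of_mem_maxId p F a ha)
  have hsurj : Function.Surjective (Ideal.Quotient.lift (maxId p F)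
      ((Ideal.Quotient.mk (maxI p F)).comp (toIntSubring p F)) h) :=
    Ideal.Quotient.lift_surjective_of_surjective _ h
      (Ideal.Quotient.mk_surjective.comp (toIntSubring_surjective p F))
  exact Finite.of_surjective _ hsurj

end bridge

/-! ### Assembly -/

theorem zpow_pos_of_lt_one {a : ℝ} (ha0 : 0 < a) (ha1 : a < 1) {n : ℤ} (h : a ^ n < 1) : 0 < n := by
  by_contra hcon
  push Not at hcon
  have : (1 : ℝ) ≤ a ^ n := by
    obtain ⟨m, rfl⟩ : ∃ m : ℕ, n = -(m : ℤ) := ⟨(-n).toNat, by omega⟩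
    rw [zpow_neg, zpow_natCast]
    exact (one_le_inv₀ (pow_pos ha0 m)).2 (pow_le_one₀ ha0.le ha1.le)
  exact absurd h (not_lt.2 this)

theorem exists_nat_pow {a : ℝ} (ha0 : 0 < a) (ha1 : a < 1) {x : ℝ} (hx : x < 1)
    (h : ∃ n : ℤ, x = a ^ n) : ∃ m : ℕ, 0 < m ∧ x = a ^ m := by
  obtain ⟨n, hn⟩ := h
  have hn0 : 0 < n := zpow_pos_of_lt_one ha0 ha1 (hn ▸ hx)
  refine ⟨n.toNat, by omega, ?_⟩
  rw [hn, ← zpow_natCast, Int.toNat_of_nonneg hn0.le]

/-- **(LD1)** -/
theorem hasLevelData : IfaceCT.HasLevelData p := by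
  intro F ζ hfin hζ hζF
  have _ := hfin
  have hp : p.Prime := Fact.out
  obtain ⟨π, hπF, hπpos, hπlt, hval⟩ := exists_uniformiser p F
  have hp0 : (p : Kbar p) ≠ 0 := Nat.cast_ne_zero.mpr hp.ne_zero
  have hpF : (p : Kbar p) ∈ F := natCast_mem F p
  obtain ⟨e, -, he⟩ := exists_nat_pow hπpos hπlt (LGTame69.norm_p_lt_one p) (hval _ hpF hp0)
  have hζ1F : ζ - 1 ∈ F := sub_mem hζF (one_mem F)
  have hζ10 : ζ - 1 ≠ 0 := sub_ne_zero.mpr hζ.2
  obtain ⟨m, -, hm⟩ := exists_nat_pow hπpos hπlt (LGTame69.norm_root_sub_one_lt_one p hζ.1)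
    (hval _ hζ1F hζ10)
  have hem : m * (p - 1) = e := by
    have h1 := norm_root_sub_one_pow p hζ.1 hζ.2
    rw [hm, he, ← pow_mul] at h1
    exact pow_right_injective₀ hπpos hπlt.ne h1
  let D : LevelData F :=
    { π := π
      hπF := hπF
      hπpos := hπpos
      hπlt := hπlt
      e := e
      he := he
      T := p * m
      hT := by rw [← hem]; ring
      val := hval
      κ := resField p F
      instField := inferInstance
      res := Ideal.Quotient.mk (maxI p F)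
      res_surj := Ideal.Quotient.mk_surjective
      res_eq_zero := fun x => Ideal.Quotient.eq_zero_iff_mem }
  exact ⟨D, finite_resField p F, charP_resField p F⟩

end Fermat.Agent.TW.B5.LD69
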