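/-
Programme TW (S56), brick B5-LD part (c) (helper69):
`ramIdxEqCard (hU5 : IfaceLG.InertiaSurjective p) : IfaceCT.RamIdxEqCard p`.

For a finite normal `F ⊆ K̄` with level data `D`, the absolute ramification index `D.e` is the order of the
inertia group `I(F/ℚ_p)` (`PT/LOC/Frob27.card_inertia`), and every element of `I(F/ℚ_p)` is the restriction
of an inertial element of `G_p` (hypothesis `InertiaSurjective`); so a system of inertial representatives
is a `Finset` of `D.e` elements.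
-/
import Fermat.Agent.TW.B5.LD69
import Fermat.Agent.TW.B5.LG1.Bridge
import Fermat.Agent.PT.LOC.Frob27

set_option autoImplicit false
set_option linter.unusedSectionVars false

namespace Fermat.Agent.TW.B5.LD69c

open Fermat.Agent.TW.B5.Iface Fermat.Agent.TW.B5.IfaceLG Fermat.Agent.TW.B5.Kummer47
  Fermat.Agent.TW.B5.Levels47 Fermat.Agent.TW.B5.LG1.Bridge
open scoped Fermat.Agent.PT.LOC.Interface12
open Fermat.Agent.PT.LOC.Interface12 Fermat.Agent.PT.LOC.Structure14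
  Fermat.Agent.PT.LOC.StructureTower27 Fermat.Agent.PT.LOC.StructureTowerEF27
  Fermat.Agent.PT.LOC.Unram11

variable (p : ℕ) [Fact p.Prime]

/-- `p` is a uniformizer of `ℚ_p` (in the model of `PT/LOC`). -/
theorem isUniformizer_p : IsUniformizer p ℚ_[p] (p : ℚ_[p]) := by
  have hp : p.Prime := Fact.out
  have hp1 : (1 : ℝ) < p := by exact_mod_cast hp.one_lt
  have hp0 : (0 : ℝ) < p := by linarith
  have hmem : ∀ x : ℚ_[p], x ∈ intRing p ℚ_[p] ↔ ‖x‖ ≤ 1 := by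
    intro x
    rw [mem_intRing_iff]
    have h2 : spectralNorm ℚ_[p] ℚ_[p] x = ‖x‖ :=
      spectralNorm_extends (K := ℚ_[p]) (L := ℚ_[p]) x
    rw [h2]
  refine ⟨(hmem _).mpr ?_, ?_, ?_, ?_⟩
  · rw [Padic.norm_p]
    exact inv_le_one_of_one_le₀ hp1.le
  · exact Nat.cast_ne_zero.mpr hp.ne_zero
  · rw [hmem, norm_inv, Padic.norm_p, inv_inv, not_le]
    exact hp1
  · intro x hx hxinv
    rw [hmem] at hx hxinv ⊢
    rw [norm_inv, not_le] at hxinv
    have hx0 : 0 < ‖x‖ := by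
      by_contra h0
      have : ‖x‖ = 0 := le_antisymm (not_lt.mp h0) (norm_nonneg _)
      rw [this, inv_zero] at hxinv
      linarith
    have hxlt : ‖x‖ < 1 := by
      have := (one_lt_inv₀ hx0).mp hxinv
      exact this
    have hle : ‖x‖ ≤ (p : ℝ) ^ (-1 : ℤ) := by
      rw [Padic.norm_le_pow_iff_norm_lt_pow_add_one]
      simpa using hxlt
    rw [norm_mul, norm_inv, Padic.norm_p, inv_inv]
    rw [zpow_neg, zpow_one] at hle
    calc ‖x‖ * (p : ℝ) ≤ (p : ℝ)⁻¹ * p := mul_le_mul_of_nonneg_right hle hp0.le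
      _ = 1 := inv_mul_cancel₀ hp0.ne'

section F

variable (F : IntermediateField ℚ_[p] (Kbar p)) [FiniteDimensional ℚ_[p] F]

/-- `‖x‖ = ‖π‖ ^ ord x` for a uniformizer `π` of `F`. -/
theorem norm_eq_zpow_ord (π : (↥F)ˣ) (hπ : IsUniformizer p F (π : F)) (u : (↥F)ˣ) :
    ‖((u : F) : Kbar p)‖ = ‖((π : F) : Kbar p)‖ ^ (ord p F u) := by
  have hπ0 : ((π : F) : Kbar p) ≠ 0 := by
    intro h
    exact π.ne_zero (by exact_mod_cast h)
  have hpos : 0 < ‖((π : F) : Kbar p)‖ := norm_pos_iff.mpr hπ0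
  have h1 := LD69.norm_eq_one_of_mem_unitGroup p F _ (mul_zpow_neg_ord_mem_unitGroup p F π hπ u)
  rw [Units.val_mul, Units.val_zpow_eq_zpow_val, IntermediateField.coe_mul] at h1
  have h2 : (((π : F) ^ (-(ord p F u)) : F) : Kbar p) = ((π : F) : Kbar p) ^ (-(ord p F u)) :=
    map_zpow₀ (algebraMap F (Kbar p)) _ _
  rw [h2, norm_mul, norm_zpow, zpow_neg] at h1
  have hne : ‖((π : F) : Kbar p)‖ ^ (ord p F u) ≠ 0 := zpow_ne_zero _ hpos.ne'
  field_simp at h1
  exact h1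

theorem norm_uniformizer_lt_one (π : (↥F)ˣ) (hπ : IsUniformizer p F (π : F)) :
    ‖((π : F) : Kbar p)‖ < 1 := by
  have h1 : ¬ ‖(((π : F)⁻¹ : F) : Kbar p)‖ ≤ 1 := fun h =>
    hπ.2.2.1 ((LD69.mem_intRing_iff_norm p F _).mpr h)
  rw [IntermediateField.coe_inv, norm_inv, not_le] at h1
  by_contra hcon
  have := inv_le_one_of_one_le₀ (not_lt.mp hcon)
  exact absurd h1 (not_lt.mpr this)

/-- `‖p‖ = ‖π‖ ^ e(F/ℚ_p)`. -/
theorem norm_p_eq_pow_ramIdx (π : (↥F)ˣ) (hπ : IsUniformizer p F (π : F)) :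
    ‖(p : Kbar p)‖ = ‖((π : F) : Kbar p)‖ ^ (ramIdx p ℚ_[p] F) := by
  have hp : p.Prime := Fact.out
  have h0 : (p : ℚ_[p]) ≠ 0 := Nat.cast_ne_zero.mpr hp.ne_zero
  have h1 := ord_algebraMap p ℚ_[p] F (Units.mk0 (p : ℚ_[p]) h0)
  have h2 : ord p ℚ_[p] (Units.mk0 (p : ℚ_[p]) h0) = 1 :=
    (isUniformizer_iff_ord p ℚ_[p] _).mp (isUniformizer_p p)
  rw [h2, mul_one] at h1
  have h3 := norm_eq_zpow_ord p F π hπ
    (Units.map (algebraMap ℚ_[p] F : ℚ_[p] →* F) (Units.mk0 (p : ℚ_[p]) h0))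
  rw [h1, zpow_natCast] at h3
  rw [← h3]
  congr 1

/-- The ramification index of `PT/LOC` is the `e` of any level datum. -/
theorem ramIdx_eq (D : LevelData F) : ramIdx p ℚ_[p] F = D.e := by
  obtain ⟨π, hπ⟩ := exists_isUniformizer p F
  set a : ℝ := ‖((π : F) : Kbar p)‖ with ha
  have hπ0 : ((π : F) : Kbar p) ≠ 0 := by
    intro h
    exact π.ne_zero (by exact_mod_cast h)
  have ha0 : 0 < a := norm_pos_iff.mpr hπ0
  have ha1 : a < 1 := norm_uniformizer_lt_one p F π hπ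
  -- `‖D.π‖ = a ^ b`
  have hD0 : (⟨D.π, D.hπF⟩ : F) ≠ 0 := fun h => D.π_ne_zero (congrArg Subtype.val h)
  have hb := norm_eq_zpow_ord p F π hπ (Units.mk0 ⟨D.π, D.hπF⟩ hD0)
  set b : ℤ := ord p F (Units.mk0 ⟨D.π, D.hπF⟩ hD0) with hbdef
  have hb' : ‖D.π‖ = a ^ b := hb
  have hbpos : 0 < b := LD69.zpow_pos_of_lt_one ha0 ha1 (hb' ▸ D.hπlt)
  -- `a = ‖D.π‖ ^ c`
  obtain ⟨c, hc⟩ := D.val _ (π : F).2 hπ0
  have hc' : a = ‖D.π‖ ^ c := hc
  have hcpos : 0 < c := LD69.zpow_pos_of_lt_one D.hπpos D.hπlt (hc' ▸ ha1)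
  have hbc : b * c = 1 := by
    have h1 : a ^ (1 : ℤ) = a ^ (b * c) := by
      rw [zpow_one, zpow_mul, ← hb', ← hc']
    exact (zpow_right_injective₀ ha0 ha1.ne h1).symm
  have hb1 : b = 1 := by
    have := Int.eq_one_of_mul_eq_one_right hbpos.le hbc
    exact this
  have hDa : ‖D.π‖ = a := by rw [hb', hb1, zpow_one]
  have h1 := norm_p_eq_pow_ramIdx p F π hπ
  rw [D.he, hDa] at h1
  exact (pow_right_injective₀ ha0 ha1.ne h1).symm

variable [IsGalois ℚ_[p] F]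

/-- The finite-level inertia group is the set of restrictions acting trivially on the residue field. -/
theorem mem_inertia_iff (g : Gp p) :
    res p F g ∈ (IsLocalRing.maximalIdeal (intRing p F)).inertia (F ≃ₐ[ℚ_[p]] F) ↔
      IsInertialOn p F g := by
  constructor
  · intro h x hx hx1
    have hxi : (⟨x, hx⟩ : F) ∈ intRing p F := (LG1.Bridge.mem_intRing_iff_norm p F _).2 hx1
    have h1 : (res p F g) • (⟨⟨x, hx⟩, hxi⟩ : intRing p F) - ⟨⟨x, hx⟩, hxi⟩ ∈ mI p F := h _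
    have h2 := (mem_mI_iff_norm p F _).1 h1
    have h3 : ((((res p F g) • (⟨⟨x, hx⟩, hxi⟩ : intRing p F) - ⟨⟨x, hx⟩, hxi⟩ : intRing p F) : F)
        : Kbar p) = g x - x := by
      rw [Subalgebra.coe_sub, coe_smul_intRing]
      push_cast
      rw [res_apply]
    rw [h3] at h2
    exact h2
  · intro h x
    show (res p F g) • x - x ∈ mI p F
    rw [mem_mI_iff_norm]
    have hx1 : ‖((x : F) : Kbar p)‖ ≤ 1 := (LG1.Bridge.mem_intRing_iff_norm p F _).1 x.2
    have h3 : ((((res p F g) • x - x : intRing p F) : F) : Kbar p)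
        = g ((x : F) : Kbar p) - ((x : F) : Kbar p) := by
      rw [Subalgebra.coe_sub, coe_smul_intRing]
      push_cast
      rw [res_apply]
    rw [h3]
    exact h _ (x : F).2 hx1

end F

/-- **(LD5)** from `InertiaSurjective`. -/
theorem ramIdxEqCard (hU5 : IfaceLG.InertiaSurjective p) : IfaceCT.RamIdxEqCard p := by
  classical
  intro F D hfin hnorm
  have _ := hfin
  have hN : Normal ℚ_[p] F := normal_of_isNormalField p hnorm
  have hG : IsGalois ℚ_[p] F := isGalois_of_isNormalField p hnorm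
  have hcard : Nat.card ((IsLocalRing.maximalIdeal (intRing p F)).inertia (F ≃ₐ[ℚ_[p]] F)) =
      ramIdx p ℚ_[p] F := Fermat.Agent.PT.LOC.Frob27.card_inertia p ℚ_[p] F
  have hfinG : Finite (F ≃ₐ[ℚ_[p]] F) := Fermat.Agent.PT.LOC.Frob27.finite_gal p ℚ_[p] F
  have : Fintype ((IsLocalRing.maximalIdeal (intRing p F)).inertia (F ≃ₐ[ℚ_[p]] F)) :=
    Fintype.ofFinite _
  have hiff := mem_inertia_iff p F
  have hlift : ∀ σ : (IsLocalRing.maximalIdeal (intRing p F)).inertia (F ≃ₐ[ℚ_[p]] F),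
      ∃ τ : Gp p, IsInertial p τ ∧ res p F τ = σ := by
    intro σ
    obtain ⟨g, hg⟩ := res_surjective p F (σ : F ≃ₐ[ℚ_[p]] F)
    have hgI : IsInertialOn p F g := (hiff g).mp (hg ▸ σ.2)
    obtain ⟨τ, hτ, hτg⟩ := hU5 F hfin hnorm g hgI
    refine ⟨τ, hτ, ?_⟩
    rw [← hg]
    apply AlgEquiv.ext
    intro x
    apply Subtype.ext
    rw [res_apply, res_apply, hτg x x.2]
  choose t ht1 ht2 using hlift
  have htinj : Function.Injective t := fun σ σ' h =>
    Subtype.ext (by rw [← ht2 σ, ← ht2 σ', h])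
  refine ⟨Finset.univ.image t, ?_, ?_, ?_, ?_⟩
  · rw [Finset.card_image_of_injective _ htinj, Finset.card_univ, ← Nat.card_eq_fintype_card, hcard]
    exact ramIdx_eq p F D
  · intro τ hτ
    obtain ⟨σ, -, rfl⟩ := Finset.mem_image.mp hτ
    exact ht1 σ
  · intro τ hτ
    have hmem : res p F τ ∈ (IsLocalRing.maximalIdeal (intRing p F)).inertia (F ≃ₐ[ℚ_[p]] F) :=
      (hiff τ).mpr (IsInertial.isInertialOn p hτ F)
    refine ⟨t ⟨_, hmem⟩, Finset.mem_image_of_mem _ (Finset.mem_univ _), fun x hx => ?_⟩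
    have h1 : res p F (t ⟨_, hmem⟩) = res p F τ := ht2 ⟨_, hmem⟩
    have h2 := congrArg (fun f : F ≃ₐ[ℚ_[p]] F => ((f ⟨x, hx⟩ : F) : Kbar p)) h1
    simp only [res_apply] at h2
    exact h2.symm
  · intro σ hσ σ' hσ' hagree
    obtain ⟨a, -, rfl⟩ := Finset.mem_image.mp hσ
    obtain ⟨b, -, rfl⟩ := Finset.mem_image.mp hσ'
    have hab : a = b := by
      apply Subtype.ext
      rw [← ht2 a, ← ht2 b]
      apply AlgEquiv.ext
      intro x
      apply Subtype.ext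
      rw [res_apply, res_apply]
      exact hagree x x.2
    rw [hab]

end Fermat.Agent.TW.B5.LD69c
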