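/-
Programme TW (S56), brick B5-LD (helper65), part LD6: the maximal unramified subextension.

* `isNormalField_adjoin_root`     : `ℚ_p(ζ)` is normal for a root of unity `ζ`;
* `isUnramifiedField_adjoin_root` : `ℚ_p(ζ)` is unramified for `ζ` of order prime to `p`;
* `existsUnramSub : ExistsUnramSub p`  (LD6).
-/
import Mathlib
import Fermat.Agent.TW.B5.IfaceCT2
import Fermat.Agent.TW.B5.LG1.Teich
import Fermat.Agent.TW.B5.LD69c

set_option autoImplicit false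
set_option linter.unusedSectionVars false

namespace Fermat.Agent.TW.B5.LD65u

open Fermat.Agent.TW.B5.Iface Fermat.Agent.TW.B5.IfaceLG Fermat.Agent.TW.B5.IfaceCT
  Fermat.Agent.TW.B5.LG1.Bridge
open scoped Fermat.Agent.PT.LOC.Interface12
open Fermat.Agent.PT.LOC.Interface12 Fermat.Agent.PT.LOC.Structure14
  Fermat.Agent.PT.LOC.StructureNorm14 Fermat.Agent.PT.LOC.Unram11
open IntermediateField

noncomputable section

variable (p : ℕ) [Fact p.Prime]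

/-- `ℚ_p(ζ)` is normal for a root of unity `ζ`. -/
theorem isNormalField_adjoin_root {ζ : Kbar p} {m : ℕ} (hm : 0 < m) (hζ : IsPrimitiveRoot ζ m) :
    IsNormalField p ℚ_[p]⟮ζ⟯ := by
  intro τ x hx
  have : NeZero m := ⟨hm.ne'⟩
  have hτζ : (τ ζ) ^ m = 1 := by rw [← map_pow, hζ.pow_eq_one, map_one]
  obtain ⟨i, -, hi⟩ := hζ.eq_pow_of_pow_eq_one hτζ
  have h1 : τ x ∈ (ℚ_[p]⟮ζ⟯).map (τ : Kbar p →ₐ[ℚ_[p]] Kbar p) :=
    (IntermediateField.mem_map _).2 ⟨x, hx, rfl⟩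
  rw [IntermediateField.adjoin_map, Set.image_singleton] at h1
  have h2 : IntermediateField.adjoin ℚ_[p] {(τ : Kbar p →ₐ[ℚ_[p]] Kbar p) ζ} ≤ ℚ_[p]⟮ζ⟯ := by
    rw [IntermediateField.adjoin_simple_le_iff]
    show τ ζ ∈ ℚ_[p]⟮ζ⟯
    rw [← hi]
    exact pow_mem (IntermediateField.mem_adjoin_simple_self ℚ_[p] ζ) i
  exact h2 h1

theorem finiteDimensional_adjoin_root (ζ : Kbar p) : FiniteDimensional ℚ_[p] ℚ_[p]⟮ζ⟯ :=
  IntermediateField.adjoin.finiteDimensional (Algebra.IsIntegral.isIntegral ζ)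

/-- `ℚ_p(ζ)` is unramified for a root of unity `ζ` of order prime to `p`. -/
theorem isUnramifiedField_adjoin_root {ζ : Kbar p} {m : ℕ} (hpm : ¬ p ∣ m)
    (hζ : IsPrimitiveRoot ζ m) : IsUnramifiedField p ℚ_[p]⟮ζ⟯ := by
  have hm : 0 < m := Nat.pos_of_ne_zero (by rintro rfl; exact hpm (dvd_zero p))
  have hfin : FiniteDimensional ℚ_[p] ℚ_[p]⟮ζ⟯ := finiteDimensional_adjoin_root p ζ
  have hgal : IsGalois ℚ_[p] ℚ_[p]⟮ζ⟯ :=
    isGalois_of_isNormalField p (isNormalField_adjoin_root p hm hζ)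
  -- the generator
  set gen : ℚ_[p]⟮ζ⟯ := ⟨ζ, IntermediateField.mem_adjoin_simple_self ℚ_[p] ζ⟩ with hgen
  have hgenm : gen ^ m = 1 := by
    apply Subtype.ext
    show ζ ^ m = 1
    exact hζ.pow_eq_one
  -- the reduction map is injective
  have hinj : Function.Injective (redHom p ℚ_[p] ℚ_[p]⟮ζ⟯) := by
    rw [injective_iff_map_eq_one]
    intro σ hσ
    have h1 : σ gen = gen := apply_eq_of_redHom_eq_one p ℚ_[p] ℚ_[p]⟮ζ⟯ hpm σ hσ hgenm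
    have h2 : (σ : ℚ_[p]⟮ζ⟯ →ₐ[ℚ_[p]] ℚ_[p]⟮ζ⟯) = AlgHom.id ℚ_[p] ℚ_[p]⟮ζ⟯ := by
      apply IntermediateField.adjoin_algHom_ext
      intro x hx
      rw [Set.mem_singleton_iff] at hx
      subst hx
      exact h1
    ext x
    exact congrArg Subtype.val (DFunLike.congr_fun h2 x)
  have hunr : IsUnramified p ℚ_[p] ℚ_[p]⟮ζ⟯ :=
    isUnramified_of_redHom_injective p ℚ_[p] ℚ_[p]⟮ζ⟯ hinj
  have hπ := hunr (p : ℚ_[p]) (LD69c.isUniformizer_p p)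
  have hπ0 : algebraMap ℚ_[p] ℚ_[p]⟮ζ⟯ (p : ℚ_[p]) ≠ 0 := hπ.2.1
  have hnormπ : ‖((algebraMap ℚ_[p] ℚ_[p]⟮ζ⟯ (p : ℚ_[p]) : ℚ_[p]⟮ζ⟯) : Kbar p)‖ = (p : ℝ)⁻¹ := by
    have : ((algebraMap ℚ_[p] ℚ_[p]⟮ζ⟯ (p : ℚ_[p]) : ℚ_[p]⟮ζ⟯) : Kbar p)
        = algebraMap ℚ_[p] (Kbar p) (p : ℚ_[p]) := rfl
    rw [this, PadicAlgCl.norm_extends, Padic.norm_p]
  intro x hx hx0
  have hx0' : (⟨x, hx⟩ : ℚ_[p]⟮ζ⟯) ≠ 0 := fun h => hx0 (congrArg Subtype.val h)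
  have h := LD69c.norm_eq_zpow_ord p ℚ_[p]⟮ζ⟯ (Units.mk0 _ hπ0) hπ (Units.mk0 _ hx0')
  rw [Units.val_mk0, Units.val_mk0, hnormπ] at h
  refine ⟨-(ord p ℚ_[p]⟮ζ⟯ (Units.mk0 _ hx0')), ?_⟩
  rw [zpow_neg, ← inv_zpow]
  exact h

/-- **(LD6)** every finite `F/ℚ_p` contains a finite unramified subfield with the same residue field. -/
theorem existsUnramSub : ExistsUnramSub p := by
  intro F hfin
  have : FiniteDimensional ℚ_[p] F := hfin
  obtain ⟨ζ, hζF, m, hpm, hζm, hres⟩ := LG1.Teich.exists_teichmuller p F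
  have hm : 0 < m := Nat.pos_of_ne_zero (by rintro rfl; exact hpm (dvd_zero p))
  have hord : orderOf ζ ∣ m := orderOf_dvd_of_pow_eq_one hζm
  have hpo : ¬ p ∣ orderOf ζ := fun h => hpm (h.trans hord)
  have hprim : IsPrimitiveRoot ζ (orderOf ζ) := IsPrimitiveRoot.orderOf ζ
  refine ⟨ℚ_[p]⟮ζ⟯, ?_, finiteDimensional_adjoin_root p ζ,
    isUnramifiedField_adjoin_root p hpo hprim, fun x hx hx1 => ?_⟩
  · rw [IntermediateField.adjoin_simple_le_iff]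
    exact hζF
  · rcases hres x hx hx1 with h | ⟨i, hi⟩
    · exact ⟨0, zero_mem _, by rwa [sub_zero]⟩
    · exact ⟨ζ ^ i, pow_mem (IntermediateField.mem_adjoin_simple_self ℚ_[p] ζ) i, hi⟩

end

end Fermat.Agent.TW.B5.LD65u
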