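/-
Programme TW (S56), brick B5-LD (helper65): UNCONDITIONAL assembly of the level-data facts of `IfaceCT`
on top of the local Galois toolkit `LG83X.toolkit`.

  wildPPowerOn, cycloNontrivial, hasLevelData, ramIdxEqCard, tameGenerator, cycloTheta, existsUnramSub
-/
import Fermat.Agent.TW.B5.LD65a
import Fermat.Agent.TW.B5.LD65b
import Fermat.Agent.TW.B5.LD65d
import Fermat.Agent.TW.B5.LD65u
import Fermat.Agent.TW.B5.LD69c
import Fermat.Agent.TW.B5.LG83X

set_option autoImplicit false

namespace Fermat.Agent.TW.B5.LDAll65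

open Fermat.Agent.TW.B5.Iface Fermat.Agent.TW.B5.IfaceLG Fermat.Agent.TW.B5.IfaceCT

variable (p : ℕ) [Fact p.Prime]

/-- the local Galois toolkit. -/
theorem toolkit : Toolkit p := LG83X.toolkit p

theorem wildPPowerOn : WildPPowerOn p := LD65a.wildPPowerOn p

theorem cycloNontrivial : CycloNontrivial p := LD65a.cycloNontrivial p (toolkit p).inertiaFixedUnram

theorem hasLevelData : HasLevelData p := LD65b.hasLevelData p

theorem ramIdxEqCard : RamIdxEqCard p := LD69c.ramIdxEqCard p (toolkit p).inertiaSurjective

theorem tameGenerator : TameGenerator p := LD65d.tameGenerator p (ramIdxEqCard p)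

theorem cycloTheta : CycloTheta p := LD65a.cycloTheta p

theorem existsUnramSub : ExistsUnramSub p := LD65u.existsUnramSub p

end Fermat.Agent.TW.B5.LDAll65
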