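/-
Programme TW (S56), brick B5-K (Kummer levels), two leaves for helper8's `KummerLevelGen` (helper83),
in the `K̄`-model, robust to the `Algebra ↥X ↥Y` instance:

* `isGalois_of_isNormalOver` : `Iface.IsNormalOver p X Y` (plus `X ≤ Y`, encoded by `hcoe`) gives
  `IsGalois ↥X ↥Y`;
* `eAbs_eq_one_of_isUnramifiedField` : value group `p^ℤ` ⇒ `Ram8.Val.eAbs p ↥X = 1`.
-/
import Mathlib
import Fermat.Agent.TW.B5.Iface
import Fermat.Agent.TW.B5.LG83B
import Fermat.Agent.TW.Ram8.Val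

set_option autoImplicit false
set_option linter.style.haveILetI false
set_option linter.unusedSectionVars false

open scoped Fermat.Agent.PT.LOC.Interface12
open Fermat.Agent.PT.LOC.Interface12 Fermat.Agent.PT.LOC.Structure14
  Fermat.Agent.PT.LOC.StructureNorm14
open Fermat.Agent.TW.B5.Iface Fermat.Agent.TW.Ram8.Val

namespace Fermat.Agent.TW.B5.LG83R

noncomputable section

variable (p : ℕ) [Fact p.Prime] (X Y : IntermediateField ℚ_[p] (Kbar p))

/-- An algebra structure `↥X → ↥Y` compatible with the inclusions into `K̄` forces `X ≤ Y`. -/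
theorem le_of_hcoe [Algebra ↥X ↥Y]
    (hcoe : ∀ x : X, ((algebraMap ↥X ↥Y x : Y) : Kbar p) = (x : Kbar p)) : X ≤ Y := by
  intro x hx
  have := (algebraMap ↥X ↥Y ⟨x, hx⟩).2
  rw [hcoe] at this
  exact this

/-- `Y/X` is normal as soon as `Y` is stable under the automorphisms of `K̄` fixing `X`. -/
theorem normal_of_isNormalOver [Algebra ↥X ↥Y]
    (hcoe : ∀ x : X, ((algebraMap ↥X ↥Y x : Y) : Kbar p) = (x : Kbar p))
    (h : IsNormalOver p X Y) : Normal ↥X ↥Y := by
  have hXY : X ≤ Y := le_of_hcoe p X Y hcoe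
  haveI : Normal ↥X ↥(IntermediateField.extendScalars hXY) := by
    rw [IntermediateField.normal_iff_forall_map_le']
    rintro σ _ ⟨y, hy, rfl⟩
    have hy' : y ∈ Y := (IntermediateField.mem_extendScalars hXY).1 hy
    have hfix : ∀ x ∈ X, (σ.restrictScalars ℚ_[p]) x = x := fun x hx => σ.commutes ⟨x, hx⟩
    exact (IntermediateField.mem_extendScalars hXY).2 (h (σ.restrictScalars ℚ_[p]) hfix y hy')
  let e : ↥(IntermediateField.extendScalars hXY) ≃ₐ[↥X] ↥Y :=
    { toFun := fun y => ⟨y.1, (IntermediateField.mem_extendScalars hXY).1 y.2⟩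
      invFun := fun y => ⟨y.1, (IntermediateField.mem_extendScalars hXY).2 y.2⟩
      left_inv := fun _ => rfl
      right_inv := fun _ => rfl
      map_mul' := fun _ _ => rfl
      map_add' := fun _ _ => rfl
      commutes' := fun x => Subtype.ext (hcoe x).symm }
  exact Normal.of_algEquiv e

/-- **Leaf (1).** -/
theorem isGalois_of_isNormalOver [FiniteDimensional ℚ_[p] X] [FiniteDimensional ℚ_[p] Y]
    [Algebra ↥X ↥Y] [IsScalarTower ℚ_[p] ↥X ↥Y]
    (hcoe : ∀ x : X, ((algebraMap ↥X ↥Y x : Y) : Kbar p) = (x : Kbar p))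
    (h : IsNormalOver p X Y) : IsGalois ↥X ↥Y := by
  haveI : FiniteDimensional ↥X ↥Y := Module.Finite.of_restrictScalars_finite ℚ_[p] ↥X ↥Y
  haveI := normal_of_isNormalOver p X Y hcoe h
  exact ⟨⟩

/-- **Leaf (2).** A field with value group `p^ℤ` has absolute ramification index `1`. -/
theorem eAbs_eq_one_of_isUnramifiedField [FiniteDimensional ℚ_[p] X]
    (h : IsUnramifiedField p X) : eAbs p ↥X = 1 := by
  obtain ⟨π, hπ⟩ := exists_isUniformizer p ↥X
  have hπ0 : ((π : ↥X) : Kbar p) ≠ 0 := fun h0 => π.ne_zero (Subtype.ext h0)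
  obtain ⟨n, hn⟩ := h ((π : ↥X) : Kbar p) (π : ↥X).2 hπ0
  have h1 := val_uniformizer p ↥X hπ
  have hp1 : (1 : ℝ) < p := one_lt_p p
  have h2 : val p ↥X (π : ↥X) = -(n : ℝ) := by
    rw [val, Fermat.Agent.TW.B5.LG83B.snorm_eq_norm, hn, ← Real.rpow_intCast,
      Real.logb_rpow (p_pos p) hp1.ne']
  rw [h2] at h1
  have hpos : (0 : ℝ) < eAbs p ↥X := by exact_mod_cast eAbs_pos p ↥X
  have h3 : ((eAbs p ↥X : ℤ) : ℝ) * ((-n : ℤ) : ℝ) = 1 := by
    push_cast
    rw [h1]
    field_simp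
  have h4 : (eAbs p ↥X : ℤ) * (-n) = 1 := by exact_mod_cast h3
  have h5 : (eAbs p ↥X : ℤ) = 1 :=
    Int.eq_one_of_mul_eq_one_right (Int.natCast_nonneg _) h4
  exact_mod_cast h5

end

end Fermat.Agent.TW.B5.LG83R
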