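/-
Programme TW (S56), brick B5-CT (the count), leaf CT-1, part 1 (helper63).  Mathlib only.

Descent of linear independence for semilinear maps, and the resulting counts.

* `fixedField τ`   : common fixed field of a family `τ j : κ →+* κ`.
* `linearIndependent_of_fixed` : vectors fixed by `τ j`-semilinear additive maps `T j` which are
  linearly independent over `fixedField τ` are linearly independent over `κ`.
* `fixedSpace`, `finrank_fixedSpace_le`, `finrank_fixedSpace_inf_le` :
  `dim_{κ^J} (W^J ∩ W') ≤ dim_κ W'` for a finite-dimensional `κ`-subspace `W'`.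
* `linearIndependent_of_invariant` : the group-action form (`FixedPoints.subfield G κ`).
* `card_fixedField_iterateFrobenius_le` : the fixed field of `c ↦ c ^ (p ^ f)` has `≤ p ^ f` elements.
* `card_fixed_le_of_frobenius_semilinear` : `φ (c • w) = c ^ (p ^ f) • φ w` ⇒ at most
  `(p ^ f) ^ dim_κ W` fixed vectors (Lang).
* `card_fixed_mem_le` : **(b′)** `Φ` `p`-semilinear on `Wt`, `W' ≤ Wt` finite-dimensional (not nec.
  stable): at most `p ^ dim_κ W'` fixed vectors of `Φ` in `W'`.
-/
import Mathlib

set_option autoImplicit false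
set_option linter.style.haveILetI false

namespace Fermat.Agent.TW.B5.CT1Semilinear63

section Family

variable {κ W : Type*} [Field κ] [AddCommGroup W] [Module κ W]
variable {J : Type*} (τ : J → κ →+* κ) (T : J → W →+ W)

/-- The common fixed field of a family of endomorphisms of a field. -/
def fixedField : Subfield κ := ⨅ j, (τ j).eqLocusField (RingHom.id κ)

theorem mem_fixedField {c : κ} : c ∈ fixedField τ ↔ ∀ j, τ j c = c := by
  simp [fixedField, Subfield.mem_iInf, RingHom.eqLocusField]

/-- **Descent of linear independence.**  Vectors fixed by a family of semilinear maps which are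
linearly independent over the common fixed field are linearly independent over the big field. -/
theorem linearIndependent_of_fixed
    (hsemi : ∀ (j : J) (c : κ) (w : W), T j (c • w) = τ j c • T j w)
    {ι : Type*} (w : ι → W) (hinv : ∀ j i, T j (w i) = w i)
    (hli : LinearIndependent (fixedField τ) w) : LinearIndependent κ w := by
  classical
  rw [linearIndependent_iff']
  -- strong induction on the size of the support
  suffices H : ∀ (n : ℕ) (s : Finset ι), s.card = n → ∀ g : ι → κ,
      ∑ i ∈ s, g i • w i = 0 → ∀ i ∈ s, g i = 0 from fun s g hg i hi => H s.card s rfl g hg i hi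
  intro n
  induction n using Nat.strong_induction_on with
  | _ n ih =>
    intro s hs g hg
    by_contra hne
    push Not at hne
    obtain ⟨j, hjs, hj⟩ := hne
    -- normalise
    set g' : ι → κ := fun i => g i / g j with hg'
    have hg'j : g' j = 1 := div_self hj
    have hrel : ∑ i ∈ s, g' i • w i = 0 := by
      have : ∑ i ∈ s, g' i • w i = (g j)⁻¹ • ∑ i ∈ s, g i • w i := by
        rw [Finset.smul_sum]
        refine Finset.sum_congr rfl fun i _ => ?_
        rw [smul_smul]
        show (g i / g j) • w i = _
        rw [div_eq_inv_mul]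
      rw [this, hg, smul_zero]
    -- all coefficients are invariant
    have hfix : ∀ σ : J, ∀ i ∈ s, τ σ (g' i) = g' i := by
      intro σ
      have h1 : ∑ i ∈ s, (τ σ (g' i)) • w i = 0 := by
        have := congrArg (T σ) hrel
        rw [map_sum, map_zero] at this
        rw [← this]
        refine Finset.sum_congr rfl fun i _ => ?_
        rw [hsemi, hinv]
      have h2 : ∑ i ∈ s.erase j, (τ σ (g' i) - g' i) • w i = 0 := by
        have h3 : ∑ i ∈ s, (τ σ (g' i) - g' i) • w i = 0 := by
          simp only [sub_smul, Finset.sum_sub_distrib, h1, hrel, sub_zero]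
        rw [← Finset.add_sum_erase s _ hjs, hg'j, map_one, sub_self, zero_smul, zero_add] at h3
        exact h3
      have hcard : (s.erase j).card < n := by
        rw [Finset.card_erase_of_mem hjs, hs]
        exact Nat.sub_lt (hs ▸ Finset.card_pos.mpr ⟨j, hjs⟩) one_pos
      have h4 := ih _ hcard (s.erase j) rfl _ h2
      intro i hi
      by_cases hij : i = j
      · rw [hij, hg'j, map_one]
      · exact sub_eq_zero.mp (h4 i (Finset.mem_erase.mpr ⟨hij, hi⟩))
    -- hence a relation over the fixed field
    let c : ι → fixedField τ := fun i =>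
      if hi : i ∈ s then ⟨g' i, (mem_fixedField τ).mpr fun σ => hfix σ i hi⟩ else 0
    have hc : ∑ i ∈ s, c i • w i = 0 := by
      rw [← hrel]
      refine Finset.sum_congr rfl fun i hi => ?_
      simp only [c, dif_pos hi]
      rfl
    have h5 := (linearIndependent_iff'.mp hli) s c hc j hjs
    simp only [c, dif_pos hjs] at h5
    have h6 : g' j = 0 := congrArg Subtype.val h5
    rw [hg'j] at h6
    exact one_ne_zero h6

/-- The vectors fixed by all the semilinear maps, a subspace over the fixed field. -/
def fixedSpace (hsemi : ∀ (j : J) (c : κ) (w : W), T j (c • w) = τ j c • T j w) :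
    Submodule (fixedField τ) W where
  carrier := {w | ∀ j, T j w = w}
  add_mem' := fun {a b} ha hb j => by rw [map_add, ha j, hb j]
  zero_mem' := fun j => map_zero _
  smul_mem' := fun c {w} hw j => by
    show T j ((c : κ) • w) = (c : κ) • w
    rw [hsemi, hw j, (mem_fixedField τ).mp c.2 j]

theorem mem_fixedSpace (hsemi : ∀ (j : J) (c : κ) (w : W), T j (c • w) = τ j c • T j w) {w : W} :
    w ∈ fixedSpace τ T hsemi ↔ ∀ j, T j w = w := Iff.rfl

/-- **Semilinear count.**  `dim_{κ^J} W^J ≤ dim_κ W`. -/
theorem finrank_fixedSpace_le [FiniteDimensional κ W]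
    (hsemi : ∀ (j : J) (c : κ) (w : W), T j (c • w) = τ j c • T j w) :
    Module.Finite (fixedField τ) (fixedSpace τ T hsemi) ∧
      Module.finrank (fixedField τ) (fixedSpace τ T hsemi) ≤ Module.finrank κ W := by
  have hr : Module.rank (fixedField τ) (fixedSpace τ T hsemi) ≤ (Module.finrank κ W : Cardinal) := by
    refine rank_le fun s hs => ?_
    have h1 : LinearIndependent (fixedField τ) (fun i : s => ((i : fixedSpace τ T hsemi) : W)) :=
      hs.map' (fixedSpace τ T hsemi).subtype (Submodule.ker_subtype _)
    have h2 := linearIndependent_of_fixed τ T hsemi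
      (fun i : s => ((i : fixedSpace τ T hsemi) : W))
      (fun j i => (i : fixedSpace τ T hsemi).2 j) h1
    have := h2.fintype_card_le_finrank
    simpa using this
  have hfin : Module.Finite (fixedField τ) (fixedSpace τ T hsemi) :=
    Module.rank_lt_aleph0_iff.mp (hr.trans_lt Cardinal.natCast_lt_aleph0)
  exact ⟨hfin, Module.finrank_le_of_rank_le hr⟩

/-- **Semilinear count, submodule version.**  For a finite-dimensional `κ`-subspace `W'` (not
necessarily stable under the semilinear maps) `dim_{κ^J} (W^J ∩ W') ≤ dim_κ W'`. -/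
theorem finrank_fixedSpace_inf_le
    (hsemi : ∀ (j : J) (c : κ) (w : W), T j (c • w) = τ j c • T j w)
    (W' : Submodule κ W) [FiniteDimensional κ W'] :
    Module.Finite (fixedField τ)
        ↥(fixedSpace τ T hsemi ⊓ W'.restrictScalars (fixedField τ)) ∧
      Module.finrank (fixedField τ)
        ↥(fixedSpace τ T hsemi ⊓ W'.restrictScalars (fixedField τ)) ≤ Module.finrank κ W' := by
  set S := fixedSpace τ T hsemi ⊓ W'.restrictScalars (fixedField τ) with hS
  have hr : Module.rank (fixedField τ) S ≤ (Module.finrank κ W' : Cardinal) := by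
    refine rank_le fun s hs => ?_
    have h1 : LinearIndependent (fixedField τ) (fun i : s => ((i : S) : W)) :=
      hs.map' S.subtype (Submodule.ker_subtype _)
    have h2 : LinearIndependent κ (fun i : s => ((i : S) : W)) :=
      linearIndependent_of_fixed τ T hsemi (fun i : s => ((i : S) : W))
        (fun j i => (i : S).2.1 j) h1
    have h3 : LinearIndependent κ (fun i : s => (⟨((i : S) : W), (i : S).2.2⟩ : W')) := by
      refine LinearIndependent.of_comp W'.subtype ?_
      exact h2
    have := h3.fintype_card_le_finrank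
    simpa using this
  haveI : Module.Free (fixedField τ) S := Module.Free.of_divisionRing _ _
  have hfin : Module.Finite (fixedField τ) S :=
    Module.rank_lt_aleph0_iff.mp (hr.trans_lt Cardinal.natCast_lt_aleph0)
  exact ⟨hfin, Module.finrank_le_of_rank_le hr⟩

end Family

section GroupForm

variable {G κ W : Type*} [Group G] [Field κ] [MulSemiringAction G κ] [AddCommGroup W] [Module κ W]

theorem fixedField_toRingHom :
    fixedField (fun g : G => MulSemiringAction.toRingHom G κ g) = FixedPoints.subfield G κ := by
  ext c
  rw [mem_fixedField]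
  rfl

/-- Group form of the descent of linear independence. -/
theorem linearIndependent_of_invariant (act : G → W →+ W)
    (hsemi : ∀ (g : G) (c : κ) (w : W), act g (c • w) = (g • c) • act g w)
    {ι : Type*} (w : ι → W) (hinv : ∀ g i, act g (w i) = w i)
    (hli : LinearIndependent (FixedPoints.subfield G κ) w) : LinearIndependent κ w := by
  refine linearIndependent_of_fixed (fun g : G => MulSemiringAction.toRingHom G κ g) act hsemi w
    hinv ?_
  have hset : ∀ c : κ, c ∈ fixedField (fun g : G => MulSemiringAction.toRingHom G κ g) ↔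
      c ∈ FixedPoints.subfield G κ := fun c => by rw [fixedField_toRingHom]
  rw [linearIndependent_iff'] at hli ⊢
  intro s g hg i hi
  have := hli s (fun i => ⟨(g i : κ), (hset _).mp (g i).2⟩) hg i hi
  have h := congrArg Subtype.val this
  exact Subtype.ext h

end GroupForm

section Frobenius

variable {κ W : Type*} [Field κ] [AddCommGroup W] [Module κ W]
variable (p : ℕ) [Fact p.Prime] [CharP κ p] (f : ℕ)

/-- The fixed field of `c ↦ c ^ (p ^ f)` has at most `p ^ f` elements (`f ≠ 0`). -/
theorem card_fixedField_iterateFrobenius_le (hf : f ≠ 0) :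
    Finite (fixedField (fun _ : Unit => iterateFrobenius κ p f)) ∧
      Nat.card (fixedField (fun _ : Unit => iterateFrobenius κ p f)) ≤ p ^ f := by
  classical
  have hq : 1 < p ^ f := Nat.one_lt_pow hf (Fact.out : p.Prime).one_lt
  have hP : (Polynomial.X ^ p ^ f - Polynomial.X : Polynomial κ) ≠ 0 :=
    FiniteField.X_pow_card_sub_X_ne_zero κ hq
  have hinj : Function.Injective (fun c : fixedField (fun _ : Unit => iterateFrobenius κ p f) =>
      (⟨(c : κ), by
        rw [Multiset.mem_toFinset, Polynomial.mem_roots hP, Polynomial.IsRoot.def,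
          Polynomial.eval_sub, Polynomial.eval_pow, Polynomial.eval_X, sub_eq_zero]
        have := (mem_fixedField _).mp c.2 ()
        rwa [iterateFrobenius_def] at this⟩ :
        ((Polynomial.X ^ p ^ f - Polynomial.X : Polynomial κ).roots.toFinset))) := by
    intro a b h
    simp only [Subtype.mk.injEq] at h
    exact Subtype.ext h
  have hfin : Finite (fixedField (fun _ : Unit => iterateFrobenius κ p f)) :=
    Finite.of_injective _ hinj
  refine ⟨hfin, ?_⟩
  have h1 := Nat.card_le_card_of_injective _ hinj
  refine h1.trans ?_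
  rw [Nat.card_eq_fintype_card, Fintype.card_coe]
  refine (Multiset.toFinset_card_le _).trans ?_
  refine (Polynomial.card_roots' _).trans ?_
  rw [FiniteField.X_pow_card_sub_X_natDegree_eq κ hq]

/-- **Frobenius-semilinear count (Lang).**  If `φ (c • w) = c ^ (p ^ f) • φ w` then `φ` has at most
`(p ^ f) ^ dim_κ W` fixed vectors. -/
theorem card_fixed_le_of_frobenius_semilinear [FiniteDimensional κ W] (hf : f ≠ 0) (φ : W →+ W)
    (hφ : ∀ (c : κ) (w : W), φ (c • w) = c ^ p ^ f • φ w) :
    Finite {w : W // φ w = w} ∧ Nat.card {w : W // φ w = w} ≤ (p ^ f) ^ Module.finrank κ W := by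
  have hsemi : ∀ (j : Unit) (c : κ) (w : W),
      (fun _ : Unit => φ) j (c • w) = (fun _ : Unit => iterateFrobenius κ p f) j c •
        (fun _ : Unit => φ) j w := fun _ c w => by
    simp only [iterateFrobenius_def]; exact hφ c w
  obtain ⟨hFfin, hFcard⟩ := card_fixedField_iterateFrobenius_le (κ := κ) p f hf
  obtain ⟨hmf, hrank⟩ := finrank_fixedSpace_le (fun _ : Unit => iterateFrobenius κ p f)
    (fun _ : Unit => φ) hsemi
  have hcard : Nat.card (fixedSpace (fun _ : Unit => iterateFrobenius κ p f)
      (fun _ : Unit => φ) hsemi) =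
      Nat.card (fixedField (fun _ : Unit => iterateFrobenius κ p f)) ^
        Module.finrank (fixedField (fun _ : Unit => iterateFrobenius κ p f))
          (fixedSpace (fun _ : Unit => iterateFrobenius κ p f) (fun _ : Unit => φ) hsemi) :=
    @Module.natCard_eq_pow_finrank _ _ _ _ _ hmf
  let e : {w : W // φ w = w} ≃ fixedSpace (fun _ : Unit => iterateFrobenius κ p f)
      (fun _ : Unit => φ) hsemi :=
    { toFun := fun w => ⟨w.1, fun _ => w.2⟩
      invFun := fun w => ⟨w.1, w.2 ()⟩
      left_inv := fun _ => rfl
      right_inv := fun _ => rfl }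
  haveI : Finite (fixedSpace (fun _ : Unit => iterateFrobenius κ p f)
      (fun _ : Unit => φ) hsemi) := Module.finite_of_finite (fixedField
        (fun _ : Unit => iterateFrobenius κ p f))
  refine ⟨Finite.of_equiv _ e.symm, ?_⟩
  rw [Nat.card_congr e, hcard]
  calc _ ≤ (p ^ f) ^ Module.finrank (fixedField (fun _ : Unit => iterateFrobenius κ p f))
          (fixedSpace (fun _ : Unit => iterateFrobenius κ p f) (fun _ : Unit => φ) hsemi) :=
        Nat.pow_le_pow_left hFcard _
    _ ≤ (p ^ f) ^ Module.finrank κ W :=
        Nat.pow_le_pow_right (Nat.pos_of_ne_zero (pow_ne_zero f (Fact.out : p.Prime).ne_zero)) hrank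

/-- **(b′) Frobenius-semilinear count in a finite-dimensional subspace.**  `Φ` is `p`-semilinear on
the big space `Wt`; `W'` is a finite-dimensional `κ`-subspace (not necessarily `Φ`-stable).  Then
`Φ` has at most `p ^ dim_κ W'` fixed vectors inside `W'`. -/
theorem card_fixed_mem_le {Wt : Type*} [AddCommGroup Wt] [Module κ Wt] (W' : Submodule κ Wt)
    [FiniteDimensional κ W'] (Φ : Wt →+ Wt)
    (hΦ : ∀ (a : κ) (w : Wt), Φ (a • w) = a ^ p • Φ w) :
    Finite {w : Wt // w ∈ W' ∧ Φ w = w} ∧
      Nat.card {w : Wt // w ∈ W' ∧ Φ w = w} ≤ p ^ Module.finrank κ W' := by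
  have hsemi : ∀ (j : Unit) (c : κ) (w : Wt),
      (fun _ : Unit => Φ) j (c • w) = (fun _ : Unit => iterateFrobenius κ p 1) j c •
        (fun _ : Unit => Φ) j w := fun _ c w => by
    simp only [iterateFrobenius_def, pow_one]; exact hΦ c w
  obtain ⟨hFfin, hFcard⟩ := card_fixedField_iterateFrobenius_le (κ := κ) p 1 one_ne_zero
  rw [pow_one] at hFcard
  obtain ⟨hmf, hrank⟩ := finrank_fixedSpace_inf_le (fun _ : Unit => iterateFrobenius κ p 1)
    (fun _ : Unit => Φ) hsemi W'
  set F := fixedField (fun _ : Unit => iterateFrobenius κ p 1) with hF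
  set S := fixedSpace (fun _ : Unit => iterateFrobenius κ p 1) (fun _ : Unit => Φ) hsemi ⊓
    W'.restrictScalars F with hS
  have hcard : Nat.card S = Nat.card F ^ Module.finrank F S :=
    @Module.natCard_eq_pow_finrank _ _ _ _ _ hmf
  let e : {w : Wt // w ∈ W' ∧ Φ w = w} ≃ S :=
    { toFun := fun w => ⟨w.1, fun _ => w.2.2, w.2.1⟩
      invFun := fun w => ⟨w.1, w.2.2, w.2.1 ()⟩
      left_inv := fun _ => rfl
      right_inv := fun _ => rfl }
  haveI : Finite S := Module.finite_of_finite F
  refine ⟨Finite.of_equiv _ e.symm, ?_⟩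
  rw [Nat.card_congr e, hcard]
  calc _ ≤ p ^ Module.finrank F S := Nat.pow_le_pow_left hFcard _
    _ ≤ p ^ Module.finrank κ W' :=
        Nat.pow_le_pow_right (Fact.out : p.Prime).pos hrank

end Frobenius

end Fermat.Agent.TW.B5.CT1Semilinear63
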