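/-
Programme TW (S56), brick B5-CT (the count), leaf CT-1, part 2: the multiplicity count (helper63).
Mathlib only (+ `CT1Semilinear63`).

* `exists_intCast_of_pow_eq_self` : in characteristic `p`, `c ^ p = c` ⇒ `c` is an integer.
* `exists_int_poly_of_not_conj` : `k` finite field, `ι : k →+* κ`; if `t ≠ ι(u)^(p^r)` for all `r`
  there is `g ∈ ℤ[X]` with `g(u) = 0`, `g(t) ≠ 0` (the product of `X - u^(p^r)` has prime-field
  coefficients).
* `map_aeval_smul` : if `γ` multiplies the line `k • b` by `u` and `A ∘ γ = t • A` then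
  `A (g(u) x • b) = g(t) A (x • b)`.
* `closureField u` : `F_p[u]` as a subfield; `exists_basis_closureField`.
* `finrank_eigenSub_le` : `dim_κ {A : N → κ additive | A ∘ γ = t • A} ≤ ∑ j, m j`.
* `card_mult_le` : **(c)** the multiplicity count in the exact shape requested by helper47.
-/
import Mathlib
import Fermat.Agent.TW.B5.CT1Semilinear63

set_option autoImplicit false
set_option linter.style.haveILetI false
set_option linter.unusedSectionVars false

namespace Fermat.Agent.TW.B5.CT1Mult63

open Polynomial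

section PrimeField

variable {k : Type*} [Field k] (p : ℕ) [Fact p.Prime] [CharP k p]

/-- In characteristic `p`, the solutions of `c ^ p = c` are the integers. -/
theorem exists_intCast_of_pow_eq_self {c : k} (hc : c ^ p = c) : ∃ n : ℤ, (n : k) = c := by
  classical
  have hp1 : 1 < p := (Fact.out : p.Prime).one_lt
  have hP : (X ^ p - X : k[X]) ≠ 0 := FiniteField.X_pow_card_sub_X_ne_zero k hp1
  have hroot : ∀ a : k, a ^ p = a → a ∈ (X ^ p - X : k[X]).roots.toFinset := by
    intro a ha
    rw [Multiset.mem_toFinset, mem_roots hP, IsRoot.def, eval_sub, eval_pow, eval_X, ha, sub_self]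
  have hsub : (Finset.range p).image (fun i : ℕ => (i : k)) ⊆ (X ^ p - X : k[X]).roots.toFinset := by
    intro a ha
    obtain ⟨i, -, rfl⟩ := Finset.mem_image.mp ha
    apply hroot
    rw [← frobenius_def, map_natCast]
  have hcard : ((Finset.range p).image (fun i : ℕ => (i : k))).card = p := by
    rw [Finset.card_image_of_injOn, Finset.card_range]
    intro a ha b hb hab
    exact CharP.natCast_injOn_Iio k p (by simpa using ha) (by simpa using hb) hab
  have hle : (X ^ p - X : k[X]).roots.toFinset.card ≤ p := by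
    refine (Multiset.toFinset_card_le _).trans ((card_roots' _).trans ?_)
    rw [FiniteField.X_pow_card_sub_X_natDegree_eq k hp1]
  have heq := Finset.eq_of_subset_of_card_le hsub (hle.trans hcard.ge)
  have := hroot c hc
  rw [← heq] at this
  obtain ⟨i, -, rfl⟩ := Finset.mem_image.mp this
  exact ⟨(i : ℤ), by simp⟩

end PrimeField

section Key

variable {k κ : Type*} [Field k] [Field κ] (p : ℕ) [Fact p.Prime] [CharP k p] [Finite k]

/-- **Key lemma (conjugates over the prime field).**  If `t ∈ κ` is not of the form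
`ι (u) ^ (p ^ r)`, there is an integer polynomial killing `u` but not `t`. -/
theorem exists_int_poly_of_not_conj (ι : k →+* κ) (u : k) (t : κ)
    (ht : ∀ r : ℕ, ι u ^ p ^ r ≠ t) :
    ∃ g : ℤ[X], aeval u g = 0 ∧ aeval t g ≠ 0 := by
  classical
  haveI := Fintype.ofFinite k
  obtain ⟨f, -, hf⟩ := FiniteField.card k p
  set Q : k[X] := ∏ r ∈ Finset.range (f : ℕ), (X - C (u ^ p ^ r)) with hQ
  -- `Q` is invariant under Frobenius on coefficients
  have hupf : u ^ p ^ (f : ℕ) = u := by rw [← hf]; exact FiniteField.pow_card u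
  have hmap : Q.map (frobenius k p) = Q := by
    rw [hQ, Polynomial.map_prod]
    have h1 : ∀ r : ℕ, (X - C (u ^ p ^ r) : k[X]).map (frobenius k p) = X - C (u ^ p ^ (r + 1)) := by
      intro r
      rw [Polynomial.map_sub, map_X, map_C, frobenius_def, ← pow_mul, ← pow_succ]
    simp only [h1]
    have h2 := Finset.prod_range_succ (fun r => (X - C (u ^ p ^ r) : k[X])) (f : ℕ)
    have h3 := Finset.prod_range_succ' (fun r => (X - C (u ^ p ^ r) : k[X])) (f : ℕ)
    rw [h3, hupf, pow_zero, pow_one] at h2
    exact mul_right_cancel₀ (X_sub_C_ne_zero u) h2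
  -- hence its coefficients are integers
  have hlift : Q ∈ Polynomial.lifts (Int.castRingHom k) := by
    rw [Polynomial.lifts_iff_coeff_lifts]
    intro n
    have h1 : (Q.coeff n) ^ p = Q.coeff n := by
      have := congrArg (fun P : k[X] => P.coeff n) hmap
      simp only [coeff_map, frobenius_def] at this
      exact this
    obtain ⟨a, ha⟩ := exists_intCast_of_pow_eq_self p h1
    exact ⟨a, by simpa using ha⟩
  obtain ⟨g, hg⟩ := hlift
  rw [coe_mapRingHom] at hg
  refine ⟨g, ?_, ?_⟩
  · rw [aeval_def, ← eval_map]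
    have : (algebraMap ℤ k) = Int.castRingHom k := rfl
    rw [this, hg, hQ, eval_prod]
    apply Finset.prod_eq_zero (i := 0)
    · rw [Finset.mem_range]; exact f.pos
    · rw [eval_sub, eval_X, eval_C, pow_zero, pow_one, sub_self]
  · rw [aeval_def, ← eval_map]
    have h1 : (algebraMap ℤ κ) = ι.comp (Int.castRingHom k) := RingHom.ext_int _ _
    rw [h1, ← Polynomial.map_map, hg, hQ, Polynomial.map_prod, eval_prod]
    rw [Finset.prod_ne_zero_iff]
    intro r _
    rw [Polynomial.map_sub, map_X, map_C, eval_sub, eval_X, eval_C, map_pow, sub_ne_zero]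
    exact (ht r).symm

end Key

section Transport

variable {k κ : Type*} [Field k] [Field κ] {N : Type*} [AddCommGroup N] [Module k N]

/-- **Polynomial transport.**  If `γ` multiplies the line `k • b` by `u` and `A ∘ γ = t • A`, then
`A (g(u) x • b) = g(t) A (x • b)` for integer polynomials `g`. -/
theorem map_aeval_smul (A : N →+ κ) (γ : N →+ N) (t : κ) (b : N) (u : k)
    (hγ : ∀ x : k, γ (x • b) = (u * x) • b) (hA : ∀ n, A (γ n) = t * A n) (g : ℤ[X]) :
    ∀ x : k, A ((aeval u g * x) • b) = aeval t g * A (x • b) := by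
  induction g using Polynomial.induction_on with
  | C a =>
    intro x
    rw [aeval_C, aeval_C, eq_intCast, eq_intCast, mul_smul, Int.cast_smul_eq_zsmul, map_zsmul,
      zsmul_eq_mul]
  | add g h hg hh =>
    intro x
    rw [map_add, map_add, add_mul, add_smul, map_add, hg, hh, add_mul]
  | monomial n a ih =>
    intro x
    have h1 : (aeval u (C a * X ^ (n + 1)) : k) = aeval u (C a * X ^ n) * u := by
      rw [pow_succ, ← mul_assoc, map_mul, aeval_X]
    have h2 : (aeval t (C a * X ^ (n + 1)) : κ) = aeval t (C a * X ^ n) * t := by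
      rw [pow_succ, ← mul_assoc, map_mul, aeval_X]
    rw [h1, h2, mul_assoc, ih (u * x), ← hγ, hA, mul_assoc]

/-- Elements of the subring generated by `u` are integer polynomials in `u`. -/
theorem exists_aeval_of_mem_closure {u x : k} (hx : x ∈ Subring.closure {u}) :
    ∃ g : ℤ[X], aeval u g = x := by
  induction hx using Subring.closure_induction with
  | mem y hy =>
    rw [Set.mem_singleton_iff] at hy
    exact ⟨X, by rw [aeval_X, hy]⟩
  | zero => exact ⟨0, map_zero _⟩
  | one => exact ⟨1, map_one _⟩
  | add y z _ _ hy hz =>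
    obtain ⟨g, rfl⟩ := hy
    obtain ⟨h, rfl⟩ := hz
    exact ⟨g + h, map_add _ _ _⟩
  | neg y _ hy =>
    obtain ⟨g, rfl⟩ := hy
    exact ⟨-g, map_neg _ _⟩
  | mul y z _ _ hy hz =>
    obtain ⟨g, rfl⟩ := hy
    obtain ⟨h, rfl⟩ := hz
    exact ⟨g * h, map_mul _ _ _⟩

end Transport

section ClosureField

variable {k : Type*} [Field k] [Finite k]

/-- In a finite field the subring generated by an element is a subfield. -/
noncomputable def closureField (u : k) : Subfield k :=
  { Subring.closure {u} with
    inv_mem' := fun x hx => by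
      haveI := Fintype.ofFinite k
      by_cases h0 : x = 0
      · rw [h0, inv_zero]; exact Subring.zero_mem _
      · have h1 : x ^ (Fintype.card k - 1) = 1 := FiniteField.pow_card_sub_one_eq_one x h0
        have h2 : 2 ≤ Fintype.card k := Fintype.one_lt_card
        have h3 : x⁻¹ = x ^ (Fintype.card k - 2) := by
          apply inv_eq_of_mul_eq_one_left
          rw [← pow_succ]
          have : Fintype.card k - 2 + 1 = Fintype.card k - 1 := by omega
          rw [this, h1]
        rw [h3]
        exact Subring.pow_mem _ hx _ }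

theorem mem_closureField {u x : k} : x ∈ closureField u ↔ x ∈ Subring.closure {u} := Iff.rfl

theorem card_closureField (u : k) :
    Nat.card (closureField u) = Nat.card (Subring.closure {u}) :=
  Nat.card_congr (Equiv.subtypeEquivRight fun _ => Iff.rfl)

/-- A basis of `k` over `F_p[u]` of the expected size. -/
theorem exists_basis_closureField (u : k) (m : ℕ)
    (hm : Nat.card (Subring.closure {u}) ^ m = Nat.card k) :
    Nonempty (Module.Basis (Fin m) (closureField u) k) := by
  haveI : Module.Finite (closureField u) k := Module.Finite.of_finite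
  have h1 : Nat.card k = Nat.card (closureField u) ^ Module.finrank (closureField u) k :=
    Module.natCard_eq_pow_finrank
  rw [← card_closureField, h1] at hm
  have h2 : 1 < Nat.card (closureField u) := Finite.one_lt_card
  have h3 : m = Module.finrank (closureField u) k := Nat.pow_right_injective h2 hm
  exact ⟨Module.finBasisOfFinrankEq (closureField u) k h3.symm⟩

end ClosureField

section Lines

variable {k κ : Type*} [Field k] [Field κ] (p : ℕ) [Fact p.Prime] [CharP k p] [Finite k]
  {N : Type*} [AddCommGroup N] [Module k N]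

/-- Unmatched line: `A` vanishes on `k • b`. -/
theorem eq_zero_of_unmatched (ι : k →+* κ) (A : N →+ κ) (γ : N →+ N) (t : κ) (b : N) (u : k)
    (hγ : ∀ x : k, γ (x • b) = (u * x) • b) (hA : ∀ n, A (γ n) = t * A n)
    (ht : ∀ r : ℕ, ι u ^ p ^ r ≠ t) (x : k) : A (x • b) = 0 := by
  obtain ⟨g, hgu, hgt⟩ := exists_int_poly_of_not_conj p ι u t ht
  have := map_aeval_smul A γ t b u hγ hA g x
  rw [hgu, zero_mul, zero_smul, map_zero] at this
  exact (mul_eq_zero.mp this.symm).resolve_left hgt

omit [Fact p.Prime] [CharP k p] in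
/-- Matched line: `A` on `k • b` is determined by its values at `m` points. -/
theorem exists_test_points (u : k) (m : ℕ)
    (hm : Nat.card (Subring.closure {u}) ^ m = Nat.card k) :
    ∃ e : Fin m → k, ∀ (A : N →+ κ) (γ : N →+ N) (t : κ) (b : N),
      (∀ x : k, γ (x • b) = (u * x) • b) → (∀ n, A (γ n) = t * A n) →
      (∀ i, A (e i • b) = 0) → ∀ x : k, A (x • b) = 0 := by
  obtain ⟨bE⟩ := exists_basis_closureField u m hm
  refine ⟨fun i => bE i, fun A γ t b hγ hA h0 x => ?_⟩
  have hx : x = ∑ i, ((bE.repr x i : closureField u) : k) * bE i := by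
    conv_lhs => rw [← bE.sum_repr x]
    rfl
  rw [hx, Finset.sum_smul, map_sum]
  refine Finset.sum_eq_zero fun i _ => ?_
  obtain ⟨g, hg⟩ := exists_aeval_of_mem_closure (mem_closureField.mp (bE.repr x i).2)
  rw [← hg, map_aeval_smul A γ t b u hγ hA g, h0, mul_zero]

end Lines

section Main

open Fermat.Agent.TW.B5.CT1Semilinear63

variable {k κ : Type*} [Field k] [Field κ] (p : ℕ) [Fact p.Prime] [CharP k p] [CharP κ p]
  [Finite k] {N : Type*} [AddCommGroup N] [Module k N]

/-- The `κ`-space of additive maps `N → κ` with `A ∘ γ = t • A`, inside all functions. -/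
def eigenSub (γ : N →+ N) (t : κ) : Submodule κ (N → κ) where
  carrier := {A | (∀ x y, A (x + y) = A x + A y) ∧ ∀ n, A (γ n) = t * A n}
  add_mem' := by
    rintro A B ⟨hA1, hA2⟩ ⟨hB1, hB2⟩
    refine ⟨fun x y => ?_, fun n => ?_⟩
    · simp only [Pi.add_apply, hA1, hB1]; abel
    · simp only [Pi.add_apply, hA2, hB2]; ring
  zero_mem' := ⟨fun _ _ => by simp, fun _ => by simp⟩
  smul_mem' := by
    rintro c A ⟨hA1, hA2⟩
    refine ⟨fun x y => ?_, fun n => ?_⟩
    · simp only [Pi.smul_apply, hA1, smul_add]
    · simp only [Pi.smul_apply, hA2, smul_eq_mul]; ring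

omit [CharP κ p] in
/-- The dimension bound for the eigenspace. -/
theorem finrank_eigenSub_le (ι : k →+* κ) {J : Type*} [Fintype J] (bas : Module.Basis J k N)
    (u : J → k) (γ : N →+ N) (hγ : ∀ (j : J) (x : k), γ (x • bas j) = (u j * x) • bas j)
    (t : κ) (m : J → ℕ)
    (hm : ∀ j, (m j = 0 ∧ ∀ r : ℕ, ι (u j) ^ p ^ r ≠ t) ∨
      Nat.card (Subring.closure {u j}) ^ m j = Nat.card k) :
    Module.Finite κ (eigenSub γ t) ∧ Module.finrank κ (eigenSub γ t) ≤ ∑ j, m j := by
  classical
  -- test points on each line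
  have hpts : ∀ j, ∃ e : Fin (m j) → k, ∀ (A : N →+ κ), (∀ n, A (γ n) = t * A n) →
      (∀ i, A (e i • bas j) = 0) → ∀ x : k, A (x • bas j) = 0 := by
    intro j
    rcases hm j with ⟨-, hun⟩ | hma
    · exact ⟨fun _ => 0, fun A hA _ x =>
        eq_zero_of_unmatched p ι A γ t (bas j) (u j) (hγ j) hA hun x⟩
    · obtain ⟨e, he⟩ := exists_test_points (κ := κ) (N := N) (u j) (m j) hma
      exact ⟨e, fun A hA h0 x => he A γ t (bas j) (hγ j) hA h0 x⟩
  choose e he using hpts
  -- the evaluation map
  let L : eigenSub γ t →ₗ[κ] ((Σ j, Fin (m j)) → κ) :=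
    { toFun := fun A ji => A.1 (e ji.1 ji.2 • bas ji.1)
      map_add' := fun _ _ => rfl
      map_smul' := fun _ _ => rfl }
  have hL : Function.Injective L := by
    rw [← LinearMap.ker_eq_bot, LinearMap.ker_eq_bot']
    intro A hA0
    apply Subtype.ext
    funext n
    let A' : N →+ κ := AddMonoidHom.mk' A.1 A.2.1
    have hA' : ∀ n, A' n = A.1 n := fun _ => rfl
    have hlines : ∀ (j : J) (x : k), A' (x • bas j) = 0 := by
      intro j
      refine he j A' (fun n => A.2.2 n) fun i => ?_
      exact congrFun hA0 ⟨j, i⟩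
    show A.1 n = 0
    rw [← hA', ← bas.sum_repr n, map_sum]
    exact Finset.sum_eq_zero fun j _ => hlines j _
  have hfin : Module.Finite κ (eigenSub γ t) := Module.Finite.of_injective L hL
  refine ⟨hfin, ?_⟩
  have h1 := LinearMap.finrank_le_finrank_of_injective hL
  rw [Module.finrank_fintype_fun_eq_card, Fintype.card_sigma] at h1
  simpa using h1

/-- **(c) The multiplicity count** (shape requested by helper47). -/
theorem card_mult_le (ι : k →+* κ) {J : Type*} [Fintype J] (bas : Module.Basis J k N)
    (u : J → k) (γ : N →+ N) (hγ : ∀ (j : J) (x : k), γ (x • bas j) = (u j * x) • bas j)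
    (ΦN : N ≃+ N) (t s : κ) (m : J → ℕ)
    (hm : ∀ j, (m j = 0 ∧ ∀ r : ℕ, ι (u j) ^ p ^ r ≠ t) ∨
      Nat.card (Subring.closure {u j}) ^ m j = Nat.card k) :
    Nat.card {A : N →+ κ | (∀ n, A (γ n) = t * A n) ∧ (∀ n, A (ΦN n) = s * (A n) ^ p)} ≤
      p ^ (∑ j, m j) := by
  obtain ⟨hfin, hrank⟩ := finrank_eigenSub_le p ι bas u γ hγ t m hm
  -- the semilinear map on all functions
  let Φ : (N → κ) →+ (N → κ) :=
    { toFun := fun A n => s * (A (ΦN.symm n)) ^ p
      map_zero' := by
        funext n
        simp [(Fact.out : p.Prime).ne_zero]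
      map_add' := fun A B => by
        funext n
        simp only [Pi.add_apply, add_pow_char, mul_add] }
  have hΦ : ∀ (a : κ) (w : N → κ), Φ (a • w) = a ^ p • Φ w := by
    intro a w
    funext n
    show s * (a • w (ΦN.symm n)) ^ p = a ^ p • (s * (w (ΦN.symm n)) ^ p)
    rw [smul_eq_mul, smul_eq_mul, mul_pow]
    ring
  obtain ⟨hF, hcard⟩ := card_fixed_mem_le p (eigenSub γ t) Φ hΦ
  -- inject the set of `A` into the fixed vectors
  let f : {A : N →+ κ | (∀ n, A (γ n) = t * A n) ∧ (∀ n, A (ΦN n) = s * (A n) ^ p)} →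
      {w : N → κ // w ∈ eigenSub γ t ∧ Φ w = w} := fun A =>
    ⟨⇑A.1, ⟨fun x y => map_add A.1 x y, A.2.1⟩, by
      funext n
      show s * (A.1 (ΦN.symm n)) ^ p = A.1 n
      rw [← A.2.2 (ΦN.symm n), AddEquiv.apply_symm_apply]⟩
  have hf : Function.Injective f := by
    intro A B h
    apply Subtype.ext
    apply DFunLike.coe_injective
    exact congrArg Subtype.val h
  calc _ ≤ Nat.card {w : N → κ // w ∈ eigenSub γ t ∧ Φ w = w} :=
        Nat.card_le_card_of_injective f hf
    _ ≤ p ^ Module.finrank κ (eigenSub γ t) := hcard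
    _ ≤ p ^ (∑ j, m j) := Nat.pow_le_pow_right (Fact.out : p.Prime).pos hrank

end Main

end Fermat.Agent.TW.B5.CT1Mult63
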