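/-
Programme TW (S56), brick B5-CT (the count), leaf CT-1, part 4 (helper63): FINITE-FIELD CONJUGACY in
integer-polynomial form, as requested by helper47 (msg 1202 (B)).  Mathlib only (+ `CT1Mult63`).

`k` a finite field of characteristic `p`, `κ` a field of characteristic `p`, `u ∈ k` with `u ^ e = 1`,
`ξ ∈ κ` of exact order `e` (`∀ n, ξ ^ n = 1 ↔ e ∣ n`, `e ≠ 0`).

* `exists_pow_of_root` (B1) : `∃ j, ∀ P : ℤ[X], P(u) = 0 → P(ξ ^ j) = 0`;
* `aeval_pow_of_root`  (B2) : for such `j`: `P(u ^ a) = 0 → P(ξ ^ (j * a)) = 0`;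
* `exists_minpolyInt`  (B3) : every `v ∈ k` has an integer polynomial `P₀` with `P₀(v) = 0`, such that
     `P₀ ∣ P` modulo `p` whenever `P(v) = 0`, and any two roots `s, t` of `P₀` in a FINITE field `κ'` of
     characteristic `p` are Frobenius conjugate: `t = s ^ p ^ r`;
* `exists_unmatched_poly` (B*) : for such `j`, if `i ≢ j * a * p ^ r (mod e)` for all `r`, there is
     `P : ℤ[X]` with `P(u ^ a) = 0` and `P(ξ ^ i) ≠ 0`  (the unmatched hypothesis of `card_mult_le'`).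
-/
import Mathlib
import Fermat.Agent.TW.B5.CT1Mult63

set_option autoImplicit false
set_option linter.style.haveILetI false
set_option linter.unusedSectionVars false

namespace Fermat.Agent.TW.B5.CT1Conj63

open Polynomial Fermat.Agent.TW.B5.CT1Mult63

section Reduce

variable {k : Type*} [Field k] (p : ℕ) [Fact p.Prime] [CharP k p]

/-- Evaluating an integer polynomial in characteristic `p` factors through reduction mod `p`. -/
theorem aeval_int_eq_eval₂ (x : k) (P : ℤ[X]) :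
    aeval x P = eval₂ (ZMod.castHom (dvd_refl p) k) x (P.map (Int.castRingHom (ZMod p))) := by
  rw [eval₂_map, aeval_def]
  congr 1
  exact RingHom.ext_int _ _

end Reduce

section MinPoly

variable {k : Type*} [Field k] (p : ℕ) [Fact p.Prime] [CharP k p] [Finite k]

/-- The minimal polynomial of `v` over the prime field (via `ZMod.castHom`), with its properties,
packaged without algebra instances: monic, irreducible, kills `v`, divides everything killing `v`. -/
theorem exists_minpolyZMod (v : k) :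
    ∃ Q : (ZMod p)[X], Q.Monic ∧ Irreducible Q ∧ eval₂ (ZMod.castHom (dvd_refl p) k) v Q = 0 ∧
      ∀ R : (ZMod p)[X], eval₂ (ZMod.castHom (dvd_refl p) k) v R = 0 → Q ∣ R := by
  letI : Algebra (ZMod p) k := (ZMod.castHom (dvd_refl p) k).toAlgebra
  haveI : Module.Finite (ZMod p) k := Module.Finite.of_finite
  have hint : IsIntegral (ZMod p) v := Algebra.IsIntegral.isIntegral v
  refine ⟨minpoly (ZMod p) v, minpoly.monic hint, minpoly.irreducible hint, ?_, ?_⟩
  · have := minpoly.aeval (ZMod p) v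
    rwa [aeval_def] at this
  · intro R hR
    apply minpoly.dvd
    rwa [aeval_def]

end MinPoly

section Main

variable {k κ : Type*} [Field k] [Field κ] (p : ℕ) [Fact p.Prime] [CharP k p] [CharP κ p] [Finite k]

/-- If `Q` (over `ZMod p`) is irreducible and divides everything killing `v`, then its roots in any
field of characteristic `p` are roots of every integer polynomial killing `v`. -/
theorem aeval_eq_zero_of_root {v : k} {Q : (ZMod p)[X]}
    (hQ : ∀ R : (ZMod p)[X], eval₂ (ZMod.castHom (dvd_refl p) k) v R = 0 → Q ∣ R)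
    {y : κ} (hy : eval₂ (ZMod.castHom (dvd_refl p) κ) y Q = 0) (P : ℤ[X]) (hP : aeval v P = 0) :
    aeval y P = 0 := by
  rw [aeval_int_eq_eval₂ p] at hP ⊢
  obtain ⟨R, hR⟩ := hQ _ hP
  rw [hR, eval₂_mul, hy, zero_mul]

include p in
/-- **(B1)** `u ∈ k` with `u ^ e = 1`, `ξ ∈ κ` of exact order `e`: some power of `ξ` satisfies all
integer polynomial relations of `u`. -/
theorem exists_pow_of_root (u : k) (e : ℕ) (he : e ≠ 0) (hu : u ^ e = 1) (ξ : κ)
    (hξ : ∀ n : ℕ, ξ ^ n = 1 ↔ e ∣ n) :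
    ∃ j : ℕ, ∀ P : ℤ[X], aeval u P = 0 → aeval (ξ ^ j) P = 0 := by
  haveI : NeZero e := ⟨he⟩
  have hprim : IsPrimitiveRoot ξ e :=
    IsPrimitiveRoot.iff_def ξ e |>.2 ⟨(hξ e).2 dvd_rfl, fun l hl => (hξ l).1 hl⟩
  obtain ⟨Q, hQm, hQi, hQu, hQd⟩ := exists_minpolyZMod p u
  -- `Q ∣ X ^ e - 1`
  have h1 : Q ∣ (X ^ e - 1 : (ZMod p)[X]) := by
    apply hQd
    rw [eval₂_sub, eval₂_pow, eval₂_X, eval₂_one, hu, sub_self]
  -- map to `κ`
  have h2 : Q.map (ZMod.castHom (dvd_refl p) κ) ∣ (X ^ e - C (1 : κ) : κ[X]) := by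
    have := Polynomial.map_dvd (ZMod.castHom (dvd_refl p) κ) h1
    simpa using this
  have h3 : (X ^ e - C (1 : κ) : κ[X]) ≠ 0 := X_pow_sub_C_ne_zero (Nat.pos_of_ne_zero he) 1
  have hspl : Splits (Q.map (ZMod.castHom (dvd_refl p) κ)) :=
    Splits.of_dvd (X_pow_sub_one_splits hprim) h3 h2
  have hdeg : (Q.map (ZMod.castHom (dvd_refl p) κ)).degree ≠ 0 := by
    rw [degree_map]
    intro h0
    exact hQi.not_isUnit (isUnit_iff_degree_eq_zero.2 h0)
  obtain ⟨y, hy⟩ := hspl.exists_eval_eq_zero hdeg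
  have hy' : eval₂ (ZMod.castHom (dvd_refl p) κ) y Q = 0 := by rwa [eval_map] at hy
  have hye : y ^ e = 1 := by
    obtain ⟨R, hR⟩ := h2
    have := congrArg (eval y) hR
    rw [eval_mul, hy, zero_mul, eval_sub, eval_pow, eval_X, eval_C, sub_eq_zero] at this
    exact this
  obtain ⟨j, -, hj⟩ := hprim.eq_pow_of_pow_eq_one hye
  exact ⟨j, fun P hP => by rw [hj]; exact aeval_eq_zero_of_root p hQd hy' P hP⟩

omit [Fact p.Prime] [CharP k p] [CharP κ p] [Finite k] in
/-- **(B2)** monomial substitution: from `P(u) = 0 → P(y) = 0` to `P(u ^ a) = 0 → P(y ^ a) = 0`. -/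
theorem aeval_pow_of_root {u : k} {y : κ} (h : ∀ P : ℤ[X], aeval u P = 0 → aeval y P = 0)
    (a : ℕ) (P : ℤ[X]) (hP : aeval (u ^ a) P = 0) : aeval (y ^ a) P = 0 := by
  have h1 : aeval u (P.comp (X ^ a)) = 0 := by
    rw [aeval_comp, map_pow, aeval_X, hP]
  have h2 := h _ h1
  rwa [aeval_comp, map_pow, aeval_X] at h2

omit [Fact p.Prime] [CharP k p] [CharP κ p] [Finite k] in
/-- **(B2′)** general substitution (`u ↦ y` is a ring hom `ℤ[u] → κ`): from `P(u) = 0 → P(y) = 0` to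
`P(W(u)) = 0 → P(W(y)) = 0` for every integer polynomial `W`. -/
theorem aeval_aeval_of_root {u : k} {y : κ} (h : ∀ P : ℤ[X], aeval u P = 0 → aeval y P = 0)
    (W P : ℤ[X]) (hP : aeval (aeval u W) P = 0) : aeval (aeval y W) P = 0 := by
  have h1 : aeval u (P.comp W) = 0 := by rw [aeval_comp, hP]
  have h2 := h _ h1
  rwa [aeval_comp] at h2

/-- **(B3)** every `v ∈ k` has an integer "minimal polynomial" `P₀`: `P₀(v) = 0`, and in any FINITE
field `κ'` of characteristic `p`: (i) a root `s` of `P₀` is a root of every integer polynomial killing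
`v`; (ii) two roots of `P₀` are Frobenius conjugate. -/
theorem exists_minpolyInt (v : k) :
    ∃ P₀ : ℤ[X], aeval v P₀ = 0 ∧
      ∀ (κ' : Type*) [Field κ'] [CharP κ' p] [Finite κ'] (s : κ'), aeval s P₀ = 0 →
        (∀ P : ℤ[X], aeval v P = 0 → aeval s P = 0) ∧
        ∀ t : κ', aeval t P₀ = 0 → ∃ r : ℕ, t = s ^ p ^ r := by
  obtain ⟨Q, hQm, hQi, hQv, hQd⟩ := exists_minpolyZMod p v
  obtain ⟨P₀, hP₀, -, -⟩ := lifts_and_degree_eq_and_monic
    ((Polynomial.lifts_iff_coeff_lifts Q).2 fun n =>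
      (ZMod.intCast_surjective (Q.coeff n)).imp fun a ha => by simpa using ha :
        Q ∈ Polynomial.lifts (Int.castRingHom (ZMod p))) hQm
  have hPv : aeval v P₀ = 0 := by rw [aeval_int_eq_eval₂ p, hP₀, hQv]
  refine ⟨P₀, hPv, ?_⟩
  intro κ' _ _ _ s hs
  have hsQ : eval₂ (ZMod.castHom (dvd_refl p) κ') s Q = 0 := by
    rwa [aeval_int_eq_eval₂ p, hP₀] at hs
  refine ⟨fun P hP => aeval_eq_zero_of_root p hQd hsQ P hP, ?_⟩
  intro t ht
  have htQ : eval₂ (ZMod.castHom (dvd_refl p) κ') t Q = 0 := by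
    rwa [aeval_int_eq_eval₂ p, hP₀] at ht
  by_contra hcon
  have hcon : ∀ r : ℕ, t ≠ s ^ p ^ r := fun r h => hcon ⟨r, h⟩
  -- an integer polynomial killing `s` but not `t`
  obtain ⟨g, hgs, hgt⟩ := exists_int_poly_of_not_conj p (RingHom.id κ') s t
    (fun r h => hcon r (by simpa using h.symm))
  -- `Q` is also the minimal polynomial of `s`
  obtain ⟨Q', hQ'm, hQ'i, hQ's, hQ'd⟩ := exists_minpolyZMod p s
  have hdvd : Q' ∣ Q := hQ'd Q hsQ
  have hassoc : Associated Q' Q := (hQ'i.associated_of_dvd hQi hdvd)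
  have hQQ' : Q ∣ Q' := hassoc.symm.dvd
  apply hgt
  rw [aeval_int_eq_eval₂ p] at hgs ⊢
  obtain ⟨R, hR⟩ := (hQQ'.trans (hQ'd _ hgs))
  rw [hR, eval₂_mul, htQ, zero_mul]

/-- **(B\*)** the unmatched polynomial: with `j` as in (B1), if `i ≢ j * a * p ^ r (mod e)` for all
`r`, some integer polynomial kills `u ^ a` but not `ξ ^ i`. -/
theorem exists_unmatched_poly [Finite κ] (u : k) (e : ℕ) (he : e ≠ 0) (ξ : κ)
    (hξ : ∀ n : ℕ, ξ ^ n = 1 ↔ e ∣ n) (j : ℕ)
    (hj : ∀ P : ℤ[X], aeval u P = 0 → aeval (ξ ^ j) P = 0) (a i : ℕ)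
    (hne : ∀ r : ℕ, ¬ i ≡ j * a * p ^ r [MOD e]) :
    ∃ P : ℤ[X], aeval (u ^ a) P = 0 ∧ aeval (ξ ^ i) P ≠ 0 := by
  obtain ⟨P₀, hP₀v, hP₀⟩ := exists_minpolyInt p (u ^ a)
  refine ⟨P₀, hP₀v, fun hi => ?_⟩
  have hs : aeval ((ξ ^ j) ^ a) P₀ = 0 := aeval_pow_of_root hj a P₀ hP₀v
  obtain ⟨r, hr⟩ := (hP₀ κ ((ξ ^ j) ^ a) hs).2 (ξ ^ i) hi
  apply hne r
  rw [← pow_mul, ← pow_mul, ← mul_assoc] at hr
  -- `ξ ^ i = ξ ^ (j * a * p ^ r)` forces the congruence
  have hξ0 : ξ ≠ 0 := by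
    intro h0
    have := (hξ e).2 dvd_rfl
    rw [h0, zero_pow he] at this
    exact zero_ne_one this
  have key : ∀ m n : ℕ, m ≤ n → ξ ^ m = ξ ^ n → m ≡ n [MOD e] := by
    intro m n hmn h
    have h1 : ξ ^ n = ξ ^ m * ξ ^ (n - m) := by rw [← pow_add]; congr 1; omega
    rw [h1] at h
    have h2 : ξ ^ (n - m) = 1 := by
      have := mul_left_cancel₀ (pow_ne_zero m hξ0) (h.symm.trans (mul_one _).symm)
      exact this
    exact (Nat.modEq_iff_dvd' hmn).2 ((hξ _).1 h2)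
  rcases le_total i (j * a * p ^ r) with h | h
  · exact key _ _ h hr
  · exact (key _ _ h hr.symm).symm

/-- **(B*′)** general unmatched polynomial: if `P(u) = 0 → P(y) = 0` for all integer `P`
(`y ∈ κ`, `κ` finite), `W` an integer polynomial and `t ∈ κ` is not a Frobenius conjugate of `W(y)`,
then some integer polynomial kills `W(u)` but not `t`. -/
theorem exists_unmatched_poly_gen [Finite κ] {u : k} {y : κ}
    (h : ∀ P : ℤ[X], aeval u P = 0 → aeval y P = 0) (W : ℤ[X]) (t : κ)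
    (hne : ∀ r : ℕ, t ≠ (aeval y W) ^ p ^ r) :
    ∃ P : ℤ[X], aeval (aeval u W) P = 0 ∧ aeval t P ≠ 0 := by
  obtain ⟨P₀, hP₀v, hP₀⟩ := exists_minpolyInt p (aeval u W)
  refine ⟨P₀, hP₀v, fun ht => ?_⟩
  have hs : aeval (aeval y W) P₀ = 0 := aeval_aeval_of_root h W P₀ hP₀v
  obtain ⟨r, hr⟩ := (hP₀ κ (aeval y W) hs).2 t ht
  exact hne r hr

end Main

end Fermat.Agent.TW.B5.CT1Conj63
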