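/-
Programme TW (S56), brick B5-CT (the count), leaf CT-1, part 3 (helper63): the multiplicity count
in POLYNOMIAL form (no embedding `k → κ`), as requested by helper47 (msg 1202 (A)).

The unmatched hypothesis is: there is an integer polynomial `g` with `g(u j) = 0` and `g(t) ≠ 0`.

* `finrank_eigenSub_le'` : `dim_κ {A : N → κ additive | A ∘ γ = t • A} ≤ ∑ j, m j`;
* `card_mult_le'`        : the multiplicity count.
-/
import Mathlib
import Fermat.Agent.TW.B5.CT1Mult63

set_option autoImplicit false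
set_option linter.style.haveILetI false
set_option linter.unusedSectionVars false

namespace Fermat.Agent.TW.B5.CT1MultPoly63

open Polynomial Fermat.Agent.TW.B5.CT1Semilinear63 Fermat.Agent.TW.B5.CT1Mult63

variable {k κ : Type*} [Field k] [Field κ] (p : ℕ) [Fact p.Prime] [CharP κ p]
  [Finite k] {N : Type*} [AddCommGroup N] [Module k N]

omit [Fact p.Prime] [CharP κ p] [Finite k] in
/-- Unmatched line (polynomial form): `A` vanishes on `k • b`. -/
theorem eq_zero_of_unmatched' (A : N →+ κ) (γ : N →+ N) (t : κ) (b : N) (u : k)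
    (hγ : ∀ x : k, γ (x • b) = (u * x) • b) (hA : ∀ n, A (γ n) = t * A n)
    (ht : ∃ g : ℤ[X], aeval u g = 0 ∧ aeval t g ≠ 0) (x : k) : A (x • b) = 0 := by
  obtain ⟨g, hgu, hgt⟩ := ht
  have := map_aeval_smul A γ t b u hγ hA g x
  rw [hgu, zero_mul, zero_smul, map_zero] at this
  exact (mul_eq_zero.mp this.symm).resolve_left hgt

omit [Fact p.Prime] [CharP κ p] in
/-- The dimension bound for the eigenspace (polynomial form of the unmatched hypothesis). -/
theorem finrank_eigenSub_le' {J : Type*} [Fintype J] (bas : Module.Basis J k N)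
    (u : J → k) (γ : N →+ N) (hγ : ∀ (j : J) (x : k), γ (x • bas j) = (u j * x) • bas j)
    (t : κ) (m : J → ℕ)
    (hm : ∀ j, (m j = 0 ∧ ∃ g : ℤ[X], aeval (u j) g = 0 ∧ aeval t g ≠ 0) ∨
      Nat.card (Subring.closure {u j}) ^ m j = Nat.card k) :
    Module.Finite κ (eigenSub γ t) ∧ Module.finrank κ (eigenSub γ t) ≤ ∑ j, m j := by
  classical
  have hpts : ∀ j, ∃ e : Fin (m j) → k, ∀ (A : N →+ κ), (∀ n, A (γ n) = t * A n) →
      (∀ i, A (e i • bas j) = 0) → ∀ x : k, A (x • bas j) = 0 := by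
    intro j
    rcases hm j with ⟨-, hun⟩ | hma
    · exact ⟨fun _ => 0, fun A hA _ x =>
        eq_zero_of_unmatched' A γ t (bas j) (u j) (hγ j) hA hun x⟩
    · obtain ⟨e, he⟩ := exists_test_points (κ := κ) (N := N) (u j) (m j) hma
      exact ⟨e, fun A hA h0 x => he A γ t (bas j) (hγ j) hA h0 x⟩
  choose e he using hpts
  let L : eigenSub γ t →ₗ[κ] ((Σ j, Fin (m j)) → κ) :=
    { toFun := fun A ji => A.1 (e ji.1 ji.2 • bas ji.1)
      map_add' := fun _ _ => rfl
      map_smul' := fun _ _ => rfl }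
  have hL : Function.Injective L := by
    rw [← LinearMap.ker_eq_bot, LinearMap.ker_eq_bot']
    intro A hA0
    apply Subtype.ext
    funext n
    let A' : N →+ κ := AddMonoidHom.mk' A.1 A.2.1
    have hA' : ∀ n, A' n = A.1 n := fun _ => rfl
    have hlines : ∀ (j : J) (x : k), A' (x • bas j) = 0 := by
      intro j
      refine he j A' (fun n => A.2.2 n) fun i => ?_
      exact congrFun hA0 ⟨j, i⟩
    show A.1 n = 0
    rw [← hA', ← bas.sum_repr n, map_sum]
    exact Finset.sum_eq_zero fun j _ => hlines j _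
  have hfin : Module.Finite κ (eigenSub γ t) := Module.Finite.of_injective L hL
  refine ⟨hfin, ?_⟩
  have h1 := LinearMap.finrank_le_finrank_of_injective hL
  rw [Module.finrank_fintype_fun_eq_card, Fintype.card_sigma] at h1
  simpa using h1

/-- **(c′) The multiplicity count, polynomial form** (no embedding `k → κ`): `k` a finite field,
`κ` a field of characteristic `p`; unmatched lines are detected by an integer polynomial `g` with
`g(u j) = 0`, `g(t) ≠ 0`. -/
theorem card_mult_le' {J : Type*} [Fintype J] (bas : Module.Basis J k N)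
    (u : J → k) (γ : N →+ N) (hγ : ∀ (j : J) (x : k), γ (x • bas j) = (u j * x) • bas j)
    (ΦN : N ≃+ N) (t s : κ) (m : J → ℕ)
    (hm : ∀ j, (m j = 0 ∧ ∃ g : ℤ[X], aeval (u j) g = 0 ∧ aeval t g ≠ 0) ∨
      Nat.card (Subring.closure {u j}) ^ m j = Nat.card k) :
    Nat.card {A : N →+ κ | (∀ n, A (γ n) = t * A n) ∧ (∀ n, A (ΦN n) = s * (A n) ^ p)} ≤
      p ^ (∑ j, m j) := by
  obtain ⟨hfin, hrank⟩ := finrank_eigenSub_le' bas u γ hγ t m hm
  let Φ : (N → κ) →+ (N → κ) :=
    { toFun := fun A n => s * (A (ΦN.symm n)) ^ p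
      map_zero' := by
        funext n
        simp [(Fact.out : p.Prime).ne_zero]
      map_add' := fun A B => by
        funext n
        simp only [Pi.add_apply, add_pow_char, mul_add] }
  have hΦ : ∀ (a : κ) (w : N → κ), Φ (a • w) = a ^ p • Φ w := by
    intro a w
    funext n
    show s * (a • w (ΦN.symm n)) ^ p = a ^ p • (s * (w (ΦN.symm n)) ^ p)
    rw [smul_eq_mul, smul_eq_mul, mul_pow]
    ring
  obtain ⟨hF, hcard⟩ := card_fixed_mem_le p (eigenSub γ t) Φ hΦ
  let f : {A : N →+ κ | (∀ n, A (γ n) = t * A n) ∧ (∀ n, A (ΦN n) = s * (A n) ^ p)} →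
      {w : N → κ // w ∈ eigenSub γ t ∧ Φ w = w} := fun A =>
    ⟨⇑A.1, ⟨fun x y => map_add A.1 x y, A.2.1⟩, by
      funext n
      show s * (A.1 (ΦN.symm n)) ^ p = A.1 n
      rw [← A.2.2 (ΦN.symm n), AddEquiv.apply_symm_apply]⟩
  have hf : Function.Injective f := by
    intro A B h
    apply Subtype.ext
    apply DFunLike.coe_injective
    exact congrArg Subtype.val h
  calc _ ≤ Nat.card {w : N → κ // w ∈ eigenSub γ t ∧ Φ w = w} :=
        Nat.card_le_card_of_injective f hf
    _ ≤ p ^ Module.finrank κ (eigenSub γ t) := hcard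
    _ ≤ p ^ (∑ j, m j) := Nat.pow_le_pow_right (Fact.out : p.Prime).pos hrank

/-- The set counted by `card_mult_le'` is `{0}` when every line is unmatched. -/
theorem eq_zero_of_all_unmatched {J : Type*} [Fintype J] (bas : Module.Basis J k N)
    (u : J → k) (γ : N →+ N) (hγ : ∀ (j : J) (x : k), γ (x • bas j) = (u j * x) • bas j)
    (t : κ) (hun : ∀ j, ∃ g : ℤ[X], aeval (u j) g = 0 ∧ aeval t g ≠ 0)
    (A : N →+ κ) (hA : ∀ n, A (γ n) = t * A n) : A = 0 := by
  classical
  ext n
  rw [← bas.sum_repr n, map_sum, AddMonoidHom.zero_apply]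
  exact Finset.sum_eq_zero fun j _ =>
    eq_zero_of_unmatched' A γ t (bas j) (u j) (hγ j) hA (hun j) _

end Fermat.Agent.TW.B5.CT1MultPoly63
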