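/-
Programme TW (S56), brick B5-CT (the count), leaf CT-4a (helper47): THE LEVEL INDUCTION (abstract form).

Coefficients `M = J → k` (`k` a finite field of characteristic `p`, `J` a finite index set), functionals
`ℓ_x = τ₀ (∑ j, x j * m j)` for a fixed non-zero additive `τ₀ : k →+ ZMod p`.

* `exists_pairFun_eq` : every additive functional on `J → k` is some `ℓ_x`;
* `symHom`            : the symbol map of `β` at a good level as an additive map `(J → k) →+ κ`;
* `two_cocycle`       : if the symbol maps of a `k`-linear family `𝒞` of functions lie in sets `𝓗 i` which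
  are `{0}` except at one level `istar` where `𝓗 istar` has at most `#k` elements, then for `β₀ β ∈ 𝒞` of
  level `≥ e`: either `β₀` vanishes on `I ∩ G_F` or `β = lam • β₀` on `I ∩ G_F` for some `lam : k`.
-/
import Mathlib
import Fermat.Agent.TW.B5.Levels47

set_option autoImplicit false
set_option linter.unusedSectionVars false
set_option linter.style.haveILetI false

namespace Fermat.Agent.TW.B5.LevelInd47

open Fermat.Agent.TW.B5.Iface Fermat.Agent.TW.B5.IfaceLG Fermat.Agent.TW.B5.Kummer47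
  Fermat.Agent.TW.B5.Levels47

variable {p : ℕ} [hp : Fact p.Prime]

section Pairing

variable {k : Type*} [Field k] {J : Type*} [Fintype J]

/-- The functional `m ↦ τ₀ (∑ j, x j * m j)` on `J → k`. -/
def pairFun (τ₀ : k →+ ZMod p) (x : J → k) : (J → k) →+ ZMod p where
  toFun m := τ₀ (∑ j, x j * m j)
  map_zero' := by simp
  map_add' m m' := by
    simp only [Pi.add_apply, mul_add, Finset.sum_add_distrib, map_add]

@[simp] theorem pairFun_apply (τ₀ : k →+ ZMod p) (x m : J → k) :
    pairFun τ₀ x m = τ₀ (∑ j, x j * m j) := rfl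

theorem pairFun_add (τ₀ : k →+ ZMod p) (x y : J → k) :
    pairFun τ₀ (x + y) = pairFun τ₀ x + pairFun τ₀ y := by
  ext m
  simp only [pairFun_apply, Pi.add_apply, add_mul, Finset.sum_add_distrib, map_add,
    AddMonoidHom.add_apply]

theorem pairFun_zero (τ₀ : k →+ ZMod p) : pairFun τ₀ (0 : J → k) = 0 := by
  ext m
  simp

/-- `ℓ_x ∘ (lam • ·) = ℓ_{lam • x}`. -/
theorem pairFun_smul (τ₀ : k →+ ZMod p) (lam : k) (x m : J → k) :
    pairFun τ₀ x (lam • m) = pairFun τ₀ (lam • x) m := by
  simp only [pairFun_apply, Pi.smul_apply, smul_eq_mul]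
  congr 1
  exact Finset.sum_congr rfl fun j _ => by ring

/-- Non-degeneracy: if `τ₀ ≠ 0` the functionals `ℓ_x` separate the points of `J → k`. -/
theorem eq_zero_of_pairFun (τ₀ : k →+ ZMod p) (hτ₀ : τ₀ ≠ 0) (m : J → k)
    (h : ∀ x : J → k, pairFun τ₀ x m = 0) : m = 0 := by
  classical
  funext j
  by_contra hj
  apply hτ₀
  ext y
  have := h (Pi.single j (y * (m j)⁻¹))
  simp only [pairFun_apply] at this
  rw [Finset.sum_eq_single j] at this
  · simpa [Pi.single_eq_same, mul_assoc, inv_mul_cancel₀ hj] using this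
  · intro b _ hb
    simp [Pi.single_eq_of_ne hb]
  · intro hj'
    exact absurd (Finset.mem_univ j) hj'

theorem pairFun_injective (τ₀ : k →+ ZMod p) (hτ₀ : τ₀ ≠ 0) :
    Function.Injective (pairFun τ₀ : (J → k) → ((J → k) →+ ZMod p)) := by
  classical
  intro x y hxy
  have h : ∀ m : J → k, pairFun τ₀ (x - y) m = 0 := by
    intro m
    have := DFunLike.congr_fun hxy m
    simp only [pairFun_apply, Pi.sub_apply, sub_mul, Finset.sum_sub_distrib, map_sub] at this ⊢
    rw [this, sub_self]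
  -- symmetric roles of `x` and `m`
  have h' : ∀ m : J → k, pairFun τ₀ m (x - y) = 0 := by
    intro m
    have := h m
    simp only [pairFun_apply] at this ⊢
    rw [← this]
    congr 1
    exact Finset.sum_congr rfl fun j _ => mul_comm _ _
  exact sub_eq_zero.1 (eq_zero_of_pairFun τ₀ hτ₀ _ h')


theorem card_addHom {A : Type*} [AddCommGroup A] [Finite A] [Module (ZMod p) A] :
    Nat.card (A →+ ZMod p) = Nat.card A := by
  classical
  haveI := Fintype.ofFinite A
  have e : (A →+ ZMod p) ≃ (A →ₗ[ZMod p] ZMod p) := (AddMonoidHom.toZModLinearMapEquiv p).toEquiv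
  rw [Nat.card_congr e]
  haveI : Module.Finite (ZMod p) A := Module.Finite.of_finite
  have h1 : Module.finrank (ZMod p) (Module.Dual (ZMod p) A) = Module.finrank (ZMod p) A :=
    Subspace.dual_finrank_eq
  haveI : Finite (Module.Dual (ZMod p) A) := Module.finite_of_finite (ZMod p)
  haveI := Fintype.ofFinite (Module.Dual (ZMod p) A)
  have h2 := Module.card_eq_pow_finrank (K := ZMod p) (V := Module.Dual (ZMod p) A)
  have h3 := Module.card_eq_pow_finrank (K := ZMod p) (V := A)
  rw [Nat.card_eq_fintype_card, Nat.card_eq_fintype_card]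
  change Fintype.card (Module.Dual (ZMod p) A) = _
  rw [h2, h3, h1]

/-- Every additive functional on `J → k` is a `pairFun`. -/
theorem exists_pairFun_eq [Finite k] [CharP k p] (τ₀ : k →+ ZMod p) (hτ₀ : τ₀ ≠ 0)
    (ℓ : (J → k) →+ ZMod p) : ∃ x : J → k, pairFun τ₀ x = ℓ := by
  classical
  letI : Algebra (ZMod p) k := ZMod.algebra k p
  haveI : Finite ((J → k) →+ ZMod p) := by
    have e : ((J → k) →+ ZMod p) ≃ ((J → k) →ₗ[ZMod p] ZMod p) :=
      (AddMonoidHom.toZModLinearMapEquiv p).toEquiv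
    haveI : Finite ((J → k) →ₗ[ZMod p] ZMod p) := Module.finite_of_finite (ZMod p)
    exact Finite.of_equiv _ e.symm
  have hbij := (pairFun_injective (J := J) τ₀ hτ₀).bijective_of_nat_card_le
    (le_of_eq (card_addHom (p := p) (A := J → k)))
  exact hbij.2 ℓ

end Pairing

section Induction

variable {F : IntermediateField ℚ_[p] (Kbar p)} (D : LevelData F)
variable {k : Type*} [Field k] [Finite k] [CharP k p] {J : Type*} [Fintype J]
variable {ζ : Kbar p}

theorem e_pos : 1 ≤ D.e := by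
  by_contra h
  have h0 : D.e = 0 := by omega
  have := D.he
  rw [h0, pow_zero] at this
  have hp1 : ‖(p : Kbar p)‖ < 1 := by
    have h1 : (p : Kbar p) = algebraMap ℚ_[p] (Kbar p) (p : ℚ_[p]) := by simp
    rw [h1, PadicAlgCl.norm_extends, Padic.norm_p]
    have : (1 : ℝ) < p := by exact_mod_cast hp.out.one_lt
    exact inv_lt_one_of_one_lt₀ this
  rw [this] at hp1
  exact lt_irrefl _ hp1

/-- The symbol map in the coordinates `x ↦ ℓ_x`, as an additive map. -/
noncomputable def symHom (hζ : IsPrimRoot ζ) (hζF : ζ ∈ F) (hK : D.KFacts) (τ₀ : k →+ ZMod p)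
    (β : Gp p → (J → k)) (i : ℕ) (h : D.LevAll ζ β i)
    (hi1 : 1 ≤ i) (hie : D.e ≤ i) (hiT : i < D.T) (hip : ¬ p ∣ i) : (J → k) →+ D.κ where
  toFun x := D.sym ζ β i h (pairFun τ₀ x)
  map_zero' := by
    have := D.sym_add hζ hζF hK h hi1 hie hiT hip (pairFun τ₀ (0 : J → k)) (pairFun τ₀ 0)
    rw [← pairFun_add, add_zero] at this
    exact left_eq_add.1 this
  map_add' x y := by
    rw [pairFun_add]
    exact D.sym_add hζ hζF hK h hi1 hie hiT hip _ _

/-- **The level induction, two-cocycle form.** -/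
theorem two_cocycle (hζ : IsPrimRoot ζ) (hζF : ζ ∈ F) (hK : D.KFacts)
    (τ₀ : k →+ ZMod p) (hτ₀ : τ₀ ≠ 0)
    (𝒞 : Set (Gp p → (J → k)))
    (hsub : ∀ β ∈ 𝒞, ∀ β' ∈ 𝒞, (fun τ => β τ - β' τ) ∈ 𝒞)
    (hsmul : ∀ (lam : k), ∀ β ∈ 𝒞, (fun τ => lam • β τ) ∈ 𝒞)
    (𝓗 : ℕ → Set ((J → k) →+ D.κ)) (istar : ℕ)
    (hmem : ∀ β ∈ 𝒞, ∀ (i : ℕ) (h : D.LevAll ζ β i) (hi1 : 1 ≤ i) (hie : D.e ≤ i)
      (hiT : i < D.T) (hip : ¬ p ∣ i), symHom D hζ hζF hK τ₀ β i h hi1 hie hiT hip ∈ 𝓗 i)
    (hun : ∀ i, D.e ≤ i → i < D.T → ¬ p ∣ i → i ≠ istar → ∀ A ∈ 𝓗 i, A = 0)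
    (hex : (𝓗 istar).Finite ∧ (𝓗 istar).ncard ≤ Nat.card k)
    (β₀ β : Gp p → (J → k)) (hβ₀ : β₀ ∈ 𝒞) (hβ : β ∈ 𝒞)
    (h₀ : D.LevAll ζ β₀ D.e) (h : D.LevAll ζ β D.e) :
    (∀ τ : Gp p, IsInertial p τ → τ ∈ F.fixingSubgroup → β₀ τ = 0) ∨
    ∃ lam : k, ∀ τ : Gp p, IsInertial p τ → τ ∈ F.fixingSubgroup → β τ = lam • β₀ τ := by
  classical
  have he1 := e_pos D
  have hsep : ∀ m : J → k, (∀ ℓ : (J → k) →+ ZMod p, ℓ m = 0) → m = 0 := fun m hm =>
    eq_zero_of_pairFun τ₀ hτ₀ m fun x => hm _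
  -- vanishing of the symbol map gives the next level
  have hnext : ∀ β ∈ 𝒞, ∀ (i : ℕ) (h : D.LevAll ζ β i) (hi1 : 1 ≤ i) (hie : D.e ≤ i)
      (hiT : i < D.T) (hip : ¬ p ∣ i), symHom D hζ hζF hK τ₀ β i h hi1 hie hiT hip = 0 →
      D.LevAll ζ β (i + 1) := by
    intro β _ i h hi1 hie hiT hip h0
    refine h.succ_of_sym_eq_zero D fun ℓ => ?_
    obtain ⟨x, rfl⟩ := exists_pairFun_eq (p := p) τ₀ hτ₀ ℓ
    exact DFunLike.congr_fun h0 x
  -- one step for a level different from `istar`
  have hstep : ∀ β ∈ 𝒞, ∀ i, D.e ≤ i → i < D.T → (¬ p ∣ i → i ≠ istar) → D.LevAll ζ β i →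
      D.LevAll ζ β (i + 1) := by
    intro β hβ i hie hiT hne h
    have hi1 : 1 ≤ i := he1.trans hie
    by_cases hip : p ∣ i
    · exact h.succ_of_dvd D hζ hζF hK hi1 hie hiT hip
    · exact hnext β hβ i h hi1 hie hiT hip
        (hun i hie hiT hip (hne hip) _ (hmem β hβ i h hi1 hie hiT hip))
  -- climbing through a range avoiding `istar`
  have hclimb : ∀ β ∈ 𝒞, ∀ i, D.e ≤ i → ∀ n, i + n ≤ D.T →
      (∀ l, i ≤ l → l < i + n → ¬ p ∣ l → l ≠ istar) → D.LevAll ζ β i →
      D.LevAll ζ β (i + n) := by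
    intro β hβ i hie n
    induction n with
    | zero => intro _ _ h; simpa using h
    | succ n ih =>
      intro hT havoid h
      have h1 := ih (by omega) (fun l hl hl' => havoid l hl (by omega)) h
      have := hstep β hβ (i + n) (by omega) (by omega) (havoid _ (by omega) (by omega)) h1
      simpa [add_assoc] using this
  have hT1 : 1 ≤ D.T := by
    by_contra hcon
    have hT0 : D.T = 0 := by omega
    have := D.hT
    rw [hT0, zero_mul] at this
    have hp0 := hp.out.pos
    have : p * D.e ≠ 0 := Nat.mul_ne_zero hp0.ne' (by omega)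
    omega
  have hfinal : ∀ β ∈ 𝒞, D.LevAll ζ β D.T →
      ∀ τ : Gp p, IsInertial p τ → τ ∈ F.fixingSubgroup → β τ = 0 := by
    intro β _ h τ hτ hτF
    exact h.eq_zero_of_top D hζ hK hT1 hsep τ hτ hτF
  have heT : D.e ≤ D.T := by
    have := D.hT
    have hp2 := hp.out.two_le
    by_contra hcon
    push Not at hcon
    have h1 : D.T * (p - 1) < D.e * (p - 1) := Nat.mul_lt_mul_of_pos_right hcon (by omega)
    have h2 : D.e * (p - 1) ≤ p * D.e := by
      rw [mul_comm p]; exact Nat.mul_le_mul_left _ (by omega)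
    omega
  -- case distinction on the position of `istar`
  by_cases hrange : D.e ≤ istar ∧ istar < D.T ∧ ¬ p ∣ istar
  · obtain ⟨hse, hsT, hsp⟩ := hrange
    have hs1 : 1 ≤ istar := he1.trans hse
    -- climb to `istar`
    have hup : ∀ β ∈ 𝒞, D.LevAll ζ β D.e → D.LevAll ζ β istar := by
      intro β hβ h
      have := hclimb β hβ D.e le_rfl (istar - D.e) (by omega) (fun l _ hl' _ => by omega) h
      rwa [Nat.add_sub_cancel' hse] at this
    -- climb from `istar + 1` to `T`
    have hup2 : ∀ β ∈ 𝒞, D.LevAll ζ β (istar + 1) → D.LevAll ζ β D.T := by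
      intro β hβ h
      have := hclimb β hβ (istar + 1) (by omega) (D.T - (istar + 1)) (by omega)
        (fun l hl _ _ => by omega) h
      rwa [Nat.add_sub_cancel' (by omega)] at this
    have hs₀ := hup β₀ hβ₀ h₀
    have hs := hup β hβ h
    set A₀ := symHom D hζ hζF hK τ₀ β₀ istar hs₀ hs1 hse hsT hsp with hA₀
    by_cases hA₀0 : A₀ = 0
    · left
      exact hfinal β₀ hβ₀ (hup2 β₀ hβ₀ (hnext β₀ hβ₀ istar hs₀ hs1 hse hsT hsp hA₀0))
    · right
      -- the map `lam ↦ symbol of lam • β₀`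
      have hlev : ∀ lam : k, D.LevAll ζ (fun τ => lam • β₀ τ) istar := fun lam =>
        hs₀.comp D (DistribSMul.toAddMonoidHom (J → k) lam)
      let Ψ : k → (J → k) →+ D.κ := fun lam =>
        symHom D hζ hζF hK τ₀ (fun τ => lam • β₀ τ) istar (hlev lam) hs1 hse hsT hsp
      have hΨapply : ∀ (lam : k) (x : J → k), Ψ lam x = A₀ (lam • x) := by
        intro lam x
        show D.sym ζ (fun τ => lam • β₀ τ) istar (hlev lam) (pairFun τ₀ x) =
          D.sym ζ β₀ istar hs₀ (pairFun τ₀ (lam • x))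
        have h1 := D.sym_comp hζ hK hs₀ (DistribSMul.toAddMonoidHom (J → k) lam) (hlev lam)
          hs1 hse hsT hsp (pairFun τ₀ x)
        refine h1.trans ?_
        congr 1
        refine DFunLike.ext _ _ fun m => ?_
        exact pairFun_smul τ₀ lam x m
      have hΨmem : ∀ lam, Ψ lam ∈ 𝓗 istar := fun lam =>
        hmem _ (hsmul lam β₀ hβ₀) istar (hlev lam) hs1 hse hsT hsp
      have hΨinj : Function.Injective Ψ := by
        intro lam lam' hll
        by_contra hne
        apply hA₀0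
        refine DFunLike.ext _ _ fun x => ?_
        have hμ : lam - lam' ≠ 0 := sub_ne_zero.2 hne
        have h1 : A₀ (lam • ((lam - lam')⁻¹ • x)) = A₀ (lam' • ((lam - lam')⁻¹ • x)) := by
          rw [← hΨapply, ← hΨapply, hll]
        have h2 : x = lam • ((lam - lam')⁻¹ • x) - lam' • ((lam - lam')⁻¹ • x) := by
          rw [← sub_smul, smul_smul, mul_inv_cancel₀ hμ, one_smul]
        rw [h2, map_sub, h1, sub_self]
        rfl
      -- pigeonhole: `Ψ` is onto `𝓗 istar`
      have hsurj : ∀ A ∈ 𝓗 istar, ∃ lam, Ψ lam = A := by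
        intro A hA
        by_contra hcon
        push Not at hcon
        haveI := Fintype.ofFinite k
        have himg : (Set.range Ψ) ⊆ 𝓗 istar \ {A} := by
          rintro _ ⟨lam, rfl⟩
          exact ⟨hΨmem lam, fun h => hcon lam h⟩
        have h1 : (Set.range Ψ).ncard = Nat.card k := by
          rw [Set.ncard_range_of_injective hΨinj]
        have h2 : (Set.range Ψ).ncard ≤ (𝓗 istar \ {A}).ncard :=
          Set.ncard_le_ncard himg (hex.1.subset Set.sdiff_subset)
        have h3 : (𝓗 istar \ {A}).ncard < (𝓗 istar).ncard :=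
          Set.ncard_sdiff_singleton_lt_of_mem hA hex.1
        omega
      set A := symHom D hζ hζF hK τ₀ β istar hs hs1 hse hsT hsp with hA
      obtain ⟨lam, hlam⟩ := hsurj A (hmem β hβ istar hs hs1 hse hsT hsp)
      refine ⟨lam, ?_⟩
      -- `β - lam • β₀` has vanishing symbol
      have hdiffmem : (fun τ => β τ - lam • β₀ τ) ∈ 𝒞 := hsub β hβ _ (hsmul lam β₀ hβ₀)
      have hneg : D.LevAll ζ (fun τ => -(lam • β₀ τ)) istar := by
        have := (hlev lam).comp D (-AddMonoidHom.id (J → k))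
        simpa using this
      have hdiff : D.LevAll ζ (fun τ => β τ - lam • β₀ τ) istar := by
        have := LevelData.LevAll.add D hζ hζF hs1 hs hneg
        simpa [sub_eq_add_neg] using this
      have hzero : symHom D hζ hζF hK τ₀ (fun τ => β τ - lam • β₀ τ) istar hdiff hs1 hse hsT hsp
          = 0 := by
        refine DFunLike.ext _ _ fun x => ?_
        show D.sym ζ (fun τ => β τ - lam • β₀ τ) istar hdiff (pairFun τ₀ x) = 0
        have hsum : D.LevAll ζ (fun τ => (β τ - lam • β₀ τ) + lam • β₀ τ) istar := by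
          simpa using hs
        have h1 := D.sym_add_fun hζ hζF hK hdiff (hlev lam) hsum hs1 hse hsT hsp (pairFun τ₀ x)
        have h2 : D.sym ζ (fun τ => (β τ - lam • β₀ τ) + lam • β₀ τ) istar hsum (pairFun τ₀ x) =
            D.sym ζ β istar hs (pairFun τ₀ x) := by
          congr 1
          funext τ
          simp
        have h3 : D.sym ζ (fun τ => lam • β₀ τ) istar (hlev lam) (pairFun τ₀ x) =
            D.sym ζ β istar hs (pairFun τ₀ x) := DFunLike.congr_fun hlam x
        rw [h2, h3] at h1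
        exact (add_eq_right.1 h1.symm)
      intro τ hτ hτF
      have := hfinal _ hdiffmem
        (hup2 _ hdiffmem (hnext _ hdiffmem istar hdiff hs1 hse hsT hsp hzero)) τ hτ hτF
      exact sub_eq_zero.1 this
  · -- `istar` is not a relevant level: everything is unramified
    left
    have := hclimb β₀ hβ₀ D.e le_rfl (D.T - D.e) (by omega)
      (fun l hl hl' hpl hls => by
        subst hls
        exact hrange ⟨hl, by omega, hpl⟩) h₀
    rw [Nat.add_sub_cancel' heT] at this
    exact hfinal β₀ hβ₀ this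

end Induction

end Fermat.Agent.TW.B5.LevelInd47
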