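/-
Programme TW (S56), brick B5-CT (the count), leaf CT-4b (helper63): GALOIS EQUIVARIANCE OF THE SYMBOL MAPS
`LevelInd47.symHom` and the sets `𝓗 i` consumed by `LevelInd47.two_cocycle`.

* `pairFun_rel_of_transpose` : the relation `hrel` of `Levels47.sym_galois` from an action `R` on the
  coefficients with transpose `Rt`;
* `symHom_inertial`, `symHom_frob` : `A (x') = θ(g)^i * A x` resp. `θ(g)^i * (A x)^p` for the symbol map `A`;
* `HSet`, `symHom_mem_HSet` : the set `𝓗 i` cut out by an inertial generator and a Frobenius lift;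
* `HSet_eq_zero`, `HSet_card_le` : the count (`CT1MultPoly63.card_mult_le'`).
-/
import Mathlib
import Fermat.Agent.TW.B5.LevelInd47
import Fermat.Agent.TW.B5.CT1MultPoly63

set_option autoImplicit false
set_option linter.unusedSectionVars false
set_option linter.style.haveILetI false

namespace Fermat.Agent.TW.B5.CT4Equiv63

open Polynomial Fermat.Agent.TW.B5.Iface Fermat.Agent.TW.B5.IfaceLG Fermat.Agent.TW.B5.Kummer47
  Fermat.Agent.TW.B5.Levels47 Fermat.Agent.TW.B5.LevelInd47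

variable {p : ℕ} [hp : Fact p.Prime]

section Rel

variable {k : Type*} [Field k] {J : Type*} [Fintype J]

/-- `(w : ZMod p) * τ₀ y = τ₀ ((w : k) * y)`. -/
theorem natCast_mul_apply (τ₀ : k →+ ZMod p) (w : ℕ) (y : k) :
    (w : ZMod p) * τ₀ y = τ₀ ((w : k) * y) := by
  rw [← nsmul_eq_mul, ← nsmul_eq_mul, map_nsmul]

/-- The relation `hrel` of `sym_galois` from an action `R` on coefficients with transpose `Rt`. -/
theorem pairFun_rel_of_transpose (τ₀ : k →+ ZMod p) (w : ℕ) (R Rt : (J → k) → (J → k))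
    (htr : ∀ x m : J → k, ∑ j, x j * (R m) j = ∑ j, (Rt x) j * m j) (x m m' : J → k)
    (hm : m' = R m) :
    pairFun τ₀ ((w : k) • Rt x) m = (w : ZMod p) * pairFun τ₀ x m' := by
  rw [hm, pairFun_apply, pairFun_apply, natCast_mul_apply, htr, Finset.mul_sum]
  congr 1
  exact Finset.sum_congr rfl fun j _ => by simp [mul_assoc]

/-- The relation `hrel` of `sym_galois`, directly from a bilinear identity. -/
theorem pairFun_rel (τ₀ : k →+ ZMod p) (w : ℕ) (x x' m m' : J → k)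
    (h : ∑ j, x' j * m j = (w : k) * ∑ j, x j * m' j) :
    pairFun τ₀ x' m = (w : ZMod p) * pairFun τ₀ x m' := by
  rw [pairFun_apply, pairFun_apply, natCast_mul_apply, h]

end Rel

section Equiv

variable {F : IntermediateField ℚ_[p] (Kbar p)} (D : LevelData F)
variable {k : Type*} [Field k] [Finite k] [CharP k p] {J : Type*} [Fintype J]
variable {ζ : Kbar p}

/-- Inertial equivariance of the symbol map. -/
theorem symHom_inertial (hζ : IsPrimRoot ζ) (hζF : ζ ∈ F) (hK : D.KFacts) (τ₀ : k →+ ZMod p)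
    (β : Gp p → (J → k)) (i : ℕ) (h : D.LevAll ζ β i) (hi1 : 1 ≤ i) (hie : D.e ≤ i)
    (hiT : i < D.T) (hip : ¬ p ∣ i)
    (g : Gp p) (w : ℕ) (hw : g ζ = ζ ^ w) (hg : ∀ x ∈ F, g x ∈ F) (hin : IsInertial p g)
    (x x' : J → k)
    (hrel : ∀ τ ∈ F.fixingSubgroup,
      pairFun τ₀ x' (β τ) = (w : ZMod p) * pairFun τ₀ x (β (g⁻¹ * τ * g))) :
    symHom D hζ hζF hK τ₀ β i h hi1 hie hiT hip x' =
      D.theta g ^ i * symHom D hζ hζF hK τ₀ β i h hi1 hie hiT hip x := by
  obtain ⟨a, ha, hk⟩ := h (pairFun τ₀ x)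
  show D.sym ζ β i h (pairFun τ₀ x') = D.theta g ^ i * D.sym ζ β i h (pairFun τ₀ x)
  rw [D.sym_galois hζ hζF hK h hi1 hie hiT hip g w hw hg (pairFun τ₀ x) (pairFun τ₀ x') hrel ha hk,
    D.lev_conj_inertial hg hin ha, D.sym_spec hζ hK h hi1 hie hiT hip (pairFun τ₀ x) ha hk]

/-- Frobenius equivariance of the symbol map. -/
theorem symHom_frob (hζ : IsPrimRoot ζ) (hζF : ζ ∈ F) (hK : D.KFacts) (τ₀ : k →+ ZMod p)
    (β : Gp p → (J → k)) (i : ℕ) (h : D.LevAll ζ β i) (hi1 : 1 ≤ i) (hie : D.e ≤ i)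
    (hiT : i < D.T) (hip : ¬ p ∣ i)
    (g : Gp p) (w : ℕ) (hw : g ζ = ζ ^ w) (hg : ∀ x ∈ F, g x ∈ F) (hfr : IsFrobLiftOn p F g)
    (x x' : J → k)
    (hrel : ∀ τ ∈ F.fixingSubgroup,
      pairFun τ₀ x' (β τ) = (w : ZMod p) * pairFun τ₀ x (β (g⁻¹ * τ * g))) :
    symHom D hζ hζF hK τ₀ β i h hi1 hie hiT hip x' =
      D.theta g ^ i * symHom D hζ hζF hK τ₀ β i h hi1 hie hiT hip x ^ p := by
  obtain ⟨a, ha, hk⟩ := h (pairFun τ₀ x)
  show D.sym ζ β i h (pairFun τ₀ x') = D.theta g ^ i * D.sym ζ β i h (pairFun τ₀ x) ^ p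
  rw [D.sym_galois hζ hζF hK h hi1 hie hiT hip g w hw hg (pairFun τ₀ x) (pairFun τ₀ x') hrel ha hk,
    D.lev_conj_frob hg hfr ha, D.sym_spec hζ hK h hi1 hie hiT hip (pairFun τ₀ x) ha hk]

end Equiv

section HSet

variable {k : Type*} [Field k] [Finite k] {J : Type*} [Fintype J] {κ : Type*} [Field κ]

/-- The diagonal action `x ↦ (u j * x j)_j` on `J → k`. -/
def diagHom (u : J → k) : (J → k) →+ (J → k) where
  toFun x := fun j => u j * x j
  map_zero' := by funext j; simp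
  map_add' x y := by funext j; simp [mul_add]

@[simp] theorem diagHom_apply (u x : J → k) (j : J) : diagHom u x j = u j * x j := rfl

theorem diagHom_basis [DecidableEq J] (u : J → k) (j : J) (x : k) :
    diagHom u (x • Pi.basisFun k J j) = (u j * x) • Pi.basisFun k J j := by
  funext j'
  simp only [diagHom_apply, Pi.smul_apply, Pi.basisFun_apply, smul_eq_mul]
  by_cases h : j' = j
  · subst h; simp
  · simp [Pi.single_eq_of_ne h]

variable (p)

/-- The set `𝓗` cut out by an inertial generator acting diagonally by `u` on the coefficients (symbol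
multiplier `t`) and a Frobenius lift acting by `ΦN` (symbol multiplier `s`, `p`-semilinear). -/
def HSet (u : J → k) (ΦN : (J → k) ≃+ (J → k)) (t s : κ) : Set ((J → k) →+ κ) :=
  {A | (∀ x, A (diagHom u x) = t * A x) ∧ (∀ x, A (ΦN x) = s * (A x) ^ p)}

/-- Unmatched level: `𝓗 = {0}`. -/
theorem HSet_eq_zero (u : J → k) (ΦN : (J → k) ≃+ (J → k)) (t s : κ)
    (hun : ∀ j, ∃ g : ℤ[X], aeval (u j) g = 0 ∧ aeval t g ≠ 0) :
    ∀ A ∈ HSet p u ΦN t s, A = 0 := by
  classical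
  intro A hA
  exact CT1MultPoly63.eq_zero_of_all_unmatched (Pi.basisFun k J) u (diagHom u)
    (fun j x => diagHom_basis u j x) t hun A hA.1

/-- The count at any level. -/
theorem HSet_card_le [CharP κ p] (u : J → k) (ΦN : (J → k) ≃+ (J → k)) (t s : κ) (m : J → ℕ)
    (hm : ∀ j, (m j = 0 ∧ ∃ g : ℤ[X], aeval (u j) g = 0 ∧ aeval t g ≠ 0) ∨
      Nat.card (Subring.closure {u j}) ^ m j = Nat.card k) :
    Nat.card (HSet p u ΦN t s) ≤ p ^ (∑ j, m j) := by
  classical
  exact CT1MultPoly63.card_mult_le' p (Pi.basisFun k J) u (diagHom u)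
    (fun j x => diagHom_basis u j x) ΦN t s m hm

/-- The hypothesis `hex` of `LevelInd47.two_cocycle`. -/
theorem HSet_hex [CharP κ p] [Finite κ] (u : J → k) (ΦN : (J → k) ≃+ (J → k)) (t s : κ) (m : J → ℕ)
    (hm : ∀ j, (m j = 0 ∧ ∃ g : ℤ[X], aeval (u j) g = 0 ∧ aeval t g ≠ 0) ∨
      Nat.card (Subring.closure {u j}) ^ m j = Nat.card k)
    (hsum : p ^ (∑ j, m j) ≤ Nat.card k) :
    (HSet p u ΦN t s).Finite ∧ (HSet p u ΦN t s).ncard ≤ Nat.card k := by
  haveI : Finite ((J → k) →+ κ) := DFunLike.finite _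
  refine ⟨Set.toFinite _, ?_⟩
  rw [← Nat.card_coe_set_eq]
  exact (HSet_card_le p u ΦN t s m hm).trans hsum

/-- One matched line `j₀` with `F_p(u j₀)`-degree `m₀`, all other lines unmatched: `#𝓗 ≤ #k`. -/
theorem HSet_hex_of_single [CharP k p] [CharP κ p] [Finite κ] [DecidableEq J] (u : J → k)
    (ΦN : (J → k) ≃+ (J → k)) (t s : κ) (j₀ : J)
    (hun : ∀ j, j ≠ j₀ → ∃ g : ℤ[X], aeval (u j) g = 0 ∧ aeval t g ≠ 0) :
    (HSet p u ΦN t s).Finite ∧ (HSet p u ΦN t s).ncard ≤ Nat.card k := by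
  -- `m₀ = [k : F_p(u j₀)]`
  haveI : Module.Finite (CT1Mult63.closureField (u j₀)) k := Module.Finite.of_finite
  set m₀ := Module.finrank (CT1Mult63.closureField (u j₀)) k with hm₀
  have hcard : Nat.card (Subring.closure {u j₀}) ^ m₀ = Nat.card k := by
    rw [← CT1Mult63.card_closureField]
    exact (Module.natCard_eq_pow_finrank (K := CT1Mult63.closureField (u j₀)) (V := k)).symm
  refine HSet_hex p u ΦN t s (fun j => if j = j₀ then m₀ else 0) (fun j => ?_) ?_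
  · by_cases hj : j = j₀
    · right; subst hj; simpa using hcard
    · left; exact ⟨by simp [hj], hun j hj⟩
  · rw [Finset.sum_ite_eq' Finset.univ j₀, if_pos (Finset.mem_univ _), ← hcard]
    have hp1 : p ≤ Nat.card (Subring.closure {u j₀}) := by
      have : Nat.card (Subring.closure {u j₀}) = Nat.card (CT1Mult63.closureField (u j₀)) :=
        (CT1Mult63.card_closureField (u j₀)).symm
      rw [this]
      let f : Fin p → CT1Mult63.closureField (u j₀) := fun i => ⟨((i : ℕ) : k), natCast_mem _ _⟩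
      have hf : Function.Injective f := by
        intro a b hab
        have h1 : ((a : ℕ) : k) = ((b : ℕ) : k) := congrArg Subtype.val hab
        exact Fin.ext (CharP.natCast_injOn_Iio k p a.2 b.2 h1)
      have := Nat.card_le_card_of_injective f hf
      simpa using this
    exact Nat.pow_le_pow_left hp1 m₀

end HSet

section Mem

variable {F : IntermediateField ℚ_[p] (Kbar p)} (D : LevelData F)
variable {k : Type*} [Field k] [Finite k] [CharP k p] {J : Type*} [Fintype J]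
variable {ζ : Kbar p}

/-- **The symbol maps of an equivariant `β` lie in `𝓗 i`.**  `g₀` inertial, normalising `F`, acting
diagonally by `d` on the coefficients (`β (g₀⁻¹ τ g₀) = d * β τ` on `G_F`), `φ` a Frobenius lift acting by
`R`, and `ΦN` the `ω(φ)`-twisted transpose of `R`. -/
theorem symHom_mem_HSet (hζ : IsPrimRoot ζ) (hζF : ζ ∈ F) (hK : D.KFacts) (τ₀ : k →+ ZMod p)
    (β : Gp p → (J → k)) (i : ℕ) (h : D.LevAll ζ β i) (hi1 : 1 ≤ i) (hie : D.e ≤ i)
    (hiT : i < D.T) (hip : ¬ p ∣ i)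
    (g₀ : Gp p) (w₀ : ℕ) (hw₀ : g₀ ζ = ζ ^ w₀) (hg₀ : ∀ x ∈ F, g₀ x ∈ F) (hin : IsInertial p g₀)
    (d : J → k) (hβg : ∀ τ ∈ F.fixingSubgroup, β (g₀⁻¹ * τ * g₀) = fun j => d j * β τ j)
    (φ : Gp p) (wφ : ℕ) (hwφ : φ ζ = ζ ^ wφ) (hφF : ∀ x ∈ F, φ x ∈ F) (hfr : IsFrobLiftOn p F φ)
    (R : (J → k) → (J → k)) (ΦN : (J → k) ≃+ (J → k))
    (hΦ : ∀ x m : J → k, ∑ j, (ΦN x) j * m j = (wφ : k) * ∑ j, x j * (R m) j)
    (hβφ : ∀ τ ∈ F.fixingSubgroup, β (φ⁻¹ * τ * φ) = R (β τ)) :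
    symHom D hζ hζF hK τ₀ β i h hi1 hie hiT hip ∈
      HSet p (fun j => (w₀ : k) * d j) ΦN (D.theta g₀ ^ i) (D.theta φ ^ i) := by
  refine ⟨fun x => ?_, fun x => ?_⟩
  · refine symHom_inertial D hζ hζF hK τ₀ β i h hi1 hie hiT hip g₀ w₀ hw₀ hg₀ hin x _ ?_
    intro τ hτ
    rw [hβg τ hτ]
    apply pairFun_rel
    rw [Finset.mul_sum]
    refine Finset.sum_congr rfl fun j _ => ?_
    simp only [diagHom_apply]
    ring
  · refine symHom_frob D hζ hζF hK τ₀ β i h hi1 hie hiT hip φ wφ hwφ hφF hfr x _ ?_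
    intro τ hτ
    rw [hβφ τ hτ]
    exact pairFun_rel τ₀ wφ x (ΦN x) (β τ) (R (β τ)) (hΦ x (β τ))

end Mem

end Fermat.Agent.TW.B5.CT4Equiv63
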