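/-
Programme TW (S56), brick B5-CT (the count), leaf "CaseA structure" (helper63, spec helper47 msg 1202 (C)).
Pure group theory / linear algebra, Mathlib only.

`G` a group, `IsI` (inertial) and `IsW` (wild) predicates on `G`, `r : G →* End_k V`, `V` of dimension `2`
over a finite field `k` of characteristic `p`, with NO `G`-stable line, all eigenvalues in `k`,
`r(w)` of `p`-power order for wild `w`, commutators of inertial elements wild, `φ τ φ⁻¹ τ⁻ᵖ` wild
for inertial `τ`, and `G = ⟨φ⟩ · I` modulo `ker r`.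

CONCLUSION (`caseA_structure`): `V = V1 ⊕ V2` (lines), inertia acts on `V_i` by `ψ_i`, `ψ1 ≠ ψ2`,
`r φ` swaps `V1` and `V2`, `ψ2 = ψ1 ^ p`, `ψ1 = ψ2 ^ p` on inertia, and `r w = 1` for wild `w`.
-/
import Mathlib

set_option autoImplicit false
set_option linter.style.haveILetI false
set_option linter.unusedSectionVars false

namespace Fermat.Agent.TW.B5.CaseA63

open Polynomial Module

section Basic

variable {G : Type*} [Group G] {k : Type*} [Field k] {V : Type*} [AddCommGroup V] [Module k V]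
  (r : G →* Module.End k V)

theorem r_mul_inv (g : G) : r g * r g⁻¹ = 1 := by rw [← map_mul, mul_inv_cancel, map_one]

theorem r_inv_mul (g : G) : r g⁻¹ * r g = 1 := by rw [← map_mul, inv_mul_cancel, map_one]

theorem r_inv_apply (g : G) (v : V) : r g⁻¹ (r g v) = v := by
  rw [← Module.End.mul_apply, r_inv_mul, Module.End.one_apply]

theorem r_apply_inv (g : G) (v : V) : r g (r g⁻¹ v) = v := by
  rw [← Module.End.mul_apply, r_mul_inv, Module.End.one_apply]

theorem r_injective (g : G) : Function.Injective (r g) := by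
  intro x y h
  have := congrArg (r g⁻¹) h
  rwa [r_inv_apply, r_inv_apply] at this

theorem r_pow_apply_mem (L : Submodule k V) (g : G) (h : ∀ v ∈ L, r g v ∈ L) (n : ℕ) :
    ∀ v ∈ L, r (g ^ n) v ∈ L := by
  induction n with
  | zero => intro v hv; simpa using hv
  | succ n ih =>
    intro v hv
    rw [pow_succ, map_mul, Module.End.mul_apply]
    exact ih _ (h v hv)

/-- A subspace stable under `φ` and under inertia is `G`-stable. -/
theorem stable_of_gen (IsI : G → Prop) (φ : G)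
    (hgen : ∀ g : G, ∃ (n : ℕ) (τ : G), IsI τ ∧ r g = r (φ ^ n * τ))
    (L : Submodule k V) (hφ : ∀ v ∈ L, r φ v ∈ L) (hI : ∀ τ, IsI τ → ∀ v ∈ L, r τ v ∈ L) :
    ∀ g : G, ∀ v ∈ L, r g v ∈ L := by
  intro g v hv
  obtain ⟨n, τ, hτ, hg⟩ := hgen g
  rw [hg, map_mul, Module.End.mul_apply]
  exact r_pow_apply_mem r L φ hφ n _ (hI τ hτ v hv)

end Basic

section Wild

variable {G : Type*} [Group G] {k : Type*} [Field k] {V : Type*} [AddCommGroup V] [Module k V]
  (r : G →* Module.End k V) (p : ℕ) [Fact p.Prime] [Finite k] [CharP k p] [Module.Finite k V]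

/-- **Step 1.**  The wild part acts trivially: a normal subgroup acting through a `p`-group on a
`2`-dimensional space without stable line acts trivially. -/
theorem wild_trivial (hV : Module.finrank k V = 2)
    (IsW : G → Prop) (hW1 : IsW 1) (hWmul : ∀ w w', IsW w → IsW w' → IsW (w * w'))
    (hWinv : ∀ w, IsW w → IsW w⁻¹) (hWconj : ∀ g w, IsW w → IsW (g * w * g⁻¹))
    (hWp : ∀ w, IsW w → ∃ n : ℕ, r w ^ p ^ n = 1)
    (hirr : ¬ ∃ L : Submodule k V, Module.finrank k L = 1 ∧ ∀ g : G, ∀ v ∈ L, r g v ∈ L) :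
    ∀ w, IsW w → r w = 1 := by
  classical
  haveI : Finite V := Module.finite_of_finite k
  let Wsub : Subgroup G :=
    { carrier := {w | IsW w}
      mul_mem' := fun {a b} ha hb => hWmul a b ha hb
      one_mem' := hW1
      inv_mem' := fun {a} ha => hWinv a ha }
  let P : Subgroup (Module.End k V)ˣ := Wsub.map r.toHomUnits
  have hP : IsPGroup p P := by
    rintro ⟨x, hx⟩
    obtain ⟨w, hw, rfl⟩ := Subgroup.mem_map.1 hx
    obtain ⟨n, hn⟩ := hWp w hw
    refine ⟨n, ?_⟩
    apply Subtype.ext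
    apply Units.ext
    simpa using hn
  -- `p ∣ |V|`
  have hpV : p ∣ Nat.card V := by
    have h1 : Nat.card V = Nat.card k ^ Module.finrank k V := Module.natCard_eq_pow_finrank
    have h2 : p ∣ Nat.card k := by
      haveI := Fintype.ofFinite k
      rw [Nat.card_eq_fintype_card, ← CharP.cast_eq_zero_iff k p]
      exact Nat.cast_card_eq_zero k
    rw [h1, hV]
    exact dvd_pow h2 (by norm_num)
  have h0 : (0 : V) ∈ MulAction.fixedPoints P V := by
    intro g
    exact smul_zero g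
  obtain ⟨b, hb, hb0⟩ := hP.exists_fixed_point_of_prime_dvd_card_of_fixed_point V hpV h0
  -- the fixed space
  let F : Submodule k V :=
    { carrier := {v | ∀ w, IsW w → r w v = v}
      add_mem' := fun {a b} ha hb w hw => by rw [map_add, ha w hw, hb w hw]
      zero_mem' := fun w _ => map_zero _
      smul_mem' := fun c v hv w hw => by rw [map_smul, hv w hw] }
  have hbF : b ∈ F := by
    intro w hw
    have := hb ⟨r.toHomUnits w, Subgroup.mem_map_of_mem _ hw⟩
    exact this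
  have hFstable : ∀ g : G, ∀ v ∈ F, r g v ∈ F := by
    intro g v hv w hw
    have h1 : w * g = g * (g⁻¹ * w * g⁻¹⁻¹) := by group
    have h2 : r w (r g v) = r (w * g) v := by rw [map_mul, Module.End.mul_apply]
    rw [h2, h1, map_mul, Module.End.mul_apply, hv _ (hWconj g⁻¹ w hw)]
  have hFne : F ≠ ⊥ := by
    intro h
    have : b ∈ (⊥ : Submodule k V) := h ▸ hbF
    exact hb0 ((Submodule.mem_bot k).1 this).symm
  have hF1 : 1 ≤ Module.finrank k F := Submodule.one_le_finrank_iff.2 hFne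
  have hF2 : Module.finrank k F ≤ 2 := hV ▸ Submodule.finrank_le F
  have hFtop : F = ⊤ := by
    apply Submodule.eq_top_of_finrank_eq
    rw [hV]
    rcases Nat.lt_or_ge (Module.finrank k F) 2 with h | h
    · exact absurd ⟨F, by omega, hFstable⟩ hirr
    · omega
  intro w hw
  ext v
  have : v ∈ F := hFtop ▸ Submodule.mem_top
  simpa using this w hw

end Wild

section Scalar

variable {G : Type*} [Group G] {k : Type*} [Field k] {V : Type*} [AddCommGroup V] [Module k V]
  (r : G →* Module.End k V) (p : ℕ) [Fact p.Prime] [CharP k p] [Module.Finite k V]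

omit [Fact p.Prime] [CharP k p] [Module.Finite k V] in
/-- `(a + N) ^ (n + 1) = a ^ (n + 1) + (n + 1) • (a ^ n * N)` for `a` a scalar and `N * N = 0`. -/
theorem scalar_add_nil_pow (a : k) (N : Module.End k V) (hN : N * N = 0) (n : ℕ) :
    (algebraMap k (Module.End k V) a + N) ^ (n + 1) =
      algebraMap k (Module.End k V) (a ^ (n + 1)) + (n + 1 : ℕ) • (algebraMap k (Module.End k V) (a ^ n) * N) := by
  induction n with
  | zero => simp
  | succ n ih =>
    rw [pow_succ, ih, add_mul, mul_add, mul_add, ← map_mul, ← pow_succ]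
    have h1 : ((n + 1 : ℕ) • (algebraMap k (Module.End k V) (a ^ n) * N)) * N = 0 := by
      rw [smul_mul_assoc, mul_assoc, hN, mul_zero, smul_zero]
    have h2 : ((n + 1 : ℕ) • (algebraMap k (Module.End k V) (a ^ n) * N)) * algebraMap k (Module.End k V) a =
        (n + 1 : ℕ) • (algebraMap k (Module.End k V) (a ^ (n + 1)) * N) := by
      rw [smul_mul_assoc, mul_assoc, ← Algebra.commutes a N, ← mul_assoc, ← map_mul, ← pow_succ]
    rw [h1, h2, add_zero, add_assoc, ← succ_nsmul']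

omit [Module.Finite k V] in
/-- In characteristic `p`: `(a + N) ^ p = a ^ p` for `a` scalar, `N * N = 0`. -/
theorem scalar_add_nil_pow_char (a : k) (N : Module.End k V) (hN : N * N = 0) :
    (algebraMap k (Module.End k V) a + N) ^ p = algebraMap k (Module.End k V) (a ^ p) := by
  obtain ⟨n, hn⟩ : ∃ n, p = n + 1 := ⟨p - 1, (Nat.succ_pred_eq_of_pos (Fact.out : p.Prime).pos).symm⟩
  rw [hn, scalar_add_nil_pow a N hN n, ← hn]
  have : (p : ℕ) • (algebraMap k (Module.End k V) (a ^ n) * N) = 0 := by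
    rw [← Nat.cast_smul_eq_nsmul k, CharP.cast_eq_zero, zero_smul]
  rw [this, add_zero]

omit [Fact p.Prime] [CharP k p] in
/-- Cayley–Hamilton for a split characteristic polynomial of degree `2`. -/
theorem mul_eq_zero_of_charpoly (f : Module.End k V) (α β : k)
    (hcp : LinearMap.charpoly f = (X - C α) * (X - C β)) :
    (f - algebraMap k (Module.End k V) α) * (f - algebraMap k (Module.End k V) β) = 0 := by
  have h := LinearMap.aeval_self_charpoly f
  rw [hcp] at h
  simpa using h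

/-- **Step B.**  An element with a double eigenvalue which is conjugate to its `p`-th power is scalar. -/
theorem scalar_of_double (φ τ : G) (hrel : r φ * r τ = r τ ^ p * r φ) (α : k)
    (hcp : LinearMap.charpoly (r τ) = (X - C α) * (X - C α)) :
    r τ = algebraMap k (Module.End k V) (α ^ p) := by
  set N := r τ - algebraMap k (Module.End k V) α with hN
  have hNN : N * N = 0 := mul_eq_zero_of_charpoly (r τ) α α hcp
  have h1 : r τ = algebraMap k (Module.End k V) α + N := by rw [hN]; abel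
  have h2 : r τ ^ p = algebraMap k (Module.End k V) (α ^ p) := by
    rw [h1]; exact scalar_add_nil_pow_char p α N hNN
  rw [h2, Algebra.commutes] at hrel
  -- cancel `r φ`
  have := congrArg (fun X => r φ⁻¹ * X) hrel
  simp only [← mul_assoc, r_inv_mul, one_mul] at this
  exact this

end Scalar

section Eigen

variable {k : Type*} [Field k] {V : Type*} [AddCommGroup V] [Module k V] [Module.Finite k V]

/-- A split characteristic polynomial gives an eigenvector. -/
theorem exists_eigenvector (f : Module.End k V) (α β : k)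
    (hcp : LinearMap.charpoly f = (X - C α) * (X - C β)) : ∃ v : V, v ≠ 0 ∧ f v = α • v := by
  have h1 : f.HasEigenvalue α := by
    rw [Module.End.hasEigenvalue_iff_isRoot_charpoly, hcp, IsRoot.def]
    simp
  obtain ⟨v, hv⟩ := h1.exists_hasEigenvector
  exact ⟨v, hv.2, hv.apply_eq_smul⟩

/-- **Step D.**  Two distinct eigenvalues in dimension `2`: the eigenspaces are complementary lines. -/
theorem eigen_decomposition (hV : Module.finrank k V = 2) (f : Module.End k V) (α β : k) (hαβ : α ≠ β)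
    (hcp : LinearMap.charpoly f = (X - C α) * (X - C β)) :
    Module.finrank k (Module.End.eigenspace f α) = 1 ∧
      Module.finrank k (Module.End.eigenspace f β) = 1 ∧
      IsCompl (Module.End.eigenspace f α) (Module.End.eigenspace f β) := by
  set V1 := Module.End.eigenspace f α
  set V2 := Module.End.eigenspace f β
  have hcp' : LinearMap.charpoly f = (X - C β) * (X - C α) := by rw [hcp, mul_comm]
  obtain ⟨v1, hv1, hfv1⟩ := exists_eigenvector f α β hcp
  obtain ⟨v2, hv2, hfv2⟩ := exists_eigenvector f β α hcp'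
  have hV1 : V1 ≠ ⊥ := fun h => hv1 ((Submodule.mem_bot k).1 (h ▸ Module.End.mem_eigenspace_iff.2 hfv1))
  have hV2 : V2 ≠ ⊥ := fun h => hv2 ((Submodule.mem_bot k).1 (h ▸ Module.End.mem_eigenspace_iff.2 hfv2))
  have hdisj : V1 ⊓ V2 = ⊥ := by
    rw [eq_bot_iff]
    intro x hx
    have h1 := Module.End.mem_eigenspace_iff.1 hx.1
    have h2 := Module.End.mem_eigenspace_iff.1 hx.2
    rw [h1] at h2
    have h3 : (α - β) • x = 0 := by rw [sub_smul, h2, sub_self]
    rcases smul_eq_zero.1 h3 with h | h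
    · exact absurd (sub_eq_zero.1 h) hαβ
    · exact (Submodule.mem_bot k).2 h
  have h1 : 1 ≤ Module.finrank k V1 := Submodule.one_le_finrank_iff.2 hV1
  have h2 : 1 ≤ Module.finrank k V2 := Submodule.one_le_finrank_iff.2 hV2
  have h3 := Submodule.finrank_sup_add_finrank_inf_eq V1 V2
  rw [hdisj, finrank_bot, add_zero] at h3
  have h4 : Module.finrank k ↥(V1 ⊔ V2) ≤ 2 := hV ▸ Submodule.finrank_le _
  refine ⟨by omega, by omega, ⟨disjoint_iff.2 hdisj, codisjoint_iff.2 ?_⟩⟩
  apply Submodule.eq_top_of_finrank_eq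
  rw [hV]; omega

omit [Module.Finite k V] in
/-- **Step F.**  With two complementary eigenlines for distinct eigenvalues, every eigenvector lies in
one of them. -/
theorem eigenvector_mem (f : Module.End k V) (α β : k) (hαβ : α ≠ β)
    (hc : IsCompl (Module.End.eigenspace f α) (Module.End.eigenspace f β)) (x : V) (c : k)
    (hx : f x = c • x) : x ∈ Module.End.eigenspace f α ∨ x ∈ Module.End.eigenspace f β := by
  have hx' : x ∈ Module.End.eigenspace f α ⊔ Module.End.eigenspace f β := by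
    rw [hc.sup_eq_top]; exact Submodule.mem_top
  obtain ⟨a, ha, b, hb, rfl⟩ := Submodule.mem_sup.1 hx'
  have ha' := Module.End.mem_eigenspace_iff.1 ha
  have hb' := Module.End.mem_eigenspace_iff.1 hb
  rw [map_add, ha', hb', smul_add] at hx
  -- `(α - c) a = (c - β) b`
  have h1 : (α - c) • a = (c - β) • b := by
    rw [sub_smul, sub_smul, sub_eq_sub_iff_add_eq_add]
    rw [hx]; abel
  have h2 : (α - c) • a ∈ Module.End.eigenspace f α ⊓ Module.End.eigenspace f β :=
    ⟨Submodule.smul_mem _ _ ha, h1 ▸ Submodule.smul_mem _ _ hb⟩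
  rw [hc.inf_eq_bot, Submodule.mem_bot] at h2
  rcases smul_eq_zero.1 h2 with h | h
  · -- `c = α`, so `b = 0`
    have hcα : c = α := (sub_eq_zero.1 h).symm
    rw [h2] at h1
    rcases smul_eq_zero.1 h1.symm with h' | h'
    · exact absurd (hcα ▸ sub_eq_zero.1 h') hαβ
    · left; rw [h', add_zero]; exact ha
  · right; rw [h, zero_add]; exact hb

end Eigen

section Main

variable {G : Type*} [Group G] {k : Type*} [Field k] {V : Type*} [AddCommGroup V] [Module k V]
  (r : G →* Module.End k V) (p : ℕ) [Fact p.Prime] [Finite k] [CharP k p] [Module.Finite k V]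

omit [Finite k] [Module.Finite k V] in
theorem exists_generator (L : Submodule k V) (h : Module.finrank k L = 1) :
    ∃ v ∈ L, v ≠ 0 ∧ ∀ w ∈ L, ∃ c : k, w = c • v := by
  obtain ⟨v, hv0, hv⟩ := finrank_eq_one_iff'.1 h
  refine ⟨v, v.2, fun h0 => hv0 (Subtype.ext h0), fun w hw => ?_⟩
  obtain ⟨c, hc⟩ := hv ⟨w, hw⟩
  exact ⟨c, by rw [← Subtype.coe_mk w hw, ← hc]; rfl⟩

omit [Finite k] [Module.Finite k V] in
theorem pow_apply_eigen (f : Module.End k V) (x : V) (c : k) (hx : f x = c • x) (n : ℕ) :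
    (f ^ n) x = c ^ n • x := by
  induction n with
  | zero => simp
  | succ n ih => rw [pow_succ, Module.End.mul_apply, hx, map_smul, ih, smul_smul, ← pow_succ']

omit [Finite k] [Module.Finite k V] in
/-- Eigencharacters are multiplicative and non-vanishing (for the consumer). -/
theorem eigenchar_mul (ψ : G → k) (v : V) (hv : v ≠ 0) (σ τ : G) (hσ : r σ v = ψ σ • v)
    (hτ : r τ v = ψ τ • v) (hστ : r (σ * τ) v = ψ (σ * τ) • v) : ψ (σ * τ) = ψ σ * ψ τ := by
  rw [map_mul, Module.End.mul_apply, hτ, map_smul, hσ, smul_smul, mul_comm] at hστ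
  exact (smul_left_injective k hv hστ).symm

omit [Finite k] [Module.Finite k V] in
theorem eigenchar_ne_zero (ψ : G → k) (v : V) (hv : v ≠ 0) (τ : G) (hτ : r τ v = ψ τ • v) :
    ψ τ ≠ 0 := by
  intro h0
  rw [h0, zero_smul] at hτ
  exact hv (r_injective r τ (hτ.trans (map_zero _).symm))

/-- **CaseA structure.**  See the header of this file. -/
theorem caseA_structure (hV : Module.finrank k V = 2)
    (IsI : G → Prop) (hIconj : ∀ g τ, IsI τ → IsI (g * τ * g⁻¹))
    (IsW : G → Prop) (hW1 : IsW 1) (hWmul : ∀ w w', IsW w → IsW w' → IsW (w * w'))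
    (hWinv : ∀ w, IsW w → IsW w⁻¹) (hWconj : ∀ g w, IsW w → IsW (g * w * g⁻¹))
    (hWp : ∀ w, IsW w → ∃ n : ℕ, r w ^ p ^ n = 1)
    (hcomm : ∀ σ τ, IsI σ → IsI τ → IsW (σ * τ * σ⁻¹ * τ⁻¹))
    (φ : G) (hφ : ∀ τ, IsI τ → IsW (φ * τ * φ⁻¹ * (τ ^ p)⁻¹))
    (hgen : ∀ g : G, ∃ (n : ℕ) (τ : G), IsI τ ∧ r g = r (φ ^ n * τ))
    (hsplit : ∀ g : G, ∃ α β : k, LinearMap.charpoly (r g) = (X - C α) * (X - C β))
    (hirr : ¬ ∃ L : Submodule k V, Module.finrank k L = 1 ∧ ∀ g : G, ∀ v ∈ L, r g v ∈ L) :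
    ∃ (V1 V2 : Submodule k V) (ψ1 ψ2 : G → k),
      Module.finrank k V1 = 1 ∧ Module.finrank k V2 = 1 ∧ IsCompl V1 V2 ∧
      (∀ τ, IsI τ → ∀ v ∈ V1, r τ v = ψ1 τ • v) ∧
      (∀ τ, IsI τ → ∀ v ∈ V2, r τ v = ψ2 τ • v) ∧
      (∃ τ, IsI τ ∧ ψ1 τ ≠ ψ2 τ) ∧
      (∀ v ∈ V1, r φ v ∈ V2) ∧ (∀ v ∈ V2, r φ v ∈ V1) ∧
      (∀ τ, IsI τ → ψ2 τ = ψ1 τ ^ p) ∧ (∀ τ, IsI τ → ψ1 τ = ψ2 τ ^ p) ∧
      (∀ w, IsW w → r w = 1) := by
  classical
  have hW := wild_trivial r p hV IsW hW1 hWmul hWinv hWconj hWp hirr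
  -- commutativity on inertia
  have hcommr : ∀ σ τ, IsI σ → IsI τ → r σ * r τ = r τ * r σ := by
    intro σ τ hσ hτ
    have h1 : σ * τ = (σ * τ * σ⁻¹ * τ⁻¹) * (τ * σ) := by group
    rw [← map_mul, h1, map_mul, hW _ (hcomm σ τ hσ hτ), one_mul, map_mul]
  -- Frobenius relation
  have hfrob : ∀ τ, IsI τ → r φ * r τ = r τ ^ p * r φ := by
    intro τ hτ
    have h1 : φ * τ = (φ * τ * φ⁻¹ * (τ ^ p)⁻¹) * (τ ^ p * φ) := by group
    rw [← map_mul, h1, map_mul, hW _ (hφ τ hτ), one_mul, map_mul, map_pow]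
  -- Step C: a non-scalar inertial element
  have hns : ∃ τ₀, IsI τ₀ ∧ ∀ c : k, r τ₀ ≠ algebraMap k (Module.End k V) c := by
    by_contra hcon
    have hcon' : ∀ τ, IsI τ → ∃ c : k, r τ = algebraMap k (Module.End k V) c := by
      intro τ hτ
      by_contra h
      exact hcon ⟨τ, hτ, fun c hc => h ⟨c, hc⟩⟩
    obtain ⟨α, β, hcp⟩ := hsplit φ
    obtain ⟨v, hv0, hv⟩ := exists_eigenvector (r φ) α β hcp
    apply hirr
    refine ⟨k ∙ v, finrank_span_singleton hv0, ?_⟩
    apply stable_of_gen r IsI φ hgen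
    · intro x hx
      obtain ⟨d, rfl⟩ := Submodule.mem_span_singleton.1 hx
      rw [map_smul, hv]
      exact Submodule.smul_mem _ _ (Submodule.smul_mem _ _ (Submodule.mem_span_singleton_self v))
    · intro τ hτ x hx
      obtain ⟨c, hc⟩ := hcon' τ hτ
      rw [hc, Module.algebraMap_end_apply]
      exact Submodule.smul_mem _ _ hx
  obtain ⟨τ₀, hτ₀, hns⟩ := hns
  obtain ⟨α, β, hcp⟩ := hsplit τ₀
  have hαβ : α ≠ β := by
    rintro rfl
    exact hns _ (scalar_of_double r p φ τ₀ (hfrob τ₀ hτ₀) α hcp)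
  obtain ⟨hf1, hf2, hc⟩ := eigen_decomposition hV (r τ₀) α β hαβ hcp
  -- inertia preserves the eigenlines
  have hpres : ∀ (μ : k) τ, IsI τ → ∀ v ∈ Module.End.eigenspace (r τ₀) μ,
      r τ v ∈ Module.End.eigenspace (r τ₀) μ := by
    intro μ τ hτ v hv
    rw [Module.End.mem_eigenspace_iff] at hv ⊢
    rw [← Module.End.mul_apply, hcommr τ₀ τ hτ₀ hτ, Module.End.mul_apply, hv, map_smul]
  obtain ⟨v1, hv1mem, hv1ne, hv1gen⟩ := exists_generator _ hf1
  obtain ⟨v2, hv2mem, hv2ne, hv2gen⟩ := exists_generator _ hf2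
  have hex1 : ∀ τ, ∃ c : k, IsI τ → r τ v1 = c • v1 := by
    intro τ
    by_cases hτ : IsI τ
    · obtain ⟨c, hc⟩ := hv1gen _ (hpres α τ hτ v1 hv1mem)
      exact ⟨c, fun _ => hc⟩
    · exact ⟨0, fun h => absurd h hτ⟩
  have hex2 : ∀ τ, ∃ c : k, IsI τ → r τ v2 = c • v2 := by
    intro τ
    by_cases hτ : IsI τ
    · obtain ⟨c, hc⟩ := hv2gen _ (hpres β τ hτ v2 hv2mem)
      exact ⟨c, fun _ => hc⟩
    · exact ⟨0, fun h => absurd h hτ⟩
  choose ψ1 hψ1 using hex1
  choose ψ2 hψ2 using hex2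
  have heig1 : ∀ τ, IsI τ → ∀ v ∈ Module.End.eigenspace (r τ₀) α, r τ v = ψ1 τ • v := by
    intro τ hτ v hv
    obtain ⟨d, rfl⟩ := hv1gen v hv
    rw [map_smul, hψ1 τ hτ, smul_comm]
  have heig2 : ∀ τ, IsI τ → ∀ v ∈ Module.End.eigenspace (r τ₀) β, r τ v = ψ2 τ • v := by
    intro τ hτ v hv
    obtain ⟨d, rfl⟩ := hv2gen v hv
    rw [map_smul, hψ2 τ hτ, smul_comm]
  have hψ1τ₀ : ψ1 τ₀ = α := by
    have h1 := hψ1 τ₀ hτ₀
    rw [Module.End.mem_eigenspace_iff.1 hv1mem] at h1
    exact (smul_left_injective k hv1ne h1).symm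
  have hψ2τ₀ : ψ2 τ₀ = β := by
    have h1 := hψ2 τ₀ hτ₀
    rw [Module.End.mem_eigenspace_iff.1 hv2mem] at h1
    exact (smul_left_injective k hv2ne h1).symm
  -- `r φ` maps eigenvectors of all of inertia to eigenvectors of `r τ₀`
  have hconj : ∀ (ψ : G → k) (v : V), (∀ τ, IsI τ → r τ v = ψ τ • v) →
      r τ₀ (r φ v) = ψ (φ⁻¹ * τ₀ * φ⁻¹⁻¹) • r φ v := by
    intro ψ v hv
    have h1 : τ₀ * φ = φ * (φ⁻¹ * τ₀ * φ⁻¹⁻¹) := by group
    rw [← Module.End.mul_apply, ← map_mul, h1, map_mul, Module.End.mul_apply,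
      hv _ (hIconj φ⁻¹ τ₀ hτ₀), map_smul]
  -- the swap
  have hswap1 : r φ v1 ∈ Module.End.eigenspace (r τ₀) β := by
    rcases eigenvector_mem (r τ₀) α β hαβ hc (r φ v1) _ (hconj ψ1 v1 (fun τ hτ => hψ1 τ hτ)) with h | h
    · exfalso
      apply hirr
      refine ⟨_, hf1, stable_of_gen r IsI φ hgen _ ?_ (hpres α)⟩
      intro v hv
      obtain ⟨d, rfl⟩ := hv1gen v hv
      rw [map_smul]
      exact Submodule.smul_mem _ _ h
    · exact h
  have hswap2 : r φ v2 ∈ Module.End.eigenspace (r τ₀) α := by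
    rcases eigenvector_mem (r τ₀) α β hαβ hc (r φ v2) _ (hconj ψ2 v2 (fun τ hτ => hψ2 τ hτ)) with h | h
    · exact h
    · exfalso
      apply hirr
      refine ⟨_, hf2, stable_of_gen r IsI φ hgen _ ?_ (hpres β)⟩
      intro v hv
      obtain ⟨d, rfl⟩ := hv2gen v hv
      rw [map_smul]
      exact Submodule.smul_mem _ _ h
  have hφ1ne : r φ v1 ≠ 0 := fun h => hv1ne (r_injective r φ (h.trans (map_zero _).symm))
  have hφ2ne : r φ v2 ≠ 0 := fun h => hv2ne (r_injective r φ (h.trans (map_zero _).symm))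
  refine ⟨_, _, ψ1, ψ2, hf1, hf2, hc, heig1, heig2, ⟨τ₀, hτ₀, by rw [hψ1τ₀, hψ2τ₀]; exact hαβ⟩,
    ?_, ?_, ?_, ?_, hW⟩
  · intro v hv
    obtain ⟨d, rfl⟩ := hv1gen v hv
    rw [map_smul]
    exact Submodule.smul_mem _ _ hswap1
  · intro v hv
    obtain ⟨d, rfl⟩ := hv2gen v hv
    rw [map_smul]
    exact Submodule.smul_mem _ _ hswap2
  · -- `ψ2 τ = ψ1 τ ^ p`
    intro τ hτ
    have h1 : r φ (r τ v2) = (r τ ^ p) (r φ v2) := by
      rw [← Module.End.mul_apply, hfrob τ hτ, Module.End.mul_apply]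
    rw [hψ2 τ hτ, map_smul, pow_apply_eigen (r τ) (r φ v2) (ψ1 τ) (heig1 τ hτ _ hswap2)] at h1
    exact smul_left_injective k hφ2ne h1
  · -- `ψ1 τ = ψ2 τ ^ p`
    intro τ hτ
    have h1 : r φ (r τ v1) = (r τ ^ p) (r φ v1) := by
      rw [← Module.End.mul_apply, hfrob τ hτ, Module.End.mul_apply]
    rw [hψ1 τ hτ, map_smul, pow_apply_eigen (r τ) (r φ v1) (ψ2 τ) (heig2 τ hτ _ hswap1)] at h1
    exact smul_left_injective k hφ1ne h1

end Main

end Fermat.Agent.TW.B5.CaseA63
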