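/-
Programme TW (S56), brick B5-CT (the count), leaf "CaseA ad0 coordinates" (helper63).

From the output of `CaseA63.caseA_structure` (`V = V1 ⊕ V2`, inertia acts by `ψ1, ψ2`, `r φ` swaps the lines):

* `exists_basis_of_lines` : a basis `b` of `V` with `b 0 ∈ V1`, `b 1 ∈ V2`;
* `coords b X = ![X₀₀, X₀₁, X₁₀]` : coordinates on `End_k V`, injective on trace-zero endomorphisms;
* `coords_conj_diag`, `coords_conj_anti` : conjugation by a diagonal / anti-diagonal automorphism;
* `cocycle_conj` : for a local cocycle `c` and `r τ = 1`: `c (g τ g⁻¹) = lconj r g (c τ)`.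
-/
import Mathlib
import Fermat.Agent.TW.B5.Iface
import Fermat.Agent.TW.B5.CaseA63

set_option autoImplicit false
set_option linter.style.haveILetI false
set_option linter.unusedSectionVars false

namespace Fermat.Agent.TW.B5.CaseAAd63

open Module Fermat.Agent.TW.B5.Iface Fermat.Agent.TW.B5.CaseA63

section Basis

variable {k : Type*} [Field k] {V : Type*} [AddCommGroup V] [Module k V]

/-- A basis adapted to two complementary lines. -/
theorem exists_basis_of_lines (V1 V2 : Submodule k V) (h1 : Module.finrank k V1 = 1)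
    (h2 : Module.finrank k V2 = 1) (hc : IsCompl V1 V2) :
    ∃ b : Basis (Fin 2) k V, b 0 ∈ V1 ∧ b 1 ∈ V2 := by
  obtain ⟨v1, hv1, hv1ne, hv1gen⟩ := exists_generator V1 h1
  obtain ⟨v2, hv2, hv2ne, hv2gen⟩ := exists_generator V2 h2
  have hli : LinearIndependent k ![v1, v2] := by
    rw [LinearIndependent.pair_iff]
    intro s t hst
    have h3 : s • v1 ∈ V1 ⊓ V2 := by
      refine ⟨Submodule.smul_mem _ _ hv1, ?_⟩
      have : s • v1 = -(t • v2) := eq_neg_of_add_eq_zero_left hst
      rw [this]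
      exact Submodule.neg_mem _ (Submodule.smul_mem _ _ hv2)
    rw [hc.inf_eq_bot, Submodule.mem_bot] at h3
    have hs : s = 0 := (smul_eq_zero.1 h3).resolve_right hv1ne
    rw [hs, zero_smul, zero_add] at hst
    exact ⟨hs, (smul_eq_zero.1 hst).resolve_right hv2ne⟩
  have hsp : ⊤ ≤ Submodule.span k (Set.range ![v1, v2]) := by
    intro v _
    have hv : v ∈ V1 ⊔ V2 := by rw [hc.sup_eq_top]; exact Submodule.mem_top
    obtain ⟨a, ha, b, hb, rfl⟩ := Submodule.mem_sup.1 hv
    obtain ⟨s, rfl⟩ := hv1gen a ha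
    obtain ⟨t, rfl⟩ := hv2gen b hb
    have hr : Set.range ![v1, v2] = {v1, v2} := by
      ext x
      simp only [Set.mem_range, Fin.exists_fin_two, Set.mem_insert_iff, Set.mem_singleton_iff]
      simp [eq_comm]
    rw [hr, Submodule.mem_span_pair]
    exact ⟨s, t, rfl⟩
  refine ⟨Basis.mk hli hsp, ?_, ?_⟩
  · rw [Basis.mk_apply]; exact hv1
  · rw [Basis.mk_apply]; exact hv2

end Basis

section Coords

variable {k : Type*} [Field k] {V : Type*} [AddCommGroup V] [Module k V] (b : Basis (Fin 2) k V)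

/-- The matrix entry `X i j` of `X` in the basis `b`. -/
noncomputable def entry (i j : Fin 2) : Module.End k V →ₗ[k] k where
  toFun X := b.repr (X (b j)) i
  map_add' X Y := by simp
  map_smul' a X := by simp

theorem entry_apply (i j : Fin 2) (X : Module.End k V) : entry b i j X = b.repr (X (b j)) i := rfl

/-- `X (b j) = X₀ⱼ • b 0 + X₁ⱼ • b 1`. -/
theorem apply_basis (X : Module.End k V) (j : Fin 2) :
    X (b j) = entry b 0 j X • b 0 + entry b 1 j X • b 1 := by
  conv_lhs => rw [← b.sum_repr (X (b j))]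
  rw [Fin.sum_univ_two]
  rfl

/-- If `Y (b j) = x • b 0 + y • b 1` then the entries of `Y` in column `j` are `x, y`. -/
theorem entry_of_apply (Y : Module.End k V) (j : Fin 2) (x y : k)
    (h : Y (b j) = x • b 0 + y • b 1) : entry b 0 j Y = x ∧ entry b 1 j Y = y := by
  rw [entry_apply, entry_apply, h]
  simp

/-- The coordinates `(X₀₀, X₀₁, X₁₀)`. -/
noncomputable def coords : Module.End k V →ₗ[k] (Fin 3 → k) :=
  LinearMap.pi ![entry b 0 0, entry b 0 1, entry b 1 0]

theorem coords_apply (X : Module.End k V) :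
    coords b X = ![entry b 0 0 X, entry b 0 1 X, entry b 1 0 X] := by
  funext i
  fin_cases i <;> rfl

theorem coords_zero (X : Module.End k V) : coords b X 0 = entry b 0 0 X := rfl

theorem coords_one (X : Module.End k V) : coords b X 1 = entry b 0 1 X := rfl

theorem coords_two (X : Module.End k V) : coords b X 2 = entry b 1 0 X := rfl

theorem trace_eq (X : Module.End k V) :
    LinearMap.trace k V X = entry b 0 0 X + entry b 1 1 X := by
  rw [LinearMap.trace_eq_matrix_trace k b, Matrix.trace_fin_two]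
  simp [LinearMap.toMatrix_apply, entry_apply]

/-- `coords` is injective on trace-zero endomorphisms. -/
theorem eq_zero_of_coords (X : Module.End k V) (htr : LinearMap.trace k V X = 0)
    (h : coords b X = 0) : X = 0 := by
  rw [coords_apply] at h
  have h00 : entry b 0 0 X = 0 := by simpa using congrFun h 0
  have h01 : entry b 0 1 X = 0 := by simpa using congrFun h 1
  have h10 : entry b 1 0 X = 0 := by simpa using congrFun h 2
  have h11 : entry b 1 1 X = 0 := by
    rw [trace_eq b, h00, zero_add] at htr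
    exact htr
  apply b.ext
  intro j
  rw [apply_basis b X j]
  fin_cases j <;> simp [h00, h01, h10, h11]

/-- Conjugation by a diagonal automorphism. -/
theorem entry_conj_diag (D Dinv : Module.End k V) (d0 d1 : k)
    (hD0 : D (b 0) = d0 • b 0) (hD1 : D (b 1) = d1 • b 1)
    (hI0 : Dinv (b 0) = d0⁻¹ • b 0) (hI1 : Dinv (b 1) = d1⁻¹ • b 1) (X : Module.End k V) :
    entry b 0 0 (D * X * Dinv) = d0⁻¹ * d0 * entry b 0 0 X ∧
    entry b 1 0 (D * X * Dinv) = d0⁻¹ * d1 * entry b 1 0 X ∧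
    entry b 0 1 (D * X * Dinv) = d1⁻¹ * d0 * entry b 0 1 X ∧
    entry b 1 1 (D * X * Dinv) = d1⁻¹ * d1 * entry b 1 1 X := by
  have hc0 : (D * X * Dinv) (b 0) =
      (d0⁻¹ * d0 * entry b 0 0 X) • b 0 + (d0⁻¹ * d1 * entry b 1 0 X) • b 1 := by
    rw [Module.End.mul_apply, Module.End.mul_apply, hI0, map_smul, map_smul, apply_basis b X 0,
      map_add, map_smul, map_smul, hD0, hD1]
    simp only [smul_add, smul_smul]
    congr 1 <;> congr 1 <;> ring
  have hc1 : (D * X * Dinv) (b 1) =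
      (d1⁻¹ * d0 * entry b 0 1 X) • b 0 + (d1⁻¹ * d1 * entry b 1 1 X) • b 1 := by
    rw [Module.End.mul_apply, Module.End.mul_apply, hI1, map_smul, map_smul, apply_basis b X 1,
      map_add, map_smul, map_smul, hD0, hD1]
    simp only [smul_add, smul_smul]
    congr 1 <;> congr 1 <;> ring
  obtain ⟨h1, h2⟩ := entry_of_apply b _ 0 _ _ hc0
  obtain ⟨h3, h4⟩ := entry_of_apply b _ 1 _ _ hc1
  exact ⟨h1, h2, h3, h4⟩

/-- Conjugation by an anti-diagonal automorphism. -/
theorem entry_conj_anti (S Sinv : Module.End k V) (s t : k)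
    (hS0 : S (b 0) = s • b 1) (hS1 : S (b 1) = t • b 0)
    (hI0 : Sinv (b 0) = t⁻¹ • b 1) (hI1 : Sinv (b 1) = s⁻¹ • b 0) (X : Module.End k V) :
    entry b 0 0 (S * X * Sinv) = t⁻¹ * t * entry b 1 1 X ∧
    entry b 1 0 (S * X * Sinv) = t⁻¹ * s * entry b 0 1 X ∧
    entry b 0 1 (S * X * Sinv) = s⁻¹ * t * entry b 1 0 X ∧
    entry b 1 1 (S * X * Sinv) = s⁻¹ * s * entry b 0 0 X := by
  have hc0 : (S * X * Sinv) (b 0) =
      (t⁻¹ * t * entry b 1 1 X) • b 0 + (t⁻¹ * s * entry b 0 1 X) • b 1 := by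
    rw [Module.End.mul_apply, Module.End.mul_apply, hI0, map_smul, map_smul, apply_basis b X 1,
      map_add, map_smul, map_smul, hS0, hS1]
    simp only [smul_add, smul_smul]
    rw [add_comm]
    congr 1 <;> congr 1 <;> ring
  have hc1 : (S * X * Sinv) (b 1) =
      (s⁻¹ * t * entry b 1 0 X) • b 0 + (s⁻¹ * s * entry b 0 0 X) • b 1 := by
    rw [Module.End.mul_apply, Module.End.mul_apply, hI1, map_smul, map_smul, apply_basis b X 0,
      map_add, map_smul, map_smul, hS0, hS1]
    simp only [smul_add, smul_smul]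
    rw [add_comm]
    congr 1 <;> congr 1 <;> ring
  obtain ⟨h1, h2⟩ := entry_of_apply b _ 0 _ _ hc0
  obtain ⟨h3, h4⟩ := entry_of_apply b _ 1 _ _ hc1
  exact ⟨h1, h2, h3, h4⟩

end Coords

section Rep

variable {G : Type*} [Group G] {k : Type*} [Field k] {V : Type*} [AddCommGroup V] [Module k V]
  (r : G →* Module.End k V) (b : Basis (Fin 2) k V)

/-- The inverse acts by the inverse eigenvalue. -/
theorem inv_apply_of_eigen (g : G) (v w : V) (d : k) (hd : d ≠ 0) (h : r g v = d • w) :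
    r g⁻¹ w = d⁻¹ • v := by
  have h1 := congrArg (r g⁻¹) h
  rw [r_inv_apply, map_smul] at h1
  rw [h1, smul_smul, inv_mul_cancel₀ hd, one_smul]

theorem ne_zero_of_apply_eq_smul (g : G) (v w : V) (hv : v ≠ 0) (d : k) (h : r g v = d • w) :
    d ≠ 0 := by
  intro h0
  rw [h0, zero_smul] at h
  exact hv (r_injective r g (h.trans (map_zero _).symm))

/-- **Inertia on `ad`**: conjugation by a diagonal `r τ` in the coordinates `(X₀₀, X₀₁, X₁₀)`. -/
theorem coords_conj_diag (τ : G) (d0 d1 : k) (h0 : r τ (b 0) = d0 • b 0)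
    (h1 : r τ (b 1) = d1 • b 1) (X : Module.End k V) :
    coords b (r τ * X * r τ⁻¹) =
      ![coords b X 0, d0 / d1 * coords b X 1, d1 / d0 * coords b X 2] := by
  have hd0 := ne_zero_of_apply_eq_smul r τ _ _ (b.ne_zero 0) d0 h0
  have hd1 := ne_zero_of_apply_eq_smul r τ _ _ (b.ne_zero 1) d1 h1
  obtain ⟨e00, e10, e01, -⟩ := entry_conj_diag b (r τ) (r τ⁻¹) d0 d1 h0 h1
    (inv_apply_of_eigen r τ _ _ d0 hd0 h0) (inv_apply_of_eigen r τ _ _ d1 hd1 h1) X
  rw [coords_apply b (r τ * X * r τ⁻¹), e00, e10, e01, coords_zero, coords_one, coords_two]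
  have e1 : d0⁻¹ * d0 * entry b 0 0 X = entry b 0 0 X := by rw [inv_mul_cancel₀ hd0, one_mul]
  have e2 : d1⁻¹ * d0 * entry b 0 1 X = d0 / d1 * entry b 0 1 X := by rw [div_eq_inv_mul]
  have e3 : d0⁻¹ * d1 * entry b 1 0 X = d1 / d0 * entry b 1 0 X := by rw [div_eq_inv_mul]
  rw [e1, e2, e3]

/-- **Frobenius on `ad0`**: conjugation by an anti-diagonal `r φ` in the coordinates, for trace-zero
`X`. -/
theorem coords_conj_anti (φ : G) (s t : k) (h0 : r φ (b 0) = s • b 1)
    (h1 : r φ (b 1) = t • b 0) (X : Module.End k V) (htr : LinearMap.trace k V X = 0) :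
    coords b (r φ * X * r φ⁻¹) =
      ![-coords b X 0, t / s * coords b X 2, s / t * coords b X 1] := by
  have hs := ne_zero_of_apply_eq_smul r φ _ _ (b.ne_zero 0) s h0
  have ht := ne_zero_of_apply_eq_smul r φ _ _ (b.ne_zero 1) t h1
  obtain ⟨e00, e10, e01, -⟩ := entry_conj_anti b (r φ) (r φ⁻¹) s t h0 h1
    (inv_apply_of_eigen r φ _ _ t ht h1) (inv_apply_of_eigen r φ _ _ s hs h0) X
  have h11 : entry b 1 1 X = -entry b 0 0 X := by
    rw [trace_eq b] at htr
    exact eq_neg_of_add_eq_zero_right htr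
  rw [coords_apply b (r φ * X * r φ⁻¹), e00, e10, e01, h11, coords_zero, coords_one, coords_two]
  have e1 : t⁻¹ * t * -entry b 0 0 X = -entry b 0 0 X := by rw [inv_mul_cancel₀ ht, one_mul]
  have e2 : s⁻¹ * t * entry b 1 0 X = t / s * entry b 1 0 X := by rw [div_eq_inv_mul]
  have e3 : t⁻¹ * s * entry b 0 1 X = s / t * entry b 0 1 X := by rw [div_eq_inv_mul]
  rw [e1, e2, e3]

/-- Conjugation preserves the trace. -/
theorem trace_conj (g : G) (X : Module.End k V) :
    LinearMap.trace k V (r g * X * r g⁻¹) = LinearMap.trace k V X := by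
  rw [LinearMap.trace_mul_comm, ← mul_assoc, r_inv_mul, one_mul]

/-- **Cocycles and conjugation.**  For a cocycle `c` and `τ` in the kernel of `r`:
`c (g τ g⁻¹) = g · c τ`. -/
theorem cocycle_conj (c : G → Module.End k V)
    (hc : ∀ σ τ : G, c (σ * τ) = c σ + r σ * c τ * r σ⁻¹) (g τ : G) (hτ : r τ = 1) :
    c (g * τ * g⁻¹) = r g * c τ * r g⁻¹ := by
  have hc1 : c 1 = 0 := by
    have := hc 1 1
    simpa using this
  have hginv : r g * c g⁻¹ * r g⁻¹ = -c g := by
    have := hc g g⁻¹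
    rw [mul_inv_cancel, hc1] at this
    exact (neg_eq_of_add_eq_zero_right this.symm).symm
  have hτinv : r τ⁻¹ = 1 := by
    have := r_inv_mul r τ
    rwa [hτ, mul_one] at this
  rw [hc (g * τ) g⁻¹, hc g τ, mul_inv_rev, map_mul, map_mul, hτ, hτinv, mul_one, one_mul, hginv]
  abel

/-- On the kernel of `r` a cocycle is additive. -/
theorem cocycle_add_of_ker (c : G → Module.End k V)
    (hc : ∀ σ τ : G, c (σ * τ) = c σ + r σ * c τ * r σ⁻¹) (σ τ : G) (hσ : r σ = 1) :
    c (σ * τ) = c σ + c τ := by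
  have hσinv : r σ⁻¹ = 1 := by
    have := r_inv_mul r σ
    rwa [hσ, mul_one] at this
  rw [hc, hσ, hσinv, one_mul, mul_one]

/-- **Inertial equivariance of `β = coords ∘ c`.**  `g` acts diagonally (`d0`, `d1`) on the basis,
`τ ∈ ker r`: the coordinates of `c (g⁻¹ τ g)` are those of `c τ` multiplied by `(1, d1/d0, d0/d1)`. -/
theorem coords_cocycle_conj_diag (c : G → Module.End k V)
    (hc : ∀ σ τ : G, c (σ * τ) = c σ + r σ * c τ * r σ⁻¹) (g : G) (d0 d1 : k)
    (h0 : r g (b 0) = d0 • b 0) (h1 : r g (b 1) = d1 • b 1) (τ : G) (hτ : r τ = 1) :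
    coords b (c (g⁻¹ * τ * g)) =
      fun j => ![1, d1 / d0, d0 / d1] j * coords b (c τ) j := by
  have hd0 := ne_zero_of_apply_eq_smul r g _ _ (b.ne_zero 0) d0 h0
  have hd1 := ne_zero_of_apply_eq_smul r g _ _ (b.ne_zero 1) d1 h1
  have h := cocycle_conj r c hc g⁻¹ τ hτ
  rw [inv_inv] at h
  rw [h]
  have h2 := coords_conj_diag r b g⁻¹ d0⁻¹ d1⁻¹ (inv_apply_of_eigen r g _ _ d0 hd0 h0)
    (inv_apply_of_eigen r g _ _ d1 hd1 h1) (c τ)
  rw [inv_inv] at h2
  rw [h2]
  funext j
  fin_cases j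
  · simp
  · show d0⁻¹ / d1⁻¹ * coords b (c τ) 1 = d1 / d0 * coords b (c τ) 1
    congr 1; field_simp
  · show d1⁻¹ / d0⁻¹ * coords b (c τ) 2 = d0 / d1 * coords b (c τ) 2
    congr 1; field_simp

/-- The action of an anti-diagonal element on the coordinates of `ad0`. -/
def swapAct (s t : k) (m : Fin 3 → k) : Fin 3 → k := ![-m 0, t / s * m 2, s / t * m 1]

/-- **Frobenius equivariance of `β = coords ∘ c`.**  `φ` anti-diagonal (`r φ b0 = s b1`, `r φ b1 = t b0`),
`τ ∈ ker r`, `c` trace-zero valued: `coords (c (φ⁻¹ τ φ)) = swapAct s t (coords (c τ))`. -/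
theorem coords_cocycle_conj_anti (c : G → Module.End k V)
    (hc : ∀ σ τ : G, c (σ * τ) = c σ + r σ * c τ * r σ⁻¹)
    (htr : ∀ σ : G, LinearMap.trace k V (c σ) = 0) (φ : G) (s t : k)
    (h0 : r φ (b 0) = s • b 1) (h1 : r φ (b 1) = t • b 0) (τ : G) (hτ : r τ = 1) :
    coords b (c (φ⁻¹ * τ * φ)) = swapAct s t (coords b (c τ)) := by
  have hs := ne_zero_of_apply_eq_smul r φ _ _ (b.ne_zero 0) s h0
  have ht := ne_zero_of_apply_eq_smul r φ _ _ (b.ne_zero 1) t h1
  have h := cocycle_conj r c hc φ⁻¹ τ hτ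
  rw [inv_inv] at h
  rw [h]
  have h2 := coords_conj_anti r b φ⁻¹ t⁻¹ s⁻¹ (inv_apply_of_eigen r φ _ _ t ht h1)
    (inv_apply_of_eigen r φ _ _ s hs h0) (c τ) (htr τ)
  rw [inv_inv] at h2
  rw [h2, swapAct]
  have e1 : s⁻¹ / t⁻¹ = t / s := by field_simp
  have e2 : t⁻¹ / s⁻¹ = s / t := by field_simp
  rw [e1, e2]

/-- The `w`-twisted transpose of `swapAct`, as an additive equivalence (the `ΦN` of the count). -/
noncomputable def swapDual (s t w : k) (hs : s ≠ 0) (ht : t ≠ 0) (hw : w ≠ 0) :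
    (Fin 3 → k) ≃+ (Fin 3 → k) where
  toFun x := ![w * -x 0, w * (s / t * x 2), w * (t / s * x 1)]
  invFun y := ![-(w⁻¹ * y 0), s / t * (w⁻¹ * y 2), t / s * (w⁻¹ * y 1)]
  left_inv x := by
    funext j
    fin_cases j
    · simp; field_simp
    · simp; field_simp
    · simp; field_simp
  right_inv y := by
    funext j
    fin_cases j
    · simp; field_simp
    · simp; field_simp
    · simp; field_simp
  map_add' x y := by
    funext j
    fin_cases j
    · simp; ring
    · simp; ring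
    · simp; ring

/-- The bilinear identity linking `swapDual` and `swapAct` (hypothesis `hΦ` of `symHom_mem_HSet`). -/
theorem swapDual_pairing (s t w : k) (hs : s ≠ 0) (ht : t ≠ 0) (hw : w ≠ 0) (x m : Fin 3 → k) :
    ∑ j, (swapDual s t w hs ht hw x) j * m j = w * ∑ j, x j * (swapAct s t m) j := by
  simp only [Fin.sum_univ_three, swapDual, swapAct, AddEquiv.coe_mk, Equiv.coe_fn_mk]
  simp
  ring

end Rep

end Fermat.Agent.TW.B5.CaseAAd63
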