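/-
Programme TW (S56), brick B5-CT, a finite-field lemma (helper69, requested by helper47 for helper63).
Mathlib only.

`k` a finite field of characteristic `p`, `u : k` with `u ^ (p ^ 2) = u` and `u ^ p ≠ u`.  Then the
subring generated by `u` is the subfield with `p ^ 2` elements, and `Nat.card k` is a power of `p ^ 2`.
-/
import Mathlib

set_option autoImplicit false

namespace Fermat.Agent.TW.B5.FinField69

open Polynomial

variable {k : Type*} [Field k] [Finite k]

/-- The subring generated by `u` in a finite field is a subfield. -/
def closureField (u : k) : Subfield k :=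
  { Subring.closure {u} with
    inv_mem' := by
      intro x hx
      have hx' : x ∈ Subring.closure ({u} : Set k) := hx
      show x⁻¹ ∈ Subring.closure ({u} : Set k)
      by_cases h0 : x = 0
      · rw [h0, inv_zero]
        exact zero_mem _
      · have := Fintype.ofFinite k
        have h1 : x ^ (Fintype.card k - 1) = 1 := FiniteField.pow_card_sub_one_eq_one x h0
        have hc : 2 ≤ Fintype.card k := Fintype.one_lt_card
        have h2 : x * x ^ (Fintype.card k - 2) = 1 := by
          rw [← pow_succ', show Fintype.card k - 2 + 1 = Fintype.card k - 1 by omega, h1]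
        rw [inv_eq_of_mul_eq_one_right h2]
        exact pow_mem hx' _ }

theorem mem_closureField (u x : k) : x ∈ closureField u ↔ x ∈ Subring.closure {u} := Iff.rfl

theorem card_closureField (u : k) :
    Nat.card (closureField u) = Nat.card (Subring.closure ({u} : Set k)) :=
  Nat.card_congr (Equiv.subtypeEquivRight (fun _ => Iff.rfl))

variable (p : ℕ) [Fact p.Prime] [CharP k p]

/-- **The subfield with `p ^ 2` elements.** -/
theorem card_closure_of_pow (u : k) (h2 : u ^ (p ^ 2) = u) (h1 : u ^ p ≠ u) :
    Nat.card (Subring.closure ({u} : Set k)) = p ^ 2 ∧ ∃ n : ℕ, (p ^ 2) ^ n = Nat.card k := by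
  classical
  have hp : p.Prime := Fact.out
  have := Fintype.ofFinite k
  have huL : u ∈ closureField u := Subring.subset_closure (Set.mem_singleton u)
  have : Fintype (closureField u) := Fintype.ofFinite _
  have : CharP (closureField u) p :=
    RingHom.charP (closureField u).subtype (closureField u).subtype.injective p
  obtain ⟨d, -, hd⟩ := FiniteField.card (closureField u) p
  -- all elements satisfy `x ^ p ^ 2 = x`
  have hall : ∀ x ∈ closureField u, x ^ (p ^ 2) = x := by
    intro x hx
    have hle : Subring.closure ({u} : Set k) ≤ (iterateFrobenius k p 2).eqLocus (RingHom.id k) := by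
      rw [Subring.closure_le, Set.singleton_subset_iff]
      show iterateFrobenius k p 2 u = u
      rw [iterateFrobenius_def, h2]
    have := hle hx
    have h3 : iterateFrobenius k p 2 x = x := this
    rwa [iterateFrobenius_def] at h3
  -- at most `p ^ 2` elements
  have hcardle : Fintype.card (closureField u) ≤ p ^ 2 := by
    have hne : (X ^ p ^ 2 - X : k[X]) ≠ 0 :=
      FiniteField.X_pow_card_pow_sub_X_ne_zero k (by norm_num) hp.one_lt
    have hdeg : (X ^ p ^ 2 - X : k[X]).natDegree = p ^ 2 :=
      FiniteField.X_pow_card_pow_sub_X_natDegree_eq k (by norm_num) hp.one_lt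
    have hsub : Finset.univ.image (Subtype.val : closureField u → k) ⊆
        (X ^ p ^ 2 - X : k[X]).roots.toFinset := by
      intro x hx
      obtain ⟨y, -, rfl⟩ := Finset.mem_image.mp hx
      rw [Multiset.mem_toFinset, mem_roots hne, IsRoot.def, eval_sub, eval_pow, eval_X,
        hall _ y.2, sub_self]
    calc Fintype.card (closureField u)
        = (Finset.univ.image (Subtype.val : closureField u → k)).card := by
          rw [Finset.card_image_of_injective _ Subtype.val_injective, Finset.card_univ]
      _ ≤ (X ^ p ^ 2 - X : k[X]).roots.toFinset.card := Finset.card_le_card hsub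
      _ ≤ Multiset.card (X ^ p ^ 2 - X : k[X]).roots := Multiset.toFinset_card_le _
      _ ≤ (X ^ p ^ 2 - X : k[X]).natDegree := card_roots' _
      _ = p ^ 2 := hdeg
  -- exactly `p ^ 2`
  have hd2 : (d : ℕ) = 2 := by
    have hdle : (d : ℕ) ≤ 2 := by
      rw [hd] at hcardle
      exact (Nat.pow_le_pow_iff_right hp.one_lt).mp hcardle
    have hd1 : (d : ℕ) ≠ 1 := by
      intro hd1
      rw [hd1, pow_one] at hd
      have h3 := FiniteField.pow_card (⟨u, huL⟩ : closureField u)
      rw [hd] at h3
      exact h1 (congrArg Subtype.val h3)
    have hdpos : 0 < (d : ℕ) := d.pos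
    omega
  have hcard : Nat.card (closureField u) = p ^ 2 := by
    rw [Nat.card_eq_fintype_card, hd, hd2]
  refine ⟨by rw [← card_closureField, hcard], Module.finrank (closureField u) k, ?_⟩
  rw [Module.natCard_eq_pow_finrank (K := closureField u) (V := k), hcard]

end Fermat.Agent.TW.B5.FinField69
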