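/-
Programme TW (S56), brick B5-CT (the count), numerical leaf (helper67, for helper47/helper63).

The numerical matching facts of case A of the count.  Common hypotheses:
`p` an odd prime, `1 ≤ m ∣ p + 1`, `e = m (p - 1)`, `j (p + 1) ≡ m [MOD e]`.
Levels `i` with `e ≤ i < e + m`:
* `diag_unmatched`   : `i ≢ j (p + 1) p ^ r  [MOD e]`;
* `off_unique`       : at most one level `i` is matched by some `j a p ^ r`, `a ∈ {2, 2 p}`;
* `off_not_dvd_two`  : if some level is matched by some `j a p ^ r`, `a ∈ {2, 2 p}`, then `m ∤ 2`.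
Mathlib only.
-/
import Mathlib

set_option autoImplicit false

namespace Fermat.Agent.TW.B5.Numeric67

section

variable {p m e j : ℕ}

/-- `m p ≡ m [MOD e]` since `m p - m = e`. -/
theorem mul_prime_modEq (hp : p.Prime) (he : e = m * (p - 1)) : m * p ≡ m [MOD e] := by
  have h1 : 1 ≤ p := hp.one_lt.le
  have h2 : m * p = m + e := by
    rw [he]
    obtain ⟨q, rfl⟩ : ∃ q, p = q + 1 := ⟨p - 1, by omega⟩
    simp only [Nat.add_sub_cancel]
    ring
  rw [h2]
  exact Nat.add_modEq_right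

theorem mul_prime_pow_modEq (hp : p.Prime) (he : e = m * (p - 1)) (r : ℕ) :
    m * p ^ r ≡ m [MOD e] := by
  induction r with
  | zero => simp [Nat.ModEq.refl]
  | succ r ih =>
    have h1 : m * p ^ (r + 1) = m * p ^ r * p := by ring
    rw [h1]
    exact (ih.mul_right p).trans (mul_prime_modEq hp he)

theorem two_mul_le (hp : p.Prime) (hp2 : p ≠ 2) (he : e = m * (p - 1)) :
    2 * m ≤ e := by
  have h3 : 3 ≤ p := by
    have := hp.two_le
    omega
  rw [he]
  calc 2 * m = m * 2 := by ring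
    _ ≤ m * (p - 1) := Nat.mul_le_mul_left m (by omega)

/-- `m (p + 1) = e + 2 m`. -/
theorem mul_succ_eq (hp : p.Prime) (he : e = m * (p - 1)) : m * (p + 1) = e + 2 * m := by
  have h1 : 1 ≤ p := hp.one_lt.le
  rw [he]
  obtain ⟨q, rfl⟩ : ∃ q, p = q + 1 := ⟨p - 1, by omega⟩
  simp only [Nat.add_sub_cancel]
  ring

/-- **(N1)** the diagonal characters are never matched. -/
theorem diag_unmatched (p m e j : ℕ) (hp : p.Prime) (hp2 : p ≠ 2) (_hm : 1 ≤ m) (_hmd : m ∣ p + 1)
    (he : e = m * (p - 1)) (hj : j * (p + 1) ≡ m [MOD e]) (i r : ℕ) (hi : e ≤ i)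
    (hiT : i < e + m) : ¬ i ≡ j * (p + 1) * p ^ r [MOD e] := by
  intro h
  have h2m := two_mul_le hp hp2 he
  have h1 : j * (p + 1) * p ^ r ≡ m [MOD e] :=
    (hj.mul_right (p ^ r)).trans (mul_prime_pow_modEq hp he r)
  obtain ⟨s, rfl⟩ : ∃ s, i = e + s := ⟨i - e, by omega⟩
  have hs : s < m := by omega
  have h3 : e + s ≡ s [MOD e] := Nat.add_modEq_left
  have h4 : s ≡ m [MOD e] := (h3.symm.trans h).trans h1
  have h5 : s = m := h4.eq_of_lt_of_lt (by omega) (by omega)
  omega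

/-- The common reduction: a matched off-diagonal level `i = e + s` has `i (p + 1) ≡ 2 m`. -/
theorem off_modEq (hp : p.Prime) (he : e = m * (p - 1)) (hj : j * (p + 1) ≡ m [MOD e])
    (i r a : ℕ) (ha : a = 2 ∨ a = 2 * p) (h : i ≡ j * a * p ^ r [MOD e]) :
    i * (p + 1) ≡ 2 * m [MOD e] := by
  have h1 : i * (p + 1) ≡ j * a * p ^ r * (p + 1) [MOD e] := h.mul_right _
  refine h1.trans ?_
  rcases ha with rfl | rfl
  · have h2 : j * 2 * p ^ r * (p + 1) = 2 * (j * (p + 1) * p ^ r) := by ring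
    rw [h2]
    exact ((hj.mul_right (p ^ r)).trans (mul_prime_pow_modEq hp he r)).mul_left 2
  · have h2 : j * (2 * p) * p ^ r * (p + 1) = 2 * (j * (p + 1) * p ^ (r + 1)) := by ring
    rw [h2]
    exact ((hj.mul_right (p ^ (r + 1))).trans (mul_prime_pow_modEq hp he (r + 1))).mul_left 2

/-- The exceptional configuration `p = 3`, `i = e` cannot be matched. -/
theorem not_matched_three (hm : 1 ≤ m) (hmd : m ∣ 3 + 1) (he : e = m * (3 - 1))
    (hj : j * (3 + 1) ≡ m [MOD e]) (r a : ℕ) (ha : a = 2 ∨ a = 2 * 3)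
    (h : e ≡ j * a * 3 ^ r [MOD e]) : False := by
  have he2 : e = 2 * m := by rw [he]; ring
  -- `2 m ∣ 2 j 3 ^ r''`
  have h1 : e ∣ j * a * 3 ^ r := by
    have : (j * a * 3 ^ r) % e = 0 := by
      have := h.symm
      rw [Nat.ModEq, Nat.mod_self] at this
      exact this
    exact Nat.dvd_of_mod_eq_zero this
  have h2 : ∃ r'', j * a * 3 ^ r = 2 * (j * 3 ^ r'') := by
    rcases ha with rfl | rfl
    · exact ⟨r, by ring⟩
    · exact ⟨r + 1, by ring⟩
  obtain ⟨r'', hr''⟩ := h2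
  rw [hr'', he2] at h1
  have h3 : m ∣ j * 3 ^ r'' := Nat.dvd_of_mul_dvd_mul_left (by norm_num) h1
  have hcop : Nat.Coprime m (3 ^ r'') := by
    apply Nat.Coprime.pow_right
    have h4 : Nat.Coprime 4 3 := by norm_num
    exact Nat.Coprime.coprime_dvd_left hmd h4
  have h5 : m ∣ j := hcop.dvd_of_dvd_mul_right h3
  obtain ⟨t, rfl⟩ := h5
  rw [he2] at hj
  have h6 : m * t * (3 + 1) = 2 * m * (2 * t) := by ring
  rw [h6] at hj
  have h7 : 2 * m * (2 * t) ≡ 0 [MOD 2 * m] := by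
    rw [Nat.modEq_zero_iff_dvd]
    exact Dvd.intro _ rfl
  have h8 : m ≡ 0 [MOD 2 * m] := hj.symm.trans h7
  rw [Nat.modEq_zero_iff_dvd] at h8
  have := Nat.le_of_dvd (by omega) h8
  omega

/-- The key equation: a matched off-diagonal level `i = e + s` has `s (p + 1) = 2 m`. -/
theorem off_key (hp : p.Prime) (hp2 : p ≠ 2) (hm : 1 ≤ m) (hmd : m ∣ p + 1)
    (he : e = m * (p - 1)) (hj : j * (p + 1) ≡ m [MOD e]) (i r a : ℕ)
    (ha : a = 2 ∨ a = 2 * p) (hi : e ≤ i) (hiT : i < e + m)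
    (h : i ≡ j * a * p ^ r [MOD e]) : (i - e) * (p + 1) = 2 * m := by
  have h2m := two_mul_le hp hp2 he
  have hms := mul_succ_eq hp he
  have h1 := off_modEq hp he hj i r a ha h
  obtain ⟨s, rfl⟩ : ∃ s, i = e + s := ⟨i - e, by omega⟩
  have hs : s < m := by omega
  rw [Nat.add_sub_cancel_left]
  have h2 : (e + s) * (p + 1) = e * (p + 1) + s * (p + 1) := by ring
  have h3 : e * (p + 1) + s * (p + 1) ≡ s * (p + 1) [MOD e] := by
    have : e * (p + 1) ≡ 0 [MOD e] := by
      rw [Nat.modEq_zero_iff_dvd]; exact Dvd.intro _ rfl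
    simpa using this.add_right (s * (p + 1))
  rw [h2] at h1
  have h4 : s * (p + 1) ≡ 2 * m [MOD e] := h3.symm.trans h1
  have h5 : s * (p + 1) < e + 2 * m := by
    rw [← hms]
    exact Nat.mul_lt_mul_of_pos_right hs (by omega)
  rcases Nat.lt_or_ge (s * (p + 1)) (2 * m) with hlt | hge
  · -- exceptional case
    exfalso
    have h6 : e ∣ 2 * m - s * (p + 1) := (Nat.modEq_iff_dvd' hlt.le).1 h4
    have h7 : e ≤ 2 * m - s * (p + 1) := Nat.le_of_dvd (by omega) h6
    have h8 : s * (p + 1) = 0 := by omega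
    have h9 : e = 2 * m := by omega
    have hs0 : s = 0 := by
      rcases Nat.mul_eq_zero.1 h8 with h | h
      · exact h
      · omega
    have hp3 : p = 3 := by
      have h10 : m * (p - 1) = m * 2 := by rw [← he, h9]; ring
      have h11 : p - 1 = 2 := Nat.eq_of_mul_eq_mul_left (by omega) h10
      omega
    subst hp3 hs0
    exact not_matched_three hm hmd he hj r a ha (by simpa using h)
  · have h6 : e ∣ s * (p + 1) - 2 * m := (Nat.modEq_iff_dvd' hge).1 h4.symm
    have h7 : s * (p + 1) - 2 * m < e := by omega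
    have h8 : s * (p + 1) - 2 * m = 0 := Nat.eq_zero_of_dvd_of_lt h6 h7
    omega

/-- **(N2)** at most one level is matched by the off-diagonal characters. -/
theorem off_unique (p m e j : ℕ) (hp : p.Prime) (hp2 : p ≠ 2) (hm : 1 ≤ m) (hmd : m ∣ p + 1)
    (he : e = m * (p - 1)) (hj : j * (p + 1) ≡ m [MOD e]) (i i' r r' a a' : ℕ)
    (ha : a = 2 ∨ a = 2 * p) (ha' : a' = 2 ∨ a' = 2 * p) (hi : e ≤ i) (hiT : i < e + m)
    (hi' : e ≤ i') (hiT' : i' < e + m) (h : i ≡ j * a * p ^ r [MOD e])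
    (h' : i' ≡ j * a' * p ^ r' [MOD e]) : i = i' := by
  have h1 := off_key hp hp2 hm hmd he hj i r a ha hi hiT h
  have h2 := off_key hp hp2 hm hmd he hj i' r' a' ha' hi' hiT' h'
  have h3 : (i - e) * (p + 1) = (i' - e) * (p + 1) := h1.trans h2.symm
  have h4 : i - e = i' - e := Nat.eq_of_mul_eq_mul_right (by omega) h3
  omega

/-- **(N3)** if some level is matched by an off-diagonal character then `m ∤ 2`. -/
theorem off_not_dvd_two (p m e j : ℕ) (hp : p.Prime) (hp2 : p ≠ 2) (hm : 1 ≤ m) (hmd : m ∣ p + 1)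
    (he : e = m * (p - 1)) (hj : j * (p + 1) ≡ m [MOD e]) (i r a : ℕ)
    (ha : a = 2 ∨ a = 2 * p) (hi : e ≤ i) (hiT : i < e + m)
    (h : i ≡ j * a * p ^ r [MOD e]) : ¬ m ∣ 2 := by
  intro hm2
  have h1 := off_key hp hp2 hm hmd he hj i r a ha hi hiT h
  have hp3 : 3 ≤ p := by
    have := hp.two_le
    omega
  have hmle : m ≤ 2 := Nat.le_of_dvd (by norm_num) hm2
  obtain ⟨s, rfl⟩ : ∃ s, i = e + s := ⟨i - e, by omega⟩
  rw [Nat.add_sub_cancel_left] at h1
  have hs : s < m := by omega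
  interval_cases m
  · -- `m = 1`: `s = 0`
    have : s = 0 := by omega
    subst this
    omega
  · -- `m = 2`: `s = 1`, `p = 3`
    have hs1 : s = 1 := by
      rcases Nat.lt_or_ge s 1 with h0 | h0
      · have : s = 0 := by omega
        subst this
        omega
      · omega
    subst hs1
    have hp3' : p = 3 := by omega
    subst hp3'
    have he4 : e = 4 := by rw [he]
    subst he4
    -- parity
    have h2 : (4 + 1) ≡ j * a * 3 ^ r [MOD 2] := h.of_dvd (by norm_num)
    have h3 : j * a * 3 ^ r ≡ 0 [MOD 2] := by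
      rw [Nat.modEq_zero_iff_dvd]
      rcases ha with rfl | rfl
      · exact ⟨j * 3 ^ r, by ring⟩
      · exact ⟨j * 3 * 3 ^ r, by ring⟩
    have h4 := h2.trans h3
    exact absurd h4 (by decide)

end

end Fermat.Agent.TW.B5.Numeric67
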