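/-
Programme TW (S56), brick B5-CT (the count), leaf CT-4c (helper63): CASE A — the instance of
`LevelInd47.two_cocycle`.

Part 1 (`Count`): the sets `𝓗 i = HSet p (uVec ψ) ΦN (ξ ^ i) s` for the three lines of `ad0` with inertial
eigenvalues `ψ^(p+1), ψ^(2p), ψ^2`: `{0}` at unmatched levels, at most `#k` elements at the matched level.

Part 2 (`Main`): for local cocycles `c₀, c` whose coordinate functions have level `≥ e`:
`c₀ = 0` on `I ∩ G_F` or `c = lam • c₀` on `I ∩ G_F`.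
-/
import Mathlib
import Fermat.Agent.TW.B5.CT4Equiv63
import Fermat.Agent.TW.B5.CaseAAd63
import Fermat.Agent.TW.B5.CT1Conj63
import Fermat.Agent.TW.B5.Numeric67
import Fermat.Agent.TW.B5.FinField69

set_option autoImplicit false
set_option linter.unusedSectionVars false
set_option linter.style.haveILetI false

namespace Fermat.Agent.TW.B5.CT4CaseA63

open Polynomial Fermat.Agent.TW.B5.Iface Fermat.Agent.TW.B5.IfaceLG Fermat.Agent.TW.B5.Kummer47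
  Fermat.Agent.TW.B5.Levels47 Fermat.Agent.TW.B5.LevelInd47 Fermat.Agent.TW.B5.CT4Equiv63
  Fermat.Agent.TW.B5.CaseAAd63

section Count

variable (p : ℕ) [hp : Fact p.Prime] {k κ : Type*} [Field k] [Finite k] [CharP k p]
  [Field κ] [Finite κ] [CharP κ p]

/-- The inertial eigenvalues on the three coordinates of `ad0` (twisted dual side). -/
def uVec (ψ : k) : Fin 3 → k := ![ψ ^ (p + 1), ψ ^ (2 * p), ψ ^ 2]

/-- Level `i` is matched by an off-diagonal character. -/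
def Matched (e j i : ℕ) : Prop := ∃ r a : ℕ, (a = 2 ∨ a = 2 * p) ∧ i ≡ j * a * p ^ r [MOD e]

variable {p}

/-- At an unmatched level in range every coordinate is unmatched. -/
theorem unmatched_all (hp2 : p ≠ 2) (ψ : k) (ξ : κ) (e m j : ℕ) (he0 : e ≠ 0)
    (hξ : ∀ n : ℕ, ξ ^ n = 1 ↔ e ∣ n)
    (hj : ∀ P : ℤ[X], aeval ψ P = 0 → aeval (ξ ^ j) P = 0)
    (hm1 : 1 ≤ m) (hmd : m ∣ p + 1) (he : e = m * (p - 1)) (hJ1 : j * (p + 1) ≡ m [MOD e])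
    (i : ℕ) (hie : e ≤ i) (hiT : i < e + m) (hnm : ¬ Matched p e j i) :
    ∀ l : Fin 3, ∃ g : ℤ[X], aeval (uVec p ψ l) g = 0 ∧ aeval (ξ ^ i) g ≠ 0 := by
  intro l
  fin_cases l
  · exact CT1Conj63.exists_unmatched_poly p ψ e he0 ξ hξ j hj (p + 1) i fun r =>
      Numeric67.diag_unmatched p m e j hp.out hp2 hm1 hmd he hJ1 i r hie hiT
  · exact CT1Conj63.exists_unmatched_poly p ψ e he0 ξ hξ j hj (2 * p) i fun r h =>
      hnm ⟨r, 2 * p, Or.inr rfl, h⟩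
  · exact CT1Conj63.exists_unmatched_poly p ψ e he0 ξ hξ j hj 2 i fun r h =>
      hnm ⟨r, 2, Or.inl rfl, h⟩

/-- At a matched level, `ψ ^ 2` is not in the prime field. -/
theorem pow_two_ne_of_matched (hp2 : p ≠ 2) (ψ : k) (ξ : κ) (e m j : ℕ)
    (hξ : ∀ n : ℕ, ξ ^ n = 1 ↔ e ∣ n)
    (hj : ∀ P : ℤ[X], aeval ψ P = 0 → aeval (ξ ^ j) P = 0) (hψ0 : ψ ≠ 0)
    (hm1 : 1 ≤ m) (hmd : m ∣ p + 1) (he : e = m * (p - 1)) (hJ1 : j * (p + 1) ≡ m [MOD e])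
    (i : ℕ) (hie : e ≤ i) (hiT : i < e + m) (hma : Matched p e j i) :
    (ψ ^ 2) ^ p ≠ ψ ^ 2 := by
  intro hcon
  obtain ⟨r, a, ha, hi⟩ := hma
  have hp1 : 1 ≤ p := hp.out.one_lt.le
  -- `ψ ^ (2 (p - 1)) = 1`, hence `ξ ^ (2 j (p - 1)) = 1`
  have h1 : ψ ^ (2 * (p - 1)) = 1 := by
    have h2 : ψ ^ (2 * (p - 1)) * ψ ^ 2 = 1 * ψ ^ 2 := by
      rw [← pow_add, one_mul, ← hcon, ← pow_mul]
      congr 1
      obtain ⟨q, rfl⟩ : ∃ q, p = q + 1 := ⟨p - 1, by omega⟩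
      simp only [Nat.add_sub_cancel]; ring
    exact mul_right_cancel₀ (pow_ne_zero 2 hψ0) h2
  have h3 : aeval ψ (X ^ (2 * (p - 1)) - 1 : ℤ[X]) = 0 := by simp [h1]
  have h4 := hj _ h3
  have h5 : ξ ^ (j * (2 * (p - 1))) = 1 := by
    have : (ξ ^ j) ^ (2 * (p - 1)) - 1 = 0 := by simpa using h4
    rw [pow_mul]; exact sub_eq_zero.1 this
  have h6 : e ∣ j * (2 * (p - 1)) := (hξ _).1 h5
  -- hence `m ∣ 2 j`
  have hpm1 : 0 < p - 1 := by have := hp.out.two_le; omega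
  have h7 : m ∣ 2 * j := by
    rw [he] at h6
    have : m * (p - 1) ∣ (2 * j) * (p - 1) := by
      convert h6 using 1; ring
    exact Nat.dvd_of_mul_dvd_mul_right hpm1 this
  -- hence `m ∣ i`
  have hme : m ∣ e := ⟨p - 1, he⟩
  have h8 : m ∣ j * a * p ^ r := by
    rcases ha with rfl | rfl
    · have : j * 2 * p ^ r = (2 * j) * p ^ r := by ring
      rw [this]; exact Dvd.dvd.mul_right h7 _
    · have : j * (2 * p) * p ^ r = (2 * j) * (p * p ^ r) := by ring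
      rw [this]; exact Dvd.dvd.mul_right h7 _
  have h9 : m ∣ i := by
    have h10 : i ≡ j * a * p ^ r [MOD m] := hi.of_dvd hme
    exact (Nat.modEq_zero_iff_dvd.1 (h10.trans (Nat.modEq_zero_iff_dvd.2 h8)))
  -- but `(i - e) (p + 1) = 2 m` with `i - e < m`
  have hkey := Numeric67.off_key hp.out hp2 hm1 hmd he hJ1 i r a ha hie hiT hi
  have h11 : m ∣ i - e := Nat.dvd_sub h9 hme
  have h12 : i - e = 0 := Nat.eq_zero_of_dvd_of_lt h11 (by omega)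
  rw [h12, zero_mul] at hkey
  omega

/-- **The count at the matched level**: `#𝓗 ≤ #k`. -/
theorem hex_matched (hp2 : p ≠ 2) (ψ : k) (ξ : κ) (e m j : ℕ) (he0 : e ≠ 0)
    (hξ : ∀ n : ℕ, ξ ^ n = 1 ↔ e ∣ n)
    (hj : ∀ P : ℤ[X], aeval ψ P = 0 → aeval (ξ ^ j) P = 0) (hψ0 : ψ ≠ 0)
    (hψp2 : ψ ^ (p ^ 2) = ψ)
    (hm1 : 1 ≤ m) (hmd : m ∣ p + 1) (he : e = m * (p - 1)) (hJ1 : j * (p + 1) ≡ m [MOD e])
    (i : ℕ) (hie : e ≤ i) (hiT : i < e + m) (hma : Matched p e j i)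
    (ΦN : (Fin 3 → k) ≃+ (Fin 3 → k)) (s : κ) :
    (HSet p (uVec p ψ) ΦN (ξ ^ i) s).Finite ∧
      (HSet p (uVec p ψ) ΦN (ξ ^ i) s).ncard ≤ Nat.card k := by
  have h2 := pow_two_ne_of_matched hp2 ψ ξ e m j hξ hj hψ0 hm1 hmd he hJ1 i hie hiT hma
  have h3 : (ψ ^ 2) ^ (p ^ 2) = ψ ^ 2 := by rw [← pow_mul, mul_comm, pow_mul, hψp2]
  obtain ⟨hc2, n, hn⟩ := FinField69.card_closure_of_pow p (ψ ^ 2) h3 h2
  have h4 : ψ ^ (2 * p) = (ψ ^ 2) ^ p := pow_mul ψ 2 p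
  have h5 : (ψ ^ (2 * p)) ^ p = ψ ^ 2 := by
    rw [h4, ← pow_mul, ← pow_two, h3]
  have h6 : (ψ ^ (2 * p)) ^ p ≠ ψ ^ (2 * p) := by
    rw [h5, h4]; exact fun h => h2 h.symm
  have h7 : (ψ ^ (2 * p)) ^ (p ^ 2) = ψ ^ (2 * p) := by
    rw [pow_two, pow_mul, h5, ← h4]
  obtain ⟨hc1, -⟩ := FinField69.card_closure_of_pow p (ψ ^ (2 * p)) h7 h6
  refine HSet_hex p (uVec p ψ) ΦN (ξ ^ i) s ![0, n, n] (fun l => ?_) ?_
  · fin_cases l
    · left
      refine ⟨rfl, ?_⟩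
      exact CT1Conj63.exists_unmatched_poly p ψ e he0 ξ hξ j hj (p + 1) i fun r =>
        Numeric67.diag_unmatched p m e j hp.out hp2 hm1 hmd he hJ1 i r hie hiT
    · right
      show Nat.card (Subring.closure {ψ ^ (2 * p)}) ^ n = Nat.card k
      rw [hc1, hn]
    · right
      show Nat.card (Subring.closure {ψ ^ 2}) ^ n = Nat.card k
      rw [hc2, hn]
  · rw [Fin.sum_univ_three]
    show p ^ (0 + n + n) ≤ Nat.card k
    rw [← hn, zero_add, ← two_mul, pow_mul]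

/-- The count at an unmatched level in range: `𝓗 = {0}`. -/
theorem hun_unmatched (hp2 : p ≠ 2) (ψ : k) (ξ : κ) (e m j : ℕ) (he0 : e ≠ 0)
    (hξ : ∀ n : ℕ, ξ ^ n = 1 ↔ e ∣ n)
    (hj : ∀ P : ℤ[X], aeval ψ P = 0 → aeval (ξ ^ j) P = 0)
    (hm1 : 1 ≤ m) (hmd : m ∣ p + 1) (he : e = m * (p - 1)) (hJ1 : j * (p + 1) ≡ m [MOD e])
    (i : ℕ) (hie : e ≤ i) (hiT : i < e + m) (hnm : ¬ Matched p e j i)
    (ΦN : (Fin 3 → k) ≃+ (Fin 3 → k)) (s : κ) :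
    ∀ A ∈ HSet p (uVec p ψ) ΦN (ξ ^ i) s, A = 0 :=
  HSet_eq_zero p (uVec p ψ) ΦN (ξ ^ i) s
    (unmatched_all hp2 ψ ξ e m j he0 hξ hj hm1 hmd he hJ1 i hie hiT hnm)

end Count

section Main

variable {p : ℕ} [hp : Fact p.Prime]
variable {F : IntermediateField ℚ_[p] (Kbar p)} (D : LevelData F)
variable {k : Type} [Field k] [Finite k] [CharP k p] {V : Type} [AddCommGroup V] [Module k V]
variable {ζ : Kbar p}

theorem swapAct_sub (s t : k) (m m' : Fin 3 → k) :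
    swapAct s t (m - m') = swapAct s t m - swapAct s t m' := by
  funext l
  fin_cases l
  · simp [swapAct]; ring
  · simp [swapAct]; ring
  · simp [swapAct]; ring

theorem swapAct_smul (s t lam : k) (m : Fin 3 → k) :
    swapAct s t (lam • m) = lam • swapAct s t m := by
  funext l
  fin_cases l
  · simp [swapAct]
  · simp [swapAct]; ring
  · simp [swapAct]; ring

/-- `D.e + m = D.T` in the numerical set-up. -/
theorem e_add_m {e m T : ℕ} (he : e = m * (p - 1)) (hT : T = p * m) : e + m = T := by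
  have hp1 : 1 ≤ p := hp.out.one_lt.le
  obtain ⟨q, rfl⟩ : ∃ q, p = q + 1 := ⟨p - 1, by omega⟩
  rw [he, hT]
  simp only [Nat.add_sub_cancel]
  ring

/-- **Case A: the two-cocycle statement on `I ∩ G_F`.** -/
theorem caseA_two_cocycle (hp2 : p ≠ 2) (hζ : IsPrimRoot ζ) (hζF : ζ ∈ F) (hK : D.KFacts)
    [Finite D.κ] [CharP D.κ p] (hFn : IsNormalField p F)
    (τ₀ : k →+ ZMod p) (hτ₀ : τ₀ ≠ 0)
    (r : Gp p →* Module.End k V) (hker : ∀ τ ∈ F.fixingSubgroup, r τ = 1)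
    (b : Module.Basis (Fin 2) k V)
    (g₀ : Gp p) (hin : IsInertial p g₀) (hθ : ∀ n : ℕ, D.theta g₀ ^ n = 1 ↔ D.e ∣ n)
    (w : ℕ) (hw : g₀ ζ = ζ ^ w)
    (ψ : k) (hg0 : r g₀ (b 0) = ψ • b 0) (hg1 : r g₀ (b 1) = ψ ^ p • b 1)
    (φ : Gp p) (hfr : IsFrobLiftOn p F φ) (wφ : ℕ) (hwφ : φ ζ = ζ ^ wφ)
    (s t : k) (hφ0 : r φ (b 0) = s • b 1) (hφ1 : r φ (b 1) = t • b 0)
    (m j : ℕ) (hψp2 : ψ ^ (p ^ 2) = ψ) (hwk : (w : k) = ψ ^ (p + 1))
    (hj : ∀ P : ℤ[X], aeval ψ P = 0 → aeval (D.theta g₀ ^ j) P = 0)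
    (hJ1 : j * (p + 1) ≡ m [MOD D.e]) (he : D.e = m * (p - 1)) (hT : D.T = p * m)
    (hm1 : 1 ≤ m) (hmd : m ∣ p + 1)
    (c₀ c : Gp p → Module.End k V) (hc₀ : IsLocCocycle r c₀) (hc : IsLocCocycle r c)
    (h₀ : D.LevAll ζ (fun τ => coords b (c₀ τ)) D.e)
    (h : D.LevAll ζ (fun τ => coords b (c τ)) D.e) :
    (∀ τ : Gp p, IsInertial p τ → τ ∈ F.fixingSubgroup → c₀ τ = 0) ∨
    ∃ lam : k, ∀ τ : Gp p, IsInertial p τ → τ ∈ F.fixingSubgroup → c τ = lam • c₀ τ := by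
  classical
  have he0 : D.e ≠ 0 := by have := e_pos D; omega
  have heT : D.e + m = D.T := e_add_m he hT
  have hψ0 : ψ ≠ 0 := ne_zero_of_apply_eq_smul r g₀ _ _ (b.ne_zero 0) ψ hg0
  have hs : s ≠ 0 := ne_zero_of_apply_eq_smul r φ _ _ (b.ne_zero 0) s hφ0
  have ht : t ≠ 0 := ne_zero_of_apply_eq_smul r φ _ _ (b.ne_zero 1) t hφ1
  have hwφ0 : ((wφ : ℕ) : k) ≠ 0 := by
    intro h0
    have hdvd : p ∣ wφ := (CharP.cast_eq_zero_iff k p wφ).1 h0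
    obtain ⟨q, rfl⟩ := hdvd
    rw [pow_mul, hζ.1, one_pow] at hwφ
    have : φ ζ = φ 1 := by rw [hwφ, map_one]
    exact hζ.2 (φ.injective this)
  -- the diagonal action and the `u`-vector
  set d : Fin 3 → k := ![1, ψ ^ p / ψ, ψ / ψ ^ p] with hd
  have hu : (fun l => (w : k) * d l) = uVec p ψ := by
    funext l
    have hψp : ψ ^ p ≠ 0 := pow_ne_zero p hψ0
    fin_cases l
    · simp [hd, uVec, hwk]
    · show (w : k) * (ψ ^ p / ψ) = ψ ^ (2 * p)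
      rw [hwk]; field_simp; ring
    · show (w : k) * (ψ / ψ ^ p) = ψ ^ 2
      rw [hwk]; field_simp; ring
  set ΦN := swapDual s t (wφ : k) hs ht hwφ0 with hΦN
  -- the class of equivariant coefficient functions
  let 𝒞 : Set (Gp p → (Fin 3 → k)) :=
    {β | (∀ τ ∈ F.fixingSubgroup, β (g₀⁻¹ * τ * g₀) = fun l => d l * β τ l) ∧
      (∀ τ ∈ F.fixingSubgroup, β (φ⁻¹ * τ * φ) = swapAct s t (β τ))}
  have hsub : ∀ β ∈ 𝒞, ∀ β' ∈ 𝒞, (fun τ => β τ - β' τ) ∈ 𝒞 := by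
    intro β hβ β' hβ'
    refine ⟨fun τ hτ => ?_, fun τ hτ => ?_⟩
    · show β (g₀⁻¹ * τ * g₀) - β' (g₀⁻¹ * τ * g₀) = _
      rw [hβ.1 τ hτ, hβ'.1 τ hτ]
      funext l
      simp only [Pi.sub_apply, mul_sub]
    · show β (φ⁻¹ * τ * φ) - β' (φ⁻¹ * τ * φ) = _
      rw [hβ.2 τ hτ, hβ'.2 τ hτ, swapAct_sub]
  have hsmul : ∀ (lam : k), ∀ β ∈ 𝒞, (fun τ => lam • β τ) ∈ 𝒞 := by
    intro lam β hβ
    refine ⟨fun τ hτ => ?_, fun τ hτ => ?_⟩
    · show lam • β (g₀⁻¹ * τ * g₀) = _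
      rw [hβ.1 τ hτ]
      funext l
      simp only [Pi.smul_apply, smul_eq_mul]
      ring
    · show lam • β (φ⁻¹ * τ * φ) = _
      rw [hβ.2 τ hτ, swapAct_smul]
  -- the sets `𝓗 i`
  let 𝓗 : ℕ → Set ((Fin 3 → k) →+ D.κ) := fun i =>
    HSet p (uVec p ψ) ΦN (D.theta g₀ ^ i) (D.theta φ ^ i)
  have hmem : ∀ β ∈ 𝒞, ∀ (i : ℕ) (h : D.LevAll ζ β i) (hi1 : 1 ≤ i) (hie : D.e ≤ i)
      (hiT : i < D.T) (hip : ¬ p ∣ i), symHom D hζ hζF hK τ₀ β i h hi1 hie hiT hip ∈ 𝓗 i := by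
    intro β hβ i h hi1 hie hiT hip
    have := symHom_mem_HSet D hζ hζF hK τ₀ β i h hi1 hie hiT hip g₀ w hw (hFn g₀) hin d hβ.1
      φ wφ hwφ (hFn φ) hfr (swapAct s t) ΦN (swapDual_pairing s t (wφ : k) hs ht hwφ0) hβ.2
    rw [hu] at this
    exact this
  -- membership of the coordinate functions of cocycles
  have hcoc : ∀ c' : Gp p → Module.End k V, IsLocCocycle r c' →
      (fun τ => coords b (c' τ)) ∈ 𝒞 := by
    intro c' hc'
    have hmm : ∀ σ τ : Gp p, c' (σ * τ) = c' σ + r σ * c' τ * r σ⁻¹ := fun σ τ => hc'.map_mul σ τ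
    refine ⟨fun τ hτ => ?_, fun τ hτ => ?_⟩
    · have := coords_cocycle_conj_diag r b c' hmm g₀ ψ (ψ ^ p) hg0 hg1 τ (hker τ hτ)
      exact this
    · exact coords_cocycle_conj_anti r b c' hmm hc'.trace_eq_zero φ s t hφ0 hφ1 τ (hker τ hτ)
  -- conversion of the conclusion
  have hconv : ((∀ τ : Gp p, IsInertial p τ → τ ∈ F.fixingSubgroup → coords b (c₀ τ) = 0) ∨
      ∃ lam : k, ∀ τ : Gp p, IsInertial p τ → τ ∈ F.fixingSubgroup →
        coords b (c τ) = lam • coords b (c₀ τ)) →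
      ((∀ τ : Gp p, IsInertial p τ → τ ∈ F.fixingSubgroup → c₀ τ = 0) ∨
      ∃ lam : k, ∀ τ : Gp p, IsInertial p τ → τ ∈ F.fixingSubgroup → c τ = lam • c₀ τ) := by
    rintro (h1 | ⟨lam, h1⟩)
    · left
      intro τ hτ hτF
      exact eq_zero_of_coords b _ (hc₀.trace_eq_zero τ) (h1 τ hτ hτF)
    · right
      refine ⟨lam, fun τ hτ hτF => ?_⟩
      have h2 : coords b (c τ - lam • c₀ τ) = 0 := by
        rw [map_sub, map_smul, h1 τ hτ hτF, sub_self]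
      have h3 : LinearMap.trace k V (c τ - lam • c₀ τ) = 0 := by
        rw [map_sub, map_smul, hc.trace_eq_zero, hc₀.trace_eq_zero, smul_zero, sub_zero]
      exact sub_eq_zero.1 (eq_zero_of_coords b _ h3 h2)
  apply hconv
  -- the matched level
  by_cases hex : ∃ i, D.e ≤ i ∧ i < D.e + m ∧ Matched p D.e j i
  · obtain ⟨istar, hse, hsT, hsm⟩ := hex
    refine two_cocycle D hζ hζF hK τ₀ hτ₀ 𝒞 hsub hsmul 𝓗 istar hmem ?_ ?_ _ _
      (hcoc c₀ hc₀) (hcoc c hc) h₀ h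
    · intro i hie hiT hip hne
      refine hun_unmatched hp2 ψ (D.theta g₀) D.e m j he0 hθ hj hm1 hmd he hJ1 i hie
        (by omega) ?_ ΦN _
      rintro ⟨r', a', ha', hi'⟩
      obtain ⟨r'', a'', ha'', hi''⟩ := hsm
      exact hne (Numeric67.off_unique p m D.e j hp.out hp2 hm1 hmd he hJ1 i istar r' r'' a' a''
        ha' ha'' hie (by omega) hse hsT hi' hi'')
    · exact hex_matched hp2 ψ (D.theta g₀) D.e m j he0 hθ hj hψ0 hψp2 hm1 hmd he hJ1 istar hse hsT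
        hsm ΦN _
  · have hnm : ∀ i, D.e ≤ i → i < D.e + m → ¬ Matched p D.e j i := fun i hie hiT hm =>
      hex ⟨i, hie, hiT, hm⟩
    refine two_cocycle D hζ hζF hK τ₀ hτ₀ 𝒞 hsub hsmul 𝓗 D.e hmem ?_ ?_ _ _
      (hcoc c₀ hc₀) (hcoc c hc) h₀ h
    · intro i hie hiT hip _
      exact hun_unmatched hp2 ψ (D.theta g₀) D.e m j he0 hθ hj hm1 hmd he hJ1 i hie
        (by omega) (hnm i hie (by omega)) ΦN _
    · refine HSet_hex p (uVec p ψ) ΦN _ _ (fun _ => 0) (fun l => Or.inl ⟨rfl, ?_⟩) ?_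
      · exact unmatched_all hp2 ψ (D.theta g₀) D.e m j he0 hθ hj hm1 hmd he hJ1 D.e le_rfl
          (by omega) (hnm D.e le_rfl (by omega)) l
      · simp only [Finset.sum_const_zero, pow_zero]
        exact Nat.one_le_iff_ne_zero.2 (Nat.card_pos).ne'

end Main

end Fermat.Agent.TW.B5.CT4CaseA63
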