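/-
Programme TW (S56), brick B5-CT (the count), leaf CT-4d (helper63): CASE A CORE — the dichotomy
`hdich` of `GlueA47.line_of_dichotomy` from the conclusions of the case-A set-up (helper57's
`caseA_setup`), `D.KFacts`, and the level bounds `D.LevAll ζ c₀ D.e`, `D.LevAll ζ c D.e` of the two flat
cocycles (as `End`-valued functions).  Wrapper around `CT4CaseA63.caseA_two_cocycle`.
-/
import Mathlib
import Fermat.Agent.TW.B5.CT4CaseA63

set_option autoImplicit false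
set_option linter.unusedSectionVars false
set_option linter.style.haveILetI false

namespace Fermat.Agent.TW.B5.CaseACore63

open Polynomial Fermat.Agent.TW.B5.Iface Fermat.Agent.TW.B5.IfaceLG Fermat.Agent.TW.B5.Kummer47
  Fermat.Agent.TW.B5.Levels47 Fermat.Agent.TW.B5.LevelInd47 Fermat.Agent.TW.B5.CaseA63
  Fermat.Agent.TW.B5.CaseAAd63 Fermat.Agent.TW.B5.CT4CaseA63

section Aux

variable {k : Type*} [Field k] {V : Type*} [AddCommGroup V] [Module k V]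

/-- In a line, every vector is a multiple of a given non-zero vector. -/
theorem exists_smul_eq_of_mem_line (L : Submodule k V) (hL : Module.finrank k L = 1) (v : V)
    (hv : v ∈ L) (hv0 : v ≠ 0) (x : V) (hx : x ∈ L) : ∃ a : k, x = a • v := by
  obtain ⟨g, -, -, hgen⟩ := exists_generator L hL
  obtain ⟨a, ha⟩ := hgen v hv
  obtain ⟨c, hc⟩ := hgen x hx
  have ha0 : a ≠ 0 := by
    rintro rfl
    rw [zero_smul] at ha
    exact hv0 ha
  refine ⟨c / a, ?_⟩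
  rw [hc, ha, smul_smul, div_mul_cancel₀ c ha0]

/-- A non-zero additive functional on a finite field of characteristic `p`. -/
theorem exists_addMonoidHom_ne_zero (p : ℕ) [Fact p.Prime] (k : Type*) [Field k] [CharP k p] :
    ∃ τ₀ : k →+ ZMod p, τ₀ ≠ 0 := by
  letI : Algebra (ZMod p) k := ZMod.algebra k p
  let bas := Module.Free.chooseBasis (ZMod p) k
  haveI : Nonempty (Module.Free.ChooseBasisIndex (ZMod p) k) := bas.index_nonempty
  obtain ⟨i⟩ := ‹Nonempty (Module.Free.ChooseBasisIndex (ZMod p) k)›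
  refine ⟨(bas.coord i).toAddMonoidHom, fun h0 => ?_⟩
  have h1 : (bas.coord i).toAddMonoidHom (bas i) = 1 := by
    simp [Module.Basis.coord_apply]
  rw [h0] at h1
  exact zero_ne_one h1

end Aux

section Core

variable {p : ℕ} [hp : Fact p.Prime]
variable {F : IntermediateField ℚ_[p] (Kbar p)} (D : LevelData F)
variable {k : Type} [Field k] [Finite k] [CharP k p] {V : Type} [AddCommGroup V] [Module k V]
variable {ζ : Kbar p}

/-- **Case A core.**  Hypotheses = the relevant conclusions of the case-A set-up. -/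
theorem caseA_core (hp2 : p ≠ 2) (hζ : IsPrimRoot ζ) (hζF : ζ ∈ F) (hK : D.KFacts)
    [Finite D.κ] [CharP D.κ p] (hFn : IsNormalField p F)
    (r : Gp p →* Module.End k V) (N : Subgroup (Gp p)) (hNr : ∀ τ : Gp p, τ ∈ N ↔ r τ = 1)
    (hFN : F.fixingSubgroup = N)
    -- Frobenius and generator
    (φ : Gp p) (hfr : IsFrobLiftOn p F φ) (wφ : ℕ) (hwφ : φ ζ = ζ ^ wφ)
    (g₀ : Gp p) (hin : IsInertial p g₀) (hθ : ∀ n : ℕ, D.theta g₀ ^ n = 1 ↔ D.e ∣ n)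
    (w : ℕ) (hw : g₀ ζ = ζ ^ w)
    -- structure
    (V1 V2 : Submodule k V) (ψ1 ψ2 : Gp p → k)
    (hV1 : Module.finrank k V1 = 1) (hV2 : Module.finrank k V2 = 1) (hcompl : IsCompl V1 V2)
    (heig1 : ∀ τ, IsInertial p τ → ∀ v ∈ V1, r τ v = ψ1 τ • v)
    (heig2 : ∀ τ, IsInertial p τ → ∀ v ∈ V2, r τ v = ψ2 τ • v)
    (hfrob1 : ∀ v ∈ V1, r φ v ∈ V2) (hfrob2 : ∀ v ∈ V2, r φ v ∈ V1)
    (hpow1 : ∀ τ, IsInertial p τ → ψ2 τ = ψ1 τ ^ p) (hpow2 : ∀ τ, IsInertial p τ → ψ1 τ = ψ2 τ ^ p)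
    -- numerics
    (m j : ℕ) (hwk : (w : k) = ψ1 g₀ ^ (p + 1))
    (hj : ∀ P : ℤ[X], aeval (ψ1 g₀) P = 0 → aeval (D.theta g₀ ^ j) P = 0)
    (hJ1 : j * (p + 1) ≡ m [MOD D.e]) (he : D.e = m * (p - 1)) (hT : D.T = p * m)
    (hmd : m ∣ p + 1)
    -- cocycles
    (c₀ c : Gp p → Module.End k V) (hc₀ : IsLocCocycle r c₀) (hc : IsLocCocycle r c)
    (h₀ : D.LevAll ζ c₀ D.e) (h : D.LevAll ζ c D.e) :
    (∀ τ : Gp p, IsInertial p τ → τ ∈ N → c₀ τ = 0) ∨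
    ∃ lam : k, ∀ τ : Gp p, IsInertial p τ → τ ∈ N → c τ = lam • c₀ τ := by
  obtain ⟨τ₀, hτ₀⟩ := exists_addMonoidHom_ne_zero p k
  obtain ⟨b, hb0, hb1⟩ := exists_basis_of_lines V1 V2 hV1 hV2 hcompl
  have hm1 : 1 ≤ m := by
    have := e_pos D
    rcases Nat.eq_zero_or_pos m with h0 | h0
    · rw [he, h0, zero_mul] at this; omega
    · exact h0
  have hker : ∀ τ ∈ F.fixingSubgroup, r τ = 1 := fun τ hτ => (hNr τ).1 (hFN ▸ hτ)
  set ψ := ψ1 g₀ with hψ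
  have hg0 : r g₀ (b 0) = ψ • b 0 := heig1 g₀ hin _ hb0
  have hg1 : r g₀ (b 1) = ψ ^ p • b 1 := by rw [heig2 g₀ hin _ hb1, hpow1 g₀ hin]
  obtain ⟨s, hφ0⟩ := exists_smul_eq_of_mem_line V2 hV2 (b 1) hb1 (b.ne_zero 1) _ (hfrob1 _ hb0)
  obtain ⟨t, hφ1⟩ := exists_smul_eq_of_mem_line V1 hV1 (b 0) hb0 (b.ne_zero 0) _ (hfrob2 _ hb1)
  have hψp2 : ψ ^ (p ^ 2) = ψ := by
    have h1 := hpow2 g₀ hin
    rw [hpow1 g₀ hin, ← pow_mul, ← pow_two] at h1
    exact h1.symm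
  have hl₀ : D.LevAll ζ (fun τ => coords b (c₀ τ)) D.e :=
    LevelData.LevAll.comp D h₀ (coords b).toAddMonoidHom
  have hl : D.LevAll ζ (fun τ => coords b (c τ)) D.e :=
    LevelData.LevAll.comp D h (coords b).toAddMonoidHom
  have := caseA_two_cocycle D hp2 hζ hζF hK hFn τ₀ hτ₀ r hker b g₀ hin hθ w hw ψ hg0 hg1 φ hfr wφ
    hwφ s t hφ0 hφ1 m j hψp2 hwk hj hJ1 he hT hm1 hmd c₀ c hc₀ hc hl₀ hl
  rcases this with h1 | ⟨lam, h1⟩
  · exact Or.inl fun τ hτ hτN => h1 τ hτ (hFN ▸ hτN)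
  · exact Or.inr ⟨lam, fun τ hτ hτN => h1 τ hτ (hFN ▸ hτN)⟩

end Core

end Fermat.Agent.TW.B5.CaseACore63
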