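/-
Programme TW (S56), brick B5-CT (the count), leaf CT-4 (W-a) "case A setup" (helper57, spec helper47): DEFINITIONS
(the structure `CaseAData`; the existence theorem is in `CaseASetup57.lean`).

Case A of the count: `r : G_p →* End_k V`, `dim V = 2`, `k` finite of odd characteristic `p`, with NO stable
line.  This file instantiates the abstract structure theorem `CaseA63.caseA_structure` at `G = G_p` and
produces all the data consumed by the other parts of case A, bundled in `CaseAData r`: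

* FIELD     : `N = ker r`, `F = K̄^N` finite normal with `G_F = N`, `ζ_p ∈ F`, level data `D` on `F` with finite
              residue field, `F` tame, `e = m (p - 1)`, `T = p m`, `m ∣ p + 1`;
* FROBENIUS : a Frobenius lift `φ` on `F`, `φ ζ = ζ ^ wφ`;
* GENERATOR : an inertial `g₀` with `θ(g₀)` of exact order `e`, generating the image of inertia under `r`,
              `g₀ ζ = ζ ^ w`;
* STRUCTURE : the conclusions of `caseA_structure` (`V = V1 ⊕ V2`, characters `ψ1`, `ψ2 = ψ1 ^ p`, `φ` swaps);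
* NUMERIC   : `ψ1(g₀) ^ e = 1`, `w = ψ1(g₀) ^ (p + 1)` in `k`, `w = θ(g₀) ^ m` in `κ`, a conjugacy exponent `j`;
* INDEX     : `[I : I ∩ N]` is finite and prime to `p`.
-/
import Mathlib
import Fermat.Agent.TW.B5.FixedField47
import Fermat.Agent.TW.B5.IfaceCT

set_option autoImplicit false
set_option linter.unusedSectionVars false
set_option linter.style.haveILetI false

open Polynomial

namespace Fermat.Agent.TW.B5.CaseASetup57

open Fermat.Agent.TW.B5.Iface Fermat.Agent.TW.B5.IfaceLG Fermat.Agent.TW.B5.IfaceCT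
  Fermat.Agent.TW.B5.Kummer47 Fermat.Agent.TW.B5.Levels47

variable {p : ℕ} [hp : Fact p.Prime]

/-- Wild on the field `F`. -/
def WildOnF (F : IntermediateField ℚ_[p] (Kbar p)) (w : Gp p) : Prop :=
  ∀ x ∈ F, x ≠ 0 → ‖w x - x‖ < ‖x‖

/-- The strengthened tame generator statement (`LD69g.tameGenerator'`), as a `Prop`. -/
def TameGenerator' (p : ℕ) [Fact p.Prime] : Prop :=
  ∀ (F : IntermediateField ℚ_[p] (Kbar p)) (D : LevelData F), FiniteDimensional ℚ_[p] F →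
    IsNormalField p F → ¬ p ∣ D.e →
    ∃ g₀ : Gp p, IsInertial p g₀ ∧ (∀ n : ℕ, D.theta g₀ ^ n = 1 ↔ D.e ∣ n) ∧
      (∀ τ : Gp p, IsInertial p τ → ∃ n : ℕ, ∀ x ∈ F, τ x = (g₀ ^ n) x) ∧
      (∀ x ∈ F, (g₀ ^ D.e) x = x) ∧ (∀ n : ℕ, (∀ x ∈ F, (g₀ ^ n) x = x) → D.e ∣ n)

/-- **The data of case A.** -/
structure CaseAData {k V : Type} [Field k] [AddCommGroup V] [Module k V]
    (r : Gp p →* Module.End k V) where
  N : Subgroup (Gp p)
  F : IntermediateField ℚ_[p] (Kbar p)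
  ζ : Kbar p
  D : LevelData F
  φ : Gp p
  g₀ : Gp p
  V1 : Submodule k V
  V2 : Submodule k V
  ψ1 : Gp p → k
  ψ2 : Gp p → k
  m : ℕ
  j : ℕ
  w : ℕ
  wφ : ℕ
  -- FIELD
  normalN : N.Normal
  mem_N : ∀ τ, τ ∈ N ↔ r τ = 1
  F_eq : F = FixedField47.fixedF N
  finF : FiniteDimensional ℚ_[p] F
  normalF : IsNormalField p F
  fixF : F.fixingSubgroup = N
  hζ : IsPrimRoot ζ
  hζF : ζ ∈ F
  finκ : Finite D.κ
  charκ : CharP D.κ p
  tame : ¬ p ∣ D.e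
  e_eq : D.e = m * (p - 1)
  T_eq : D.T = p * m
  m_dvd : m ∣ p + 1
  -- FROBENIUS
  frob : IsFrobLiftOn p F φ
  φ_ζ : φ ζ = ζ ^ wφ
  -- GENERATOR
  inertial_g₀ : IsInertial p g₀
  theta_order : ∀ n : ℕ, D.theta g₀ ^ n = 1 ↔ D.e ∣ n
  gen : ∀ τ, IsInertial p τ → ∃ n : ℕ, r τ = r g₀ ^ n
  g₀_ζ : g₀ ζ = ζ ^ w
  -- STRUCTURE
  finrank_V1 : Module.finrank k V1 = 1
  finrank_V2 : Module.finrank k V2 = 1
  isCompl : IsCompl V1 V2
  act_V1 : ∀ τ, IsInertial p τ → ∀ v ∈ V1, r τ v = ψ1 τ • v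
  act_V2 : ∀ τ, IsInertial p τ → ∀ v ∈ V2, r τ v = ψ2 τ • v
  ψ_ne : ∃ τ, IsInertial p τ ∧ ψ1 τ ≠ ψ2 τ
  φ_V1 : ∀ v ∈ V1, r φ v ∈ V2
  φ_V2 : ∀ v ∈ V2, r φ v ∈ V1
  ψ2_eq : ∀ τ, IsInertial p τ → ψ2 τ = ψ1 τ ^ p
  ψ1_eq : ∀ τ, IsInertial p τ → ψ1 τ = ψ2 τ ^ p
  wild_trivial : ∀ w, WildOnF F w → r w = 1
  -- NUMERIC
  ψ_pow_e : ψ1 g₀ ^ D.e = 1
  w_eq_k : (w : k) = ψ1 g₀ ^ (p + 1)
  w_eq_κ : (w : D.κ) = D.theta g₀ ^ m
  conj_j : ∀ P : ℤ[X], aeval (ψ1 g₀) P = 0 → aeval (D.theta g₀ ^ j) P = 0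
  j_mod : j * (p + 1) ≡ m [MOD D.e]
  -- INDEX
  index : ∀ S : Subgroup (Gp p), (∀ τ, τ ∈ S ↔ IsInertial p τ) →
    N.relIndex S ≠ 0 ∧ ((N.relIndex S : ℕ) : k) ≠ 0

end Fermat.Agent.TW.B5.CaseASetup57
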