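/-
Programme TW (S56), brick B5-CT (the count), top-level case split (helper47).

`CaseAStatement p` : the local flat inertial line when `r` has NO stable line (owner: helper63 + helper57 + helper47);
`CaseBStatement p` : the same when `r` has a stable line (owner: helper37);
`count`            : the two cases give `Iface.LocalFlatInertialLine p`.
-/
import Mathlib
import Fermat.Agent.TW.B5.Iface

set_option autoImplicit false

open Polynomial

namespace Fermat.Agent.TW.B5.Count47

open Fermat.Agent.TW.B5.Iface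

variable (p : ℕ) [Fact p.Prime]

/-- Case A of the count: `r` has no stable line. -/
def CaseAStatement : Prop :=
  p ≠ 2 → ∀ (k : Type) [Field k] [Finite k] [CharP k p] (V : Type) [AddCommGroup V] [Module k V]
    [Module.Finite k V], Module.finrank k V = 2 → ∀ r : Gp p →* Module.End k V,
    (∃ F : IntermediateField ℚ_[p] (Kbar p), FiniteDimensional ℚ_[p] F ∧
      ∀ τ : Gp p, (∀ x ∈ F, τ x = x) → r τ = 1) →
    (∀ (τ : Gp p) (a : ℕ), ActsOnMuP p τ a → LinearMap.det (r τ) = (a : k)) →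
    (∀ τ : Gp p, ∃ α β : k, LinearMap.charpoly (r τ) = (X - C α) * (X - C β)) →
    (¬ ∃ L : Submodule k V, Module.finrank k L = 1 ∧ ∀ g : Gp p, ∀ v ∈ L, r g v ∈ L) →
    ∀ c₀ c : Gp p → Module.End k V, IsLocCocycle r c₀ → IsLocCocycle r c →
    IsFlatLocalModule p (V × V) (lliftAct r c₀) → IsFlatLocalModule p (V × V) (lliftAct r c) →
    (¬ ∃ X : Module.End k V, ∀ τ : Gp p, IsInertial p τ → c₀ τ = lconj r τ X - X) →
    ∃ (lam : k) (X : Module.End k V), ∀ τ : Gp p, IsInertial p τ →
      c τ = lam • c₀ τ + (lconj r τ X - X)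

/-- Case B of the count: `r` has a stable line. -/
def CaseBStatement : Prop :=
  p ≠ 2 → ∀ (k : Type) [Field k] [Finite k] [CharP k p] (V : Type) [AddCommGroup V] [Module k V]
    [Module.Finite k V], Module.finrank k V = 2 → ∀ r : Gp p →* Module.End k V,
    (∃ F : IntermediateField ℚ_[p] (Kbar p), FiniteDimensional ℚ_[p] F ∧
      ∀ τ : Gp p, (∀ x ∈ F, τ x = x) → r τ = 1) →
    (∀ (τ : Gp p) (a : ℕ), ActsOnMuP p τ a → LinearMap.det (r τ) = (a : k)) →
    (∀ τ : Gp p, ∃ α β : k, LinearMap.charpoly (r τ) = (X - C α) * (X - C β)) →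
    (∃ L : Submodule k V, Module.finrank k L = 1 ∧ ∀ g : Gp p, ∀ v ∈ L, r g v ∈ L) →
    ∀ c₀ c : Gp p → Module.End k V, IsLocCocycle r c₀ → IsLocCocycle r c →
    IsFlatLocalModule p (V × V) (lliftAct r c₀) → IsFlatLocalModule p (V × V) (lliftAct r c) →
    (¬ ∃ X : Module.End k V, ∀ τ : Gp p, IsInertial p τ → c₀ τ = lconj r τ X - X) →
    ∃ (lam : k) (X : Module.End k V), ∀ τ : Gp p, IsInertial p τ →
      c τ = lam • c₀ τ + (lconj r τ X - X)

/-- **(CT) the count**, from its two cases. -/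
theorem count (hA : CaseAStatement p) (hB : CaseBStatement p) : LocalFlatInertialLine p := by
  intro hp2 k _ _ _ V _ _ _ hV r hlev hdet hsplit c₀ c hc₀ hc hfl₀ hfl hnt
  by_cases hred : ∃ L : Submodule k V, Module.finrank k L = 1 ∧ ∀ g : Gp p, ∀ v ∈ L, r g v ∈ L
  · exact hB hp2 k V hV r hlev hdet hsplit hred c₀ c hc₀ hc hfl₀ hfl hnt
  · exact hA hp2 k V hV r hlev hdet hsplit hred c₀ c hc₀ hc hfl₀ hfl hnt

end Fermat.Agent.TW.B5.Count47
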