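/-
Programme TW (S56), brick B5-CT (the count), leaf (L1) (helper63):
PRIME-TO-`p` INFLATION–RESTRICTION in the vocabulary of `B5/Iface.lean`.

`r : G →* End_k V` (any group `G`), `c : G → End_k V` a 1-cocycle for the conjugation action,
`H ≤ S` subgroups of `G` with `[S : H]` finite and invertible in `k`.  If `c` vanishes on `H`
(resp. is a coboundary on `H`, resp. is `lam • c₀ +` a coboundary on `H`) then the same holds on `S`.
No normality of `H` in `S` is needed (restriction–corestriction).
-/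
import Mathlib
import Fermat.Agent.TW.B5.Iface

set_option autoImplicit false

namespace Fermat.Agent.TW.B5.CT2InfRes63

open Fermat.Agent.TW.B5.Iface

section Abstract

variable {G : Type*} [Group G] {k : Type*} [Field k] {V : Type*} [AddCommGroup V] [Module k V]
  (r : G →* Module.End k V)

/-- The conjugation action of `G` on `End_k V` (abstract group version of `Iface.lconj`). -/
noncomputable def gconj (σ : G) (X : Module.End k V) : Module.End k V := r σ * X * r σ⁻¹

theorem gconj_add (σ : G) (X Y : Module.End k V) : gconj r σ (X + Y) = gconj r σ X + gconj r σ Y := by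
  simp [gconj, mul_add, add_mul]

theorem gconj_sub (σ : G) (X Y : Module.End k V) : gconj r σ (X - Y) = gconj r σ X - gconj r σ Y := by
  simp [gconj, mul_sub, sub_mul]

theorem gconj_neg (σ : G) (X : Module.End k V) : gconj r σ (-X) = -gconj r σ X := by
  simp [gconj]

theorem gconj_zero (σ : G) : gconj r σ (0 : Module.End k V) = 0 := by
  simp [gconj]

theorem gconj_smul (σ : G) (a : k) (X : Module.End k V) : gconj r σ (a • X) = a • gconj r σ X := by
  simp [gconj]

theorem gconj_sum {ι : Type*} (s : Finset ι) (σ : G) (f : ι → Module.End k V) :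
    gconj r σ (∑ i ∈ s, f i) = ∑ i ∈ s, gconj r σ (f i) := by
  simp [gconj, Finset.mul_sum, Finset.sum_mul]

theorem gconj_mul (σ τ : G) (X : Module.End k V) : gconj r (σ * τ) X = gconj r σ (gconj r τ X) := by
  simp [gconj, mul_assoc, map_mul]

theorem gconj_one (X : Module.End k V) : gconj r 1 X = X := by
  simp [gconj]

/-- **Restriction is injective for prime-to-`p` index** (cocycle form).  If the cocycle `c` vanishes on
`H ≤ S` and `[S : H]` is finite and invertible in `k`, then `c` is a coboundary on `S`. -/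
theorem exists_coboundary_of_vanish (c : G → Module.End k V)
    (hc : ∀ σ τ : G, c (σ * τ) = c σ + gconj r σ (c τ))
    (S H : Subgroup G) (hfin : H.relIndex S ≠ 0) (hn : ((H.relIndex S : ℕ) : k) ≠ 0)
    (hvan : ∀ τ ∈ H, c τ = 0) :
    ∃ X : Module.End k V, ∀ σ ∈ S, c σ = gconj r σ X - X := by
  classical
  set H' : Subgroup S := H.subgroupOf S with hH'
  have : H'.FiniteIndex := ⟨hfin⟩
  let _ : Fintype (S ⧸ H') := Subgroup.fintypeQuotientOfFiniteIndex
  have hcard : Fintype.card (S ⧸ H') = H.relIndex S := by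
    rw [← Nat.card_eq_fintype_card]; rfl
  -- right `H`-invariance of `c`
  have hright : ∀ g h : G, h ∈ H → c (g * h) = c g := by
    intro g h hh
    rw [hc, hvan h hh, gconj_zero, add_zero]
  -- `c` is constant on left cosets
  have hcoset : ∀ (σ : S) (q : S ⧸ H'), c ((σ : G) * ((Quotient.out q : S) : G)) =
      c (((Quotient.out (σ • q) : S)) : G) := by
    intro σ q
    have h1 : ((Quotient.out (σ • q) : S)⁻¹ * (σ * Quotient.out q)) ∈ H' := by
      rw [← QuotientGroup.eq, QuotientGroup.out_eq']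
      have h0 : (((σ * Quotient.out q : S)) : S ⧸ H') = σ • ((Quotient.out q : S) : S ⧸ H') := rfl
      rw [h0, QuotientGroup.out_eq']
    have h2 : (((Quotient.out (σ • q) : S) : G))⁻¹ * ((σ : G) * ((Quotient.out q : S) : G)) ∈ H := by
      have := (Subgroup.mem_subgroupOf).1 h1
      simpa using this
    have h3 : (σ : G) * ((Quotient.out q : S) : G) =
        ((Quotient.out (σ • q) : S) : G) *
          ((((Quotient.out (σ • q) : S) : G))⁻¹ * ((σ : G) * ((Quotient.out q : S) : G))) := by
      group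
    rw [h3, hright _ _ h2]
  set T : Module.End k V := ∑ q : S ⧸ H', c ((Quotient.out q : S) : G) with hT
  refine ⟨-(((H.relIndex S : ℕ) : k)⁻¹ • T), ?_⟩
  intro σ hσ
  have key : gconj r σ T = T - ((H.relIndex S : ℕ) : k) • c σ := by
    rw [hT, gconj_sum]
    have h1 : ∀ q : S ⧸ H', gconj r σ (c ((Quotient.out q : S) : G)) =
        c ((Quotient.out ((⟨σ, hσ⟩ : S) • q) : S) : G) - c σ := by
      intro q
      rw [← hcoset ⟨σ, hσ⟩ q, hc]
      simp
    rw [Finset.sum_congr rfl (fun q _ => h1 q), Finset.sum_sub_distrib]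
    congr 1
    · exact Fintype.sum_equiv (MulAction.toPerm (⟨σ, hσ⟩ : S)) _ _ (fun q => rfl)
    · rw [Finset.sum_const, Finset.card_univ, hcard, Nat.cast_smul_eq_nsmul]
  have hneg : gconj r σ (-(((H.relIndex S : ℕ) : k)⁻¹ • T)) =
      -(((H.relIndex S : ℕ) : k)⁻¹ • gconj r σ T) := by
    rw [gconj_neg, gconj_smul]
  rw [hneg, key, smul_sub, smul_smul, inv_mul_cancel₀ hn, one_smul]
  abel

/-- Coboundary form: a cocycle which is a coboundary on `H` is a coboundary on `S`. -/
theorem exists_coboundary_of_coboundary (c : G → Module.End k V)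
    (hc : ∀ σ τ : G, c (σ * τ) = c σ + gconj r σ (c τ))
    (S H : Subgroup G) (hfin : H.relIndex S ≠ 0) (hn : ((H.relIndex S : ℕ) : k) ≠ 0)
    (hcob : ∃ Y : Module.End k V, ∀ τ ∈ H, c τ = gconj r τ Y - Y) :
    ∃ X : Module.End k V, ∀ σ ∈ S, c σ = gconj r σ X - X := by
  obtain ⟨Y, hY⟩ := hcob
  obtain ⟨X, hX⟩ := exists_coboundary_of_vanish r (fun σ => c σ - (gconj r σ Y - Y))
    (fun σ τ => by
      simp only [hc, gconj_mul, gconj_sub]
      abel)
    S H hfin hn (fun τ hτ => by simp [hY τ hτ])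
  refine ⟨X + Y, fun σ hσ => ?_⟩
  have := hX σ hσ
  rw [gconj_add]
  rw [sub_eq_iff_eq_add] at this
  rw [this]
  abel

/-- Line form: if on `H` the cocycle `c` is `lam • c₀` plus a coboundary, the same holds on `S`. -/
theorem exists_line_of_line (c₀ c : G → Module.End k V)
    (hc₀ : ∀ σ τ : G, c₀ (σ * τ) = c₀ σ + gconj r σ (c₀ τ))
    (hc : ∀ σ τ : G, c (σ * τ) = c σ + gconj r σ (c τ))
    (S H : Subgroup G) (hfin : H.relIndex S ≠ 0) (hn : ((H.relIndex S : ℕ) : k) ≠ 0)
    (hline : ∃ (lam : k) (Y : Module.End k V), ∀ τ ∈ H, c τ = lam • c₀ τ + (gconj r τ Y - Y)) :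
    ∃ (lam : k) (X : Module.End k V), ∀ σ ∈ S, c σ = lam • c₀ σ + (gconj r σ X - X) := by
  obtain ⟨lam, Y, hY⟩ := hline
  obtain ⟨X, hX⟩ := exists_coboundary_of_coboundary r (fun σ => c σ - lam • c₀ σ)
    (fun σ τ => by
      simp only [hc, hc₀, gconj_sub, gconj_smul, smul_add]
      abel)
    S H hfin hn ⟨Y, fun τ hτ => by rw [hY τ hτ]; abel⟩
  refine ⟨lam, X, fun σ hσ => ?_⟩
  have := hX σ hσ
  rw [sub_eq_iff_eq_add] at this
  rw [this]
  abel

end Abstract

section Local

variable {p : ℕ} [Fact p.Prime] {k : Type} [Field k] {V : Type} [AddCommGroup V] [Module k V]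
  (r : Gp p →* Module.End k V)

theorem lconj_eq_gconj (τ : Gp p) (X : Module.End k V) : lconj r τ X = gconj r τ X := rfl

/-- **Local form.**  `c₀`, `c` local cocycles (`Iface.IsLocCocycle`), `H`, `S` subgroups of `G_p` with
`[S : S ∩ H]` finite and invertible in `k` (e.g. `S` = inertia, `H = G_{F'}` with `F'/ℚ_p` tamely
ramified).  If on `H` the cocycle `c` is `lam • c₀` plus a coboundary, the same holds on `S`. -/
theorem local_line_of_line (c₀ c : Gp p → Module.End k V) (hc₀ : IsLocCocycle r c₀)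
    (hc : IsLocCocycle r c) (S H : Subgroup (Gp p)) (hfin : H.relIndex S ≠ 0)
    (hn : ((H.relIndex S : ℕ) : k) ≠ 0)
    (hline : ∃ (lam : k) (Y : Module.End k V), ∀ τ ∈ H, c τ = lam • c₀ τ + (lconj r τ Y - Y)) :
    ∃ (lam : k) (X : Module.End k V), ∀ σ ∈ S, c σ = lam • c₀ σ + (lconj r σ X - X) :=
  exists_line_of_line r c₀ c hc₀.map_mul hc.map_mul S H hfin hn hline

/-- **Local form, coboundaries.** -/
theorem local_coboundary_of_coboundary (c : Gp p → Module.End k V) (hc : IsLocCocycle r c)
    (S H : Subgroup (Gp p)) (hfin : H.relIndex S ≠ 0) (hn : ((H.relIndex S : ℕ) : k) ≠ 0)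
    (hcob : ∃ Y : Module.End k V, ∀ τ ∈ H, c τ = lconj r τ Y - Y) :
    ∃ X : Module.End k V, ∀ σ ∈ S, c σ = lconj r σ X - X :=
  exists_coboundary_of_coboundary r c hc.map_mul S H hfin hn hcob

end Local

end Fermat.Agent.TW.B5.CT2InfRes63
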