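/-
Programme TW (S56), brick B5-CT (the count), glue lemmas (helper47).

* `levAll_cocycle`     : (L1) specialised to a local cocycle `c` whose lift `V[ε]` is flat, over a field `F`
                         with `G_F = ker r`: all Kummer generators of `c|G_F` have level `≥ e`;
* `line_of_dichotomy`  : from the dichotomy on `I ∩ N` (`c₀ = 0` or `c = lam • c₀`) to the statement on all of
                         inertia (prime-to-`p` averaging, `CT2InfRes63`).
-/
import Mathlib
import Fermat.Agent.TW.B5.FlatLev47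
import Fermat.Agent.TW.B5.CT2InfRes63

set_option autoImplicit false
set_option linter.unusedSectionVars false
set_option linter.style.haveILetI false

namespace Fermat.Agent.TW.B5.GlueA47

open Fermat.Agent.TW.B5.Iface Fermat.Agent.TW.B5.IfaceLG Fermat.Agent.TW.B5.IfaceCT
  Fermat.Agent.TW.B5.Kummer47 Fermat.Agent.TW.B5.Levels47

variable {p : ℕ} [hp : Fact p.Prime]
variable {k : Type} [Field k] {V : Type} [AddCommGroup V] [Module k V]

theorem r_inv_of_eq_one (r : Gp p →* Module.End k V) {τ : Gp p} (h : r τ = 1) : r τ⁻¹ = 1 := by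
  have h1 : r τ⁻¹ * r τ = 1 := by rw [← map_mul, inv_mul_cancel, map_one]
  rwa [h, mul_one] at h1

theorem lconj_of_eq_one (r : Gp p →* Module.End k V) {τ : Gp p} (h : r τ = 1)
    (X : Module.End k V) : lconj r τ X = X := by
  unfold lconj
  rw [h, r_inv_of_eq_one r h, one_mul, mul_one]

theorem lconj_zero (r : Gp p →* Module.End k V) (τ : Gp p) :
    lconj r τ (0 : Module.End k V) = 0 := by
  unfold lconj
  rw [mul_zero, zero_mul]

/-- An element acting trivially on `V[ε]` lies in `ker r` and is killed by `c`. -/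
theorem trivial_of_lliftAct (r : Gp p →* Module.End k V) (c : Gp p → Module.End k V) (τ : Gp p)
    (h : ∀ x : V × V, lliftAct r c τ x = x) : r τ = 1 ∧ c τ = 0 := by
  have h1 : r τ = 1 := by
    apply LinearMap.ext
    intro v
    have := congrArg Prod.fst (h (v, 0))
    simpa [lliftAct] using this
  refine ⟨h1, ?_⟩
  apply LinearMap.ext
  intro v
  have := congrArg Prod.snd (h (v, 0))
  simpa [lliftAct, h1] using this

/-- **(L1) for cocycles.** -/
theorem levAll_cocycle (hp2 : p ≠ 2) (hPm : StatementPm p) (hKL : KummerLevelGen' p)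
    (hUS : ExistsUnramSub p) [Finite k] [CharP k p] [Module.Finite k V]
    (r : Gp p →* Module.End k V) (c : Gp p → Module.End k V) (hc : IsLocCocycle r c)
    (hfl : IsFlatLocalModule p (V × V) (lliftAct r c))
    {F : IntermediateField ℚ_[p] (Kbar p)} [hF : FiniteDimensional ℚ_[p] F]
    (hFn : IsNormalField p F)
    (hFN : ∀ τ : Gp p, r τ = 1 → τ ∈ F.fixingSubgroup)
    (hFN' : ∀ τ ∈ F.fixingSubgroup, r τ = 1)
    (D : LevelData F) (hpe : ¬ p ∣ D.e) {ζ : Kbar p} (hζ : IsPrimRoot ζ) (hζF : ζ ∈ F) :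
    D.LevAll ζ c D.e := by
  obtain ⟨K₀, hK₀F, hK₀fin, hK₀ur, hres⟩ := hUS F hF
  haveI : Finite V := Module.finite_of_finite k
  have hpX : ∀ x : V × V, p • x = 0 := by
    intro x
    rw [← Nat.cast_smul_eq_nsmul k p x, CharP.cast_eq_zero k p, zero_smul]
  refine FlatLev47.levAll_of_flat' hp2 hPm hKL D hFn hK₀F hK₀fin hK₀ur hres hpe hζ hζF
    (lliftAct r c) hfl hpX c ?_ ?_
  · intro σ hσ τ _
    rw [hc.map_mul, lconj_of_eq_one r (hFN' σ hσ)]
  · intro τ _ hτ
    obtain ⟨h1, h2⟩ := trivial_of_lliftAct r c τ hτ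
    refine ⟨hFN τ h1, fun σ => ?_⟩
    rw [hc.map_mul, h2, lconj_zero, add_zero]

/-- From the dichotomy on `I ∩ N` to the statement on inertia. -/
theorem line_of_dichotomy (r : Gp p →* Module.End k V) (c₀ c : Gp p → Module.End k V)
    (hc₀ : IsLocCocycle r c₀) (hc : IsLocCocycle r c)
    (S N : Subgroup (Gp p)) (hS : ∀ τ : Gp p, τ ∈ S ↔ IsInertial p τ)
    (hfin : N.relIndex S ≠ 0) (hn : ((N.relIndex S : ℕ) : k) ≠ 0)
    (hnt : ¬ ∃ X : Module.End k V, ∀ τ : Gp p, IsInertial p τ → c₀ τ = lconj r τ X - X)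
    (hdich : (∀ τ : Gp p, IsInertial p τ → τ ∈ N → c₀ τ = 0) ∨
      ∃ lam : k, ∀ τ : Gp p, IsInertial p τ → τ ∈ N → c τ = lam • c₀ τ) :
    ∃ (lam : k) (X : Module.End k V), ∀ τ : Gp p, IsInertial p τ →
      c τ = lam • c₀ τ + (lconj r τ X - X) := by
  have hrel : (N ⊓ S).relIndex S = N.relIndex S := Subgroup.inf_relIndex_right N S
  rcases hdich with h0 | ⟨lam, hlam⟩
  · exfalso
    apply hnt
    obtain ⟨X, hX⟩ := CT2InfRes63.local_coboundary_of_coboundary r c₀ hc₀ S (N ⊓ S)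
      (by rw [hrel]; exact hfin) (by rw [hrel]; exact hn)
      ⟨0, fun τ hτ => by
        rw [h0 τ ((hS τ).1 hτ.2) hτ.1, lconj_zero, sub_zero]⟩
    exact ⟨X, fun τ hτ => hX τ ((hS τ).2 hτ)⟩
  · obtain ⟨lam', X, hX⟩ := CT2InfRes63.local_line_of_line r c₀ c hc₀ hc S (N ⊓ S)
      (by rw [hrel]; exact hfin) (by rw [hrel]; exact hn)
      ⟨lam, 0, fun τ hτ => by
        rw [hlam τ ((hS τ).1 hτ.2) hτ.1, lconj_zero, sub_zero, add_zero]⟩
    exact ⟨lam', X, fun τ hτ => hX τ ((hS τ).2 hτ)⟩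

end Fermat.Agent.TW.B5.GlueA47
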