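/-
Programme TW (S56), brick B5-CT (the count), CASE A — final assembly (helper63).

`caseA_of_setup` : `Count47.CaseAStatement p` from the case-A set-up (`CaseASetup57`: `Nonempty (CaseAData r)`)
and the Kummer level bound `KummerLevelGen'` — everything else is discharged with the unconditional
facts on main (`PmStatement48.statementPm`, `Ram8.KFacts.kFactsAll`, `LDAll65.existsUnramSub`).

Route: set-up data `d` ⟹ `GlueA47.levAll_cocycle` (×2) ⟹ `CaseACore63.caseA_core` (the dichotomy on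
`I ∩ N`) ⟹ `GlueA47.line_of_dichotomy` (prime-to-`p` averaging).
-/
import Mathlib
import Fermat.Agent.TW.B5.Count47
import Fermat.Agent.TW.B5.CaseAData57
import Fermat.Agent.TW.B5.CaseACore63
import Fermat.Agent.TW.B5.GlueA47
import Fermat.Agent.TW.B5.LDAll65
import Fermat.Agent.TW.PmStatement48
import Fermat.Agent.TW.Ram8.KFacts

set_option autoImplicit false
set_option linter.unusedSectionVars false
set_option linter.style.haveILetI false

open Polynomial

namespace Fermat.Agent.TW.B5.CaseAFinal63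

open Fermat.Agent.TW.B5.Iface Fermat.Agent.TW.B5.IfaceLG Fermat.Agent.TW.B5.IfaceCT
  Fermat.Agent.TW.B5.Kummer47 Fermat.Agent.TW.B5.Levels47 Fermat.Agent.TW.B5.CaseASetup57
  Fermat.Agent.TW.B5.Count47

variable (p : ℕ) [hp : Fact p.Prime]

/-- The statement of the case-A set-up (`CaseASetup57.caseA_setup_uncond`). -/
def CaseASetupStatement : Prop :=
  p ≠ 2 → ∀ (k : Type) [Field k] [Finite k] [CharP k p] (V : Type) [AddCommGroup V] [Module k V]
    [Module.Finite k V], Module.finrank k V = 2 → ∀ r : Gp p →* Module.End k V,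
    (∃ F : IntermediateField ℚ_[p] (Kbar p), FiniteDimensional ℚ_[p] F ∧
      ∀ τ : Gp p, (∀ x ∈ F, τ x = x) → r τ = 1) →
    (∀ (τ : Gp p) (a : ℕ), ActsOnMuP p τ a → LinearMap.det (r τ) = (a : k)) →
    (∀ τ : Gp p, ∃ α β : k, LinearMap.charpoly (r τ) = (X - C α) * (X - C β)) →
    (¬ ∃ L : Submodule k V, Module.finrank k L = 1 ∧ ∀ g : Gp p, ∀ v ∈ L, r g v ∈ L) →
    Nonempty (CaseAData r)

/-- **Case A of the count**, from the set-up and the Kummer level bound. -/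
theorem caseA_of_setup (hsetup : CaseASetupStatement p) (hKL : KummerLevelGen' p) :
    CaseAStatement p := by
  intro hp2 k _ _ _ V _ _ _ hV r hlev hdet hsplit hirr c₀ c hc₀ hc hfl₀ hfl hnt
  obtain ⟨d⟩ := hsetup hp2 k V hV r hlev hdet hsplit hirr
  haveI := d.finF
  haveI := d.finκ
  haveI := d.charκ
  have hK : d.D.KFacts :=
    Fermat.Agent.TW.Ram8.KFacts.kFactsAll p hp2 d.F d.D d.ζ d.finF d.hζ d.hζF
  have hPm : StatementPm p := Fermat.Agent.TW.PmStatement48.statementPm p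
  have hUS : ExistsUnramSub p := LDAll65.existsUnramSub p
  have hFN : ∀ τ : Gp p, r τ = 1 → τ ∈ d.F.fixingSubgroup := fun τ h => by
    rw [d.fixF]; exact (d.mem_N τ).2 h
  have hFN' : ∀ τ ∈ d.F.fixingSubgroup, r τ = 1 := fun τ h => by
    rw [d.fixF] at h; exact (d.mem_N τ).1 h
  have h₀ : d.D.LevAll d.ζ c₀ d.D.e :=
    GlueA47.levAll_cocycle hp2 hPm hKL hUS r c₀ hc₀ hfl₀ d.normalF hFN hFN' d.D d.tame d.hζ d.hζF
  have h : d.D.LevAll d.ζ c d.D.e :=
    GlueA47.levAll_cocycle hp2 hPm hKL hUS r c hc hfl d.normalF hFN hFN' d.D d.tame d.hζ d.hζF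
  have hdich := CaseACore63.caseA_core d.D hp2 d.hζ d.hζF hK d.normalF r d.N d.mem_N d.fixF
    d.φ d.frob d.wφ d.φ_ζ d.g₀ d.inertial_g₀ d.theta_order d.w d.g₀_ζ d.V1 d.V2 d.ψ1 d.ψ2
    d.finrank_V1 d.finrank_V2 d.isCompl d.act_V1 d.act_V2 d.φ_V1 d.φ_V2 d.ψ2_eq d.ψ1_eq
    d.m d.j d.w_eq_k d.conj_j d.j_mod d.e_eq d.T_eq d.m_dvd c₀ c hc₀ hc h₀ h
  have hS : ∀ τ : Gp p, τ ∈ LD65d.inertia p ↔ IsInertial p τ := fun τ => LD65d.mem_inertia
  obtain ⟨hfin, hn⟩ := d.index (LD65d.inertia p) hS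
  exact GlueA47.line_of_dichotomy r c₀ c hc₀ hc (LD65d.inertia p) d.N hS hfin hn hnt hdich

end Fermat.Agent.TW.B5.CaseAFinal63
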