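/-
Programme TW (S56), brick B5-CT (the count), case A set-up, the [NUMERIC-B] block (helper63, for helper57's
`CaseASetup57`): `w = ψ1(g₀)^(p+1)` in `k` (from the determinant condition), the conjugacy exponent `j`
(`CT1Conj63.exists_pow_of_root`) and the congruence `j (p + 1) ≡ m [MOD e]`.
-/
import Mathlib
import Fermat.Agent.TW.B5.Levels47
import Fermat.Agent.TW.B5.CaseAAd63
import Fermat.Agent.TW.B5.CT1Conj63

set_option autoImplicit false
set_option linter.unusedSectionVars false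
set_option linter.style.haveILetI false

namespace Fermat.Agent.TW.B5.CaseANum63

open Polynomial Fermat.Agent.TW.B5.Iface Fermat.Agent.TW.B5.IfaceLG Fermat.Agent.TW.B5.Kummer47
  Fermat.Agent.TW.B5.Levels47 Fermat.Agent.TW.B5.CaseAAd63

variable {p : ℕ} [hp : Fact p.Prime]

/-- `τ ζ = ζ ^ a` for one primitive `p`-th root of unity gives `ActsOnMuP p τ a`. -/
theorem actsOnMuP_of_apply {ζ : Kbar p} (hζ : IsPrimRoot ζ) {τ : Gp p} {a : ℕ} (h : τ ζ = ζ ^ a) :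
    ActsOnMuP p τ a := by
  intro μ hμ
  obtain ⟨i, rfl⟩ := exists_pow_eq hζ hμ
  rw [map_pow, h, ← pow_mul, ← pow_mul, mul_comm]

/-- For an element of exact order `e`, equal powers have congruent exponents. -/
theorem modEq_of_pow_eq {κ : Type*} [Field κ] {ξ : κ} {e : ℕ} (he : e ≠ 0)
    (hξ : ∀ n : ℕ, ξ ^ n = 1 ↔ e ∣ n) {a b : ℕ} (h : ξ ^ a = ξ ^ b) : a ≡ b [MOD e] := by
  have hξ0 : ξ ≠ 0 := by
    intro h0
    have := (hξ e).2 dvd_rfl
    rw [h0, zero_pow he] at this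
    exact zero_ne_one this
  have key : ∀ m n : ℕ, m ≤ n → ξ ^ m = ξ ^ n → m ≡ n [MOD e] := by
    intro m n hmn h
    have h1 : ξ ^ n = ξ ^ m * ξ ^ (n - m) := by rw [← pow_add]; congr 1; omega
    rw [h1] at h
    have h2 : ξ ^ (n - m) = 1 :=
      mul_left_cancel₀ (pow_ne_zero m hξ0) (h.symm.trans (mul_one _).symm)
    exact (Nat.modEq_iff_dvd' hmn).2 ((hξ _).1 h2)
  rcases le_total a b with hab | hab
  · exact key _ _ hab h
  · exact (key _ _ hab h.symm).symm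

/-- The determinant of an endomorphism which is diagonal in a basis. -/
theorem det_of_diag {k V : Type*} [Field k] [AddCommGroup V] [Module k V]
    (b : Module.Basis (Fin 2) k V) (f : Module.End k V) (d0 d1 : k) (h0 : f (b 0) = d0 • b 0)
    (h1 : f (b 1) = d1 • b 1) : LinearMap.det f = d0 * d1 := by
  rw [← LinearMap.det_toMatrix b, Matrix.det_fin_two]
  simp [LinearMap.toMatrix_apply, h0, h1]

/-- **The [NUMERIC-B] block of the case-A set-up.** -/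
theorem numeric_block {k V : Type} [Field k] [Finite k] [CharP k p] [AddCommGroup V] [Module k V]
    (r : Gp p →* Module.End k V)
    (hdet : ∀ (τ : Gp p) (a : ℕ), ActsOnMuP p τ a → LinearMap.det (r τ) = (a : k))
    {F : IntermediateField ℚ_[p] (Kbar p)} (D : LevelData F) [CharP D.κ p]
    (V1 V2 : Submodule k V) (ψ1 ψ2 : Gp p → k)
    (finrank_V1 : Module.finrank k V1 = 1) (finrank_V2 : Module.finrank k V2 = 1)
    (isCompl : IsCompl V1 V2)
    (act_V1 : ∀ τ, IsInertial p τ → ∀ v ∈ V1, r τ v = ψ1 τ • v)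
    (act_V2 : ∀ τ, IsInertial p τ → ∀ v ∈ V2, r τ v = ψ2 τ • v)
    (ψ2_eq : ∀ τ, IsInertial p τ → ψ2 τ = ψ1 τ ^ p)
    (g₀ : Gp p) (hg₀ : IsInertial p g₀) (hθ : ∀ n : ℕ, D.theta g₀ ^ n = 1 ↔ D.e ∣ n)
    {ζ : Kbar p} (hζ : IsPrimRoot ζ) (w : ℕ) (hw : g₀ ζ = ζ ^ w) (m : ℕ) (he0 : D.e ≠ 0)
    (hψe : ψ1 g₀ ^ D.e = 1) (hwκ : (w : D.κ) = D.theta g₀ ^ m) :
    (w : k) = ψ1 g₀ ^ (p + 1) ∧
      ∃ j : ℕ, (∀ P : ℤ[X], aeval (ψ1 g₀) P = 0 → aeval (D.theta g₀ ^ j) P = 0) ∧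
        j * (p + 1) ≡ m [MOD D.e] := by
  obtain ⟨b, hb0, hb1⟩ := exists_basis_of_lines V1 V2 finrank_V1 finrank_V2 isCompl
  have hwk : (w : k) = ψ1 g₀ ^ (p + 1) := by
    rw [← hdet g₀ w (actsOnMuP_of_apply hζ hw),
      det_of_diag b (r g₀) (ψ1 g₀) (ψ2 g₀) (act_V1 g₀ hg₀ _ hb0) (act_V2 g₀ hg₀ _ hb1),
      ψ2_eq g₀ hg₀, pow_succ']
  refine ⟨hwk, ?_⟩
  obtain ⟨j, hj⟩ := CT1Conj63.exists_pow_of_root p (ψ1 g₀) D.e he0 hψe (D.theta g₀) hθ
  refine ⟨j, hj, ?_⟩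
  have h1 : aeval (ψ1 g₀) (X ^ (p + 1) - C (w : ℤ) : ℤ[X]) = 0 := by
    simp [hwk]
  have h2 := hj _ h1
  have h3 : (D.theta g₀ ^ j) ^ (p + 1) = (w : D.κ) := by
    have : (D.theta g₀ ^ j) ^ (p + 1) - (w : D.κ) = 0 := by simpa using h2
    exact sub_eq_zero.1 this
  rw [← pow_mul, hwκ] at h3
  exact modEq_of_pow_eq he0 hθ h3

end Fermat.Agent.TW.B5.CaseANum63
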