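/-
Programme TW (S56), brick B5-LD (helper69, requested by helper47): strengthening of `TameGenerator`.

`tameGenerator' (hE : RamIdxEqCard p)`: for tame normal `F` with level data `D`, inertia acts on `F` through
the powers of one inertial `g₀` whose tame symbol `θ(g₀)` has exact order `e = D.e`; moreover `g₀ ^ e` is
trivial on `F`, and `g₀ ^ n` is trivial on `F` only if `e ∣ n`.
(From `LD65d.tameGenerator`: pigeonhole on `g₀^0, …, g₀^e` against the `e` restrictions of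
`RamIdxEqCard`.)
-/
import Fermat.Agent.TW.B5.LD65d

set_option autoImplicit false

namespace Fermat.Agent.TW.B5.LD69g

open Fermat.Agent.TW.B5.Iface Fermat.Agent.TW.B5.IfaceLG Fermat.Agent.TW.B5.IfaceCT
  Fermat.Agent.TW.B5.Levels47

theorem tameGenerator' (p : ℕ) [Fact p.Prime] (hE : RamIdxEqCard p) :
    ∀ (F : IntermediateField ℚ_[p] (Kbar p)) (D : LevelData F), FiniteDimensional ℚ_[p] F →
      IsNormalField p F → ¬ p ∣ D.e →
      ∃ g₀ : Gp p, IsInertial p g₀ ∧ (∀ n : ℕ, D.theta g₀ ^ n = 1 ↔ D.e ∣ n) ∧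
        (∀ τ : Gp p, IsInertial p τ → ∃ n : ℕ, ∀ x ∈ F, τ x = (g₀ ^ n) x) ∧
        (∀ x ∈ F, (g₀ ^ D.e) x = x) ∧ (∀ n : ℕ, (∀ x ∈ F, (g₀ ^ n) x = x) → D.e ∣ n) := by
  intro F D hfin hF hpe
  obtain ⟨g₀, hg₀, hθ, hgen⟩ := LD65d.tameGenerator p hE F D hfin hF hpe
  have hpow_in : ∀ n : ℕ, IsInertial p (g₀ ^ n) := fun n =>
    (LD65d.inertia p).pow_mem (LD65d.mem_inertia.mpr hg₀) n
  have hθpow : ∀ n : ℕ, D.theta (g₀ ^ n) = D.theta g₀ ^ n := by
    intro n
    induction n with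
    | zero => rw [pow_zero, pow_zero, LD65d.theta_one]
    | succ n ih => rw [pow_succ', LD65d.theta_mul D hF hg₀, ih, pow_succ']
  have hlast : ∀ n : ℕ, (∀ x ∈ F, (g₀ ^ n) x = x) → D.e ∣ n := by
    intro n hn
    rw [← hθ, ← hθpow, LD65d.theta_congr D (σ := g₀ ^ n) (τ := 1)
      (fun x hx => by rw [hn x hx]; rfl), LD65d.theta_one]
  refine ⟨g₀, hg₀, hθ, hgen, ?_, hlast⟩
  -- pigeonhole
  obtain ⟨s, hscard, -, hscov, -⟩ := hE F D hfin hF
  choose f hfs hf using fun i : ℕ => hscov (g₀ ^ i) (hpow_in i)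
  have key : ∀ a b : ℕ, a < b → b ≤ D.e → f a = f b → ∀ x ∈ F, (g₀ ^ D.e) x = x := by
    intro a b hab hbe hfab
    have h1 : ∀ x ∈ F, (g₀ ^ (b - a)) x = x := by
      intro x hx
      have h2 : (g₀ ^ b) x = (g₀ ^ a) x := by rw [hf b x hx, hf a x hx, hfab]
      have h3 : g₀ ^ b = g₀ ^ a * g₀ ^ (b - a) := by
        rw [← pow_add, Nat.add_sub_cancel' hab.le]
      rw [h3, AlgEquiv.mul_apply] at h2
      exact (g₀ ^ a).injective h2
    have h4 : D.e ∣ b - a := hlast _ h1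
    have h5 : D.e ≤ b - a := Nat.le_of_dvd (by omega) h4
    have h6 : b - a = D.e := by omega
    rwa [h6] at h1
  have hcard : s.card < (Finset.range (D.e + 1)).card := by
    rw [Finset.card_range, hscard]
    exact Nat.lt_succ_self _
  obtain ⟨a, ha, b, hb, hab, hfab⟩ :=
    Finset.exists_ne_map_eq_of_card_lt_of_maps_to hcard (fun i _ => hfs i)
  rw [Finset.mem_range] at ha hb
  rcases lt_or_gt_of_ne hab with h | h
  · exact key a b h (by omega) hfab
  · exact key b a h (by omega) hfab.symm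

end Fermat.Agent.TW.B5.LD69g
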