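/-
Programme TW (S56), brick B5-CT (the count), leaf CT-4 (W-a) "case A setup" (helper57, spec helper47):
EXISTENCE of the data `CaseAData r` (defined in `CaseAData57.lean`) in case A (no stable line).
-/
import Mathlib
import Fermat.Agent.TW.B5.CaseAData57
import Fermat.Agent.TW.B5.CaseA63
import Fermat.Agent.TW.B5.LD69g
import Fermat.Agent.TW.B5.LDAll65
import Fermat.Agent.TW.B5.CT1Conj63
import Fermat.Agent.TW.B5.CT3Core37
import Fermat.Agent.TW.B5.CaseAStruct63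
import Fermat.Agent.TW.B5.LD65d

set_option autoImplicit false
set_option linter.unusedSectionVars false
set_option linter.style.haveILetI false

open Polynomial

namespace Fermat.Agent.TW.B5.CaseASetup57

open Fermat.Agent.TW.B5.Iface Fermat.Agent.TW.B5.IfaceLG Fermat.Agent.TW.B5.IfaceCT
  Fermat.Agent.TW.B5.Kummer47 Fermat.Agent.TW.B5.Levels47

variable {p : ℕ} [hp : Fact p.Prime]

/-! ### Generalities on `G_p` -/

theorem norm_gal (g : Gp p) (x : Kbar p) : ‖g x‖ = ‖x‖ := by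
  have := nnnorm_padicAlgCl_algEquiv p g x
  exact congrArg NNReal.toReal this

theorem inv_apply_self (g : Gp p) (x : Kbar p) : g⁻¹ (g x) = x := by
  change (g⁻¹ * g) x = x
  rw [inv_mul_cancel, AlgEquiv.one_apply]

theorem apply_inv_self (g : Gp p) (x : Kbar p) : g (g⁻¹ x) = x := by
  change (g * g⁻¹) x = x
  rw [mul_inv_cancel, AlgEquiv.one_apply]

theorem isInertial_conj {τ : Gp p} (hτ : IsInertial p τ) (g : Gp p) :
    IsInertial p (g * τ * g⁻¹) := by
  intro x hx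
  have h1 : (g * τ * g⁻¹) x - x = g (τ (g⁻¹ x) - g⁻¹ x) := by
    rw [map_sub, apply_inv_self]
    rfl
  rw [h1, norm_gal]
  exact hτ _ (by rw [norm_gal]; exact hx)

section Wild

variable {F : IntermediateField ℚ_[p] (Kbar p)} (hF : IsNormalField p F)

theorem wild_one : WildOnF F (1 : Gp p) := by
  intro x _ hx0
  rw [AlgEquiv.one_apply, sub_self, norm_zero]
  exact norm_pos_iff.2 hx0

include hF in
theorem wild_mul {w w' : Gp p} (hw : WildOnF F w) (hw' : WildOnF F w') : WildOnF F (w * w') := by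
  intro x hx hx0
  have h1 : (w * w') x - x = (w (w' x) - w' x) + (w' x - x) := by
    rw [AlgEquiv.mul_apply]; abel
  have hx0' : w' x ≠ 0 := by
    intro h
    exact hx0 (by simpa using h)
  rw [h1]
  refine lt_of_le_of_lt (PadicAlgCl.isNonarchimedean p _ _) (max_lt ?_ (hw' x hx hx0))
  have := hw (w' x) (hF w' x hx) hx0'
  rwa [norm_gal] at this

include hF in
theorem wild_inv {w : Gp p} (hw : WildOnF F w) : WildOnF F w⁻¹ := by
  intro x hx hx0
  have hy : w⁻¹ x ∈ F := hF w⁻¹ x hx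
  have hy0 : w⁻¹ x ≠ 0 := by
    intro h
    exact hx0 (by simpa using h)
  have := hw (w⁻¹ x) hy hy0
  rw [apply_inv_self, norm_gal, ← norm_neg, neg_sub] at this
  exact this

include hF in
theorem wild_conj (g : Gp p) {w : Gp p} (hw : WildOnF F w) : WildOnF F (g * w * g⁻¹) := by
  intro x hx hx0
  have hy : g⁻¹ x ∈ F := hF g⁻¹ x hx
  have hy0 : g⁻¹ x ≠ 0 := by
    intro h
    exact hx0 (by simpa using h)
  have h1 : (g * w * g⁻¹) x - x = g (w (g⁻¹ x) - g⁻¹ x) := by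
    rw [map_sub, apply_inv_self]
    rfl
  rw [h1, norm_gal]
  have := hw _ hy hy0
  rwa [norm_gal] at this

theorem wild_of_isWild {w : Gp p} (hw : IsWild p w) : WildOnF F w := fun x _ hx0 => hw x hx0

end Wild

/-! ### Roots of unity and the determinant -/

section Mu

variable {ζ : Kbar p} (hζ : IsPrimRoot ζ)

include hζ in
theorem exists_apply_eq_pow (τ : Gp p) : ∃ a : ℕ, τ ζ = ζ ^ a := by
  have h : (τ ζ) ^ p = 1 := by rw [← map_pow, hζ.1, map_one]
  obtain ⟨i, hi⟩ := exists_pow_eq hζ h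
  exact ⟨i, hi.symm⟩

include hζ in
theorem actsOnMuP_of_apply {τ : Gp p} {a : ℕ} (h : τ ζ = ζ ^ a) : ActsOnMuP p τ a := by
  intro ζ' hζ'
  obtain ⟨i, rfl⟩ := exists_pow_eq hζ hζ'
  rw [map_pow, h, ← pow_mul, ← pow_mul, mul_comm]

variable {k V : Type} [Field k] [CharP k p] [AddCommGroup V] [Module k V]
  (r : Gp p →* Module.End k V)
  (hdet : ∀ (τ : Gp p) (a : ℕ), ActsOnMuP p τ a → LinearMap.det (r τ) = (a : k))

include hζ hdet in
theorem fixes_ζ_of_ker {τ : Gp p} (hτ : r τ = 1) : τ ζ = ζ := by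
  obtain ⟨a, ha⟩ := exists_apply_eq_pow hζ τ
  have h1 := hdet τ a (actsOnMuP_of_apply hζ ha)
  rw [hτ, map_one] at h1
  have h2 : (a : k) = ((1 : ℕ) : k) := by rw [← h1, Nat.cast_one]
  have h3 : a ≡ 1 [MOD p] := (CharP.natCast_eq_natCast k p).1 h2
  rw [ha, pow_eq_of_modEq hζ h3, pow_one]

end Mu

/-! ### The kernel, the fixed field, and the index of `N ∩ I` in `I` -/

section Index

variable {k V : Type} [Field k] [AddCommGroup V] [Module k V] (r : Gp p →* Module.End k V)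

theorem r_pow (g : Gp p) (n : ℕ) : r (g ^ n) = r g ^ n := map_pow r g n

/-- `r σ = r σ'` iff `σ` and `σ'` agree on the field cut out by `ker r`. -/
theorem r_eq_iff {F : IntermediateField ℚ_[p] (Kbar p)} (hfix : F.fixingSubgroup = r.ker)
    (σ σ' : Gp p) : r σ = r σ' ↔ ∀ x ∈ F, σ x = σ' x := by
  have hker : r σ = r σ' ↔ σ⁻¹ * σ' ∈ r.ker := by
    rw [MonoidHom.mem_ker, map_mul]
    constructor
    · intro h
      rw [← h, CaseA63.r_inv_mul]
    · intro h
      have := congrArg (fun X => r σ * X) h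
      simp only [← mul_assoc, CaseA63.r_mul_inv, one_mul, mul_one] at this
      exact this.symm
  rw [hker, ← hfix, IntermediateField.mem_fixingSubgroup_iff]
  constructor
  · intro h x hx
    have := congrArg σ (h x hx)
    rw [AlgEquiv.mul_apply, apply_inv_self] at this
    exact this.symm
  · intro h x hx
    rw [AlgEquiv.mul_apply, ← h x hx, inv_apply_self]

/-- The restriction of `r` to a subgroup, with values in the units. -/
noncomputable def resUnits (S : Subgroup (Gp p)) : ↥S →* (Module.End k V)ˣ :=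
  r.toHomUnits.comp S.subtype

theorem resUnits_val (S : Subgroup (Gp p)) (τ : ↥S) :
    ((resUnits r S τ : (Module.End k V)ˣ) : Module.End k V) = r τ.1 := rfl

theorem ker_resUnits (S : Subgroup (Gp p)) : (resUnits r S).ker = r.ker.subgroupOf S := by
  ext τ
  rw [MonoidHom.mem_ker, Subgroup.mem_subgroupOf, MonoidHom.mem_ker, Units.ext_iff, resUnits_val]
  rfl

theorem relIndex_eq (S : Subgroup (Gp p)) :
    r.ker.relIndex S = Nat.card (resUnits r S).range := by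
  rw [Subgroup.relIndex, ← ker_resUnits, Subgroup.index_ker]

variable [Finite k] [Module.Finite k V]

theorem finite_units : Finite (Module.End k V)ˣ := by
  have : Finite (Module.End k V) := Module.finite_of_finite k
  infer_instance

theorem relIndex_ne_zero (S : Subgroup (Gp p)) : r.ker.relIndex S ≠ 0 := by
  rw [relIndex_eq]
  have := finite_units (k := k) (V := V)
  exact Nat.card_pos.ne'

/-- A diagonalisable element with non-zero eigenvalues in `k` has order dividing `#k - 1`. -/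
theorem pow_card_sub_one_of_diag {V1 V2 : Submodule k V} (hc : IsCompl V1 V2) (τ : Gp p) {a b : k}
    (ha : a ≠ 0) (hb : b ≠ 0) (h1 : ∀ v ∈ V1, r τ v = a • v) (h2 : ∀ v ∈ V2, r τ v = b • v) :
    r τ ^ (Nat.card k - 1) = 1 := by
  classical
  have := Fintype.ofFinite k
  have hpow : ∀ (W : Submodule k V) (c : k), (∀ v ∈ W, r τ v = c • v) →
      ∀ n : ℕ, ∀ v ∈ W, (r τ ^ n) v = c ^ n • v := by
    intro W c hW n
    induction n with
    | zero => intro v _; simp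
    | succ n ih =>
      intro v hv
      rw [pow_succ, Module.End.mul_apply, hW v hv, map_smul, ih v hv, smul_smul, pow_succ, mul_comm]
  have hq : ∀ c : k, c ≠ 0 → c ^ (Nat.card k - 1) = 1 := fun c hc => by
    rw [Nat.card_eq_fintype_card]
    exact FiniteField.pow_card_sub_one_eq_one c hc
  ext v
  have hv : v ∈ V1 ⊔ V2 := by rw [hc.sup_eq_top]; exact Submodule.mem_top
  obtain ⟨y, hy, z, hz, rfl⟩ := Submodule.mem_sup.1 hv
  rw [map_add, hpow V1 a h1 _ y hy, hpow V2 b h2 _ z hz, hq a ha, hq b hb, one_smul, one_smul]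
  rfl

variable [CharP k p]

theorem p_dvd_card : p ∣ Nat.card k := by
  have := Fintype.ofFinite k
  rw [Nat.card_eq_fintype_card, ← CharP.cast_eq_zero_iff k p]
  exact Nat.cast_card_eq_zero k

/-- If every element of `r(S)` has order dividing `#k - 1`, then `[S : S ∩ ker r]` is prime to `p`. -/
theorem not_dvd_card_range (S : Subgroup (Gp p))
    (h : ∀ τ ∈ S, r τ ^ (Nat.card k - 1) = 1) : ¬ p ∣ Nat.card (resUnits r S).range := by
  intro hdvd
  have := finite_units (k := k) (V := V)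
  obtain ⟨x, hx⟩ := exists_prime_orderOf_dvd_card' p hdvd
  obtain ⟨τ, hτ⟩ := x.2
  have h1 : x ^ (Nat.card k - 1) = 1 := by
    apply Subtype.ext
    rw [SubmonoidClass.coe_pow, ← hτ]
    apply Units.ext
    rw [Units.val_pow_eq_pow_val, resUnits_val]
    exact h τ.1 τ.2
  have h2 : p ∣ Nat.card k - 1 := hx ▸ orderOf_dvd_of_pow_eq_one h1
  have h3 : p ∣ Nat.card k := p_dvd_card
  have h4 : 0 < Nat.card k := Nat.card_pos
  have h5 : p ∣ Nat.card k - (Nat.card k - 1) := Nat.dvd_sub h3 h2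
  have h6 : Nat.card k - (Nat.card k - 1) = 1 := by omega
  rw [h6] at h5
  exact hp.out.one_lt.ne' (Nat.dvd_one.1 h5)

/-- The number of restrictions to `F` of inertial elements is the index `[I : I ∩ N]`. -/
theorem card_range_eq {F : IntermediateField ℚ_[p] (Kbar p)} (hfix : F.fixingSubgroup = r.ker)
    (S : Subgroup (Gp p)) (hS : ∀ τ, τ ∈ S ↔ IsInertial p τ) (s : Finset (Gp p))
    (hs1 : ∀ τ ∈ s, IsInertial p τ)
    (hs2 : ∀ τ : Gp p, IsInertial p τ → ∃ σ ∈ s, ∀ x ∈ F, τ x = σ x)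
    (hs3 : ∀ σ ∈ s, ∀ σ' ∈ s, (∀ x ∈ F, σ x = σ' x) → σ = σ') :
    Nat.card (resUnits r S).range = s.card := by
  classical
  let g : ↥s → ↥(resUnits r S).range := fun σ =>
    ⟨resUnits r S ⟨σ.1, (hS σ.1).2 (hs1 σ.1 σ.2)⟩, ⟨_, rfl⟩⟩
  have hg : Function.Bijective g := by
    constructor
    · intro σ σ' h
      have h1 : r σ.1 = r σ'.1 := by
        have := congrArg (fun x : ↥(resUnits r S).range => ((x.1 : (Module.End k V)ˣ) :
          Module.End k V)) h
        exact this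
      exact Subtype.ext (hs3 σ.1 σ.2 σ'.1 σ'.2 ((r_eq_iff r hfix _ _).1 h1))
    · rintro ⟨x, τ, rfl⟩
      obtain ⟨σ, hσ, hσF⟩ := hs2 τ.1 ((hS τ.1).1 τ.2)
      refine ⟨⟨σ, hσ⟩, ?_⟩
      apply Subtype.ext
      apply Units.ext
      change r σ = r τ.1
      exact ((r_eq_iff r hfix _ _).2 hσF).symm
  rw [← Nat.card_congr (Equiv.ofBijective g hg), Nat.card_eq_fintype_card, Fintype.card_coe]

end Index

/-! ### Eigen-lines -/

section Eigen

variable {k V : Type} [Field k] [AddCommGroup V] [Module k V]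

theorem pow_apply_of_eigen (f : Module.End k V) (W : Submodule k V) (c : k)
    (hW : ∀ v ∈ W, f v = c • v) (n : ℕ) : ∀ v ∈ W, (f ^ n) v = c ^ n • v := by
  induction n with
  | zero => intro v _; simp
  | succ n ih =>
    intro v hv
    rw [pow_succ, Module.End.mul_apply, hW v hv, map_smul, ih v hv, smul_smul, pow_succ, mul_comm]

theorem exists_ne_zero_of_finrank_one (W : Submodule k V) (hW : Module.finrank k W = 1) :
    ∃ v ∈ W, v ≠ 0 := by
  apply Submodule.exists_mem_ne_zero_of_ne_bot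
  rintro rfl
  rw [finrank_bot] at hW
  exact zero_ne_one hW

theorem eq_one_of_smul_eq {c : k} {v : V} (hv : v ≠ 0) (h : c • v = v) : c = 1 := by
  have h1 : (c - 1) • v = 0 := by rw [sub_smul, one_smul, h, sub_self]
  rcases smul_eq_zero.1 h1 with h2 | h2
  · exact sub_eq_zero.1 h2
  · exact absurd h2 hv

theorem eq_one_of_eigen_one {V1 V2 : Submodule k V} (hc : IsCompl V1 V2) (f : Module.End k V)
    (h1 : ∀ v ∈ V1, f v = v) (h2 : ∀ v ∈ V2, f v = v) : f = 1 := by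
  ext v
  have hv : v ∈ V1 ⊔ V2 := by rw [hc.sup_eq_top]; exact Submodule.mem_top
  obtain ⟨y, hy, z, hz, rfl⟩ := Submodule.mem_sup.1 hv
  rw [map_add, h1 y hy, h2 z hz]
  rfl

end Eigen

/-! ### Arithmetic of `e`, `T`, `m` -/

section Arith

theorem coprime_pred_self : Nat.Coprime (p - 1) p := by
  have h2 := hp.out.two_le
  apply Nat.Coprime.symm
  rw [Nat.Prime.coprime_iff_not_dvd hp.out]
  exact Nat.not_dvd_of_pos_of_lt (by omega) (by omega)

theorem arith_block {e T : ℕ} (hT : T * (p - 1) = p * e) (hdiv : e ∣ p ^ 2 - 1) :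
    ∃ m : ℕ, e = m * (p - 1) ∧ T = p * m ∧ m ∣ p + 1 := by
  have h2 := hp.out.two_le
  have hpos : 0 < p - 1 := by omega
  have hdvd : (p - 1) ∣ e := by
    have h1 : (p - 1) ∣ p * e := ⟨T, by rw [← hT, mul_comm]⟩
    exact (coprime_pred_self (p := p)).dvd_of_dvd_mul_left h1
  obtain ⟨m, hm⟩ := hdvd
  refine ⟨m, by rw [hm, mul_comm], ?_, ?_⟩
  · apply Nat.eq_of_mul_eq_mul_right hpos
    rw [hT, hm]; ring
  · have h3 : p ^ 2 - 1 = (p + 1) * (p - 1) := by
      obtain ⟨q, rfl⟩ : ∃ q, p = q + 1 := ⟨p - 1, by omega⟩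
      simp only [Nat.add_sub_cancel]
      have : (q + 1) ^ 2 = (q + 1 + 1) * q + 1 := by ring
      rw [this, Nat.add_sub_cancel]
    rw [h3, hm, mul_comm (p - 1) m] at hdiv
    exact Nat.dvd_of_mul_dvd_mul_right hpos hdiv

end Arith

/-! ### The main theorem -/

/-- The statement of the [NUMERIC-B] block (`w_eq_k`, `conj_j`, `j_mod`). -/
def NumericB (p : ℕ) [Fact p.Prime] : Prop :=
  ∀ {k V : Type} [Field k] [Finite k] [CharP k p] [AddCommGroup V] [Module k V] [Module.Finite k V],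
    Module.finrank k V = 2 → ∀ r : Gp p →* Module.End k V,
    (∀ (τ : Gp p) (a : ℕ), ActsOnMuP p τ a → LinearMap.det (r τ) = (a : k)) →
    ∀ {F : IntermediateField ℚ_[p] (Kbar p)} (D : LevelData F), Finite D.κ → CharP D.κ p →
    ∀ (V1 V2 : Submodule k V) (ψ1 ψ2 : Gp p → k),
    Module.finrank k V1 = 1 → Module.finrank k V2 = 1 → IsCompl V1 V2 →
    (∀ τ, IsInertial p τ → ∀ v ∈ V1, r τ v = ψ1 τ • v) →
    (∀ τ, IsInertial p τ → ∀ v ∈ V2, r τ v = ψ2 τ • v) →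
    (∀ τ, IsInertial p τ → ψ2 τ = ψ1 τ ^ p) → (∀ τ, IsInertial p τ → ψ1 τ = ψ2 τ ^ p) →
    ∀ g₀ : Gp p, IsInertial p g₀ → (∀ n : ℕ, D.theta g₀ ^ n = 1 ↔ D.e ∣ n) →
    ∀ {ζ : Kbar p}, IsPrimRoot ζ → ∀ w : ℕ, g₀ ζ = ζ ^ w → ∀ m : ℕ, D.e = m * (p - 1) → m ∣ p + 1 →
    ψ1 g₀ ^ D.e = 1 → (∀ n : ℕ, ψ1 g₀ ^ n = 1 → D.e ∣ n) → (w : D.κ) = D.theta g₀ ^ m →
    (w : k) = ψ1 g₀ ^ (p + 1) ∧ ∃ j : ℕ,
      (∀ P : ℤ[X], aeval (ψ1 g₀) P = 0 → aeval (D.theta g₀ ^ j) P = 0) ∧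
      j * (p + 1) ≡ m [MOD D.e]

theorem caseA_setup_of (_hp2 : p ≠ 2) (hLG : IfaceLG.Toolkit p) (hWP : WildPPowerOn p)
    (hLD : HasLevelData p) (hRam : RamIdxEqCard p) (hTG : TameGenerator' p) (hCT : CycloTheta p)
    (hNB : NumericB p)
    {k V : Type} [Field k] [Finite k] [CharP k p] [AddCommGroup V] [Module k V] [Module.Finite k V]
    (hV : Module.finrank k V = 2) (r : Gp p →* Module.End k V)
    (hlev : ∃ F : IntermediateField ℚ_[p] (Kbar p), FiniteDimensional ℚ_[p] F ∧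
      ∀ τ : Gp p, (∀ x ∈ F, τ x = x) → r τ = 1)
    (hdet : ∀ (τ : Gp p) (a : ℕ), ActsOnMuP p τ a → LinearMap.det (r τ) = (a : k))
    (hsplit : ∀ τ : Gp p, ∃ α β : k, LinearMap.charpoly (r τ) = (X - C α) * (X - C β))
    (hirr : ¬ ∃ L : Submodule k V, Module.finrank k L = 1 ∧ ∀ g : Gp p, ∀ v ∈ L, r g v ∈ L) :
    Nonempty (CaseAData r) := by
  classical
  obtain ⟨E₀, hE₀fin, hE₀⟩ := hlev
  -- FIELD
  have hE₀N : E₀.fixingSubgroup ≤ r.ker := by
    intro τ hτ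
    rw [MonoidHom.mem_ker]
    exact hE₀ τ ((IntermediateField.mem_fixingSubgroup_iff E₀ τ).1 hτ)
  have hNn : (r.ker).Normal := MonoidHom.normal_ker r
  have hFfin : FiniteDimensional ℚ_[p] (FixedField47.fixedF r.ker) :=
    FixedField47.finiteDimensional_fixedF r.ker E₀ hE₀N
  have hFn : IsNormalField p (FixedField47.fixedF r.ker) := FixedField47.isNormalField_fixedF r.ker
  have hfix : (FixedField47.fixedF r.ker).fixingSubgroup = r.ker :=
    FixedField47.fixingSubgroup_fixedF r.ker E₀ hE₀N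
  generalize hFdef : FixedField47.fixedF r.ker = F at hFfin hFn hfix
  have hker : ∀ τ : Gp p, τ ∈ F.fixingSubgroup ↔ r τ = 1 := by
    intro τ; rw [hfix, MonoidHom.mem_ker]
  have hkerF : ∀ τ : Gp p, r τ = 1 ↔ ∀ x ∈ F, τ x = x := by
    intro τ; rw [← hker, IntermediateField.mem_fixingSubgroup_iff]
  obtain ⟨ζ, hζ⟩ := LD65a.exists_isPrimRoot (p := p)
  have hζF : ζ ∈ F := by
    rw [← hFdef, FixedField47.mem_fixedF]
    intro τ hτ
    exact fixes_ζ_of_ker hζ r hdet (MonoidHom.mem_ker.1 hτ)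
  obtain ⟨D, hκf, hκc⟩ := hLD F ζ hFfin hζ hζF
  -- FROBENIUS
  obtain ⟨φ, hφ⟩ := hLG.existsFrobLift F hFfin
  obtain ⟨wφ, hwφ⟩ := exists_apply_eq_pow hζ φ
  -- STRUCTURE
  obtain ⟨V1, V2, ψ1, ψ2, hV1, hV2, hc, ha1, ha2, hψne, hφ1, hφ2, hψ2, hψ1, hwild⟩ :=
    CaseAStruct63.structure_block hLG hWP hV r F hFfin hFn hker φ hφ hsplit hirr
  obtain ⟨v1, hv1, hv10⟩ := exists_ne_zero_of_finrank_one V1 hV1
  obtain ⟨v2, hv2, hv20⟩ := exists_ne_zero_of_finrank_one V2 hV2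
  have hψ1ne : ∀ τ, IsInertial p τ → ψ1 τ ≠ 0 := by
    intro τ hτ h0
    have h1 := ha1 τ hτ v1 hv1
    rw [h0, zero_smul, ← map_zero (r τ)] at h1
    exact hv10 (CaseA63.r_injective r τ h1)
  have hψ2ne : ∀ τ, IsInertial p τ → ψ2 τ ≠ 0 := by
    intro τ hτ h0
    have h1 := ha2 τ hτ v2 hv2
    rw [h0, zero_smul, ← map_zero (r τ)] at h1
    exact hv20 (CaseA63.r_injective r τ h1)
  -- TAME / INDEX
  have hpow : ∀ S : Subgroup (Gp p), (∀ τ, τ ∈ S ↔ IsInertial p τ) →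
      ∀ τ ∈ S, r τ ^ (Nat.card k - 1) = 1 := by
    intro S hS τ hτ
    have hτ' := (hS τ).1 hτ
    exact pow_card_sub_one_of_diag r hc τ (hψ1ne τ hτ') (hψ2ne τ hτ') (ha1 τ hτ') (ha2 τ hτ')
  have hSI : ∀ τ, τ ∈ LD65d.inertia p ↔ IsInertial p τ := fun τ => LD65d.mem_inertia
  have htame : ¬ p ∣ D.e := by
    obtain ⟨s, hscard, hs1, hs2, hs3⟩ := hRam F D hFfin hFn
    rw [← hscard, ← card_range_eq r hfix (LD65d.inertia p) hSI s hs1 hs2 hs3]
    exact not_dvd_card_range r _ (hpow _ hSI)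
  have hindex : ∀ S : Subgroup (Gp p), (∀ τ, τ ∈ S ↔ IsInertial p τ) →
      r.ker.relIndex S ≠ 0 ∧ ((r.ker.relIndex S : ℕ) : k) ≠ 0 := by
    intro S hS
    refine ⟨relIndex_ne_zero r S, ?_⟩
    rw [Ne, CharP.cast_eq_zero_iff k p, relIndex_eq]
    exact not_dvd_card_range r _ (hpow _ hS)
  -- GENERATOR
  obtain ⟨g₀, hg₀, hθ, hgen, hg₀e, hg₀ord⟩ := hTG F D hFfin hFn htame
  obtain ⟨w, hw⟩ := exists_apply_eq_pow hζ g₀
  have hgen' : ∀ τ, IsInertial p τ → ∃ n : ℕ, r τ = r g₀ ^ n := by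
    intro τ hτ
    obtain ⟨n, hn⟩ := hgen τ hτ
    exact ⟨n, by rw [← r_pow, r_eq_iff r hfix]; exact hn⟩
  -- NUMERIC
  have hre : r g₀ ^ D.e = 1 := by
    rw [← r_pow, hkerF]; exact hg₀e
  have hψe : ψ1 g₀ ^ D.e = 1 := by
    have h1 := pow_apply_of_eigen (r g₀) V1 (ψ1 g₀) (ha1 g₀ hg₀) D.e v1 hv1
    rw [hre, Module.End.one_apply] at h1
    exact eq_one_of_smul_eq hv10 h1.symm
  have hψord : ∀ n : ℕ, ψ1 g₀ ^ n = 1 → D.e ∣ n := by
    intro n hn
    apply hg₀ord n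
    have h2 : ψ2 g₀ ^ n = 1 := by
      rw [hψ2 g₀ hg₀, ← pow_mul, mul_comm, pow_mul, hn, one_pow]
    rw [← hkerF, r_pow]
    apply eq_one_of_eigen_one hc
    · intro v hv
      rw [pow_apply_of_eigen (r g₀) V1 (ψ1 g₀) (ha1 g₀ hg₀) n v hv, hn, one_smul]
    · intro v hv
      rw [pow_apply_of_eigen (r g₀) V2 (ψ2 g₀) (ha2 g₀ hg₀) n v hv, h2, one_smul]
  have hψ0 : ψ1 g₀ ≠ 0 := hψ1ne g₀ hg₀
  have hpp : ψ1 g₀ ^ (p ^ 2 - 1) = 1 := by
    have h1 : ψ1 g₀ ^ (p ^ 2) = ψ1 g₀ := by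
      conv_rhs => rw [hψ1 g₀ hg₀, hψ2 g₀ hg₀]
      rw [← pow_mul, sq]
    have h2 : ψ1 g₀ ^ (p ^ 2 - 1) * ψ1 g₀ = 1 * ψ1 g₀ := by
      rw [← pow_succ, Nat.sub_add_cancel (Nat.one_le_pow _ _ hp.out.pos), h1, one_mul]
    exact mul_right_cancel₀ hψ0 h2
  obtain ⟨m, he, hTm, hm⟩ := arith_block D.hT (hψord _ hpp)
  have hwκ : (w : D.κ) = D.theta g₀ ^ m := hCT F D ζ hFn hζ hζF g₀ w m hg₀ hw he
  obtain ⟨hwk, j, hconj, hjmod⟩ := hNB hV r hdet D hκf hκc V1 V2 ψ1 ψ2 hV1 hV2 hc ha1 ha2 hψ2 hψ1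
    g₀ hg₀ hθ hζ w hw m he hm hψe hψord hwκ
  exact ⟨{
    N := r.ker, F := F, ζ := ζ, D := D, φ := φ, g₀ := g₀, V1 := V1, V2 := V2, ψ1 := ψ1, ψ2 := ψ2,
    m := m, j := j, w := w, wφ := wφ,
    normalN := hNn
    mem_N := fun τ => MonoidHom.mem_ker
    F_eq := hFdef.symm
    finF := hFfin
    normalF := hFn
    fixF := hfix
    hζ := hζ
    hζF := hζF
    finκ := hκf
    charκ := hκc
    tame := htame
    e_eq := he
    T_eq := hTm
    m_dvd := hm
    frob := hφ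
    φ_ζ := hwφ
    inertial_g₀ := hg₀
    theta_order := hθ
    gen := hgen'
    g₀_ζ := hw
    finrank_V1 := hV1
    finrank_V2 := hV2
    isCompl := hc
    act_V1 := ha1
    act_V2 := ha2
    ψ_ne := hψne
    φ_V1 := hφ1
    φ_V2 := hφ2
    ψ2_eq := hψ2
    ψ1_eq := hψ1
    wild_trivial := hwild
    ψ_pow_e := hψe
    w_eq_k := hwk
    w_eq_κ := hwκ
    conj_j := hconj
    j_mod := hjmod
    index := hindex }⟩

end Fermat.Agent.TW.B5.CaseASetup57
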