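/-
Programme TW (S56), brick B5-CT (the count), leaf CT-4 (W-a) "case A setup" (helper57, spec helper47):
UNCONDITIONAL existence of the data `CaseAData r` in case A (no stable line).
`CaseASetup57.caseA_setup_of` + `CaseANum63.numeric_block` (helper63) + the unconditional toolkit `LDAll65`.
-/
import Mathlib
import Fermat.Agent.TW.B5.CaseASetup57
import Fermat.Agent.TW.B5.CaseANum63
import Fermat.Agent.TW.B5.LDAll65
import Fermat.Agent.TW.B5.LD69g
import Fermat.Agent.TW.B5.LevelInd47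

set_option autoImplicit false
set_option linter.unusedSectionVars false
set_option linter.style.haveILetI false

open Polynomial

namespace Fermat.Agent.TW.B5.CaseASetup57

open Fermat.Agent.TW.B5.Iface Fermat.Agent.TW.B5.IfaceLG Fermat.Agent.TW.B5.IfaceCT
  Fermat.Agent.TW.B5.Kummer47 Fermat.Agent.TW.B5.Levels47

variable {p : ℕ} [hp : Fact p.Prime]

/-- The [NUMERIC-B] block (helper63's `numeric_block`). -/
theorem numericB : NumericB p := by
  intro k V _ _ _ _ _ _ _hV r hdet F D _hκf hκc V1 V2 ψ1 ψ2 hV1 hV2 hc ha1 ha2 hψ2 _hψ1 g₀ hg₀ hθ ζ hζ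
    w hw m _he _hm hψe _hψord hwκ
  haveI := hκc
  have he0 : D.e ≠ 0 := by
    have := LevelInd47.e_pos D
    omega
  exact CaseANum63.numeric_block r hdet D V1 V2 ψ1 ψ2 hV1 hV2 hc ha1 ha2 hψ2 g₀ hg₀ hθ hζ w hw m he0
    hψe hwκ

/-- **Case A set-up, unconditional.** -/
theorem caseA_setup (hp2 : p ≠ 2)
    {k V : Type} [Field k] [Finite k] [CharP k p] [AddCommGroup V] [Module k V] [Module.Finite k V]
    (hV : Module.finrank k V = 2) (r : Gp p →* Module.End k V)
    (hlev : ∃ F : IntermediateField ℚ_[p] (Kbar p), FiniteDimensional ℚ_[p] F ∧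
      ∀ τ : Gp p, (∀ x ∈ F, τ x = x) → r τ = 1)
    (hdet : ∀ (τ : Gp p) (a : ℕ), ActsOnMuP p τ a → LinearMap.det (r τ) = (a : k))
    (hsplit : ∀ τ : Gp p, ∃ α β : k, LinearMap.charpoly (r τ) = (X - C α) * (X - C β))
    (hirr : ¬ ∃ L : Submodule k V, Module.finrank k L = 1 ∧ ∀ g : Gp p, ∀ v ∈ L, r g v ∈ L) :
    Nonempty (CaseAData r) :=
  caseA_setup_of hp2 (LDAll65.toolkit p) (LDAll65.wildPPowerOn p) (LDAll65.hasLevelData p)
    (LDAll65.ramIdxEqCard p) (LD69g.tameGenerator' p (LDAll65.ramIdxEqCard p)) (LDAll65.cycloTheta p)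
    numericB hV r hlev hdet hsplit hirr

/-- The same, with the binders of `Count47.CaseAStatement`. -/
theorem caseA_setup_uncond (p : ℕ) [Fact p.Prime] : p ≠ 2 → ∀ (k : Type) [Field k] [Finite k]
    [CharP k p] (V : Type) [AddCommGroup V] [Module k V] [Module.Finite k V],
    Module.finrank k V = 2 → ∀ r : Gp p →* Module.End k V,
    (∃ F : IntermediateField ℚ_[p] (Kbar p), FiniteDimensional ℚ_[p] F ∧
      ∀ τ : Gp p, (∀ x ∈ F, τ x = x) → r τ = 1) →
    (∀ (τ : Gp p) (a : ℕ), ActsOnMuP p τ a → LinearMap.det (r τ) = (a : k)) →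
    (∀ τ : Gp p, ∃ α β : k, LinearMap.charpoly (r τ) = (X - C α) * (X - C β)) →
    (¬ ∃ L : Submodule k V, Module.finrank k L = 1 ∧ ∀ g : Gp p, ∀ v ∈ L, r g v ∈ L) →
    Nonempty (CaseAData r) :=
  fun hp2 _ _ _ _ _ _ _ _ hV r hlev hdet hsplit hirr => caseA_setup hp2 hV r hlev hdet hsplit hirr

end Fermat.Agent.TW.B5.CaseASetup57
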