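/-
Programme TW (S56), brick B5 (flat local bound), piece CT-5a (helper37): MATRIX FORM of the ordinary shape.

In a basis `(b 0, b 1)` of `V` adapted to the ordinary line `L = k ∙ b 0`:
`r τ = [[χ₁, β], [0, χ₂]]` and the corrected cocycle `c' τ = c τ - (r τ X (r τ)⁻¹ - X) = [[a, bb], [0, -a]]`.
We record the relations between these functions, the coboundary table, and the reduction of the final goal of
case B (`c = λ c₀ + dX'` on inertia) to a statement about the scalar functions `bb`, `bb₀`, `β`, `χ₁ / χ₂`.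
Pure linear algebra over an abstract group; Mathlib only.
-/
import Mathlib

set_option autoImplicit false

namespace Fermat.Agent.TW.B5.CT5Matrix37

variable {k V : Type} [Field k] [AddCommGroup V] [Module k V]

/-- `f` is upper triangular in the basis `b`, with matrix `[[x, y], [0, z]]`. -/
def IsUT (b : Module.Basis (Fin 2) k V) (f : Module.End k V) (x y z : k) : Prop :=
  f (b 0) = x • b 0 ∧ f (b 1) = z • b 1 + y • b 0

namespace IsUT

variable {b : Module.Basis (Fin 2) k V} {f g : Module.End k V} {x y z x' y' z' : k}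

theorem ext (hf : IsUT b f x y z) (hg : IsUT b g x y z) : f = g := by
  apply b.ext
  intro i
  fin_cases i
  · exact hf.1.trans hg.1.symm
  · exact hf.2.trans hg.2.symm

theorem unique (hf : IsUT b f x y z) (hf' : IsUT b f x' y' z') : x = x' ∧ y = y' ∧ z = z' := by
  have h1 : b.repr (f (b 0)) 0 = x := by rw [hf.1]; simp
  have h1' : b.repr (f (b 0)) 0 = x' := by rw [hf'.1]; simp
  have h2 : b.repr (f (b 1)) 0 = y := by rw [hf.2]; simp
  have h2' : b.repr (f (b 1)) 0 = y' := by rw [hf'.2]; simp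
  have h3 : b.repr (f (b 1)) 1 = z := by rw [hf.2]; simp
  have h3' : b.repr (f (b 1)) 1 = z' := by rw [hf'.2]; simp
  exact ⟨h1.symm.trans h1', h2.symm.trans h2', h3.symm.trans h3'⟩

theorem mul (hf : IsUT b f x y z) (hg : IsUT b g x' y' z') :
    IsUT b (f * g) (x * x') (x * y' + y * z') (z * z') := by
  refine ⟨?_, ?_⟩
  · rw [Module.End.mul_apply, hg.1, map_smul, hf.1, smul_smul, mul_comm]
  · rw [Module.End.mul_apply, hg.2, map_add, map_smul, map_smul, hf.1, hf.2]
    simp only [smul_add, smul_smul, add_smul]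
    rw [mul_comm z' z, mul_comm z' y, mul_comm y' x]
    abel

theorem add (hf : IsUT b f x y z) (hg : IsUT b g x' y' z') :
    IsUT b (f + g) (x + x') (y + y') (z + z') := by
  refine ⟨?_, ?_⟩
  · rw [LinearMap.add_apply, hf.1, hg.1, add_smul]
  · rw [LinearMap.add_apply, hf.2, hg.2, add_smul, add_smul]
    abel

theorem neg (hf : IsUT b f x y z) : IsUT b (-f) (-x) (-y) (-z) := by
  refine ⟨?_, ?_⟩
  · rw [LinearMap.neg_apply, hf.1, neg_smul]
  · rw [LinearMap.neg_apply, hf.2, neg_smul, neg_smul, neg_add]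

theorem sub (hf : IsUT b f x y z) (hg : IsUT b g x' y' z') :
    IsUT b (f - g) (x - x') (y - y') (z - z') := by
  have := hf.add hg.neg
  simpa [sub_eq_add_neg] using this

theorem smul (hf : IsUT b f x y z) (t : k) : IsUT b (t • f) (t * x) (t * y) (t * z) := by
  refine ⟨?_, ?_⟩
  · rw [LinearMap.smul_apply, hf.1, smul_smul]
  · rw [LinearMap.smul_apply, hf.2, smul_add, smul_smul, smul_smul]

theorem one : IsUT b (1 : Module.End k V) 1 0 1 := by
  refine ⟨?_, ?_⟩
  · rw [Module.End.one_apply, one_smul]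
  · rw [Module.End.one_apply, one_smul, zero_smul, add_zero]

theorem zero : IsUT b (0 : Module.End k V) 0 0 0 := by
  refine ⟨?_, ?_⟩
  · rw [LinearMap.zero_apply, zero_smul]
  · rw [LinearMap.zero_apply, zero_smul, zero_smul, add_zero]

/-- An endomorphism preserving the line `k ∙ b 0` is upper triangular. -/
theorem exists_of_preserves (b : Module.Basis (Fin 2) k V) (f : Module.End k V)
    (h : f (b 0) ∈ Submodule.span k {b 0}) : ∃ x y z : k, IsUT b f x y z := by
  obtain ⟨x, hx⟩ := Submodule.mem_span_singleton.mp h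
  have hrep := b.sum_repr (f (b 1))
  rw [Fin.sum_univ_two] at hrep
  exact ⟨x, b.repr (f (b 1)) 0, b.repr (f (b 1)) 1, hx.symm, by rw [add_comm]; exact hrep.symm⟩

/-- The diagonal entries of an invertible upper triangular endomorphism are non-zero. -/
theorem ne_zero_of_mul_eq_one (hf : IsUT b f x y z) (hg : IsUT b g x' y' z') (h : f * g = 1) :
    x ≠ 0 ∧ z ≠ 0 := by
  have h1 := (hf.mul hg)
  rw [h] at h1
  obtain ⟨e1, -, e3⟩ := h1.unique one
  refine ⟨fun h0 => ?_, fun h0 => ?_⟩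
  · rw [h0, zero_mul] at e1; exact zero_ne_one e1
  · rw [h0, zero_mul] at e3; exact zero_ne_one e3

/-- Conjugation formula. -/
theorem conj {m finv : Module.End k V} {a₁ a₂ a₃ xi yi zi : k} (hf : IsUT b f x y z)
    (hfi : IsUT b finv xi yi zi) (h : f * finv = 1) (hm : IsUT b m a₁ a₂ a₃) :
    IsUT b (f * m * finv) a₁ ((x * a₂ + y * a₃ - a₁ * y) / z) a₃ := by
  obtain ⟨hx0, hz0⟩ := hf.ne_zero_of_mul_eq_one hfi h
  have h1 := hf.mul hfi
  rw [h] at h1
  obtain ⟨e1, e2, e3⟩ := h1.unique one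
  have hxi : xi = x⁻¹ := eq_inv_of_mul_eq_one_right e1
  have hzi : zi = z⁻¹ := eq_inv_of_mul_eq_one_right e3
  have hyi : yi = -(y * z⁻¹) / x := by
    rw [hzi] at e2
    have h3 : x * yi = -(y * z⁻¹) := eq_neg_of_add_eq_zero_left e2
    rw [eq_div_iff hx0, mul_comm]
    exact h3
  have h2 := (hf.mul hm).mul hfi
  have e4 : x * a₁ * xi = a₁ := by rw [hxi]; field_simp
  have e5 : x * a₁ * yi + (x * a₂ + y * a₃) * zi = (x * a₂ + y * a₃ - a₁ * y) / z := by
    rw [hyi, hzi]; field_simp; ring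
  have e6 : z * a₃ * zi = a₃ := by rw [hzi]; field_simp
  rw [e4, e5, e6] at h2
  exact h2

end IsUT

section Matrix

variable {G : Type*} [Group G] (b : Module.Basis (Fin 2) k V) (r : G →* Module.End k V)

/-- Upper left entry of `r τ`. -/
noncomputable def chi1 (τ : G) : k := b.repr (r τ (b 0)) 0

/-- Upper right entry of `r τ`. -/
noncomputable def beta (τ : G) : k := b.repr (r τ (b 1)) 0

/-- Lower right entry of `r τ`. -/
noncomputable def chi2 (τ : G) : k := b.repr (r τ (b 1)) 1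

/-- The elementary matrix `E₁₂`. -/
noncomputable def E12 : Module.End k V := b.constr k ![0, b 0]

/-- The diagonal matrix `diag (1, -1)`. -/
noncomputable def Dg : Module.End k V := b.constr k ![b 0, -b 1]

theorem isUT_E12 : IsUT b (E12 b) 0 1 0 := by
  refine ⟨?_, ?_⟩
  · rw [E12, Module.Basis.constr_basis, zero_smul]; rfl
  · rw [E12, Module.Basis.constr_basis, zero_smul, zero_add, one_smul]; rfl

theorem isUT_Dg : IsUT b (Dg b) 1 0 (-1) := by
  refine ⟨?_, ?_⟩
  · rw [Dg, Module.Basis.constr_basis, one_smul]; rfl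
  · rw [Dg, Module.Basis.constr_basis, zero_smul, add_zero, neg_smul, one_smul]; rfl

variable {b r}

theorem isUT_of_exists {f : Module.End k V} {x y z : k} (h : IsUT b f x y z) :
    IsUT b f (b.repr (f (b 0)) 0) (b.repr (f (b 1)) 0) (b.repr (f (b 1)) 1) := by
  have h1 : b.repr (f (b 0)) 0 = x := by rw [h.1]; simp
  have h2 : b.repr (f (b 1)) 0 = y := by rw [h.2]; simp
  have h3 : b.repr (f (b 1)) 1 = z := by rw [h.2]; simp
  rw [h1, h2, h3]
  exact h

theorem isUT_r (hstab : ∀ τ : G, r τ (b 0) ∈ Submodule.span k {b 0}) (τ : G) :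
    IsUT b (r τ) (chi1 b r τ) (beta b r τ) (chi2 b r τ) := by
  obtain ⟨x, y, z, h⟩ := IsUT.exists_of_preserves b (r τ) (hstab τ)
  exact isUT_of_exists h

theorem r_mul_inv (τ : G) : r τ * r τ⁻¹ = 1 := by rw [← map_mul, mul_inv_cancel, map_one]

theorem chi_ne_zero (hstab : ∀ τ : G, r τ (b 0) ∈ Submodule.span k {b 0}) (τ : G) :
    chi1 b r τ ≠ 0 ∧ chi2 b r τ ≠ 0 :=
  (isUT_r hstab τ).ne_zero_of_mul_eq_one (isUT_r hstab τ⁻¹) (r_mul_inv τ)

theorem chi1_mul (hstab : ∀ τ : G, r τ (b 0) ∈ Submodule.span k {b 0}) (σ τ : G) :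
    chi1 b r (σ * τ) = chi1 b r σ * chi1 b r τ := by
  have h1 := (isUT_r hstab σ).mul (isUT_r hstab τ)
  rw [← map_mul] at h1
  exact ((isUT_r hstab (σ * τ)).unique h1).1

theorem chi2_mul (hstab : ∀ τ : G, r τ (b 0) ∈ Submodule.span k {b 0}) (σ τ : G) :
    chi2 b r (σ * τ) = chi2 b r σ * chi2 b r τ := by
  have h1 := (isUT_r hstab σ).mul (isUT_r hstab τ)
  rw [← map_mul] at h1
  exact ((isUT_r hstab (σ * τ)).unique h1).2.2

theorem beta_mul (hstab : ∀ τ : G, r τ (b 0) ∈ Submodule.span k {b 0}) (σ τ : G) :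
    beta b r (σ * τ) = chi1 b r σ * beta b r τ + beta b r σ * chi2 b r τ := by
  have h1 := (isUT_r hstab σ).mul (isUT_r hstab τ)
  rw [← map_mul] at h1
  exact ((isUT_r hstab (σ * τ)).unique h1).2.1

/-- The coboundary of `X`. -/
def dX (r : G →* Module.End k V) (X : Module.End k V) (τ : G) : Module.End k V :=
  r τ * X * r τ⁻¹ - X

theorem dX_add (X Y : Module.End k V) (τ : G) : dX r (X + Y) τ = dX r X τ + dX r Y τ := by
  unfold dX
  rw [mul_add, add_mul]
  abel

theorem dX_sub (X Y : Module.End k V) (τ : G) : dX r (X - Y) τ = dX r X τ - dX r Y τ := by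
  unfold dX
  rw [mul_sub, sub_mul]
  abel

theorem dX_smul (t : k) (X : Module.End k V) (τ : G) : dX r (t • X) τ = t • dX r X τ := by
  unfold dX
  rw [mul_smul_comm, smul_mul_assoc, smul_sub]

theorem dX_mul (X : Module.End k V) (σ τ : G) :
    dX r X (σ * τ) = dX r X σ + r σ * dX r X τ * r σ⁻¹ := by
  unfold dX
  rw [map_mul, mul_inv_rev, map_mul, mul_sub, sub_mul]
  simp only [mul_assoc]
  abel

/-- Coboundary table: `d E₁₂ = (χ₁ / χ₂ - 1) E₁₂`. -/
theorem dX_E12 (hstab : ∀ τ : G, r τ (b 0) ∈ Submodule.span k {b 0}) (τ : G) :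
    dX r (E12 b) τ = (chi1 b r τ / chi2 b r τ - 1) • E12 b := by
  have h1 := (isUT_r hstab τ).conj (isUT_r hstab τ⁻¹) (r_mul_inv τ) (isUT_E12 b)
  have h2 := h1.sub (isUT_E12 b)
  refine h2.ext ?_
  have h3 := (isUT_E12 b).smul (chi1 b r τ / chi2 b r τ - 1)
  have e1 : (0 : k) - 0 = (chi1 b r τ / chi2 b r τ - 1) * 0 := by ring
  have e2 : (chi1 b r τ * 1 + beta b r τ * 0 - 0 * beta b r τ) / chi2 b r τ - 1 =
      (chi1 b r τ / chi2 b r τ - 1) * 1 := by ring
  rw [e1, e2]
  exact h3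

/-- Coboundary table: `d diag (1, -1) = - 2 (β / χ₂) E₁₂`. -/
theorem dX_Dg (hstab : ∀ τ : G, r τ (b 0) ∈ Submodule.span k {b 0}) (τ : G) :
    dX r (Dg b) τ = (-2 * (beta b r τ / chi2 b r τ)) • E12 b := by
  have h1 := (isUT_r hstab τ).conj (isUT_r hstab τ⁻¹) (r_mul_inv τ) (isUT_Dg b)
  have h2 := h1.sub (isUT_Dg b)
  refine h2.ext ?_
  have h3 := (isUT_E12 b).smul (-2 * (beta b r τ / chi2 b r τ))
  have e1 : (1 : k) - 1 = (-2 * (beta b r τ / chi2 b r τ)) * 0 := by ring
  have e2 : (chi1 b r τ * 0 + beta b r τ * (-1) - 1 * beta b r τ) / chi2 b r τ - 0 =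
      (-2 * (beta b r τ / chi2 b r τ)) * 1 := by ring
  have e3 : (-1 : k) - (-1) = (-2 * (beta b r τ / chi2 b r τ)) * 0 := by ring
  rw [e1, e2, e3]
  exact h3

end Matrix

section Cocycle

variable {G : Type*} [Group G] {b : Module.Basis (Fin 2) k V} {r : G →* Module.End k V}

/-- Trace of an upper triangular endomorphism. -/
theorem IsUT.trace_eq {f : Module.End k V} {x y z : k} (h : IsUT b f x y z) :
    LinearMap.trace k V f = x + z := by
  rw [LinearMap.trace_eq_matrix_trace k b, Matrix.trace_fin_two]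
  simp [LinearMap.toMatrix_apply, h.1, h.2]

theorem trace_dX (X : Module.End k V) (τ : G) : LinearMap.trace k V (dX r X τ) = 0 := by
  unfold dX
  rw [map_sub, LinearMap.trace_mul_comm, ← mul_assoc, ← map_mul, inv_mul_cancel, map_one, one_mul,
    sub_self]

/-- Upper left entry of the corrected cocycle. -/
noncomputable def entA (b : Module.Basis (Fin 2) k V) (r : G →* Module.End k V)
    (c : G → Module.End k V) (X : Module.End k V) (τ : G) : k :=
  b.repr ((c τ - dX r X τ) (b 0)) 0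

/-- Upper right entry of the corrected cocycle. -/
noncomputable def entB (b : Module.Basis (Fin 2) k V) (r : G →* Module.End k V)
    (c : G → Module.End k V) (X : Module.End k V) (τ : G) : k :=
  b.repr ((c τ - dX r X τ) (b 1)) 0

/-- The corrected cocycle is `[[a, bb], [0, -a]]`. -/
theorem isUT_corrected {c : G → Module.End k V} {X : Module.End k V}
    (htr : ∀ τ : G, LinearMap.trace k V (c τ) = 0)
    (hpres : ∀ τ : G, (c τ - dX r X τ) (b 0) ∈ Submodule.span k {b 0}) (τ : G) :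
    IsUT b (c τ - dX r X τ) (entA b r c X τ) (entB b r c X τ) (-entA b r c X τ) := by
  obtain ⟨x, y, z, h⟩ := IsUT.exists_of_preserves b _ (hpres τ)
  have h1 := isUT_of_exists h
  have h2 := h1.trace_eq
  rw [map_sub, htr, trace_dX, sub_zero] at h2
  have h3 : b.repr ((c τ - dX r X τ) (b 1)) 1 = -entA b r c X τ := by
    unfold entA
    exact eq_neg_of_add_eq_zero_right h2.symm
  rw [h3] at h1
  exact h1

/-- On inertia the corrected cocycle is `bb • E₁₂`. -/
theorem corrected_eq_smul_E12 {c : G → Module.End k V} {X : Module.End k V}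
    (htr : ∀ τ : G, LinearMap.trace k V (c τ) = 0)
    (hpres : ∀ τ : G, (c τ - dX r X τ) (b 0) ∈ Submodule.span k {b 0}) {τ : G}
    (hkill : (c τ - dX r X τ) (b 0) = 0) :
    entA b r c X τ = 0 ∧ c τ - dX r X τ = entB b r c X τ • E12 b := by
  have h1 := isUT_corrected htr hpres τ
  have ha : entA b r c X τ = 0 := by
    unfold entA
    rw [hkill]
    simp
  refine ⟨ha, ?_⟩
  rw [ha, neg_zero] at h1
  refine h1.ext ?_
  have h2 := (isUT_E12 b).smul (entB b r c X τ)
  rwa [mul_zero, mul_one] at h2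

/-- The relations satisfied by the entries of the corrected cocycle. -/
theorem ent_mul {c : G → Module.End k V} {X : Module.End k V}
    (hstab : ∀ τ : G, r τ (b 0) ∈ Submodule.span k {b 0})
    (hcoc : ∀ σ τ : G, c (σ * τ) = c σ + r σ * c τ * r σ⁻¹)
    (htr : ∀ τ : G, LinearMap.trace k V (c τ) = 0)
    (hpres : ∀ τ : G, (c τ - dX r X τ) (b 0) ∈ Submodule.span k {b 0}) (σ τ : G) :
    entA b r c X (σ * τ) = entA b r c X σ + entA b r c X τ ∧
    entB b r c X (σ * τ) = entB b r c X σ +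
      (chi1 b r σ * entB b r c X τ - 2 * entA b r c X τ * beta b r σ) / chi2 b r σ := by
  have h1 : c (σ * τ) - dX r X (σ * τ) =
      (c σ - dX r X σ) + r σ * (c τ - dX r X τ) * r σ⁻¹ := by
    rw [hcoc, dX_mul, mul_sub, sub_mul]
    abel
  have h2 := isUT_corrected htr hpres (σ * τ)
  rw [h1] at h2
  have h3 := (isUT_corrected htr hpres σ).add
    ((isUT_r hstab σ).conj (isUT_r hstab σ⁻¹) (r_mul_inv σ) (isUT_corrected htr hpres τ))
  obtain ⟨e1, e2, -⟩ := h2.unique h3
  refine ⟨e1, ?_⟩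
  rw [e2]
  congr 1
  ring

/-- **Reduction of the goal of case B.**  If on inertia `bb - λ bb₀ = μ (χ₁ / χ₂ - 1) - 2 s β / χ₂`, then on
inertia `c = λ c₀ + d X'`. -/
theorem exists_coboundary_of_entB {IsI : G → Prop} {c₀ c : G → Module.End k V}
    {X₀ X : Module.End k V}
    (hstab : ∀ τ : G, r τ (b 0) ∈ Submodule.span k {b 0})
    (htr₀ : ∀ τ : G, LinearMap.trace k V (c₀ τ) = 0)
    (htr : ∀ τ : G, LinearMap.trace k V (c τ) = 0)
    (hpres₀ : ∀ τ : G, (c₀ τ - dX r X₀ τ) (b 0) ∈ Submodule.span k {b 0})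
    (hpres : ∀ τ : G, (c τ - dX r X τ) (b 0) ∈ Submodule.span k {b 0})
    (hkill₀ : ∀ τ : G, IsI τ → (c₀ τ - dX r X₀ τ) (b 0) = 0)
    (hkill : ∀ τ : G, IsI τ → (c τ - dX r X τ) (b 0) = 0)
    (lam mu s : k)
    (h : ∀ τ : G, IsI τ → entB b r c X τ - lam * entB b r c₀ X₀ τ =
      mu * (chi1 b r τ / chi2 b r τ - 1) - 2 * s * (beta b r τ / chi2 b r τ)) :
    ∃ X' : Module.End k V, ∀ τ : G, IsI τ → c τ = lam • c₀ τ + dX r X' τ := by
  refine ⟨X - lam • X₀ + mu • E12 b + s • Dg b, fun τ hτ => ?_⟩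
  obtain ⟨-, h1⟩ := corrected_eq_smul_E12 htr hpres (hkill τ hτ)
  obtain ⟨-, h2⟩ := corrected_eq_smul_E12 htr₀ hpres₀ (hkill₀ τ hτ)
  have h3 : c τ = entB b r c X τ • E12 b + dX r X τ := by rw [← h1]; abel
  have h4 : c₀ τ = entB b r c₀ X₀ τ • E12 b + dX r X₀ τ := by rw [← h2]; abel
  rw [dX_add, dX_add, dX_sub, dX_smul, dX_smul, dX_smul, dX_E12 hstab, dX_Dg hstab]
  conv_lhs => rw [h3]
  conv_rhs => rw [h4]
  have h5 : entB b r c X τ = lam * entB b r c₀ X₀ τ +
      (mu * (chi1 b r τ / chi2 b r τ - 1) - 2 * s * (beta b r τ / chi2 b r τ)) := by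
    rw [← h τ hτ]; ring
  rw [h5]
  module

end Cocycle

end Fermat.Agent.TW.B5.CT5Matrix37
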