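/-
Programme TW (S56), brick B5 (flat local bound), piece CT-5b (helper37): ABSTRACT ASSEMBLY OF CASE B.

Pure group theory / linear algebra over an abstract group `G` (Mathlib + `CT5Matrix37` + `CT2InfRes63`).

Setting: `r : G →* End_k V` upper triangular in a basis `b` (`r g = [[χ₁ g, β g], [0, χ₂ g]]`), two cocycles
`c₀`, `c` with corrections `X₀`, `X` such that `c' = c - dX = [[x, bb], [0, -x]]`, an "inertia" subgroup `S`
on which `c'` kills the line `k ∙ b 0` and `χ₂ = 1`, a subgroup `K` on which everything is trivial, an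
element `φ` with `G = ⟨φ⟩ · S · K`.

* `beta_conj`, `entB_conj` : the conjugation formulas
    `β (g τ g⁻¹) = (χ₁/χ₂)(g) β τ`,  `bb (g τ g⁻¹) = (χ₁/χ₂)(g) (bb τ + 2 x(g) β τ)`   (`τ ∈ ker χ₁ ∩ ker χ₂ ∩ ker x`);
* `InFam`                  : the family `𝒞(N)` of functions additive on `N` and `χ₁/χ₂`-equivariant;
* `caseB_abstract`         : given the KEY LEMMA `hKey` (two members of `𝒞(N)` of the right level are
  proportional on `N ∩ S`, or the first one vanishes there) the flat classes are proportional on `S`.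
-/
import Mathlib
import Fermat.Agent.TW.B5.CT5Matrix37
import Fermat.Agent.TW.B5.CT2InfRes63

set_option autoImplicit false
set_option linter.unusedSectionVars false
set_option linter.unusedVariables false
set_option linter.style.haveILetI false

namespace Fermat.Agent.TW.B5.CaseB37a

open Fermat.Agent.TW.B5.CT5Matrix37 Fermat.Agent.TW.B5.CT2InfRes63

variable {k V : Type} [Field k] [AddCommGroup V] [Module k V]
variable {G : Type*} [Group G] {b : Module.Basis (Fin 2) k V} {r : G →* Module.End k V}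

section Entries

theorem chi1_one : chi1 b r 1 = 1 := by simp [chi1]

theorem chi2_one : chi2 b r 1 = 1 := by simp [chi2]

theorem beta_one : beta b r 1 = 0 := by simp [beta]

variable (hstab : ∀ τ : G, r τ (b 0) ∈ Submodule.span k {b 0})
include hstab

theorem chi1_inv (τ : G) : chi1 b r τ⁻¹ = (chi1 b r τ)⁻¹ := by
  have h := chi1_mul hstab τ τ⁻¹
  rw [mul_inv_cancel, chi1_one] at h
  exact eq_inv_of_mul_eq_one_right h.symm

theorem chi2_inv (τ : G) : chi2 b r τ⁻¹ = (chi2 b r τ)⁻¹ := by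
  have h := chi2_mul hstab τ τ⁻¹
  rw [mul_inv_cancel, chi2_one] at h
  exact eq_inv_of_mul_eq_one_right h.symm

/-- `χ₁` as a homomorphism to `kˣ`. -/
noncomputable def chi1Hom : G →* kˣ where
  toFun τ := Units.mk0 (chi1 b r τ) (chi_ne_zero hstab τ).1
  map_one' := Units.ext chi1_one
  map_mul' σ τ := Units.ext (chi1_mul hstab σ τ)

/-- `χ₂` as a homomorphism to `kˣ`. -/
noncomputable def chi2Hom : G →* kˣ where
  toFun τ := Units.mk0 (chi2 b r τ) (chi_ne_zero hstab τ).2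
  map_one' := Units.ext chi2_one
  map_mul' σ τ := Units.ext (chi2_mul hstab σ τ)

theorem chi1Hom_eq_one_iff (τ : G) : chi1Hom hstab τ = 1 ↔ chi1 b r τ = 1 := by
  rw [Units.ext_iff]; rfl

theorem chi2Hom_eq_one_iff (τ : G) : chi2Hom hstab τ = 1 ↔ chi2 b r τ = 1 := by
  rw [Units.ext_iff]; rfl

/-- Conjugation formula for the upper right entry of `r`. -/
theorem beta_conj (g τ : G) (h1 : chi1 b r τ = 1) (h2 : chi2 b r τ = 1) :
    beta b r (g * τ * g⁻¹) = chi1 b r g / chi2 b r g * beta b r τ := by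
  have h := (isUT_r hstab g).conj (isUT_r hstab g⁻¹) (r_mul_inv g) (isUT_r hstab τ)
  rw [← map_mul, ← map_mul] at h
  obtain ⟨-, e, -⟩ := (isUT_r hstab (g * τ * g⁻¹)).unique h
  rw [e, h1, h2]
  have := (chi_ne_zero hstab g).2
  field_simp
  ring

end Entries

section Cocycle

variable {c : G → Module.End k V} {X : Module.End k V}
variable (hstab : ∀ τ : G, r τ (b 0) ∈ Submodule.span k {b 0})
  (hcoc : ∀ σ τ : G, c (σ * τ) = c σ + r σ * c τ * r σ⁻¹)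
  (htr : ∀ τ : G, LinearMap.trace k V (c τ) = 0)
  (hpres : ∀ τ : G, (c τ - dX r X τ) (b 0) ∈ Submodule.span k {b 0})
include hstab hcoc htr hpres

theorem entA_mul (σ τ : G) : entA b r c X (σ * τ) = entA b r c X σ + entA b r c X τ :=
  (ent_mul hstab hcoc htr hpres σ τ).1

theorem entA_one : entA b r c X 1 = 0 := by
  have h := entA_mul hstab hcoc htr hpres 1 1
  rw [mul_one] at h
  exact left_eq_add.1 h

theorem entA_inv (τ : G) : entA b r c X τ⁻¹ = -entA b r c X τ := by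
  have h := entA_mul hstab hcoc htr hpres τ τ⁻¹
  rw [mul_inv_cancel, entA_one hstab hcoc htr hpres] at h
  exact (neg_eq_of_add_eq_zero_right h.symm).symm

/-- `x` as a homomorphism to `(k, +)`. -/
noncomputable def entAHom : G →* Multiplicative k where
  toFun τ := Multiplicative.ofAdd (entA b r c X τ)
  map_one' := by rw [entA_one hstab hcoc htr hpres]; rfl
  map_mul' σ τ := by rw [entA_mul hstab hcoc htr hpres]; rfl

theorem entAHom_eq_one_iff (τ : G) :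
    entAHom hstab hcoc htr hpres τ = 1 ↔ entA b r c X τ = 0 := Iff.rfl

theorem entB_mul (σ τ : G) : entB b r c X (σ * τ) = entB b r c X σ +
    (chi1 b r σ * entB b r c X τ - 2 * entA b r c X τ * beta b r σ) / chi2 b r σ :=
  (ent_mul hstab hcoc htr hpres σ τ).2

theorem entB_one : entB b r c X 1 = 0 := by
  have h := entB_mul hstab hcoc htr hpres 1 1
  rw [mul_one, chi1_one, chi2_one, beta_one, entA_one hstab hcoc htr hpres] at h
  simp only [div_one, one_mul, mul_zero, sub_zero] at h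
  exact left_eq_add.1 h

/-- Conjugation formula for the upper right entry of the corrected cocycle. -/
theorem entB_conj (g τ : G) (h1 : chi1 b r τ = 1) (h2 : chi2 b r τ = 1)
    (h3 : entA b r c X τ = 0) :
    entB b r c X (g * τ * g⁻¹) = chi1 b r g / chi2 b r g *
      (entB b r c X τ + 2 * entA b r c X g * beta b r τ) := by
  have hg1 := (chi_ne_zero hstab g).1
  have hg2 := (chi_ne_zero hstab g).2
  -- `bb (g⁻¹)`
  have e0 := entB_mul hstab hcoc htr hpres g g⁻¹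
  rw [mul_inv_cancel, entB_one hstab hcoc htr hpres, entA_inv hstab hcoc htr hpres] at e0
  have e0' : chi1 b r g * entB b r c X g⁻¹ =
      -(chi2 b r g * entB b r c X g) - 2 * entA b r c X g * beta b r g := by
    field_simp at e0
    linear_combination -e0
  -- `bb (τ g⁻¹)`
  have e1 := entB_mul hstab hcoc htr hpres τ g⁻¹
  rw [h1, h2, entA_inv hstab hcoc htr hpres] at e1
  -- `bb (g (τ g⁻¹))`
  have e2 := entB_mul hstab hcoc htr hpres g (τ * g⁻¹)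
  rw [entA_mul hstab hcoc htr hpres, h3, entA_inv hstab hcoc htr hpres, e1, ← mul_assoc] at e2
  rw [e2]
  field_simp
  linear_combination e0'

end Cocycle

section Index

/-- The index in `S` of a subgroup containing `S ∩ ker χ` (`χ : G →* kˣ`, `k` finite) is finite and
invertible in `k`. -/
theorem relIndex_ne_zero_of_ker_le [Finite k] (χ : G →* kˣ) (S N : Subgroup G)
    (h : ∀ τ ∈ S, χ τ = 1 → τ ∈ N) :
    N.relIndex S ≠ 0 ∧ ((N.relIndex S : ℕ) : k) ≠ 0 := by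
  classical
  letI := Fintype.ofFinite k
  have hle : χ.ker ⊓ S ≤ N := fun τ hτ => h τ hτ.2 (MonoidHom.mem_ker.1 hτ.1)
  have h1 : N.relIndex S ∣ χ.ker.relIndex S := by
    rw [← Subgroup.inf_relIndex_right χ.ker S]
    exact Subgroup.relIndex_dvd_of_le_left S hle
  have h2 : χ.ker.relIndex S = Nat.card (χ.domRestrict S).range := by
    rw [Subgroup.relIndex, ← MonoidHom.ker_domRestrict, Subgroup.index_ker]
  have h3 : Nat.card (χ.domRestrict S).range ∣ Nat.card kˣ := Subgroup.card_subgroup_dvd_card _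
  have h4 : Nat.card kˣ = Fintype.card k - 1 := by
    rw [Nat.card_eq_fintype_card, Fintype.card_units]
  have hq : 2 ≤ Fintype.card k := Fintype.one_lt_card
  have hdvd : N.relIndex S ∣ Fintype.card k - 1 := h1.trans (h2 ▸ h4 ▸ h3)
  have hcast : ((Fintype.card k - 1 : ℕ) : k) ≠ 0 := by
    rw [Nat.cast_sub (by omega), Nat.cast_card_eq_zero, Nat.cast_one, zero_sub]
    exact neg_ne_zero.2 one_ne_zero
  obtain ⟨m, hm⟩ := hdvd
  refine ⟨fun h0 => ?_, fun h0 => ?_⟩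
  · rw [h0, zero_mul] at hm; omega
  · rw [hm, Nat.cast_mul, h0, zero_mul] at hcast
    exact hcast rfl

end Index

section Main

/-- The family `𝒞(N)`: functions additive on `N` and `ψ`-equivariant under conjugation. -/
def InFam (N : Subgroup G) (ψ : G → k) (f : G → k) : Prop :=
  (∀ σ ∈ N, ∀ τ ∈ N, f (σ * τ) = f σ + f τ) ∧ ∀ (g : G), ∀ τ ∈ N, f (g * τ * g⁻¹) = ψ g * f τ

/-- An additive function vanishing on `S`, `K` and at `φ` vanishes identically if `G = ⟨φ⟩ S K`. -/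
theorem eq_zero_of_gen (S K : Subgroup G) (φ : G)
    (hgen : ∀ g : G, ∃ (n : ℕ) (τ ν : G), τ ∈ S ∧ ν ∈ K ∧ g = φ ^ n * τ * ν)
    (y : G → k) (hy : ∀ σ τ : G, y (σ * τ) = y σ + y τ) (hS : ∀ τ ∈ S, y τ = 0)
    (hK : ∀ τ ∈ K, y τ = 0) (hφ : y φ = 0) (g : G) : y g = 0 := by
  have h1 : y 1 = 0 := by
    have := hy 1 1
    rw [mul_one] at this
    exact left_eq_add.1 this
  have hpow : ∀ n : ℕ, y (φ ^ n) = 0 := by
    intro n
    induction n with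
    | zero => rw [pow_zero]; exact h1
    | succ n ih => rw [pow_succ, hy, ih, hφ, add_zero]
  obtain ⟨n, τ, ν, hτ, hν, rfl⟩ := hgen g
  rw [hy, hy, hpow, hS τ hτ, hK ν hν, add_zero, add_zero]

variable {c₀ c : G → Module.End k V} {X₀ X : Module.End k V}

/-- On a subgroup `N ≤ ker χ₁ ∩ ker χ₂`: if `bb - λ bb₀ = μ β` on `N ∩ S` then `c = λ c₀ + dY` on `N ∩ S`. -/
theorem line_on_of_entB (h2 : (2 : k) ≠ 0) (S N : Subgroup G)
    (hstab : ∀ τ : G, r τ (b 0) ∈ Submodule.span k {b 0})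
    (htr₀ : ∀ τ : G, LinearMap.trace k V (c₀ τ) = 0)
    (htr : ∀ τ : G, LinearMap.trace k V (c τ) = 0)
    (hpres₀ : ∀ τ : G, (c₀ τ - dX r X₀ τ) (b 0) ∈ Submodule.span k {b 0})
    (hpres : ∀ τ : G, (c τ - dX r X τ) (b 0) ∈ Submodule.span k {b 0})
    (hkill₀ : ∀ τ ∈ S, (c₀ τ - dX r X₀ τ) (b 0) = 0)
    (hkill : ∀ τ ∈ S, (c τ - dX r X τ) (b 0) = 0)
    (hN : ∀ τ ∈ N, chi1 b r τ = 1 ∧ chi2 b r τ = 1) (lam mu : k)
    (h : ∀ τ ∈ N, τ ∈ S → entB b r c X τ - lam * entB b r c₀ X₀ τ = mu * beta b r τ) :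
    ∃ Y : Module.End k V, ∀ τ ∈ N ⊓ S, c τ = lam • c₀ τ + (gconj r τ Y - Y) := by
  obtain ⟨Y, hY⟩ := exists_coboundary_of_entB (IsI := fun τ => τ ∈ N ⊓ S) hstab htr₀ htr hpres₀ hpres
    (fun τ hτ => hkill₀ τ hτ.2) (fun τ hτ => hkill τ hτ.2) lam 0 (-mu / 2) (fun τ hτ => by
      rw [h τ hτ.1 hτ.2, (hN τ hτ.1).2]
      field_simp
      ring)
  exact ⟨Y, fun τ hτ => hY τ hτ⟩

/-- **Abstract assembly of case B.** -/
theorem caseB_abstract [Finite k] (h2 : (2 : k) ≠ 0) (S K : Subgroup G) (φ : G)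
    (hgen : ∀ g : G, ∃ (n : ℕ) (τ ν : G), τ ∈ S ∧ ν ∈ K ∧ g = φ ^ n * τ * ν)
    (hstab : ∀ τ : G, r τ (b 0) ∈ Submodule.span k {b 0})
    (hcoc₀ : ∀ σ τ : G, c₀ (σ * τ) = c₀ σ + r σ * c₀ τ * r σ⁻¹)
    (hcoc : ∀ σ τ : G, c (σ * τ) = c σ + r σ * c τ * r σ⁻¹)
    (htr₀ : ∀ τ : G, LinearMap.trace k V (c₀ τ) = 0)
    (htr : ∀ τ : G, LinearMap.trace k V (c τ) = 0)
    (hpres₀ : ∀ τ : G, (c₀ τ - dX r X₀ τ) (b 0) ∈ Submodule.span k {b 0})
    (hpres : ∀ τ : G, (c τ - dX r X τ) (b 0) ∈ Submodule.span k {b 0})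
    (hkill₀ : ∀ τ ∈ S, (c₀ τ - dX r X₀ τ) (b 0) = 0)
    (hkill : ∀ τ ∈ S, (c τ - dX r X τ) (b 0) = 0)
    (hchi2 : ∀ τ ∈ S, chi2 b r τ = 1)
    (hK : ∀ τ ∈ K, r τ = 1 ∧ c₀ τ = 0 ∧ c τ = 0)
    (Lev : Subgroup G → (G → k) → Prop)
    (hLevAdd : ∀ (N : Subgroup G) (f f' : G → k), Lev N f → Lev N f' → Lev N (fun τ => f τ + f' τ))
    (hLevSmul : ∀ (N : Subgroup G) (lam : k) (f : G → k), Lev N f → Lev N (fun τ => lam * f τ))
    (hLev : ∀ N : Subgroup G, N.Normal → K ≤ N →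
      (∀ τ ∈ N, chi1 b r τ = 1 ∧ chi2 b r τ = 1 ∧ entA b r c₀ X₀ τ = 0 ∧ entA b r c X τ = 0) →
      (∀ τ : G, r τ = 1 → entA b r c₀ X₀ τ = 0 → entA b r c X τ = 0 → τ ∈ N) →
      Lev N (beta b r) ∧ Lev N (entB b r c₀ X₀) ∧ Lev N (entB b r c X))
    (hKey : ∀ N : Subgroup G, N.Normal → K ≤ N → (∀ τ ∈ N, chi1 b r τ = 1 ∧ chi2 b r τ = 1) →
      (∀ τ ∈ S, chi1 b r τ = 1 → τ ∈ N) →
      ∀ f₀ f : G → k, InFam N (fun g => chi1 b r g / chi2 b r g) f₀ →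
        InFam N (fun g => chi1 b r g / chi2 b r g) f → Lev N f₀ → Lev N f →
        (∀ τ ∈ N, τ ∈ S → f₀ τ = 0) ∨ ∃ lam : k, ∀ τ ∈ N, τ ∈ S → f τ = lam * f₀ τ)
    (hnt : ¬ ∃ Y : Module.End k V, ∀ τ ∈ S, c₀ τ = gconj r τ Y - Y) :
    ∃ (lam : k) (Y : Module.End k V), ∀ τ ∈ S, c τ = lam • c₀ τ + (gconj r τ Y - Y) := by
  classical
  -- vanishing of `x₀`, `x` on `S`
  have hxS₀ : ∀ τ ∈ S, entA b r c₀ X₀ τ = 0 := fun τ hτ =>
    (corrected_eq_smul_E12 htr₀ hpres₀ (hkill₀ τ hτ)).1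
  have hxS : ∀ τ ∈ S, entA b r c X τ = 0 := fun τ hτ =>
    (corrected_eq_smul_E12 htr hpres (hkill τ hτ)).1
  -- triviality on `K`
  have hKr : ∀ τ ∈ K, chi1 b r τ = 1 ∧ chi2 b r τ = 1 ∧ beta b r τ = 0 := by
    intro τ hτ
    obtain ⟨h1, -, -⟩ := hK τ hτ
    refine ⟨?_, ?_, ?_⟩
    · simp [chi1, h1]
    · simp [chi2, h1]
    · simp [beta, h1]
  have hKd : ∀ (Y : Module.End k V), ∀ τ ∈ K, dX r Y τ = 0 := by
    intro Y τ hτ
    have h1 := (hK τ hτ).1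
    have h1' := (hK τ⁻¹ (K.inv_mem hτ)).1
    unfold dX
    rw [h1, h1', one_mul, mul_one, sub_self]
  have hKx₀ : ∀ τ ∈ K, entA b r c₀ X₀ τ = 0 := by
    intro τ hτ
    unfold entA
    rw [(hK τ hτ).2.1, hKd X₀ τ hτ]
    simp
  have hKx : ∀ τ ∈ K, entA b r c X τ = 0 := by
    intro τ hτ
    unfold entA
    rw [(hK τ hτ).2.2, hKd X τ hτ]
    simp
  -- the subgroup `N₁`
  set N1 : Subgroup G := (chi1Hom hstab).ker ⊓ (chi2Hom hstab).ker ⊓
    (entAHom hstab hcoc₀ htr₀ hpres₀).ker ⊓ (entAHom hstab hcoc htr hpres).ker with hN1def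
  have hN1mem : ∀ τ, τ ∈ N1 ↔ chi1 b r τ = 1 ∧ chi2 b r τ = 1 ∧ entA b r c₀ X₀ τ = 0 ∧
      entA b r c X τ = 0 := by
    intro τ
    rw [hN1def, Subgroup.mem_inf, Subgroup.mem_inf, Subgroup.mem_inf, MonoidHom.mem_ker,
      MonoidHom.mem_ker, MonoidHom.mem_ker, MonoidHom.mem_ker, chi1Hom_eq_one_iff,
      chi2Hom_eq_one_iff, entAHom_eq_one_iff, entAHom_eq_one_iff]
    tauto
  have hN1normal : N1.Normal := by
    rw [hN1def]
    infer_instance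
  have hKN1 : K ≤ N1 := fun τ hτ =>
    (hN1mem τ).2 ⟨(hKr τ hτ).1, (hKr τ hτ).2.1, hKx₀ τ hτ, hKx τ hτ⟩
  have hN1chi : ∀ τ ∈ N1, chi1 b r τ = 1 ∧ chi2 b r τ = 1 := fun τ hτ =>
    ⟨((hN1mem τ).1 hτ).1, ((hN1mem τ).1 hτ).2.1⟩
  have hSN1 : ∀ τ ∈ S, chi1Hom hstab τ = 1 → τ ∈ N1 := fun τ hτ h1 =>
    (hN1mem τ).2 ⟨(chi1Hom_eq_one_iff hstab τ).1 h1, hchi2 τ hτ, hxS₀ τ hτ, hxS τ hτ⟩
  -- additivity of `β`, `bb₀`, `bb` on `N₁`
  have hbeta_add : ∀ σ ∈ N1, ∀ τ ∈ N1, beta b r (σ * τ) = beta b r σ + beta b r τ := by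
    intro σ hσ τ hτ
    rw [beta_mul hstab, (hN1chi σ hσ).1, (hN1chi τ hτ).2]
    ring
  have hbb₀_add : ∀ σ ∈ N1, ∀ τ ∈ N1,
      entB b r c₀ X₀ (σ * τ) = entB b r c₀ X₀ σ + entB b r c₀ X₀ τ := by
    intro σ hσ τ hτ
    rw [entB_mul hstab hcoc₀ htr₀ hpres₀, (hN1chi σ hσ).1, (hN1chi σ hσ).2,
      ((hN1mem τ).1 hτ).2.2.1]
    ring
  have hbb_add : ∀ σ ∈ N1, ∀ τ ∈ N1,
      entB b r c X (σ * τ) = entB b r c X σ + entB b r c X τ := by
    intro σ hσ τ hτ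
    rw [entB_mul hstab hcoc htr hpres, (hN1chi σ hσ).1, (hN1chi σ hσ).2,
      ((hN1mem τ).1 hτ).2.2.2]
    ring
  -- conjugation formulas on `N₁`
  have hbeta_conj : ∀ (g : G), ∀ τ ∈ N1,
      beta b r (g * τ * g⁻¹) = chi1 b r g / chi2 b r g * beta b r τ := fun g τ hτ =>
    beta_conj hstab g τ (hN1chi τ hτ).1 (hN1chi τ hτ).2
  have hbb₀_conj : ∀ (g : G), ∀ τ ∈ N1, entB b r c₀ X₀ (g * τ * g⁻¹) =
      chi1 b r g / chi2 b r g * (entB b r c₀ X₀ τ + 2 * entA b r c₀ X₀ g * beta b r τ) :=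
    fun g τ hτ => entB_conj hstab hcoc₀ htr₀ hpres₀ g τ (hN1chi τ hτ).1 (hN1chi τ hτ).2
      ((hN1mem τ).1 hτ).2.2.1
  have hbb_conj : ∀ (g : G), ∀ τ ∈ N1, entB b r c X (g * τ * g⁻¹) =
      chi1 b r g / chi2 b r g * (entB b r c X τ + 2 * entA b r c X g * beta b r τ) :=
    fun g τ hτ => entB_conj hstab hcoc htr hpres g τ (hN1chi τ hτ).1 (hN1chi τ hτ).2
      ((hN1mem τ).1 hτ).2.2.2
  -- passage from `N ∩ S` to `S`
  have hline_up : ∀ N : Subgroup G, (∀ τ ∈ S, chi1Hom hstab τ = 1 → τ ∈ N) →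
      (∃ (lam : k) (Y : Module.End k V), ∀ τ ∈ N ⊓ S, c τ = lam • c₀ τ + (gconj r τ Y - Y)) →
      ∃ (lam : k) (Y : Module.End k V), ∀ τ ∈ S, c τ = lam • c₀ τ + (gconj r τ Y - Y) := by
    intro N hN hline
    obtain ⟨i1, i2⟩ := relIndex_ne_zero_of_ker_le (chi1Hom hstab) S N hN
    rw [← Subgroup.inf_relIndex_right N S] at i1 i2
    exact exists_line_of_line r c₀ c hcoc₀ hcoc S (N ⊓ S) i1 i2 hline
  have hcob_up : ∀ N : Subgroup G, (∀ τ ∈ S, chi1Hom hstab τ = 1 → τ ∈ N) →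
      (∃ Y : Module.End k V, ∀ τ ∈ N ⊓ S, c₀ τ = gconj r τ Y - Y) → False := by
    intro N hN hcob
    obtain ⟨i1, i2⟩ := relIndex_ne_zero_of_ker_le (chi1Hom hstab) S N hN
    rw [← Subgroup.inf_relIndex_right N S] at i1 i2
    exact hnt (exists_coboundary_of_coboundary r c₀ hcoc₀ S (N ⊓ S) i1 i2 hcob)
  -- `c₀` is a coboundary on `N ∩ S` as soon as `bb₀ = μ β` there
  have hcob_of : ∀ N : Subgroup G, (∀ τ ∈ N, chi1 b r τ = 1 ∧ chi2 b r τ = 1) → ∀ mu : k,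
      (∀ τ ∈ N, τ ∈ S → entB b r c₀ X₀ τ = mu * beta b r τ) →
      ∃ Y : Module.End k V, ∀ τ ∈ N ⊓ S, c₀ τ = gconj r τ Y - Y := by
    intro N hN mu h
    obtain ⟨Y, hY⟩ := line_on_of_entB (c₀ := c₀) (c := c₀) h2 S N hstab htr₀ htr₀ hpres₀ hpres₀
      hkill₀ hkill₀ hN 0 mu (fun τ hτ hτS => by rw [zero_mul, sub_zero, h τ hτ hτS])
    exact ⟨Y, fun τ hτ => by rw [hY τ hτ, zero_smul, zero_add]⟩
  by_cases hB : ∀ τ ∈ N1, τ ∈ S → beta b r τ = 0
  · -- case (B1): `β = 0` on `N₁ ∩ S`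
    let N1' : Subgroup G :=
      { carrier := {τ | τ ∈ N1 ∧ beta b r τ = 0}
        mul_mem' := fun {σ τ} hσ hτ => ⟨N1.mul_mem hσ.1 hτ.1, by
          rw [hbeta_add σ hσ.1 τ hτ.1, hσ.2, hτ.2, add_zero]⟩
        one_mem' := ⟨N1.one_mem, beta_one⟩
        inv_mem' := fun {τ} hτ => ⟨N1.inv_mem hτ.1, by
          have h := hbeta_add τ hτ.1 τ⁻¹ (N1.inv_mem hτ.1)
          rw [mul_inv_cancel, beta_one, hτ.2, zero_add] at h
          exact h.symm⟩ }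
    have hN1'mem : ∀ τ, τ ∈ N1' ↔ τ ∈ N1 ∧ beta b r τ = 0 := fun τ => Iff.rfl
    have hN1'normal : N1'.Normal := ⟨fun τ hτ g => ⟨hN1normal.conj_mem τ hτ.1 g, by
      rw [hbeta_conj g τ hτ.1, hτ.2, mul_zero]⟩⟩
    have hKN1' : K ≤ N1' := fun τ hτ => ⟨hKN1 hτ, (hKr τ hτ).2.2⟩
    have hN1'chi : ∀ τ ∈ N1', chi1 b r τ = 1 ∧ chi2 b r τ = 1 := fun τ hτ => hN1chi τ hτ.1
    have hSN1' : ∀ τ ∈ S, chi1Hom hstab τ = 1 → τ ∈ N1' := fun τ hτ h1 =>
      ⟨hSN1 τ hτ h1, hB τ (hSN1 τ hτ h1) hτ⟩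
    have hSN1'' : ∀ τ ∈ S, chi1 b r τ = 1 → τ ∈ N1' := fun τ hτ h1 =>
      hSN1' τ hτ ((chi1Hom_eq_one_iff hstab τ).2 h1)
    obtain ⟨-, hL₀, hL⟩ := hLev N1' hN1'normal hKN1' (fun τ hτ => (hN1mem τ).1 hτ.1)
      (fun τ h1 h2 h3 => ⟨(hN1mem τ).2 ⟨by simp [chi1, h1], by simp [chi2, h1], h2, h3⟩,
        by simp [beta, h1]⟩)
    have hF₀ : InFam N1' (fun g => chi1 b r g / chi2 b r g) (entB b r c₀ X₀) :=
      ⟨fun σ hσ τ hτ => hbb₀_add σ hσ.1 τ hτ.1, fun g τ hτ => by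
        rw [hbb₀_conj g τ hτ.1, hτ.2, mul_zero, add_zero]⟩
    have hF : InFam N1' (fun g => chi1 b r g / chi2 b r g) (entB b r c X) :=
      ⟨fun σ hσ τ hτ => hbb_add σ hσ.1 τ hτ.1, fun g τ hτ => by
        rw [hbb_conj g τ hτ.1, hτ.2, mul_zero, add_zero]⟩
    rcases hKey N1' hN1'normal hKN1' hN1'chi hSN1'' _ _ hF₀ hF hL₀ hL with h0 | ⟨lam, hlam⟩
    · exfalso
      exact hcob_up N1' hSN1' (hcob_of N1' hN1'chi 0 (fun τ hτ hτS => by
        rw [h0 τ hτ hτS, zero_mul]))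
    · refine hline_up N1' hSN1' ⟨lam, ?_⟩
      exact line_on_of_entB h2 S N1' hstab htr₀ htr hpres₀ hpres hkill₀ hkill hN1'chi lam 0
        (fun τ hτ hτS => by rw [hlam τ hτ hτS, sub_self, zero_mul])
  · -- case (B2): `β ≠ 0` somewhere on `N₁ ∩ S`
    push Not at hB
    obtain ⟨τ₁, hτ₁N, hτ₁S, hτ₁⟩ := hB
    have hSN1'' : ∀ τ ∈ S, chi1 b r τ = 1 → τ ∈ N1 := fun τ hτ h1 =>
      hSN1 τ hτ ((chi1Hom_eq_one_iff hstab τ).2 h1)
    obtain ⟨hLβ, hL₀, hL⟩ := hLev N1 hN1normal hKN1 (fun τ hτ => (hN1mem τ).1 hτ)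
      (fun τ h1 h2 h3 => (hN1mem τ).2 ⟨by simp [chi1, h1], by simp [chi2, h1], h2, h3⟩)
    have hFβ : InFam N1 (fun g => chi1 b r g / chi2 b r g) (beta b r) :=
      ⟨hbeta_add, hbeta_conj⟩
    by_cases hx₀φ : entA b r c₀ X₀ φ = 0
    · -- `x₀ = 0` identically: contradiction
      exfalso
      have hx₀ : ∀ g, entA b r c₀ X₀ g = 0 :=
        eq_zero_of_gen S K φ hgen _ (entA_mul hstab hcoc₀ htr₀ hpres₀) hxS₀ hKx₀ hx₀φ
      have hF₀ : InFam N1 (fun g => chi1 b r g / chi2 b r g) (entB b r c₀ X₀) :=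
        ⟨hbb₀_add, fun g τ hτ => by rw [hbb₀_conj g τ hτ, hx₀ g, mul_zero, zero_mul, add_zero]⟩
      rcases hKey N1 hN1normal hKN1 hN1chi hSN1'' _ _ hFβ hF₀ hLβ hL₀ with h0 | ⟨mu, hmu⟩
      · exact hτ₁ (h0 τ₁ hτ₁N hτ₁S)
      · exact hcob_up N1 hSN1 (hcob_of N1 hN1chi mu hmu)
    · -- `λ = x(φ) / x₀(φ)`
      set lam : k := entA b r c X φ / entA b r c₀ X₀ φ with hlam
      have hy : ∀ g, entA b r c X g + -lam * entA b r c₀ X₀ g = 0 := by
        refine eq_zero_of_gen S K φ hgen (fun g => entA b r c X g + -lam * entA b r c₀ X₀ g)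
          (fun σ τ => ?_) (fun τ hτ => ?_) (fun τ hτ => ?_) ?_
        · simp only [entA_mul hstab hcoc₀ htr₀ hpres₀, entA_mul hstab hcoc htr hpres]
          ring
        · simp only [hxS₀ τ hτ, hxS τ hτ]
          ring
        · simp only [hKx₀ τ hτ, hKx τ hτ]
          ring
        · rw [hlam]
          field_simp
          ring
      have hF : InFam N1 (fun g => chi1 b r g / chi2 b r g)
          (fun τ => entB b r c X τ + -lam * entB b r c₀ X₀ τ) := by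
        refine ⟨fun σ hσ τ hτ => ?_, fun g τ hτ => ?_⟩
        · simp only [hbb₀_add σ hσ τ hτ, hbb_add σ hσ τ hτ]
          ring
        · simp only [hbb₀_conj g τ hτ, hbb_conj g τ hτ]
          have := hy g
          linear_combination (chi1 b r g / chi2 b r g * 2 * beta b r τ) * this
      have hLf : Lev N1 (fun τ => entB b r c X τ + -lam * entB b r c₀ X₀ τ) :=
        hLevAdd N1 _ _ hL (hLevSmul N1 (-lam) _ hL₀)
      rcases hKey N1 hN1normal hKN1 hN1chi hSN1'' _ _ hFβ hF hLβ hLf with h0 | ⟨mu, hmu⟩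
      · exact absurd (h0 τ₁ hτ₁N hτ₁S) hτ₁
      · refine hline_up N1 hSN1 ⟨lam, ?_⟩
        exact line_on_of_entB h2 S N1 hstab htr₀ htr hpres₀ hpres hkill₀ hkill hN1chi lam mu
          (fun τ hτ hτS => by rw [← hmu τ hτ hτS]; ring)

end Main

end Fermat.Agent.TW.B5.CaseB37a
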