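/-
Programme TW (S56), brick B5-CT (the count), leaf CT-4b (helper47): GALOIS EQUIVARIANCE OF THE SYMBOL MAP
in the coordinates `x ↦ ℓ_x = pairFun τ₀ x` of `LevelInd47`.

If `g` normalises `G_F`, `g ζ = ζ ^ w`, and the functionals `ℓ_x`, `ℓ_{x'}` are related by
`ℓ_{x'} (β τ) = w * ℓ_x (β (g⁻¹ τ g))` on `G_F`, then

* `symHom_inertial` : `A (x') = θ(g) ^ i * A (x)`        for `g` inertial,
* `symHom_frob`     : `A (x') = θ(g) ^ i * A (x) ^ p`    for `g` a Frobenius lift on `F`,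

where `A = symHom β i` is the level-`i` symbol map of `β`.
-/
import Mathlib
import Fermat.Agent.TW.B5.LevelInd47

set_option autoImplicit false
set_option linter.unusedSectionVars false

namespace Fermat.Agent.TW.B5.SymEquiv47

open Fermat.Agent.TW.B5.Iface Fermat.Agent.TW.B5.IfaceLG Fermat.Agent.TW.B5.Kummer47
  Fermat.Agent.TW.B5.Levels47 Fermat.Agent.TW.B5.LevelInd47

variable {p : ℕ} [hp : Fact p.Prime]
variable {F : IntermediateField ℚ_[p] (Kbar p)} (D : LevelData F)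
variable {k : Type*} [Field k] [Finite k] [CharP k p] {J : Type*} [Fintype J]
variable {ζ : Kbar p}

theorem symHom_apply (hζ : IsPrimRoot ζ) (hζF : ζ ∈ F) (hK : D.KFacts) (τ₀ : k →+ ZMod p)
    (β : Gp p → (J → k)) (i : ℕ) (h : D.LevAll ζ β i)
    (hi1 : 1 ≤ i) (hie : D.e ≤ i) (hiT : i < D.T) (hip : ¬ p ∣ i) (x : J → k) :
    symHom D hζ hζF hK τ₀ β i h hi1 hie hiT hip x = D.sym ζ β i h (pairFun τ₀ x) := rfl

/-- Equivariance of the symbol map under an inertial element normalising `G_F`. -/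
theorem symHom_inertial (hζ : IsPrimRoot ζ) (hζF : ζ ∈ F) (hK : D.KFacts) (τ₀ : k →+ ZMod p)
    {β : Gp p → (J → k)} {i : ℕ} (h : D.LevAll ζ β i)
    (hi1 : 1 ≤ i) (hie : D.e ≤ i) (hiT : i < D.T) (hip : ¬ p ∣ i)
    (g : Gp p) (w : ℕ) (hw : g ζ = ζ ^ w) (hg : ∀ x ∈ F, g x ∈ F) (hin : IsInertial p g)
    (x x' : J → k)
    (hrel : ∀ τ ∈ F.fixingSubgroup,
      pairFun τ₀ x' (β τ) = (w : ZMod p) * pairFun τ₀ x (β (g⁻¹ * τ * g))) :
    symHom D hζ hζF hK τ₀ β i h hi1 hie hiT hip x' =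
      D.theta g ^ i * symHom D hζ hζF hK τ₀ β i h hi1 hie hiT hip x := by
  obtain ⟨a, ha, hk⟩ := h (pairFun τ₀ x)
  rw [symHom_apply, symHom_apply,
    D.sym_galois hζ hζF hK h hi1 hie hiT hip g w hw hg (pairFun τ₀ x) (pairFun τ₀ x') hrel ha hk,
    D.lev_conj_inertial hg hin ha, D.sym_spec hζ hK h hi1 hie hiT hip (pairFun τ₀ x) ha hk]

/-- Equivariance of the symbol map under a Frobenius lift normalising `G_F`. -/
theorem symHom_frob (hζ : IsPrimRoot ζ) (hζF : ζ ∈ F) (hK : D.KFacts) (τ₀ : k →+ ZMod p)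
    {β : Gp p → (J → k)} {i : ℕ} (h : D.LevAll ζ β i)
    (hi1 : 1 ≤ i) (hie : D.e ≤ i) (hiT : i < D.T) (hip : ¬ p ∣ i)
    (g : Gp p) (w : ℕ) (hw : g ζ = ζ ^ w) (hg : ∀ x ∈ F, g x ∈ F) (hfr : IsFrobLiftOn p F g)
    (x x' : J → k)
    (hrel : ∀ τ ∈ F.fixingSubgroup,
      pairFun τ₀ x' (β τ) = (w : ZMod p) * pairFun τ₀ x (β (g⁻¹ * τ * g))) :
    symHom D hζ hζF hK τ₀ β i h hi1 hie hiT hip x' =
      D.theta g ^ i * symHom D hζ hζF hK τ₀ β i h hi1 hie hiT hip x ^ p := by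
  obtain ⟨a, ha, hk⟩ := h (pairFun τ₀ x)
  rw [symHom_apply, symHom_apply,
    D.sym_galois hζ hζF hK h hi1 hie hiT hip g w hw hg (pairFun τ₀ x) (pairFun τ₀ x') hrel ha hk,
    D.lev_conj_frob hg hfr ha, D.sym_spec hζ hK h hi1 hie hiT hip (pairFun τ₀ x) ha hk]

end Fermat.Agent.TW.B5.SymEquiv47
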