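/-
Programme TW (S56), brick B5 (flat local bound), piece CT-5c (helper37): THE KEY LEMMA OF CASE B (B-main).

`F` a finite normal extension of `ℚ_p` containing `ζ_p`, tamely ramified (`p ∤ e`), with level data `D`;
`ψ : G_p → kˣ` a character which is the mod-`p` cyclotomic character on inertia.  For two functions
`f₀, f : G_p → k` which are `ψ`-equivariant under conjugation on `G_F` and whose Kummer generators have level
`≥ e`:  either `f₀ = 0` on `I ∩ G_F`, or `f = λ f₀` on `I ∩ G_F` for some `λ ∈ k`.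

Proof: `LevelInd47.two_cocycle` with `J = Unit`, `istar = e`; the symbol maps are inertia-invariant
(`SymEquiv47.symHom_inertial`, twist `ξ ^ i` with `ξ = θ(g₀)` of exact order `e`), hence vanish for
`e ∤ i`, and Frobenius-semilinear (`SymEquiv47.symHom_frob`), hence at most `#k` of them
(`CT1MultPoly63.card_mult_le'`).
-/
import Mathlib
import Fermat.Agent.TW.B5.SymEquiv47
import Fermat.Agent.TW.B5.CT1MultPoly63
import Fermat.Agent.TW.B5.IfaceCT

set_option autoImplicit false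
set_option linter.unusedSectionVars false
set_option linter.unusedVariables false
set_option linter.style.haveILetI false

namespace Fermat.Agent.TW.B5.CaseB37b

open Fermat.Agent.TW.B5.Iface Fermat.Agent.TW.B5.IfaceLG Fermat.Agent.TW.B5.Kummer47
  Fermat.Agent.TW.B5.Levels47 Fermat.Agent.TW.B5.LevelInd47 Fermat.Agent.TW.B5.SymEquiv47
  Fermat.Agent.TW.B5.IfaceCT Fermat.Agent.TW.B5.CT1Mult63 Fermat.Agent.TW.B5.CT1MultPoly63

variable {p : ℕ} [hp : Fact p.Prime]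

section Aux

variable {k : Type*} [Field k]

/-- A non-zero additive functional `k → 𝔽_p`. -/
theorem exists_addHom_ne_zero [CharP k p] : ∃ τ₀ : k →+ ZMod p, τ₀ ≠ 0 := by
  letI : Algebra (ZMod p) k := ZMod.algebra k p
  by_contra hcon
  push Not at hcon
  have h1 : (1 : k) = 0 :=
    (Module.forall_dual_apply_eq_zero_iff (ZMod p) (1 : k)).1 fun f => by
      have := hcon f.toAddMonoidHom
      exact DFunLike.congr_fun this 1
  exact one_ne_zero h1

/-- `n * τ₀ z = τ₀ (n * z)`. -/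
theorem natCast_mul_map (τ₀ : k →+ ZMod p) (n : ℕ) (z : k) :
    (n : ZMod p) * τ₀ z = τ₀ ((n : k) * z) := by
  rw [← nsmul_eq_mul, ← nsmul_eq_mul, map_nsmul]

/-- The subring generated by `1` in a finite field of characteristic `p` has `p` elements. -/
theorem card_closure_one [Finite k] [CharP k p] : Nat.card (Subring.closure {(1 : k)}) = p := by
  rw [← card_closureField]
  have h : closureField (1 : k) = ⊥ := by
    refine le_antisymm ?_ bot_le
    intro x hx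
    have h1 : Subring.closure {(1 : k)} ≤ (⊥ : Subfield k).toSubring :=
      Subring.closure_le.2 (by
        intro y hy
        rw [Set.mem_singleton_iff] at hy
        rw [hy]
        exact one_mem _)
    exact h1 (mem_closureField.1 hx)
  rw [h]
  exact Subfield.card_bot k p

/-- The only multiple of `e` in `[e, T)` is `e` (where `T (p - 1) = p e`). -/
theorem eq_of_dvd_of_lt {e T i : ℕ} (hT : T * (p - 1) = p * e) (hd : e ∣ i) (hei : e ≤ i)
    (hiT : i < T) : i = e := by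
  obtain ⟨m, rfl⟩ := hd
  have hp2 := hp.out.two_le
  rcases Nat.lt_or_ge m 2 with hm | hm
  · interval_cases m
    · simp at hei
      subst hei
      simp
    · simp
  · exfalso
    have h1 : 2 * e ≤ e * m := by rw [mul_comm e m]; exact Nat.mul_le_mul_right e hm
    have h2 : T * (p - 1) ≤ 2 * e * (p - 1) := by
      rw [hT]
      have : p ≤ 2 * (p - 1) := by omega
      calc p * e ≤ 2 * (p - 1) * e := Nat.mul_le_mul_right e this
        _ = 2 * e * (p - 1) := by ring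
    have h3 : T ≤ 2 * e := Nat.le_of_mul_le_mul_right h2 (by omega)
    omega

end Aux

section Key

variable {F : IntermediateField ℚ_[p] (Kbar p)} (D : LevelData F)
variable {k : Type} [Field k] [Finite k] [CharP k p]
variable {ζ : Kbar p}

/-- Sum over `Unit`. -/
theorem pairFun_unit (τ₀ : k →+ ZMod p) (x m : Unit → k) :
    pairFun τ₀ x m = τ₀ (x () * m ()) := by
  simp [pairFun_apply]

/-- **The key lemma of case B.** -/
theorem key_lemma (hp2 : p ≠ 2) (hKF : KFactsAll p) (hTG : TameGenerator p) (hEF : ExistsFrobLift p)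
    (hfin : FiniteDimensional ℚ_[p] F) (hFn : IsNormalField p F)
    [Finite D.κ] [CharP D.κ p] (hDe : ¬ p ∣ D.e)
    (hζ : IsPrimRoot ζ) (hζF : ζ ∈ F)
    (ψ : Gp p → k) (hψ0 : ∀ g, ψ g ≠ 0) (hψinv : ∀ g, ψ g⁻¹ = (ψ g)⁻¹)
    (hψI : ∀ (g : Gp p) (w : ℕ), IsInertial p g → g ζ = ζ ^ w → ψ g = (w : k))
    (f₀ f : Gp p → k)
    (hf₀ : ∀ (g : Gp p), ∀ τ ∈ F.fixingSubgroup, f₀ (g * τ * g⁻¹) = ψ g * f₀ τ)
    (hf : ∀ (g : Gp p), ∀ τ ∈ F.fixingSubgroup, f (g * τ * g⁻¹) = ψ g * f τ)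
    (hL₀ : D.LevAll ζ (fun τ (_ : Unit) => f₀ τ) D.e)
    (hL : D.LevAll ζ (fun τ (_ : Unit) => f τ) D.e) :
    (∀ τ ∈ F.fixingSubgroup, IsInertial p τ → f₀ τ = 0) ∨
    ∃ lam : k, ∀ τ ∈ F.fixingSubgroup, IsInertial p τ → f τ = lam * f₀ τ := by
  classical
  have hK : D.KFacts := hKF hp2 F D ζ hfin hζ hζF
  obtain ⟨τ₀, hτ₀⟩ := exists_addHom_ne_zero (p := p) (k := k)
  obtain ⟨g₀, hg₀in, hg₀ord, -⟩ := hTG F D hfin hFn hDe
  obtain ⟨φ, hφ⟩ := hEF F hfin
  -- exponents on `ζ`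
  have hexp : ∀ g : Gp p, ∃ w : ℕ, g ζ = ζ ^ w := by
    intro g
    have h1 : (g ζ) ^ p = 1 := by rw [← map_pow, hζ.1, map_one]
    obtain ⟨i, hi⟩ := exists_pow_eq hζ h1
    exact ⟨i, hi.symm⟩
  obtain ⟨w₀, hw₀⟩ := hexp g₀
  obtain ⟨wφ, hwφ⟩ := hexp φ
  have hψg₀ : ψ g₀ = (w₀ : k) := hψI g₀ w₀ hg₀in hw₀
  have hw₀ne : (w₀ : k) ≠ 0 := hψg₀ ▸ hψ0 g₀
  have hwφne : (wφ : k) ≠ 0 := by
    intro h0
    have h1 : p ∣ wφ := (CharP.cast_eq_zero_iff k p wφ).1 h0
    obtain ⟨m, rfl⟩ := h1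
    rw [pow_mul, hζ.1, one_pow] at hwφ
    have h2 : φ ζ = φ 1 := by rw [hwφ, map_one]
    exact hζ.2 (φ.injective h2)
  set ξ : D.κ := D.theta g₀ with hξ
  set θφ : D.κ := D.theta φ with hθφ
  set cφ : k := (wφ : k) * (ψ φ)⁻¹ with hcφ
  have hcφne : cφ ≠ 0 := mul_ne_zero hwφne (inv_ne_zero (hψ0 φ))
  -- the semilinear data
  let γ : (Unit → k) →+ (Unit → k) := AddMonoidHom.id _
  let ΦN : (Unit → k) ≃+ (Unit → k) :=
    { toFun := fun y => cφ • y
      invFun := fun y => cφ⁻¹ • y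
      left_inv := fun y => by
        show cφ⁻¹ • cφ • y = y
        rw [smul_smul, inv_mul_cancel₀ hcφne, one_smul]
      right_inv := fun y => by
        show cφ • cφ⁻¹ • y = y
        rw [smul_smul, mul_inv_cancel₀ hcφne, one_smul]
      map_add' := fun y y' => smul_add _ _ _ }
  let 𝓗 : ℕ → Set ((Unit → k) →+ D.κ) := fun i =>
    {A | (∀ n, A (γ n) = ξ ^ i * A n) ∧ (∀ n, A (ΦN n) = θφ ^ i * (A n) ^ p)}
  -- the family
  let 𝒞 : Set (Gp p → (Unit → k)) :=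
    {β | ∀ (g : Gp p), ∀ τ ∈ F.fixingSubgroup, β (g * τ * g⁻¹) = ψ g • β τ}
  have hconj' : ∀ β ∈ 𝒞, ∀ (g : Gp p), ∀ τ ∈ F.fixingSubgroup,
      β (g⁻¹ * τ * g) = (ψ g)⁻¹ • β τ := by
    intro β hβ g τ hτ
    have := hβ g⁻¹ τ hτ
    rw [inv_inv, hψinv] at this
    exact this
  have hmem : ∀ β ∈ 𝒞, ∀ (i : ℕ) (h : D.LevAll ζ β i) (hi1 : 1 ≤ i) (hie : D.e ≤ i)
      (hiT : i < D.T) (hip : ¬ p ∣ i), symHom D hζ hζF hK τ₀ β i h hi1 hie hiT hip ∈ 𝓗 i := by
    intro β hβ i h hi1 hie hiT hip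
    refine ⟨fun y => ?_, fun y => ?_⟩
    · refine symHom_inertial D hζ hζF hK τ₀ h hi1 hie hiT hip g₀ w₀ hw₀ (hFn g₀) hg₀in y y ?_
      intro τ hτ
      rw [hconj' β hβ g₀ τ hτ, pairFun_unit, pairFun_unit, natCast_mul_map, hψg₀]
      congr 1
      simp only [Pi.smul_apply, smul_eq_mul]
      field_simp
    · refine symHom_frob D hζ hζF hK τ₀ h hi1 hie hiT hip φ wφ hwφ (hFn φ) hφ y (cφ • y) ?_
      intro τ hτ
      rw [hconj' β hβ φ τ hτ, pairFun_unit, pairFun_unit, natCast_mul_map]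
      congr 1
      simp only [Pi.smul_apply, smul_eq_mul, hcφ]
      ring
  have hun : ∀ i, D.e ≤ i → i < D.T → ¬ p ∣ i → i ≠ D.e → ∀ A ∈ 𝓗 i, A = 0 := by
    intro i hie hiT hip hne A hA
    have hξi : ξ ^ i ≠ 1 := by
      intro h1
      exact hne (eq_of_dvd_of_lt D.hT ((hg₀ord i).1 h1) hie hiT)
    refine DFunLike.ext _ _ fun y => ?_
    have h1 := hA.1 y
    have h2 : (1 - ξ ^ i) * A y = 0 := by
      rw [sub_mul, one_mul, sub_eq_zero]
      exact h1
    rcases mul_eq_zero.1 h2 with h3 | h3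
    · exact absurd (sub_eq_zero.1 h3).symm hξi
    · exact h3
  have hex : (𝓗 D.e).Finite ∧ (𝓗 D.e).ncard ≤ Nat.card k := by
    haveI : Finite ((Unit → k) →+ D.κ) := Finite.of_injective _ DFunLike.coe_injective
    refine ⟨Set.toFinite _, ?_⟩
    letI := Fintype.ofFinite k
    obtain ⟨n, -, hn⟩ := FiniteField.card k p
    have hcardk : Nat.card k = p ^ (n : ℕ) := by
      rw [Nat.card_eq_fintype_card]
      exact hn
    have := card_mult_le' (k := k) (κ := D.κ) p (N := Unit → k) (Pi.basisFun k Unit)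
      (fun _ => (1 : k)) γ (fun j x => by simp [γ]) ΦN (ξ ^ D.e) (θφ ^ D.e) (fun _ => (n : ℕ))
      (fun j => Or.inr (by rw [card_closure_one (p := p), hcardk]))
    rw [Nat.card_coe_set_eq] at this
    calc (𝓗 D.e).ncard ≤ p ^ (∑ j : Unit, (n : ℕ)) := this
      _ = Nat.card k := by rw [hcardk]; simp
  have hsub : ∀ β ∈ 𝒞, ∀ β' ∈ 𝒞, (fun τ => β τ - β' τ) ∈ 𝒞 := by
    intro β hβ β' hβ' g τ hτ
    show β (g * τ * g⁻¹) - β' (g * τ * g⁻¹) = ψ g • (β τ - β' τ)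
    rw [hβ g τ hτ, hβ' g τ hτ, smul_sub]
  have hsmul : ∀ (lam : k), ∀ β ∈ 𝒞, (fun τ => lam • β τ) ∈ 𝒞 := by
    intro lam β hβ g τ hτ
    show lam • β (g * τ * g⁻¹) = ψ g • lam • β τ
    rw [hβ g τ hτ, smul_comm]
  have hβ₀ : (fun τ (_ : Unit) => f₀ τ) ∈ 𝒞 := by
    intro g τ hτ
    funext _
    show f₀ (g * τ * g⁻¹) = ψ g * f₀ τ
    exact hf₀ g τ hτ
  have hβ : (fun τ (_ : Unit) => f τ) ∈ 𝒞 := by
    intro g τ hτ
    funext _
    show f (g * τ * g⁻¹) = ψ g * f τ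
    exact hf g τ hτ
  rcases two_cocycle D hζ hζF hK τ₀ hτ₀ 𝒞 hsub hsmul 𝓗 D.e hmem hun hex _ _ hβ₀ hβ hL₀ hL with
    h0 | ⟨lam, hlam⟩
  · left
    intro τ hτF hτI
    exact congrFun (h0 τ hτI hτF) ()
  · right
    refine ⟨lam, fun τ hτF hτI => ?_⟩
    exact congrFun (hlam τ hτI hτF) ()

end Key

end Fermat.Agent.TW.B5.CaseB37b
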