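/-
Programme TW (S56), brick B5 (flat local bound), piece CT-5d (helper37): WIRING OF CASE B, part 1.

* `Lev N f`       : the level predicate fed to `CaseB37a.caseB_abstract`: for every level datum `D` on the fixed
                    field of `N` (tame, containing `ζ_p`), all Kummer generators of `f` have level `≥ e`;
* `lev_add`, `lev_smul` : closure properties;
* `lev_of_flat`   : (L1) `FlatLev47.levAll_of_flat'` in this vocabulary: a function `f : G_p → k`, additive on `N`
                    and cut out by the flat module `V[ε]` of a cocycle `c`, satisfies `Lev N f`.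
-/
import Mathlib
import Fermat.Agent.TW.B5.GlueA47
import Fermat.Agent.TW.B5.FixedField47
import Fermat.Agent.TW.B5.LevelInd47

set_option autoImplicit false
set_option linter.unusedSectionVars false
set_option linter.unusedVariables false
set_option linter.style.haveILetI false

namespace Fermat.Agent.TW.B5.CaseB37c

open Fermat.Agent.TW.B5.Iface Fermat.Agent.TW.B5.IfaceLG Fermat.Agent.TW.B5.IfaceCT
  Fermat.Agent.TW.B5.Kummer47 Fermat.Agent.TW.B5.Levels47 Fermat.Agent.TW.B5.FixedField47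
  Fermat.Agent.TW.B5.GlueA47

variable {p : ℕ} [hp : Fact p.Prime]
variable {k : Type} [Field k]

/-- The level predicate: all Kummer generators of `f` over the fixed field of `N` have level `≥ e`. -/
def Lev (N : Subgroup (Gp p)) (f : Gp p → k) : Prop :=
  ∀ (D : LevelData (fixedF N)) (ζ : Kbar p), IsPrimRoot ζ → ζ ∈ fixedF N → ¬ p ∣ D.e →
    D.LevAll ζ (fun τ (_ : Unit) => f τ) D.e

theorem lev_add (N : Subgroup (Gp p)) (f f' : Gp p → k) (h : Lev N f) (h' : Lev N f') :
    Lev N (fun τ => f τ + f' τ) := by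
  intro D ζ hζ hζF hpe
  exact LevelData.LevAll.add D hζ hζF (Fermat.Agent.TW.B5.LevelInd47.e_pos D) (h D ζ hζ hζF hpe) (h' D ζ hζ hζF hpe)

theorem lev_smul (N : Subgroup (Gp p)) (lam : k) (f : Gp p → k) (h : Lev N f) :
    Lev N (fun τ => lam * f τ) := by
  intro D ζ hζ hζF hpe
  exact (h D ζ hζ hζF hpe).comp D (DistribSMul.toAddMonoidHom (Unit → k) lam)

/-- The inertial-restriction fact (leaf P3): an element fixing `K₀` (same residue field as `F`) agrees on
`F` with an inertial element. -/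
def InertialOnFact (p : ℕ) [Fact p.Prime] : Prop :=
  ∀ (F K₀ : IntermediateField ℚ_[p] (Kbar p)), FiniteDimensional ℚ_[p] F → IsNormalField p F →
    (∀ x ∈ F, ‖x‖ ≤ 1 → ∃ y ∈ K₀, ‖x - y‖ < 1) → ∀ τ : Gp p, (∀ y ∈ K₀, τ y = y) →
      ∃ τ' : Gp p, IsInertial p τ' ∧ ∀ x ∈ F, τ' x = τ x

variable [Finite k] [CharP k p] {V : Type} [AddCommGroup V] [Module k V] [Module.Finite k V]

/-- **(L1) in the vocabulary of case B.** -/
theorem lev_of_flat (hp2 : p ≠ 2) (hPm : StatementPm p) (hKL : KummerLevelGen' p)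
    (hUS : ExistsUnramSub p) (hIO : InertialOnFact p)
    (r : Gp p →* Module.End k V) (c : Gp p → Module.End k V)
    (hfl : IsFlatLocalModule p (V × V) (lliftAct r c))
    (N : Subgroup (Gp p)) [hN : N.Normal] (E : IntermediateField ℚ_[p] (Kbar p))
    [FiniteDimensional ℚ_[p] E] (hE : E.fixingSubgroup ≤ N)
    (hmemN : ∀ τ : Gp p, r τ = 1 → c τ = 0 →
      (∃ τ' ν : Gp p, IsInertial p τ' ∧ ν ∈ N ∧ τ = τ' * ν) → τ ∈ N)
    (f : Gp p → k) (hfadd : ∀ σ ∈ N, ∀ τ ∈ N, f (σ * τ) = f σ + f τ)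
    (hfcut : ∀ τ : Gp p, r τ = 1 → c τ = 0 → ∀ σ : Gp p, f (σ * τ) = f σ) :
    Lev N f := by
  intro D ζ hζ hζF hpe
  haveI hFfin : FiniteDimensional ℚ_[p] (fixedF N) := finiteDimensional_fixedF N E hE
  have hFn : IsNormalField p (fixedF N) := isNormalField_fixedF N
  have hfix : (fixedF N).fixingSubgroup = N := fixingSubgroup_fixedF N E hE
  obtain ⟨K₀, hK₀F, hK₀fin, hK₀ur, hres⟩ := hUS (fixedF N) hFfin
  haveI : Finite V := Module.finite_of_finite k
  have hpX : ∀ x : V × V, p • x = 0 := by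
    intro x
    rw [← Nat.cast_smul_eq_nsmul k p x, CharP.cast_eq_zero k p, zero_smul]
  refine FlatLev47.levAll_of_flat' hp2 hPm hKL D hFn hK₀F hK₀fin hK₀ur hres hpe hζ hζF
    (lliftAct r c) hfl hpX (fun τ (_ : Unit) => f τ) ?_ ?_
  · intro σ hσ τ hτ
    rw [hfix] at hσ hτ
    funext _
    exact hfadd σ hσ τ hτ
  · intro τ hτK₀ hτX
    obtain ⟨h1, h2⟩ := trivial_of_lliftAct r c τ hτX
    obtain ⟨τ', hτ'in, hτ'eq⟩ := hIO (fixedF N) K₀ hFfin hFn hres τ hτK₀
    have hν : τ'⁻¹ * τ ∈ N := by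
      rw [← hfix, IntermediateField.mem_fixingSubgroup_iff]
      intro x hx
      rw [AlgEquiv.mul_apply, ← hτ'eq x hx]
      exact τ'.symm_apply_apply x
    have hτN : τ ∈ N := hmemN τ h1 h2 ⟨τ', τ'⁻¹ * τ, hτ'in, hν, by group⟩
    refine ⟨by rw [hfix]; exact hτN, fun σ => ?_⟩
    funext _
    exact hfcut τ h1 h2 σ

end Fermat.Agent.TW.B5.CaseB37c
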