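/-
Programme TW (S56), brick B5 (flat local bound), piece CT-5e (helper37): WIRING OF CASE B, part 2.

`caseB_of_facts` : `Count47.CaseBStatement p` from the interface facts of B5 (all of them are theorems on main
except `KummerLevelGen'`) and four small field-theoretic leaves stated here as `Prop`s
(`TameFact`, `FrobGenFact`, `CaseB37c.InertialOnFact`, `CommonLevelFact`).

Proof: `CT3Ord37.ordinaryShape` for `c₀` and `c`, a basis adapted to the ordinary line, then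
`CaseB37a.caseB_abstract` with `Lev := CaseB37c.Lev` (from (L1), `CaseB37c.lev_of_flat`) and
`hKey := CaseB37b.key_lemma` over the fixed field of `N`.
-/
import Mathlib
import Fermat.Agent.TW.B5.CaseB37a
import Fermat.Agent.TW.B5.CaseB37b
import Fermat.Agent.TW.B5.CaseB37c
import Fermat.Agent.TW.B5.CT3Ord37
import Fermat.Agent.TW.B5.Count47
import Fermat.Agent.TW.B5.LD65a
import Fermat.Agent.TW.B5.LG83T

set_option autoImplicit false
set_option linter.unusedSectionVars false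
set_option linter.unusedVariables false
set_option linter.style.haveILetI false

namespace Fermat.Agent.TW.B5.CaseB37d

open Fermat.Agent.TW.B5.Iface Fermat.Agent.TW.B5.IfaceLG Fermat.Agent.TW.B5.IfaceCT
  Fermat.Agent.TW.B5.Kummer47 Fermat.Agent.TW.B5.Levels47 Fermat.Agent.TW.B5.FixedField47
  Fermat.Agent.TW.B5.GlueA47 Fermat.Agent.TW.B5.CT5Matrix37 Fermat.Agent.TW.B5.CaseB37a
  Fermat.Agent.TW.B5.CaseB37c

variable {p : ℕ} [hp : Fact p.Prime]

/-- The inertia subgroup of `G_p`. -/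
def inertiaSub (p : ℕ) [Fact p.Prime] : Subgroup (Gp p) where
  carrier := {τ | IsInertial p τ}
  mul_mem' := fun ha hb => LG83T.isInertial_mul p ha hb
  one_mem' := LG83T.isInertial_one p
  inv_mem' := fun ha => LG83T.isInertial_inv p ha

theorem mem_inertiaSub {τ : Gp p} : τ ∈ inertiaSub p ↔ IsInertial p τ := Iff.rfl

/-- Leaf P1: the fixed field of a normal open subgroup containing `I ∩ G_{ℚ_p(ζ_p)}` is tame. -/
def TameFact (p : ℕ) [Fact p.Prime] : Prop :=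
  ∀ (N : Subgroup (Gp p)), N.Normal → ∀ (E : IntermediateField ℚ_[p] (Kbar p)),
    FiniteDimensional ℚ_[p] E → E.fixingSubgroup ≤ N → ∀ ζ : Kbar p, IsPrimRoot ζ →
    (∀ τ : Gp p, IsInertial p τ → τ ζ = ζ → τ ∈ N) → ∀ D : LevelData (fixedF N), ¬ p ∣ D.e

/-- Leaf P2: `G_p = ⟨φ⟩ · I · G_E` for every finite normal `E`. -/
def FrobGenFact (p : ℕ) [Fact p.Prime] : Prop :=
  ∀ (E : IntermediateField ℚ_[p] (Kbar p)), FiniteDimensional ℚ_[p] E → IsNormalField p E →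
    ∃ φ : Gp p, ∀ g : Gp p, ∃ (n : ℕ) (τ ν : Gp p),
      IsInertial p τ ∧ ν ∈ E.fixingSubgroup ∧ g = φ ^ n * τ * ν

/-- Leaf P4: a common finite normal level for `r`, `c₀`, `c`. -/
def CommonLevelFact (p : ℕ) [Fact p.Prime] : Prop :=
  ∀ (k : Type) [Field k] (V : Type) [AddCommGroup V] [Module k V] (r : Gp p →* Module.End k V),
    (∃ F : IntermediateField ℚ_[p] (Kbar p), FiniteDimensional ℚ_[p] F ∧
      ∀ τ : Gp p, (∀ x ∈ F, τ x = x) → r τ = 1) →
    ∀ c₀ c : Gp p → Module.End k V, IsLocCocycle r c₀ → IsLocCocycle r c →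
    ∃ E : IntermediateField ℚ_[p] (Kbar p), FiniteDimensional ℚ_[p] E ∧ IsNormalField p E ∧
      ∀ τ ∈ E.fixingSubgroup, r τ = 1 ∧ c₀ τ = 0 ∧ c τ = 0

theorem actsOnMuP_of {ζ : Kbar p} (hζ : IsPrimRoot ζ) {τ : Gp p} {a : ℕ} (h : τ ζ = ζ ^ a) :
    ActsOnMuP p τ a := by
  intro μ hμ
  obtain ⟨i, hi⟩ := exists_pow_eq hζ hμ
  rw [← hi, map_pow, h, ← pow_mul, ← pow_mul, mul_comm]

section Entries

variable {k V : Type} [Field k] [AddCommGroup V] [Module k V]
variable {b : Module.Basis (Fin 2) k V} {r : Gp p →* Module.End k V}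

theorem entries_of_eq_one {τ : Gp p} (h1 : r τ = 1) :
    chi1 b r τ = 1 ∧ chi2 b r τ = 1 ∧ beta b r τ = 0 := by
  refine ⟨?_, ?_, ?_⟩
  · simp [chi1, h1]
  · simp [chi2, h1]
  · simp [beta, h1]

theorem ent_of_trivial {c : Gp p → Module.End k V} (X : Module.End k V) {τ : Gp p} (h1 : r τ = 1)
    (h2 : c τ = 0) : entA b r c X τ = 0 ∧ entB b r c X τ = 0 := by
  have h3 : dX r X τ = 0 := by
    unfold dX
    rw [h1, r_inv_of_eq_one r h1, one_mul, mul_one, sub_self]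
  refine ⟨?_, ?_⟩
  · unfold entA
    rw [h2, h3]
    simp
  · unfold entB
    rw [h2, h3]
    simp

end Entries

section Lev

variable {k : Type} [Field k] [Finite k] [CharP k p] {V : Type} [AddCommGroup V] [Module k V]
  [Module.Finite k V]
variable {b : Module.Basis (Fin 2) k V} {r : Gp p →* Module.End k V}

/-- `Lev` for the upper right entry of `r`. -/
theorem lev_beta (hp2 : p ≠ 2) (hPm : StatementPm p) (hKL : KummerLevelGen' p)
    (hUS : ExistsUnramSub p) (hIO : InertialOnFact p)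
    (hstab : ∀ τ : Gp p, r τ (b 0) ∈ Submodule.span k {b 0})
    (c : Gp p → Module.End k V) (hfl : IsFlatLocalModule p (V × V) (lliftAct r c))
    (N : Subgroup (Gp p)) [hN : N.Normal] (E : IntermediateField ℚ_[p] (Kbar p))
    [FiniteDimensional ℚ_[p] E] (hE : E.fixingSubgroup ≤ N)
    (hNchi : ∀ τ ∈ N, chi1 b r τ = 1 ∧ chi2 b r τ = 1)
    (hmemN : ∀ τ : Gp p, r τ = 1 → c τ = 0 →
      (∃ τ' ν : Gp p, IsInertial p τ' ∧ ν ∈ N ∧ τ = τ' * ν) → τ ∈ N) :
    Lev N (beta b r) := by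
  refine lev_of_flat hp2 hPm hKL hUS hIO r c hfl N E hE hmemN (beta b r) ?_ ?_
  · intro σ hσ τ hτ
    rw [beta_mul hstab, (hNchi σ hσ).1, (hNchi τ hτ).2]
    ring
  · intro τ h1 _ σ
    obtain ⟨-, e2, e3⟩ := entries_of_eq_one (b := b) h1
    rw [beta_mul hstab, e2, e3]
    ring

/-- `Lev` for the upper right entry of the corrected cocycle. -/
theorem lev_entB (hp2 : p ≠ 2) (hPm : StatementPm p) (hKL : KummerLevelGen' p)
    (hUS : ExistsUnramSub p) (hIO : InertialOnFact p)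
    (hstab : ∀ τ : Gp p, r τ (b 0) ∈ Submodule.span k {b 0})
    (c : Gp p → Module.End k V) (X : Module.End k V)
    (hcoc : ∀ σ τ : Gp p, c (σ * τ) = c σ + r σ * c τ * r σ⁻¹)
    (htr : ∀ τ : Gp p, LinearMap.trace k V (c τ) = 0)
    (hpres : ∀ τ : Gp p, (c τ - dX r X τ) (b 0) ∈ Submodule.span k {b 0})
    (hfl : IsFlatLocalModule p (V × V) (lliftAct r c))
    (N : Subgroup (Gp p)) [hN : N.Normal] (E : IntermediateField ℚ_[p] (Kbar p))
    [FiniteDimensional ℚ_[p] E] (hE : E.fixingSubgroup ≤ N)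
    (hNchi : ∀ τ ∈ N, chi1 b r τ = 1 ∧ chi2 b r τ = 1 ∧ entA b r c X τ = 0)
    (hmemN : ∀ τ : Gp p, r τ = 1 → c τ = 0 →
      (∃ τ' ν : Gp p, IsInertial p τ' ∧ ν ∈ N ∧ τ = τ' * ν) → τ ∈ N) :
    Lev N (entB b r c X) := by
  refine lev_of_flat hp2 hPm hKL hUS hIO r c hfl N E hE hmemN (entB b r c X) ?_ ?_
  · intro σ hσ τ hτ
    rw [entB_mul hstab hcoc htr hpres, (hNchi σ hσ).1, (hNchi σ hσ).2.1, (hNchi τ hτ).2.2]
    ring
  · intro τ h1 h2 σ
    obtain ⟨e1, e2⟩ := ent_of_trivial (b := b) X h1 h2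
    rw [entB_mul hstab hcoc htr hpres, e1, e2]
    ring

end Lev

section Main

open Polynomial in
/-- **Case B of the count**, from the interface facts. -/
theorem caseB_of_facts (hF1 : StatementF1 p) (hF2 : StatementF2 p) (hRL : StatementRL p)
    (hTK : Toolkit p) (hCN : IfaceCT.CycloNontrivial p) (hLD : HasLevelData p)
    (hTG : TameGenerator p) (hKF : KFactsAll p) (hKL : KummerLevelGen' p) (hUS : ExistsUnramSub p)
    (hPm : StatementPm p) (hTame : TameFact p) (hFG : FrobGenFact p) (hIO : InertialOnFact p)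
    (hCL : CommonLevelFact p) : Count47.CaseBStatement p := by
  intro hp2 k _ _ _ V _ _ _ hV r hlev hdet hsplit hred c₀ c hc₀ hc hfl₀ hfl hnt
  classical
  -- the ordinary shape of both cocycles
  obtain ⟨hL1, hLstab, hLcyc, X₀, hX₀pres, hX₀I⟩ := CT3Ord37.ordinaryShape hp2 hF1 hF2 hRL
    hTK.existsFrobLift hTK.frobConjWild (hCN hp2) hV r hlev hdet hred c₀ hc₀ hfl₀
  obtain ⟨-, -, -, X, hXpres, hXI⟩ := CT3Ord37.ordinaryShape hp2 hF1 hF2 hRL
    hTK.existsFrobLift hTK.frobConjWild (hCN hp2) hV r hlev hdet hred c hc hfl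
  set L : Submodule k V :=
    Submodule.span k {w | ∃ (τ : Gp p) (v : V), IsInertial p τ ∧ w = r τ v - v} with hLdef
  -- adapted basis
  obtain ⟨l0', hl0ne', hl0gen'⟩ := finrank_eq_one_iff'.1 hL1
  have hl0ne : (l0' : V) ≠ 0 := fun h => hl0ne' (Subtype.ext h)
  obtain ⟨b, hb0⟩ := CT3Core37.exists_basis_fst hV (l0' : V) hl0ne
  have hb0L : b 0 ∈ L := hb0 ▸ l0'.2
  have hLspan : ∀ v ∈ L, v ∈ Submodule.span k {b 0} := by
    intro v hv
    obtain ⟨s, hs⟩ := hl0gen' ⟨v, hv⟩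
    rw [Submodule.mem_span_singleton]
    refine ⟨s, ?_⟩
    rw [hb0]
    exact congrArg Subtype.val hs
  have hspanL : ∀ v ∈ Submodule.span k {b 0}, v ∈ L := by
    intro v hv
    obtain ⟨s, rfl⟩ := Submodule.mem_span_singleton.1 hv
    exact L.smul_mem s hb0L
  have hstab : ∀ τ : Gp p, r τ (b 0) ∈ Submodule.span k {b 0} := fun τ =>
    hLspan _ (hLstab τ _ hb0L)
  have hcoc₀ : ∀ σ τ : Gp p, c₀ (σ * τ) = c₀ σ + r σ * c₀ τ * r σ⁻¹ := hc₀.map_mul
  have hcoc : ∀ σ τ : Gp p, c (σ * τ) = c σ + r σ * c τ * r σ⁻¹ := hc.map_mul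
  have htr₀ := hc₀.trace_eq_zero
  have htr := hc.trace_eq_zero
  have hpres₀ : ∀ τ : Gp p, (c₀ τ - dX r X₀ τ) (b 0) ∈ Submodule.span k {b 0} := fun τ =>
    hLspan _ (hX₀pres τ _ hb0L)
  have hpres : ∀ τ : Gp p, (c τ - dX r X τ) (b 0) ∈ Submodule.span k {b 0} := fun τ =>
    hLspan _ (hXpres τ _ hb0L)
  set S : Subgroup (Gp p) := inertiaSub p with hSdef
  have hkill₀ : ∀ τ ∈ S, (c₀ τ - dX r X₀ τ) (b 0) = 0 := fun τ hτ => (hX₀I τ hτ).2 _ hb0L
  have hkill : ∀ τ ∈ S, (c τ - dX r X τ) (b 0) = 0 := fun τ hτ => (hXI τ hτ).2 _ hb0L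
  have hchi2 : ∀ τ ∈ S, chi2 b r τ = 1 := by
    intro τ hτ
    have h1 : r τ (b 1) - b 1 ∈ L := Submodule.subset_span ⟨τ, b 1, hτ, rfl⟩
    obtain ⟨s, hs⟩ := Submodule.mem_span_singleton.1 (hLspan _ h1)
    have h2 : r τ (b 1) = b 1 + s • b 0 := by rw [hs]; abel
    simp [chi2, h2]
  have hxS₀ : ∀ τ ∈ S, entA b r c₀ X₀ τ = 0 := fun τ hτ =>
    (corrected_eq_smul_E12 htr₀ hpres₀ (hkill₀ τ hτ)).1
  have hxS : ∀ τ ∈ S, entA b r c X τ = 0 := fun τ hτ =>
    (corrected_eq_smul_E12 htr hpres (hkill τ hτ)).1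
  -- the cyclotomic character on the line
  have hchi1 : ∀ (τ : Gp p) (a : ℕ), IsInertial p τ → ActsOnMuP p τ a → chi1 b r τ = (a : k) := by
    intro τ a hτ ha
    have h1 := hLcyc τ a hτ ha _ hb0L
    simp [chi1, h1]
  -- common level, Frobenius
  obtain ⟨E, hEfin, hEn, hEK⟩ := hCL k V r hlev c₀ c hc₀ hc
  haveI := hEfin
  obtain ⟨φ, hφgen⟩ := hFG E hEfin hEn
  set K : Subgroup (Gp p) := E.fixingSubgroup with hKdef
  obtain ⟨ζ, hζ⟩ := LD65a.exists_isPrimRoot (p := p)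
  have h2 : (2 : k) ≠ 0 := by
    intro h
    have h' : ((2 : ℕ) : k) = 0 := by exact_mod_cast h
    have h3 : p ∣ 2 := (CharP.cast_eq_zero_iff k p 2).1 h'
    have h4 := (Nat.prime_dvd_prime_iff_eq hp.out Nat.prime_two).1 h3
    exact hp2 h4
  have hgoal : ∃ (lam : k) (Y : Module.End k V), ∀ τ ∈ S,
      c τ = lam • c₀ τ + (CT2InfRes63.gconj r τ Y - Y) := by
    refine caseB_abstract h2 S K φ hφgen hstab hcoc₀ hcoc htr₀ htr hpres₀ hpres hkill₀ hkill hchi2
      hEK Lev lev_add lev_smul ?_ ?_ ?_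
    · -- the level facts
      intro N hNn hKN hN1 hcut
      haveI := hNn
      have hmem₀ : ∀ τ : Gp p, r τ = 1 → c₀ τ = 0 →
          (∃ τ' ν : Gp p, IsInertial p τ' ∧ ν ∈ N ∧ τ = τ' * ν) → τ ∈ N := by
        rintro τ h1 h2' ⟨τ', ν, hτ', hν, rfl⟩
        refine hcut _ h1 (ent_of_trivial X₀ h1 h2').1 ?_
        rw [entA_mul hstab hcoc htr hpres, hxS τ' hτ', (hN1 ν hν).2.2.2, add_zero]
      have hmem : ∀ τ : Gp p, r τ = 1 → c τ = 0 →
          (∃ τ' ν : Gp p, IsInertial p τ' ∧ ν ∈ N ∧ τ = τ' * ν) → τ ∈ N := by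
        rintro τ h1 h2' ⟨τ', ν, hτ', hν, rfl⟩
        refine hcut _ h1 ?_ (ent_of_trivial X h1 h2').1
        rw [entA_mul hstab hcoc₀ htr₀ hpres₀, hxS₀ τ' hτ', (hN1 ν hν).2.2.1, add_zero]
      refine ⟨?_, ?_, ?_⟩
      · exact lev_beta hp2 hPm hKL hUS hIO hstab c hfl N E hKN
          (fun τ hτ => ⟨(hN1 τ hτ).1, (hN1 τ hτ).2.1⟩) hmem
      · exact lev_entB hp2 hPm hKL hUS hIO hstab c₀ X₀ hcoc₀ htr₀ hpres₀ hfl₀ N E hKN
          (fun τ hτ => ⟨(hN1 τ hτ).1, (hN1 τ hτ).2.1, (hN1 τ hτ).2.2.1⟩) hmem₀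
      · exact lev_entB hp2 hPm hKL hUS hIO hstab c X hcoc htr hpres hfl N E hKN
          (fun τ hτ => ⟨(hN1 τ hτ).1, (hN1 τ hτ).2.1, (hN1 τ hτ).2.2.2⟩) hmem
    · -- the key lemma
      intro N hNn hKN hNchi hSN f₀ f hF₀ hF hL₀ hL
      haveI := hNn
      haveI hFfin : FiniteDimensional ℚ_[p] (fixedF N) := finiteDimensional_fixedF N E hKN
      have hFn : IsNormalField p (fixedF N) := isNormalField_fixedF N
      have hfix : (fixedF N).fixingSubgroup = N := fixingSubgroup_fixedF N E hKN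
      have hζF : ζ ∈ fixedF N := by
        rw [mem_fixedF]
        intro τ hτ
        have hτp : (τ ζ) ^ p = 1 := by rw [← map_pow, hζ.1, map_one]
        obtain ⟨a, ha⟩ := exists_pow_eq hζ hτp
        have hact : ActsOnMuP p τ a := actsOnMuP_of hζ ha.symm
        have hd := hdet τ a hact
        have hut := isUT_r hstab τ
        rw [CT3Core37.det_eq_mul_of_tri b (r τ) _ _ _ hut.1 hut.2, (hNchi τ hτ).1,
          (hNchi τ hτ).2, one_mul] at hd
        have h1 : ((1 : ℕ) : k) = (a : k) := by rw [Nat.cast_one]; exact hd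
        have h3 : 1 ≡ a [MOD p] := (CharP.natCast_eq_natCast k p).1 h1
        rw [← ha, ← pow_eq_of_modEq hζ h3, pow_one]
      obtain ⟨D, hDfin, hDchar⟩ := hLD (fixedF N) ζ hFfin hζ hζF
      haveI := hDfin
      haveI := hDchar
      have hpe : ¬ p ∣ D.e := hTame N hNn E hEfin hKN ζ hζ (fun τ hτ hτζ => by
        refine hSN τ hτ ?_
        have hact : ActsOnMuP p τ 1 := actsOnMuP_of hζ (by rw [pow_one]; exact hτζ)
        rw [hchi1 τ 1 hτ hact, Nat.cast_one]) D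
      have hkey := CaseB37b.key_lemma D hp2 hKF hTG hTK.existsFrobLift hFfin hFn hpe hζ hζF
        (fun g => chi1 b r g / chi2 b r g)
        (fun g => div_ne_zero (chi_ne_zero hstab g).1 (chi_ne_zero hstab g).2)
        (fun g => by
          show chi1 b r g⁻¹ / chi2 b r g⁻¹ = (chi1 b r g / chi2 b r g)⁻¹
          rw [chi1_inv hstab, chi2_inv hstab, inv_div_inv, inv_div])
        (fun g w hg hgζ => by
          show chi1 b r g / chi2 b r g = (w : k)
          rw [hchi1 g w hg (actsOnMuP_of hζ hgζ), hchi2 g hg, div_one])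
        f₀ f
        (fun g τ hτ => hF₀.2 g τ (hfix ▸ hτ))
        (fun g τ hτ => hF.2 g τ (hfix ▸ hτ))
        (hL₀ D ζ hζ hζF hpe) (hL D ζ hζ hζF hpe)
      rcases hkey with h0 | ⟨lam, hlam⟩
      · left
        intro τ hτN hτS
        exact h0 τ (by rw [hfix]; exact hτN) hτS
      · right
        refine ⟨lam, fun τ hτN hτS => ?_⟩
        exact hlam τ (by rw [hfix]; exact hτN) hτS
    · -- non-triviality
      rintro ⟨Y, hY⟩
      exact hnt ⟨Y, fun τ hτ => hY τ hτ⟩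
  obtain ⟨lam, Y, hY⟩ := hgoal
  exact ⟨lam, Y, fun τ hτ => hY τ hτ⟩

end Main

end Fermat.Agent.TW.B5.CaseB37d
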