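/-
Programme TW (S56), brick B5-CT, case B, three wiring leaves (helper21 for helper37):

* `exists_frob_gen` : at a finite normal level `E`, every `g ∈ G_p` is `φ ^ n * τ * ν` with `φ` a
  fixed Frobenius lift, `τ` inertial and `ν ∈ G_E`;
* `exists_inertial_eq_on` : an element fixing `K₀` (residually everything of `F`) acts on `F` like an
  inertial element;
* `exists_common_level` : a common finite normal level for `r`, `c₀`, `c`.
-/
import Mathlib
import Fermat.Agent.TW.B5.FixedField47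

set_option autoImplicit false

namespace Fermat.Agent.TW.B5.CaseBGen21

open Fermat.Agent.TW.B5.Iface Fermat.Agent.TW.B5.IfaceLG Fermat.Agent.TW.B5.FixedField47

variable {p : ℕ} [Fact p.Prime]

/-- Elements of `G_p` are isometries. -/
theorem norm_gal21 (τ : Gp p) (x : Kbar p) : ‖τ x‖ = ‖x‖ :=
  congrArg NNReal.toReal (nnnorm_padicAlgCl_algEquiv p τ x)

theorem norm_sub_le_max21 (a b : Kbar p) : ‖a - b‖ ≤ max ‖a‖ ‖b‖ := by
  have h := PadicAlgCl.isNonarchimedean p a (-b)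
  rwa [norm_neg, ← sub_eq_add_neg] at h

/-- (1) Generation by a Frobenius lift, inertia and `G_E`. -/
theorem exists_frob_gen (hEF : ExistsFrobLift p) (hGF : GeneratedByFrob p)
    (E : IntermediateField ℚ_[p] (Kbar p)) (hfin : FiniteDimensional ℚ_[p] E)
    (hn : IsNormalField p E) :
    ∃ φ : Gp p, ∀ g : Gp p, ∃ (n : ℕ) (τ ν : Gp p),
      IsInertial p τ ∧ ν ∈ E.fixingSubgroup ∧ g = φ ^ n * τ * ν := by
  obtain ⟨φ, hφ⟩ := hEF E hfin
  refine ⟨φ, fun g => ?_⟩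
  obtain ⟨n, τ, hτ, hg⟩ := hGF E hfin hn φ hφ g
  refine ⟨n, τ, (φ ^ n * τ)⁻¹ * g, hτ, ?_, by group⟩
  rw [IntermediateField.mem_fixingSubgroup_iff]
  intro x hx
  rw [AlgEquiv.mul_apply, hg x hx, ← AlgEquiv.mul_apply (φ ^ n) τ x, ← AlgEquiv.mul_apply,
    inv_mul_cancel, AlgEquiv.one_apply]

/-- (2) An element fixing `K₀`, where every integer of `F` is congruent to an element of `K₀`, acts on
`F` like an inertial element. -/
theorem exists_inertial_eq_on (hIS : InertiaSurjective p)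
    (F K₀ : IntermediateField ℚ_[p] (Kbar p)) (hfin : FiniteDimensional ℚ_[p] F)
    (hFn : IsNormalField p F)
    (hres : ∀ x ∈ F, ‖x‖ ≤ 1 → ∃ y ∈ K₀, ‖x - y‖ < 1) (τ : Gp p) (hτ : ∀ y ∈ K₀, τ y = y) :
    ∃ τ' : Gp p, IsInertial p τ' ∧ ∀ x ∈ F, τ' x = τ x := by
  refine hIS F hfin hFn τ ?_
  intro x hx hx1
  obtain ⟨y, hy, hxy⟩ := hres x hx hx1
  have h1 : τ x - x = τ (x - y) - (x - y) := by
    rw [map_sub, hτ y hy]
    ring
  rw [h1]
  calc ‖τ (x - y) - (x - y)‖ ≤ max ‖τ (x - y)‖ ‖x - y‖ := norm_sub_le_max21 _ _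
    _ = ‖x - y‖ := by rw [norm_gal21, max_self]
    _ < 1 := hxy

/-- the value of a local cocycle at `1` -/
theorem isLocCocycle_one {k V : Type} [Field k] [AddCommGroup V] [Module k V]
    (r : Gp p →* Module.End k V) (c : Gp p → Module.End k V) (hc : IsLocCocycle r c) : c 1 = 0 := by
  have h := hc.map_mul 1 1
  rw [mul_one, lconj, inv_one, map_one, one_mul, mul_one] at h
  exact left_eq_add.1 h

/-- (3) A common finite normal level for `r`, `c₀`, `c`. -/
theorem exists_common_level {k V : Type} [Field k] [AddCommGroup V] [Module k V]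
    (r : Gp p →* Module.End k V)
    (hlev : ∃ F : IntermediateField ℚ_[p] (Kbar p), FiniteDimensional ℚ_[p] F ∧
      ∀ τ : Gp p, (∀ x ∈ F, τ x = x) → r τ = 1)
    (c₀ c : Gp p → Module.End k V) (hc₀ : IsLocCocycle r c₀) (hc : IsLocCocycle r c) :
    ∃ E : IntermediateField ℚ_[p] (Kbar p), FiniteDimensional ℚ_[p] E ∧ IsNormalField p E ∧
      ∀ τ ∈ E.fixingSubgroup, r τ = 1 ∧ c₀ τ = 0 ∧ c τ = 0 := by
  obtain ⟨F, hFfin, hF⟩ := hlev
  obtain ⟨F₀, hF₀fin, hF₀⟩ := hc₀.level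
  obtain ⟨F₁, hF₁fin, hF₁⟩ := hc.level
  have hsup1 : FiniteDimensional ℚ_[p] ↥(F ⊔ F₀) := IntermediateField.finiteDimensional_sup F F₀
  have hsup2 : FiniteDimensional ℚ_[p] ↥(F ⊔ F₀ ⊔ F₁) :=
    IntermediateField.finiteDimensional_sup (F ⊔ F₀) F₁
  obtain ⟨E, hle, hEfin, hEn⟩ := exists_normal_finite_ge (F ⊔ F₀ ⊔ F₁)
  refine ⟨E, hEfin, hEn, fun τ hτ => ?_⟩
  have hτE : ∀ x ∈ E, τ x = x := (IntermediateField.mem_fixingSubgroup_iff E τ).1 hτ
  have hFE : F ≤ E := le_trans (le_trans le_sup_left le_sup_left) hle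
  have hF₀E : F₀ ≤ E := le_trans (le_trans le_sup_right le_sup_left) hle
  have hF₁E : F₁ ≤ E := le_trans le_sup_right hle
  refine ⟨hF τ fun x hx => hτE x (hFE hx), ?_, ?_⟩
  · have h := hF₀ 1 τ fun x hx => hτE x (hF₀E hx)
    rwa [one_mul, isLocCocycle_one r c₀ hc₀] at h
  · have h := hF₁ 1 τ fun x hx => hτE x (hF₁E hx)
    rwa [one_mul, isLocCocycle_one r c hc] at h

end Fermat.Agent.TW.B5.CaseBGen21
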