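/-
Programme TW (S56), brick B5-CT (the count), case B, leaf for the wiring `CaseB37c` (helper56, for helper37):
TAMENESS OF THE FIELD CUT OUT BY A SUBGROUP CONTAINING `I ∩ G_{ℚ_p(ζ_p)}`.

`not_dvd_e` : let `N ≤ G_p` be a normal subgroup containing `G_E` for a finite `E`, and containing every
inertial element fixing `ζ_p`.  Then the ramification index `e` of `F = fixedF N` is at most `p - 1`, hence
prime to `p`.

Proof: `RamIdxEqCard` gives a set `s` of `e` inertial elements with pairwise distinct restrictions to `F`;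
`σ ↦ σ ζ` maps `s` injectively into the `p - 1` primitive `p`-th roots of unity.
-/
import Mathlib
import Fermat.Agent.TW.B5.FixedField47
import Fermat.Agent.TW.B5.IfaceCT
import Fermat.Agent.TW.B5.LG83T
import Fermat.Agent.TW.B5.LevelInd47

set_option autoImplicit false
set_option linter.unusedSectionVars false
set_option linter.style.haveILetI false

namespace Fermat.Agent.TW.B5.CaseBTame56

open Fermat.Agent.TW.B5.Iface Fermat.Agent.TW.B5.IfaceLG Fermat.Agent.TW.B5.Kummer47
  Fermat.Agent.TW.B5.Levels47 Fermat.Agent.TW.B5.FixedField47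

variable {p : ℕ} [hp : Fact p.Prime]

/-- The ramification index of `fixedF N` is at most `p - 1`. -/
theorem e_le (hRI : IfaceCT.RamIdxEqCard p) (N : Subgroup (Gp p)) [N.Normal]
    (E : IntermediateField ℚ_[p] (Kbar p)) [FiniteDimensional ℚ_[p] E]
    (hE : E.fixingSubgroup ≤ N) {ζ : Kbar p} (hζ : IsPrimRoot ζ)
    (hN : ∀ τ : Gp p, IsInertial p τ → τ ζ = ζ → τ ∈ N)
    (D : LevelData (fixedF N)) : D.e ≤ p - 1 := by
  classical
  haveI : NeZero p := ⟨hp.out.ne_zero⟩
  have hfin : FiniteDimensional ℚ_[p] (fixedF N) := finiteDimensional_fixedF N E hE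
  have hnorm : IsNormalField p (fixedF N) := isNormalField_fixedF N
  obtain ⟨s, hcard, hin, -, hinj⟩ := hRI (fixedF N) D hfin hnorm
  -- the target: the `p`-th roots of unity different from `1`
  let R : Finset (Kbar p) := (Polynomial.nthRootsFinset p (1 : Kbar p)).erase 1
  have hRcard : R.card = p - 1 := by
    have h1 : (Polynomial.nthRootsFinset p (1 : Kbar p)).card = p :=
      hζ.isPrimitiveRoot.card_nthRootsFinset
    have h2 : (1 : Kbar p) ∈ Polynomial.nthRootsFinset p (1 : Kbar p) := by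
      rw [Polynomial.mem_nthRootsFinset hp.out.pos]
      exact one_pow p
    rw [Finset.card_erase_of_mem h2, h1]
  have hmaps : ∀ σ ∈ s, σ ζ ∈ R := by
    intro σ _
    refine Finset.mem_erase.2 ⟨?_, ?_⟩
    · intro h1
      apply hζ.2
      have : σ ζ = σ 1 := by rw [h1, map_one]
      exact σ.injective this
    · rw [Polynomial.mem_nthRootsFinset hp.out.pos, ← map_pow, hζ.1, map_one]
  have hinjOn : Set.InjOn (fun σ : Gp p => σ ζ) (s : Set (Gp p)) := by
    intro σ hσ σ' hσ' h
    have hσs : σ ∈ s := hσ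
    have hσ's : σ' ∈ s := hσ'
    apply hinj σ hσs σ' hσ's
    -- `σ⁻¹ σ'` is inertial and fixes `ζ`, hence lies in `N`
    have hmem : σ⁻¹ * σ' ∈ N := by
      refine hN _ (LG83T.isInertial_mul p (LG83T.isInertial_inv p (hin σ hσs)) (hin σ' hσ's)) ?_
      have h1 : σ' ζ = σ ζ := h.symm
      rw [AlgEquiv.mul_apply, h1]
      show σ⁻¹ (σ ζ) = ζ
      rw [← AlgEquiv.mul_apply, inv_mul_cancel, AlgEquiv.one_apply]
    intro x hx
    have h2 := mem_fixedF.1 hx _ hmem
    rw [AlgEquiv.mul_apply] at h2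
    have h3 : σ (σ⁻¹ (σ' x)) = σ x := congrArg σ h2
    rw [← AlgEquiv.mul_apply, mul_inv_cancel, AlgEquiv.one_apply] at h3
    exact h3.symm
  have hle : s.card ≤ R.card := Finset.card_le_card_of_injOn _ hmaps hinjOn
  rw [hcard, hRcard] at hle
  exact hle

/-- **Tameness**: `p ∤ e(fixedF N)`. -/
theorem not_dvd_e (hRI : IfaceCT.RamIdxEqCard p) (N : Subgroup (Gp p)) [N.Normal]
    (E : IntermediateField ℚ_[p] (Kbar p)) [FiniteDimensional ℚ_[p] E]
    (hE : E.fixingSubgroup ≤ N) {ζ : Kbar p} (hζ : IsPrimRoot ζ)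
    (hN : ∀ τ : Gp p, IsInertial p τ → τ ζ = ζ → τ ∈ N)
    (D : LevelData (fixedF N)) : ¬ p ∣ D.e := by
  intro hdvd
  have h1 := e_le hRI N E hE hζ hN D
  have h2 := LevelInd47.e_pos D
  have h3 := Nat.le_of_dvd (by omega) hdvd
  have h4 := hp.out.two_le
  omega

end Fermat.Agent.TW.B5.CaseBTame56
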