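/-
Programme TW (S56), brick B5 (flat local bound), piece CT-5f (helper37): CASE B OF THE COUNT, FINAL FORM.

`caseB : IfaceCT.KummerLevelGen' p → Count47.CaseBStatement p` — every other input of
`CaseB37d.caseB_of_facts` is discharged by the unconditional theorems on main:
`LDAll65.{toolkit, cycloNontrivial, hasLevelData, ramIdxEqCard, tameGenerator, existsUnramSub}`,
`Ram8.KFacts.kFactsAll`, `PmStatement48.statementPm`, `CE46.Final.statementF1/F2/RL_of_toolkit`,
`CaseBTame56.not_dvd_e` (helper56), `CaseBGen21.{exists_frob_gen, exists_inertial_eq_on, exists_common_level}`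
(helper21).
-/
import Mathlib
import Fermat.Agent.TW.B5.CaseB37d
import Fermat.Agent.TW.B5.CaseBTame56
import Fermat.Agent.TW.B5.CaseBGen21
import Fermat.Agent.TW.B5.LDAll65
import Fermat.Agent.TW.Ram8.KFacts
import Fermat.Agent.TW.PmStatement48
import Fermat.Agent.TW.CE46.Final

set_option autoImplicit false
set_option linter.style.haveILetI false

namespace Fermat.Agent.TW.B5.CaseBFinal37

open Fermat.Agent.TW.B5.Iface Fermat.Agent.TW.B5.IfaceLG Fermat.Agent.TW.B5.IfaceCT
  Fermat.Agent.TW.B5.CaseB37c Fermat.Agent.TW.B5.CaseB37d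

variable (p : ℕ) [hp : Fact p.Prime]

theorem tameFact : TameFact p := fun N hN E hE hEN ζ hζ hNζ D => by
  haveI := hN
  haveI := hE
  exact CaseBTame56.not_dvd_e (LDAll65.ramIdxEqCard p) N E hEN hζ hNζ D

theorem frobGenFact : FrobGenFact p := fun E hE hEn =>
  CaseBGen21.exists_frob_gen (LDAll65.toolkit p).existsFrobLift (LDAll65.toolkit p).generatedByFrob
    E hE hEn

theorem inertialOnFact : InertialOnFact p := fun F K₀ hF hFn hres τ hτ =>
  CaseBGen21.exists_inertial_eq_on (LDAll65.toolkit p).inertiaSurjective F K₀ hF hFn hres τ hτ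

theorem commonLevelFact : CommonLevelFact p := fun _ _ _ _ _ r hlev c₀ c hc₀ hc =>
  CaseBGen21.exists_common_level r hlev c₀ c hc₀ hc

/-- **Case B of the count** (`r` has a stable line), from the Kummer level bound only. -/
theorem caseB (hKL : KummerLevelGen' p) : Count47.CaseBStatement p :=
  caseB_of_facts (CE46.Final.statementF1_of_toolkit (LDAll65.toolkit p))
    (CE46.Final.statementF2_of_toolkit (LDAll65.toolkit p))
    (CE46.Final.statementRL_of_toolkit (LDAll65.toolkit p)) (LDAll65.toolkit p)
    (LDAll65.cycloNontrivial p) (LDAll65.hasLevelData p) (LDAll65.tameGenerator p)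
    (Ram8.KFacts.kFactsAll p) hKL (LDAll65.existsUnramSub p) (PmStatement48.statementPm p)
    (tameFact p) (frobGenFact p) (inertialOnFact p) (commonLevelFact p)

end Fermat.Agent.TW.B5.CaseBFinal37
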