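/-
Programme TW (S56), brick B5 (FLAT local bound at `p`): FINAL ASSEMBLY (helper47).

`localFlatInertialLine p : Iface.LocalFlatInertialLine p` — UNCONDITIONAL.

Two-cocycle form of the flat local bound: for `p` odd, `ρ̄|G_p : G_p → GL₂(k)` with `det = ω` and split
characteristic polynomials, any two local cocycles `c₀, c` in `ad ρ̄` whose lifts `V[ε]` are finite flat
satisfy: `c₀|I` is a coboundary, or `c|I = lam • c₀|I +` coboundary.

Ingredients (all on main, all sorry-free):
* (H)   `PmStatement48.statementPm`            Fontaine's `(P_m)` from the convolution lifting lemma  [helper48]
* (R)   `Ram50.*`                               abstract ramification chapter                           [helper50, helper67]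
* (K)   `Ram8.LevelGen.kummerLevelGen'`, `Ram8.KFacts.kFactsAll`   Kummer levels                        [helper8 + 50, 48, 83, 1]
* (CE)  `CE46.Final.statementF1/F2/RL`          connected-étale point-level facts                       [helper46]
* (LG)  `LG1.Toolkit.toolkit` / `LDAll65.*`     local Galois toolkit and level data                     [helper1, 83, 65, 69, 66]
* (CT)  case A: `CaseAFinal63.caseA_of_setup` + `CaseASetup57.caseA_setup_uncond`                      [helper63, helper57, helper67, helper69]
        case B: `CaseBFinal37.caseB`                                                                    [helper37, helper56, helper21]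
        infrastructure: `Kummer47`, `Levels47`, `LevelInd47`, `SymEquiv47`, `FixedField47`, `FlatLev47`,
        `GlueA47`, `Count47`                                                                            [helper47]
-/
import Fermat.Agent.TW.B5.Count47
import Fermat.Agent.TW.B5.CaseAFinal63
import Fermat.Agent.TW.B5.CaseASetupFinal57
import Fermat.Agent.TW.B5.CaseBFinal37
import Fermat.Agent.TW.Ram8.LevelGen

set_option autoImplicit false

namespace Fermat.Agent.TW.B5.B5Main47

open Fermat.Agent.TW.B5

variable (p : ℕ) [Fact p.Prime]

/-- Case A of the count, unconditional. -/
theorem caseA : Count47.CaseAStatement p :=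
  CaseAFinal63.caseA_of_setup p (CaseASetup57.caseA_setup_uncond p)
    (Fermat.Agent.TW.Ram8.LevelGen.kummerLevelGen' p)

/-- Case B of the count, unconditional. -/
theorem caseB : Count47.CaseBStatement p :=
  CaseBFinal37.caseB p (Fermat.Agent.TW.Ram8.LevelGen.kummerLevelGen' p)

/-- **B5, the flat local bound (local two-cocycle form), unconditional.** -/
theorem localFlatInertialLine : Iface.LocalFlatInertialLine p :=
  Count47.count p (caseA p) (caseB p)

end Fermat.Agent.TW.B5.B5Main47
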