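/-
Programme TW (S56), brick B5-CT (the count), CASE A — unconditional (helper63).

`caseA_of_level : KummerLevelGen' p → Count47.CaseAStatement p` and `caseA : Count47.CaseAStatement p`
(= `CaseAFinal63.caseA_of_setup` + `CaseASetupFinal57.caseA_setup_uncond` + `Ram8.LevelGen.kummerLevelGen'`).
-/
import Mathlib
import Fermat.Agent.TW.B5.CaseAFinal63
import Fermat.Agent.TW.B5.CaseASetupFinal57
import Fermat.Agent.TW.Ram8.LevelGen

set_option autoImplicit false

namespace Fermat.Agent.TW.B5.CaseAMain63

open Fermat.Agent.TW.B5.IfaceCT Fermat.Agent.TW.B5.Count47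

variable (p : ℕ) [Fact p.Prime]

/-- Case A of the count from the Kummer level bound. -/
theorem caseA_of_level (hKL : KummerLevelGen' p) : CaseAStatement p :=
  CaseAFinal63.caseA_of_setup p (CaseASetup57.caseA_setup_uncond p) hKL

/-- **Case A of the count**, unconditional. -/
theorem caseA : CaseAStatement p :=
  caseA_of_level p (Fermat.Agent.TW.Ram8.LevelGen.kummerLevelGen' p)

end Fermat.Agent.TW.B5.CaseAMain63
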