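/-
Programme TW (S56), brick B5-CT (the count), case A set-up, the [STRUCTURE] block (helper63, for helper57's
`CaseASetup57`): `CaseA63.caseA_structure` instantiated at `G = G_p`, `IsI = IsInertial p`,
`IsW w = (w is wild on F)`, from the local Galois toolkit.
-/
import Mathlib
import Fermat.Agent.TW.B5.IfaceCT
import Fermat.Agent.TW.B5.LG83T
import Fermat.Agent.TW.B5.CaseA63

set_option autoImplicit false
set_option linter.unusedSectionVars false
set_option linter.style.haveILetI false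

namespace Fermat.Agent.TW.B5.CaseAStruct63

open Polynomial Fermat.Agent.TW.B5.Iface Fermat.Agent.TW.B5.IfaceLG Fermat.Agent.TW.B5.IfaceCT
  Fermat.Agent.TW.B5.LG83T Fermat.Agent.TW.B5.CaseA63

variable {p : ℕ} [hp : Fact p.Prime]

/-- `w` acts wildly on `F`. -/
def WildOnF (F : IntermediateField ℚ_[p] (Kbar p)) (w : Gp p) : Prop :=
  ∀ x ∈ F, x ≠ 0 → ‖w x - x‖ < ‖x‖

theorem inv_apply_self (g : Gp p) (x : Kbar p) : g (g⁻¹ x) = x := by
  rw [← AlgEquiv.mul_apply, mul_inv_cancel, AlgEquiv.one_apply]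

theorem inv_mem_of_normal {F : IntermediateField ℚ_[p] (Kbar p)} (hFn : IsNormalField p F) (g : Gp p)
    {x : Kbar p} (hx : x ∈ F) : g⁻¹ x ∈ F := hFn g⁻¹ x hx

theorem apply_ne_zero (g : Gp p) {x : Kbar p} (hx : x ≠ 0) : g x ≠ 0 := by
  simpa using hx

/-- Conjugation stability of inertia. -/
theorem isInertial_conj (g τ : Gp p) (hτ : IsInertial p τ) : IsInertial p (g * τ * g⁻¹) := by
  intro x hx
  have h1 : (g * τ * g⁻¹) x - x = g (τ (g⁻¹ x) - g⁻¹ x) := by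
    rw [map_sub, inv_apply_self]
    simp [AlgEquiv.mul_apply]
  rw [h1, norm_map]
  exact hτ _ (by rw [norm_map]; exact hx)

section Wild

variable {F : IntermediateField ℚ_[p] (Kbar p)} (hFn : IsNormalField p F)

theorem wildOnF_one : WildOnF F (1 : Gp p) := by
  intro x _ hx
  simpa using hx

include hFn in
theorem wildOnF_mul {w w' : Gp p} (hw : WildOnF F w) (hw' : WildOnF F w') : WildOnF F (w * w') := by
  intro x hxF hx
  have h1 : (w * w') x - x = (w (w' x) - w' x) + (w' x - x) := by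
    rw [AlgEquiv.mul_apply]; ring
  rw [h1]
  have h2 := hw (w' x) (hFn w' x hxF) (apply_ne_zero w' hx)
  rw [norm_map] at h2
  exact norm_add_lt p h2 (hw' x hxF hx)

include hFn in
theorem wildOnF_inv {w : Gp p} (hw : WildOnF F w) : WildOnF F w⁻¹ := by
  intro x hxF hx
  have h2 := hw (w⁻¹ x) (hFn w⁻¹ x hxF) (apply_ne_zero w⁻¹ hx)
  rw [inv_apply_self, norm_map] at h2
  rwa [norm_sub_rev]

include hFn in
theorem wildOnF_conj (g : Gp p) {w : Gp p} (hw : WildOnF F w) : WildOnF F (g * w * g⁻¹) := by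
  intro x hxF hx
  have h1 : (g * w * g⁻¹) x - x = g (w (g⁻¹ x) - g⁻¹ x) := by
    rw [map_sub, inv_apply_self]
    simp [AlgEquiv.mul_apply]
  rw [h1, norm_map]
  have h2 := hw (g⁻¹ x) (hFn g⁻¹ x hxF) (apply_ne_zero g⁻¹ hx)
  rwa [norm_map] at h2

end Wild

/-- **The [STRUCTURE] block of the case-A set-up.** -/
theorem structure_block (hLG : Toolkit p) (hWP : WildPPowerOn p)
    {k V : Type} [Field k] [Finite k] [CharP k p] [AddCommGroup V] [Module k V] [Module.Finite k V]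
    (hV : Module.finrank k V = 2) (r : Gp p →* Module.End k V)
    (F : IntermediateField ℚ_[p] (Kbar p)) (hFfin : FiniteDimensional ℚ_[p] F)
    (hFn : IsNormalField p F) (hker : ∀ τ : Gp p, τ ∈ F.fixingSubgroup ↔ r τ = 1)
    (φ : Gp p) (hfr : IsFrobLiftOn p F φ)
    (hsplit : ∀ τ : Gp p, ∃ α β : k, LinearMap.charpoly (r τ) = (X - C α) * (X - C β))
    (hirr : ¬ ∃ L : Submodule k V, Module.finrank k L = 1 ∧ ∀ g : Gp p, ∀ v ∈ L, r g v ∈ L) :
    ∃ (V1 V2 : Submodule k V) (ψ1 ψ2 : Gp p → k),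
      Module.finrank k V1 = 1 ∧ Module.finrank k V2 = 1 ∧ IsCompl V1 V2 ∧
      (∀ τ, IsInertial p τ → ∀ v ∈ V1, r τ v = ψ1 τ • v) ∧
      (∀ τ, IsInertial p τ → ∀ v ∈ V2, r τ v = ψ2 τ • v) ∧
      (∃ τ, IsInertial p τ ∧ ψ1 τ ≠ ψ2 τ) ∧
      (∀ v ∈ V1, r φ v ∈ V2) ∧ (∀ v ∈ V2, r φ v ∈ V1) ∧
      (∀ τ, IsInertial p τ → ψ2 τ = ψ1 τ ^ p) ∧ (∀ τ, IsInertial p τ → ψ1 τ = ψ2 τ ^ p) ∧
      (∀ w, WildOnF F w → r w = 1) := by
  have hfix : ∀ g : Gp p, (∀ x ∈ F, g x = x) → r g = 1 := fun g hg =>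
    (hker g).1 ((IntermediateField.mem_fixingSubgroup_iff F g).2 hg)
  refine caseA_structure r p hV (IsInertial p) isInertial_conj (WildOnF F) wildOnF_one
    (fun w w' => wildOnF_mul hFn) (fun w => wildOnF_inv hFn) (fun g w => wildOnF_conj hFn g)
    ?_ ?_ φ ?_ ?_ hsplit hirr
  · -- `r w` has `p`-power order
    intro w hw
    obtain ⟨n, hn⟩ := hWP F hFfin hFn w hw
    exact ⟨n, by rw [← map_pow]; exact hfix _ hn⟩
  · -- commutators
    intro σ τ hσ hτ x _ hx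
    exact hLG.commutatorWild σ τ hσ hτ x hx
  · -- Frobenius conjugation
    intro τ hτ y hyF hy
    have hx := hLG.frobConjWild F φ τ hFn hfr hτ ((τ ^ p)⁻¹ y) (hFn _ y hyF)
      (apply_ne_zero _ hy)
    rw [inv_apply_self, norm_map] at hx
    have h1 : (φ * τ * φ⁻¹ * (τ ^ p)⁻¹) y = (φ * τ * φ⁻¹) ((τ ^ p)⁻¹ y) := by
      simp [AlgEquiv.mul_apply]
    rw [h1]
    exact hx
  · -- generation
    intro g
    obtain ⟨n, τ, hτ, hg⟩ := hLG.generatedByFrob F hFfin hFn φ hfr g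
    refine ⟨n, τ, hτ, ?_⟩
    have h1 : r ((φ ^ n * τ)⁻¹ * g) = 1 := by
      apply hfix
      intro x hx
      rw [AlgEquiv.mul_apply, hg x hx, ← AlgEquiv.mul_apply (φ ^ n) τ x, ← AlgEquiv.mul_apply,
        inv_mul_cancel, AlgEquiv.one_apply]
    have h2 : g = (φ ^ n * τ) * ((φ ^ n * τ)⁻¹ * g) := by group
    rw [h2, map_mul, h1, mul_one]

end Fermat.Agent.TW.B5.CaseAStruct63
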