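/-
Programme TW (S56), brick B5 (flat local bound), piece CT-5g (helper37): CASE B OF THE COUNT, UNCONDITIONAL.
`caseB_uncond p : Count47.CaseBStatement p` = `CaseBFinal37.caseB` applied to `Ram8.LevelGen.kummerLevelGen'`.
-/
import Fermat.Agent.TW.B5.CaseBFinal37
import Fermat.Agent.TW.Ram8.LevelGen

set_option autoImplicit false

namespace Fermat.Agent.TW.B5.CaseBUncond37

/-- **Case B of the count** (`r` has a stable line), unconditionally. -/
theorem caseB_uncond (p : ℕ) [Fact p.Prime] : Count47.CaseBStatement p :=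
  CaseBFinal37.caseB p (Fermat.Agent.TW.Ram8.LevelGen.kummerLevelGen' p)

end Fermat.Agent.TW.B5.CaseBUncond37
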