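/-
Programme TW (S56), brick B5-K, third field of `Levels47.LevelData.KFacts` (helper57):
**at the top level `T = p e / (p - 1)` Kummer extensions are unramified**: for `a ∈ U^{(T)}`,
`α ^ p = a`, every inertial `τ` fixing `F ∋ ζ_p` fixes `α`.

Proof: `λ = ζ - 1`, `‖λ‖ ^ p = ‖π‖ ^ T`.  (1) `‖α - 1‖ ≤ ‖λ‖` (else all `‖α - μ‖ = ‖α - 1‖`, `μ ^ p = 1`, and
`‖a - 1‖ = ∏ ‖α - μ‖ > ‖λ‖ ^ p`).  (2) `z = (α - 1) / λ` is integral; `τ α = μ α`, `μ ^ p = 1`; if `μ ≠ 1`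
then `‖τ z - z‖ = ‖μ - 1‖ ‖α‖ / ‖λ‖ = 1`, contradicting inertiality.
-/
import Mathlib
import Fermat.Agent.TW.B5.LD65a

set_option autoImplicit false
set_option linter.unusedSectionVars false

namespace Fermat.Agent.TW.B5.KFacts57

open Fermat.Agent.TW.B5.Iface Fermat.Agent.TW.B5.IfaceLG Fermat.Agent.TW.B5.Kummer47
  Fermat.Agent.TW.B5.Levels47 Fermat.Agent.TW.B5.LD65a

variable {p : ℕ} [hp : Fact p.Prime]

/-- Every `p`-th root of unity is within `‖ζ - 1‖` of `1`. -/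
theorem norm_root_sub_one_le {ζ μ : Kbar p} (hζ : IsPrimRoot ζ) (hμ : μ ^ p = 1) :
    ‖μ - 1‖ ≤ ‖ζ - 1‖ := by
  by_cases h1 : μ = 1
  · rw [h1, sub_self, norm_zero]; exact norm_nonneg _
  · exact (norm_sub_one_eq hζ ⟨hμ, h1⟩).le

/-- If `α` is farther from `1` than `ζ`, then `‖α ^ p - 1‖ = ‖α - 1‖ ^ p`. -/
theorem norm_pow_sub_one_of_lt {ζ α : Kbar p} (hζ : IsPrimRoot ζ) (h : ‖ζ - 1‖ < ‖α - 1‖) :
    ‖α ^ p - 1‖ = ‖α - 1‖ ^ p := by
  have hprim := hζ.isPrimitiveRoot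
  have hprod := hprim.pow_sub_pow_eq_prod_sub_mul α 1 hp.out.pos
  rw [one_pow] at hprod
  rw [hprod, norm_prod]
  have h2 : ∀ μ ∈ Polynomial.nthRootsFinset p (1 : Kbar p), ‖α - μ * 1‖ = ‖α - 1‖ := by
    intro μ hμ
    have hμ1 : μ ^ p = 1 := (Polynomial.mem_nthRootsFinset hp.out.pos 1).1 hμ
    have hle := norm_root_sub_one_le hζ hμ1
    have hne : ‖α - 1‖ ≠ ‖-(μ - 1)‖ := by
      rw [norm_neg]
      exact (lt_of_le_of_lt hle h).ne'
    have h3 := IsUltrametricDist.norm_add_eq_max_of_norm_ne_norm hne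
    rw [norm_neg, max_eq_left (hle.trans h.le)] at h3
    rw [mul_one, ← h3]
    congr 1
    ring
  rw [Finset.prod_congr rfl h2, Finset.prod_const, hprim.card_nthRootsFinset]

variable {F : IntermediateField ℚ_[p] (Kbar p)} (D : LevelData F)

theorem e_pos : 0 < D.e := by
  rcases Nat.eq_zero_or_pos D.e with h0 | h
  · exfalso
    have h1 := D.he
    rw [h0, pow_zero] at h1
    have h2 : ‖(p : Kbar p)‖ < 1 := by
      have : (p : Kbar p) = algebraMap ℚ_[p] (Kbar p) (p : ℚ_[p]) := by simp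
      rw [this, PadicAlgCl.norm_extends]
      exact Padic.norm_p_lt_one
    rw [h1] at h2
    exact lt_irrefl _ h2
  · exact h

theorem T_pos : 0 < D.T := by
  rcases Nat.eq_zero_or_pos D.T with h0 | h
  · exfalso
    have h1 := D.hT
    rw [h0, zero_mul] at h1
    have := Nat.mul_pos hp.out.pos (e_pos D)
    omega
  · exact h

/-- `‖ζ - 1‖ ^ p = ‖π‖ ^ T`. -/
theorem norm_sub_one_pow_p {ζ : Kbar p} (hζ : IsPrimRoot ζ) : ‖ζ - 1‖ ^ p = ‖D.π‖ ^ D.T := by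
  have hp1 : p - 1 ≠ 0 := by have := hp.out.two_le; omega
  have h1 : (‖ζ - 1‖ ^ p) ^ (p - 1) = (‖D.π‖ ^ D.T) ^ (p - 1) := by
    rw [← pow_mul, mul_comm, pow_mul, norm_sub_one_pow hζ, D.he, ← pow_mul, ← pow_mul, D.hT,
      mul_comm]
  exact (pow_left_inj₀ (pow_nonneg (norm_nonneg _) _) (pow_nonneg (norm_nonneg _) _) hp1).1 h1

/-- **Third field of `KFacts`.** -/
theorem top_unram {ζ : Kbar p} (hζ : IsPrimRoot ζ) (hζF : ζ ∈ F) :
    ∀ a ∈ D.U D.T, ∀ α : Kbar p, α ^ p = a → ∀ τ : Gp p, IsInertial p τ →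
      τ ∈ F.fixingSubgroup → τ α = α := by
  intro a ha α hα τ hτ hτF
  have hT1 : 1 ≤ D.T := T_pos D
  have ha1 : ‖a‖ = 1 := D.norm_eq_one_of_mem_U hT1 ha
  have hα1 : ‖α‖ = 1 := by
    have h : ‖α‖ ^ p = 1 := by rw [← norm_pow, hα, ha1]
    exact (pow_eq_one_iff_of_nonneg (norm_nonneg _) hp.out.ne_zero).1 h
  have hα0 : α ≠ 0 := by
    intro h0
    rw [h0, norm_zero] at hα1
    exact zero_ne_one hα1
  have hlam : 0 < ‖ζ - 1‖ := norm_sub_one_pos hζ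
  have hlam0 : ζ - 1 ≠ 0 := norm_pos_iff.1 hlam
  -- Step 1
  have hstep1 : ‖α - 1‖ ≤ ‖ζ - 1‖ := by
    by_contra hcon
    push Not at hcon
    have h1 := norm_pow_sub_one_of_lt hζ hcon
    rw [hα] at h1
    have h2 : ‖ζ - 1‖ ^ p < ‖α - 1‖ ^ p :=
      pow_lt_pow_left₀ hcon (norm_nonneg _) hp.out.ne_zero
    rw [norm_sub_one_pow_p D hζ, ← h1] at h2
    exact absurd ha.2 (not_le.2 h2)
  -- Step 2
  set z : Kbar p := (α - 1) / (ζ - 1) with hz
  have hz1 : ‖z‖ ≤ 1 := by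
    rw [hz, norm_div]
    exact div_le_one_of_le₀ hstep1 (norm_nonneg _)
  have hτζ : τ ζ = ζ := fixes_of_mem hζF hτF
  have hτa : τ a = a := fixes_of_mem ha.1 hτF
  have hzz : τ z - z = (τ α - α) / (ζ - 1) := by
    rw [hz, map_div₀, map_sub, map_sub, map_one, hτζ]
    ring
  -- `μ = τ α / α` is a `p`-th root of unity
  set μ : Kbar p := τ α / α with hμ
  have hμp : μ ^ p = 1 := by
    rw [hμ, div_pow, ← map_pow, hα, hτa]
    exact div_self (by rw [← hα]; exact pow_ne_zero _ hα0)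
  have hτα : τ α = μ * α := by rw [hμ]; field_simp
  by_contra hne
  have hμ1 : μ ≠ 1 := by
    intro h1
    rw [h1, one_mul] at hτα
    exact hne hτα
  have hnorm : ‖τ z - z‖ = 1 := by
    rw [hzz, hτα]
    have : μ * α - α = (μ - 1) * α := by ring
    rw [this, norm_div, norm_mul, hα1, mul_one, norm_sub_one_eq hζ ⟨hμp, hμ1⟩]
    exact div_self hlam.ne'
  have := hτ z hz1
  rw [hnorm] at this
  exact lt_irrefl _ this

end Fermat.Agent.TW.B5.KFacts57
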