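/-
Programme TW (S56), brick B5-LD, item (LD6) (helper69): `existsUnramSub : IfaceCT.ExistsUnramSub p`.

Every finite `F/ℚ_p` inside `K̄` contains a finite unramified `K₀` with the same residue field:
`K₀ := ℚ_p(ζ)` for a Teichmüller generator `ζ ∈ F` (root of unity of order prime to `p` whose powers
represent all non-zero residue classes, `LG1/Teich.exists_teichmuller`).  `K₀/ℚ_p` is cyclotomic, hence
Galois, and generated by a root of unity of order prime to `p`, hence unramified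
(`PT/LOC/Unram11.redHom_injective_of_adjoin`, `isUnramified_of_redHom_injective`): `p` stays a uniformizer,
so the value group of `K₀` is `p^ℤ`.
-/
import Fermat.Agent.TW.B5.IfaceCT2
import Fermat.Agent.TW.B5.LD69c
import Fermat.Agent.TW.B5.LG1.Teich

set_option autoImplicit false
set_option linter.unusedSectionVars false

namespace Fermat.Agent.TW.B5.LD69e

open Fermat.Agent.TW.B5.Iface Fermat.Agent.TW.B5.IfaceLG
open scoped Fermat.Agent.PT.LOC.Interface12
open Fermat.Agent.PT.LOC.Interface12 Fermat.Agent.PT.LOC.Structure14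
  Fermat.Agent.PT.LOC.Unram11

variable (p : ℕ) [Fact p.Prime]

/-- `‖p‖ = p⁻¹` in `K̄`. -/
theorem norm_p_eq : ‖(p : Kbar p)‖ = (p : ℝ)⁻¹ := by
  have h : ((p : ℚ_[p]) : Kbar p) = (p : Kbar p) := map_natCast (algebraMap ℚ_[p] (Kbar p)) p
  rw [← h, PadicAlgCl.norm_extends, Padic.norm_p]

/-- **(LD6)** -/
theorem existsUnramSub : IfaceCT.ExistsUnramSub p := by
  intro F hfin
  have _ := hfin
  have hp : p.Prime := Fact.out
  obtain ⟨ζ, hζF, m, hm, hζm, hres⟩ := LG1.Teich.exists_teichmuller p F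
  have hm0 : m ≠ 0 := fun h => hm (h ▸ dvd_zero p)
  have hint : IsIntegral ℚ_[p] ζ := Algebra.IsIntegral.isIntegral ζ
  have hK₀F : IntermediateField.adjoin ℚ_[p] {ζ} ≤ F :=
    IntermediateField.adjoin_le_iff.mpr (Set.singleton_subset_iff.mpr hζF)
  have hfin₀ : FiniteDimensional ℚ_[p] (IntermediateField.adjoin ℚ_[p] {ζ}) :=
    IntermediateField.adjoin.finiteDimensional hint
  -- `K₀/ℚ_p` is cyclotomic, hence Galois
  have hd : IsPrimitiveRoot ζ (orderOf ζ) := IsPrimitiveRoot.orderOf ζ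
  have hdm : orderOf ζ ∣ m := orderOf_dvd_of_pow_eq_one hζm
  have hd0 : orderOf ζ ≠ 0 := ne_zero_of_dvd_ne_zero hm0 hdm
  have : NeZero (orderOf ζ) := ⟨hd0⟩
  have hcyc : IsCyclotomicExtension {orderOf ζ} ℚ_[p] (IntermediateField.adjoin ℚ_[p] {ζ}) :=
    hd.intermediateField_adjoin_isCyclotomicExtension ℚ_[p]
  have hgal : IsGalois ℚ_[p] (IntermediateField.adjoin ℚ_[p] {ζ}) :=
    IsCyclotomicExtension.isGalois {orderOf ζ} ℚ_[p] (IntermediateField.adjoin ℚ_[p] {ζ})
  -- unramified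
  have hgen : Algebra.adjoin ℚ_[p]
      ({IntermediateField.AdjoinSimple.gen ℚ_[p] ζ} : Set (IntermediateField.adjoin ℚ_[p] {ζ})) = ⊤ :=
    (IntermediateField.adjoin.powerBasis hint).adjoin_gen_eq_top
  have hinj := redHom_injective_of_adjoin p ℚ_[p] (IntermediateField.adjoin ℚ_[p] {ζ}) hm
    {IntermediateField.AdjoinSimple.gen ℚ_[p] ζ} (by
      intro z hz
      rw [Set.mem_singleton_iff] at hz
      subst hz
      apply Subtype.ext
      rw [SubmonoidClass.coe_pow, IntermediateField.AdjoinSimple.coe_gen, hζm]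
      rfl) hgen
  have hunr : IsUnramified p ℚ_[p] (IntermediateField.adjoin ℚ_[p] {ζ}) :=
    isUnramified_of_redHom_injective p ℚ_[p] (IntermediateField.adjoin ℚ_[p] {ζ}) hinj
  have hπ : IsUniformizer p (IntermediateField.adjoin ℚ_[p] {ζ})
      (algebraMap ℚ_[p] (IntermediateField.adjoin ℚ_[p] {ζ}) (p : ℚ_[p])) :=
    hunr _ (LD69c.isUniformizer_p p)
  refine ⟨IntermediateField.adjoin ℚ_[p] {ζ}, hK₀F, hfin₀, ?_, ?_⟩
  · intro x hx hx0
    have hx0' : (⟨x, hx⟩ : IntermediateField.adjoin ℚ_[p] {ζ}) ≠ 0 :=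
      fun h => hx0 (congrArg Subtype.val h)
    have hπ0 : algebraMap ℚ_[p] (IntermediateField.adjoin ℚ_[p] {ζ}) (p : ℚ_[p]) ≠ 0 := hπ.2.1
    have h := LD69c.norm_eq_zpow_ord p (IntermediateField.adjoin ℚ_[p] {ζ}) (Units.mk0 _ hπ0) hπ
      (Units.mk0 ⟨x, hx⟩ hx0')
    have hcoe : ((algebraMap ℚ_[p] (IntermediateField.adjoin ℚ_[p] {ζ}) (p : ℚ_[p]) :
        IntermediateField.adjoin ℚ_[p] {ζ}) : Kbar p) = (p : Kbar p) := by
      rw [map_natCast]
      rfl
    rw [Units.val_mk0, Units.val_mk0, hcoe, norm_p_eq] at h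
    refine ⟨-(ord p (IntermediateField.adjoin ℚ_[p] {ζ}) (Units.mk0 ⟨x, hx⟩ hx0')), ?_⟩
    rw [zpow_neg, ← inv_zpow]
    exact h
  · intro x hx hx1
    rcases hres x hx hx1 with h | ⟨i, hi⟩
    · exact ⟨0, zero_mem _, by simpa using h⟩
    · exact ⟨ζ ^ i, pow_mem (IntermediateField.mem_adjoin_simple_self ℚ_[p] ζ) i, hi⟩

end Fermat.Agent.TW.B5.LD69e
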