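/-
Programme TW (S56), brick B5-CT (the count), leaf CT-1 (helper47).  Mathlib only.

Frobenius-semilinear descent, easy direction (cardinality form):
if `W` is a finite-dimensional vector space over a field `κ` of characteristic `p` and `Φ : W → W` is additive
with `Φ (a • w) = a ^ p • Φ w`, then the fixed points of `Φ` number at most `p ^ dim_κ W`.
-/
import Mathlib

set_option autoImplicit false
set_option linter.unusedSectionVars false
set_option linter.style.haveILetI false

namespace Fermat.Agent.TW.B5.Semilinear47

open Module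

section Descent

variable {κ : Type*} [Field κ] (p : ℕ) [Fact p.Prime]

/-- The number of solutions of `a ^ p = a` in a field is at most `p`. -/
theorem card_pow_eq_self_le : Nat.card {a : κ | a ^ p = a} ≤ p := by
  classical
  have hp1 : 1 < p := (Fact.out : p.Prime).one_lt
  let P : Polynomial κ := Polynomial.X ^ p - Polynomial.X
  have hP : P ≠ 0 := FiniteField.X_pow_card_sub_X_ne_zero κ hp1
  have hdeg : P.natDegree = p := FiniteField.X_pow_card_sub_X_natDegree_eq κ hp1
  have hsub : {a : κ | a ^ p = a} ⊆ (P.roots.toFinset : Set κ) := by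
    intro a ha
    simp only [Finset.mem_coe, Multiset.mem_toFinset, Polynomial.mem_roots hP, Polynomial.IsRoot,
      P, Polynomial.eval_sub, Polynomial.eval_pow, Polynomial.eval_X]
    exact sub_eq_zero.2 ha
  calc Nat.card {a : κ | a ^ p = a} ≤ Nat.card (P.roots.toFinset : Set κ) :=
        Nat.card_mono (Finset.finite_toSet _) hsub
    _ = P.roots.toFinset.card := Nat.card_eq_card_toFinset _ |>.trans (by simp)
    _ ≤ Multiset.card P.roots := Multiset.toFinset_card_le _
    _ ≤ P.natDegree := Polynomial.card_roots' P
    _ = p := hdeg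

instance finite_pow_eq_self : Finite {a : κ | a ^ p = a} := by
  classical
  have hp1 : 1 < p := (Fact.out : p.Prime).one_lt
  let P : Polynomial κ := Polynomial.X ^ p - Polynomial.X
  have hP : P ≠ 0 := FiniteField.X_pow_card_sub_X_ne_zero κ hp1
  refine Set.Finite.subset (Finset.finite_toSet P.roots.toFinset) ?_
  intro a ha
  simp only [Finset.mem_coe, Multiset.mem_toFinset, Polynomial.mem_roots hP, Polynomial.IsRoot,
    P, Polynomial.eval_sub, Polynomial.eval_pow, Polynomial.eval_X]
  exact sub_eq_zero.2 ha

variable {W : Type*} [AddCommGroup W] [Module κ W] [FiniteDimensional κ W]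

/-- **Frobenius-semilinear descent (easy direction).** -/
theorem card_fixed_le (Φ : W →+ W) (hΦ : ∀ (a : κ) (w : W), Φ (a • w) = a ^ p • Φ w) :
    Nat.card {w : W | Φ w = w} ≤ p ^ finrank κ W := by
  classical
  set S : Set W := {w : W | Φ w = w} with hS
  obtain ⟨b, hbS, hspan, hli⟩ := exists_linearIndependent κ S
  have : Finite b := hli.finite
  haveI : Fintype b := Fintype.ofFinite b
  -- coordinates of a fixed vector in the basis `b` of `span S` satisfy `a ^ p = a`
  have hmem : ∀ w ∈ S, w ∈ Submodule.span κ (Set.range ((↑) : b → W)) := by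
    intro w hw
    rw [Subtype.range_coe, hspan]
    exact Submodule.subset_span hw
  have hfix : ∀ x : b, Φ (x : W) = x := fun x => hbS x.2
  -- the coordinate map
  let c : S → (b → {a : κ | a ^ p = a}) := fun w x =>
    ⟨hli.repr ⟨w.1, hmem w.1 w.2⟩ x, by
      have hw : Φ w.1 = w.1 := w.2
      set r := hli.repr ⟨w.1, hmem w.1 w.2⟩ with hr
      have hsum : w.1 = ∑ y : b, r y • (y : W) := by
        have := hli.linearCombination_repr ⟨w.1, hmem w.1 w.2⟩
        rw [Finsupp.linearCombination_apply, Finsupp.sum_fintype _ _ (by simp)] at this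
        exact this.symm
      have h2 : w.1 = ∑ y : b, (r y) ^ p • (y : W) := by
        conv_lhs => rw [← hw, hsum, map_sum]
        exact Finset.sum_congr rfl fun y _ => by rw [hΦ, hfix]
      have h3 : ∑ y : b, ((r y) ^ p - r y) • (y : W) = 0 := by
        simp only [sub_smul, Finset.sum_sub_distrib]
        rw [← h2, ← hsum, sub_self]
      have := (Fintype.linearIndependent_iff.1 hli) (fun y => (r y) ^ p - r y) h3 x
      exact sub_eq_zero.1 this⟩
  have hc : Function.Injective c := by
    intro w w' h
    apply Subtype.ext
    have h1 : hli.repr ⟨w.1, hmem w.1 w.2⟩ = hli.repr ⟨w'.1, hmem w'.1 w'.2⟩ := by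
      ext x
      exact congrArg Subtype.val (congrFun h x)
    have := congrArg Subtype.val (LinearMap.ker_eq_bot.1 hli.repr_ker h1)
    exact this
  have hcard : Fintype.card b ≤ finrank κ W := hli.fintype_card_le_finrank
  calc Nat.card S ≤ Nat.card (b → {a : κ | a ^ p = a}) := Nat.card_le_card_of_injective c hc
    _ = Nat.card {a : κ | a ^ p = a} ^ Fintype.card b := by
        rw [Nat.card_fun, Nat.card_eq_fintype_card (α := b)]
    _ ≤ p ^ Fintype.card b := Nat.pow_le_pow_left (card_pow_eq_self_le p) _
    _ ≤ p ^ finrank κ W := Nat.pow_le_pow_right (Fact.out : p.Prime).pos hcard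

end Descent

end Fermat.Agent.TW.B5.Semilinear47
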