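/-
Programme TW (S56), brick B5-LG, field **(LG-U5)** of `IfaceLG.Toolkit` (helper66):
`inertiaSurjective p : IfaceLG.InertiaSurjective p` — an element of `G_p` acting trivially on the
residue field of `E` agrees on `E` with an inertial element.  (No finiteness or normality of `E` is
needed.)

Proof: `LocalFrob66.exists_lift` (every automorphism of the residue field `κ` of `K̄` fixing the
residue field of `E` is induced by an element of `Gal(K̄/E)`), applied to the automorphism induced by
`g⁻¹`: we get `h` fixing `E` pointwise and inducing `g⁻¹` on `κ`; then `τ = g * h` is inertial and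
agrees with `g` on `E`.
-/
import Mathlib
import Fermat.Agent.TW.B5.IfaceLG
import Fermat.Agent.TW.LocalFrob66

set_option autoImplicit false

open Fermat.Agent.TW.B5.Iface Fermat.Agent.TW.LocalFrob66

namespace Fermat.Agent.TW.B5.U5_66

variable (p : ℕ) [Fact p.Prime]

/-- The unit ball of `K̄` is integral over `ℤ_p`. -/
theorem isIntegral_of_norm_le_one' {y : PadicAlgCl p} (h : ‖y‖ ≤ 1) : IsIntegral ℤ_[p] y := by
  have hint : IsIntegral ℚ_[p] y := ((PadicAlgCl.isAlgebraic p).isAlgebraic y).isIntegral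
  have hs : spectralNorm ℚ_[p] (PadicAlgCl p) y ≤ 1 := by
    rw [PadicAlgCl.spectralNorm_eq]; exact h
  rw [spectralNorm, spectralValue_le_one_iff (minpoly.monic hint)] at hs
  have hl : minpoly ℚ_[p] y ∈ Polynomial.lifts (algebraMap ℤ_[p] ℚ_[p]) := by
    rw [Polynomial.lifts_iff_coeff_lifts]
    intro n
    exact ⟨⟨_, hs n⟩, rfl⟩
  obtain ⟨P, hP, -, hmonic⟩ := Polynomial.lifts_and_degree_eq_and_monic hl (minpoly.monic hint)
  refine ⟨P, hmonic, ?_⟩
  have h0 : Polynomial.aeval y (minpoly ℚ_[p] y) = 0 := minpoly.aeval ℚ_[p] y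
  rw [← hP, Polynomial.aeval_map_algebraMap] at h0
  exact h0

/-- An element acting trivially on `κ = B ⧸ Qid` is inertial. -/
theorem isInertial_of_trivial (τ : Gp p)
    (hτ : ∀ b : B p, Ideal.Quotient.mk (Qid p) (τ • b) = Ideal.Quotient.mk (Qid p) b) :
    IsInertial p τ := by
  intro x hx
  have := (mk_eq_mk_iff (τ • (⟨x, isIntegral_of_norm_le_one' p hx⟩ : B p)) ⟨x, _⟩).1 (hτ _)
  exact this

/-- An inertial element acts trivially on `κ = B ⧸ Qid`. -/
theorem trivial_of_isInertial (τ : Gp p) (hτ : IsInertial p τ) (b : B p) :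
    Ideal.Quotient.mk (Qid p) (τ • b) = Ideal.Quotient.mk (Qid p) b := by
  rw [mk_eq_mk_iff]
  exact hτ _ (norm_le_one b)

/-- **(LG-U5), strong form**: for ANY intermediate field `E`, an element of `G_p` acting trivially on
the residue field of `E` agrees on `E` with an inertial element. -/
theorem exists_inertial_eq_on (E : IntermediateField ℚ_[p] (Kbar p)) (g : Gp p)
    (hg : ∀ x ∈ E, ‖x‖ ≤ 1 → ‖g x - x‖ < 1) :
    ∃ τ : Gp p, IsInertial p τ ∧ ∀ x ∈ E, τ x = g x := by
  -- the automorphism of `κ` induced by `g⁻¹` fixes the residue field of `E`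
  have hα : ∀ b : B p, (b : PadicAlgCl p) ∈ E →
      redAut g⁻¹ (Ideal.Quotient.mk (Qid p) b) = Ideal.Quotient.mk (Qid p) b := by
    intro b hb
    rw [redAut_mk, mk_eq_mk_iff, coe_smul]
    have h1 : ‖g⁻¹ (b : PadicAlgCl p) - (b : PadicAlgCl p)‖ =
        ‖g (g⁻¹ (b : PadicAlgCl p) - (b : PadicAlgCl p))‖ := (norm_apply g _).symm
    rw [h1, map_sub, ← AlgEquiv.mul_apply, mul_inv_cancel, AlgEquiv.one_apply, norm_sub_rev]
    exact hg _ hb (norm_le_one b)
  obtain ⟨h, hhE, hh⟩ := exists_lift E (redAut g⁻¹) hα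
  refine ⟨g * h, isInertial_of_trivial p _ fun b => ?_, fun x hx => ?_⟩
  · rw [mul_smul, ← redAut_mk g, hh, redAut_mk, redAut_mk, smul_inv_smul]
  · rw [AlgEquiv.mul_apply, hhE x hx]

/-- **(LG-U5)** in the shape of the interface. -/
theorem inertiaSurjective : IfaceLG.InertiaSurjective p :=
  fun E _ _ g hg => exists_inertial_eq_on p E g hg

end Fermat.Agent.TW.B5.U5_66
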